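import Mathlib

/-!
# S52 block F1 (helper27): short Weierstrass curves, chord and tangent lemmas in polynomial form

`kleinShort A B` is the curve `Y² = X³ + A X + B`.  The chord / tangent lemmas below turn the
polynomial identities (generated by exact computation) into statements about the group law.
-/

set_option autoImplicit false

namespace Fermat.Agent.S52

open WeierstrassCurve

/-- the short Weierstrass curve `Y² = X³ + A X + B`. -/
def kleinShort {R : Type*} [CommRing R] (A B : R) : WeierstrassCurve R := ⟨0, 0, 0, A, B⟩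

section short

variable {R : Type*} [CommRing R] (A B : R)

@[simp] theorem kleinShort_a₁ : (kleinShort A B).a₁ = 0 := rfl
@[simp] theorem kleinShort_a₂ : (kleinShort A B).a₂ = 0 := rfl
@[simp] theorem kleinShort_a₃ : (kleinShort A B).a₃ = 0 := rfl
@[simp] theorem kleinShort_a₄ : (kleinShort A B).a₄ = A := rfl
@[simp] theorem kleinShort_a₆ : (kleinShort A B).a₆ = B := rfl

theorem kleinShort_Δ : (kleinShort A B).Δ = -16 * (4 * A ^ 3 + 27 * B ^ 2) := by
  simp only [WeierstrassCurve.Δ, WeierstrassCurve.b₂, WeierstrassCurve.b₄, WeierstrassCurve.b₆,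
    WeierstrassCurve.b₈, kleinShort_a₁, kleinShort_a₂, kleinShort_a₃, kleinShort_a₄, kleinShort_a₆]
  ring

theorem kleinShort_c₄ : (kleinShort A B).c₄ = -48 * A := by
  simp only [WeierstrassCurve.c₄, WeierstrassCurve.b₂, WeierstrassCurve.b₄,
    kleinShort_a₁, kleinShort_a₂, kleinShort_a₃, kleinShort_a₄]
  ring

theorem kleinShort_c₆ : (kleinShort A B).c₆ = -864 * B := by
  simp only [WeierstrassCurve.c₆, WeierstrassCurve.b₂, WeierstrassCurve.b₄, WeierstrassCurve.b₆,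
    kleinShort_a₁, kleinShort_a₂, kleinShort_a₃, kleinShort_a₄, kleinShort_a₆]
  ring

theorem kleinShort_equation_iff (x y : R) :
    (kleinShort A B).toAffine.Equation x y ↔ y ^ 2 = x ^ 3 + A * x + B := by
  rw [Affine.equation_iff]
  simp only [kleinShort_a₁, kleinShort_a₂, kleinShort_a₃, kleinShort_a₄, kleinShort_a₆]
  constructor <;> intro h <;> linear_combination h

theorem kleinShort_map {S : Type*} [CommRing S] (f : R →+* S) :
    (kleinShort A B).map f = kleinShort (f A) (f B) := by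
  ext <;> simp [kleinShort, WeierstrassCurve.map]

end short

section field

variable {F : Type*} [Field F] (A B : F)

theorem kleinShort_nonsingular {x y : F} (hΔ : 4 * A ^ 3 + 27 * B ^ 2 ≠ 0) (h2 : (2 : F) ≠ 0)
    (h : y ^ 2 = x ^ 3 + A * x + B) : (kleinShort A B).toAffine.Nonsingular x y := by
  have hΔ' : (kleinShort A B).toAffine.Δ ≠ 0 := by
    change (kleinShort A B).Δ ≠ 0
    rw [kleinShort_Δ]
    refine mul_ne_zero ?_ hΔ
    have : (-16 : F) = -(2 ^ 4) := by norm_num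
    rw [this]
    exact neg_ne_zero.2 (pow_ne_zero _ h2)
  exact (Affine.equation_iff_nonsingular_of_Δ_ne_zero hΔ').1 ((kleinShort_equation_iff A B x y).2 h)

variable [DecidableEq F]

/-- chord lemma in polynomial form. -/
theorem klein_chord {x₁ y₁ x₂ y₂ x₃ y₃ : F}
    (h₁ : (kleinShort A B).toAffine.Nonsingular x₁ y₁)
    (h₂ : (kleinShort A B).toAffine.Nonsingular x₂ y₂) (hne : x₁ ≠ x₂)
    (hX : (x₁ + x₂ + x₃) * (x₁ - x₂) ^ 2 = (y₁ - y₂) ^ 2)
    (hY : (y₃ + y₁) * (x₁ - x₂) = -(y₁ - y₂) * (x₃ - x₁)) :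
    ∃ h₃ : (kleinShort A B).toAffine.Nonsingular x₃ y₃,
      Affine.Point.some _ _ h₁ + Affine.Point.some _ _ h₂ = Affine.Point.some _ _ h₃ := by
  have hd : x₁ - x₂ ≠ 0 := sub_ne_zero.2 hne
  have hx3 : (kleinShort A B).toAffine.addX x₁ x₂ ((kleinShort A B).toAffine.slope x₁ x₂ y₁ y₂)
      = x₃ := by
    rw [Affine.slope_of_X_ne hne]
    simp only [Affine.addX, kleinShort_a₁, kleinShort_a₂]
    field_simp
    linear_combination -hX
  have hy3 : (kleinShort A B).toAffine.addY x₁ x₂ y₁ ((kleinShort A B).toAffine.slope x₁ x₂ y₁ y₂)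
      = y₃ := by
    simp only [Affine.addY, Affine.negAddY, Affine.negY]
    rw [hx3, Affine.slope_of_X_ne hne]
    simp only [kleinShort_a₁, kleinShort_a₃]
    field_simp
    linear_combination -hY
  have key := Affine.Point.add_of_X_ne (W := (kleinShort A B).toAffine) (h₁ := h₁) (h₂ := h₂) hne
  have hns := Affine.nonsingular_add h₁ h₂ (fun hxy => hne hxy.left)
  rw [key]
  simp only [hx3, hy3] at hns ⊢
  exact ⟨hns, trivial⟩

/-- tangent lemma in polynomial form. -/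
theorem klein_tangent {x₁ y₁ x₃ y₃ : F} (h2 : (2 : F) ≠ 0)
    (h₁ : (kleinShort A B).toAffine.Nonsingular x₁ y₁) (hne : y₁ ≠ 0)
    (hX : (2 * x₁ + x₃) * (2 * y₁) ^ 2 = (3 * x₁ ^ 2 + A) ^ 2)
    (hY : (y₃ + y₁) * (2 * y₁) = -(3 * x₁ ^ 2 + A) * (x₃ - x₁)) :
    ∃ h₃ : (kleinShort A B).toAffine.Nonsingular x₃ y₃,
      Affine.Point.some _ _ h₁ + Affine.Point.some _ _ h₁ = Affine.Point.some _ _ h₃ := by
  have hy : y₁ ≠ (kleinShort A B).toAffine.negY x₁ y₁ := by
    simp only [Affine.negY, kleinShort_a₁, kleinShort_a₃]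
    intro h
    apply hne
    have : 2 * y₁ = 0 := by linear_combination h
    exact (mul_eq_zero.1 this).resolve_left h2
  have hd : y₁ - (kleinShort A B).toAffine.negY x₁ y₁ = 2 * y₁ := by
    simp only [Affine.negY, kleinShort_a₁, kleinShort_a₃]; ring
  have hd0 : (2 * y₁) ≠ 0 := mul_ne_zero h2 hne
  have hx3 : (kleinShort A B).toAffine.addX x₁ x₁ ((kleinShort A B).toAffine.slope x₁ x₁ y₁ y₁)
      = x₃ := by
    rw [Affine.slope_of_Y_ne rfl hy, hd]
    simp only [Affine.addX, kleinShort_a₁, kleinShort_a₂, kleinShort_a₄]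
    field_simp
    linear_combination -hX
  have hy3 : (kleinShort A B).toAffine.addY x₁ x₁ y₁ ((kleinShort A B).toAffine.slope x₁ x₁ y₁ y₁)
      = y₃ := by
    simp only [Affine.addY, Affine.negAddY]
    rw [hx3, Affine.slope_of_Y_ne rfl hy, hd]
    simp only [Affine.negY, kleinShort_a₁, kleinShort_a₂, kleinShort_a₃, kleinShort_a₄]
    field_simp
    linear_combination -hY
  have key := Affine.Point.add_self_of_Y_ne (W := (kleinShort A B).toAffine) (h₁ := h₁) hy
  have hns := Affine.nonsingular_add h₁ h₁ (fun hxy => hy hxy.right)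
  rw [key]
  simp only [hx3, hy3] at hns ⊢
  exact ⟨hns, trivial⟩

omit [DecidableEq F] in
/-- negation on a short curve. -/
theorem klein_neg_some {x y : F} (h : (kleinShort A B).toAffine.Nonsingular x y) :
    ∃ h' : (kleinShort A B).toAffine.Nonsingular x (-y),
      -Affine.Point.some _ _ h = Affine.Point.some _ _ h' := by
  have hn : (kleinShort A B).toAffine.negY x y = -y := by
    simp only [Affine.negY, kleinShort_a₁, kleinShort_a₃]; ring
  have h' := (Affine.nonsingular_neg (W' := (kleinShort A B).toAffine) x y).2 h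
  rw [Affine.Point.neg_some]
  simp only [hn] at h' ⊢
  exact ⟨h', trivial⟩

/-- `P` is the affine point `(x, y)`. -/
def kleinIsPt (W : WeierstrassCurve F) (P : W.toAffine.Point) (x y : F) : Prop :=
  ∃ h : W.toAffine.Nonsingular x y, P = Affine.Point.some x y h

omit [DecidableEq F] in
theorem kleinIsPt.ne_zero {W : WeierstrassCurve F} {P : W.toAffine.Point} {x y : F}
    (h : kleinIsPt W P x y) : P ≠ 0 := by
  obtain ⟨hn, rfl⟩ := h
  exact Affine.Point.some_ne_zero hn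

omit [DecidableEq F] in
theorem kleinIsPt.unique {W : WeierstrassCurve F} {P Q : W.toAffine.Point} {x y : F}
    (hP : kleinIsPt W P x y) (hQ : kleinIsPt W Q x y) : P = Q := by
  obtain ⟨_, rfl⟩ := hP
  obtain ⟨_, rfl⟩ := hQ
  rfl

omit [DecidableEq F] in
theorem kleinIsPt.congr {W : WeierstrassCurve F} {P Q : W.toAffine.Point} {x y : F}
    (hP : kleinIsPt W P x y) (h : P = Q) : kleinIsPt W Q x y := h ▸ hP

omit [DecidableEq F] in
theorem kleinIsPt.coord {W : WeierstrassCurve F} {P : W.toAffine.Point} {x y x' y' : F}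
    (hP : kleinIsPt W P x y) (hP' : kleinIsPt W P x' y') : x = x' ∧ y = y' := by
  obtain ⟨h1, rfl⟩ := hP
  obtain ⟨h2, h⟩ := hP'
  simpa using h

omit [DecidableEq F] in
theorem klein_isPt_of_eq {x y : F} (hΔ : 4 * A ^ 3 + 27 * B ^ 2 ≠ 0) (h2 : (2 : F) ≠ 0)
    (h : y ^ 2 = x ^ 3 + A * x + B) :
    kleinIsPt (kleinShort A B) (Affine.Point.some x y (kleinShort_nonsingular A B hΔ h2 h)) x y :=
  ⟨_, rfl⟩

omit [DecidableEq F] in
theorem kleinIsPt.eq {P : (kleinShort A B).toAffine.Point} {x y : F}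
    (hP : kleinIsPt (kleinShort A B) P x y) : y ^ 2 = x ^ 3 + A * x + B := by
  obtain ⟨h, -⟩ := hP
  exact (kleinShort_equation_iff A B x y).1 h.1

omit [DecidableEq F] in
theorem kleinIsPt.neg {P : (kleinShort A B).toAffine.Point} {x y : F}
    (hP : kleinIsPt (kleinShort A B) P x y) : kleinIsPt (kleinShort A B) (-P) x (-y) := by
  obtain ⟨h, rfl⟩ := hP
  obtain ⟨h', e⟩ := klein_neg_some A B h
  exact ⟨h', e⟩

theorem kleinIsPt.add_chord {P Q : (kleinShort A B).toAffine.Point} {x₁ y₁ x₂ y₂ x₃ y₃ : F}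
    (hP : kleinIsPt (kleinShort A B) P x₁ y₁) (hQ : kleinIsPt (kleinShort A B) Q x₂ y₂)
    (hne : x₁ ≠ x₂)
    (hX : (x₁ + x₂ + x₃) * (x₁ - x₂) ^ 2 = (y₁ - y₂) ^ 2)
    (hY : (y₃ + y₁) * (x₁ - x₂) = -(y₁ - y₂) * (x₃ - x₁)) :
    kleinIsPt (kleinShort A B) (P + Q) x₃ y₃ := by
  obtain ⟨h₁, rfl⟩ := hP
  obtain ⟨h₂, rfl⟩ := hQ
  exact klein_chord A B h₁ h₂ hne hX hY

theorem kleinIsPt.add_tangent {P : (kleinShort A B).toAffine.Point} {x₁ y₁ x₃ y₃ : F}
    (h2 : (2 : F) ≠ 0) (hP : kleinIsPt (kleinShort A B) P x₁ y₁) (hne : y₁ ≠ 0)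
    (hX : (2 * x₁ + x₃) * (2 * y₁) ^ 2 = (3 * x₁ ^ 2 + A) ^ 2)
    (hY : (y₃ + y₁) * (2 * y₁) = -(3 * x₁ ^ 2 + A) * (x₃ - x₁)) :
    kleinIsPt (kleinShort A B) (P + P) x₃ y₃ := by
  obtain ⟨h₁, rfl⟩ := hP
  exact klein_tangent A B h2 h₁ hne hX hY

omit [DecidableEq F] in
theorem klein_ne_of_diff {a b G f : F} {i j l m : ℕ} (h : (a - b) * G = 2 ^ i * 3 ^ j * 5 ^ l * f ^ m)
    (h2 : (2 : F) ≠ 0) (h3 : (3 : F) ≠ 0) (h5 : (5 : F) ≠ 0) (hf : f ≠ 0) : a ≠ b := by
  intro hab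
  rw [hab, sub_self, zero_mul] at h
  exact (mul_ne_zero (mul_ne_zero (mul_ne_zero (pow_ne_zero _ h2) (pow_ne_zero _ h3))
    (pow_ne_zero _ h5)) (pow_ne_zero _ hf)) h.symm

omit [DecidableEq F] in
theorem klein_ne_zero_of_diff {a G f : F} {i j l m : ℕ} (h : a * G = 2 ^ i * 3 ^ j * 5 ^ l * f ^ m)
    (h2 : (2 : F) ≠ 0) (h3 : (3 : F) ≠ 0) (h5 : (5 : F) ≠ 0) (hf : f ≠ 0) : a ≠ 0 := by
  intro hab
  rw [hab, zero_mul] at h
  exact (mul_ne_zero (mul_ne_zero (mul_ne_zero (pow_ne_zero _ h2) (pow_ne_zero _ h3))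
    (pow_ne_zero _ h5)) (pow_ne_zero _ hf)) h.symm

end field

end Fermat.Agent.S52
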