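import Mathlib
import Fermat.Agent.S52.KleinBase

/-!
# S52, block F4, piece K1 (helper14): Frobenius on points, in coordinates

For `W` over `ZMod ℓ` and a field `k ⊇ ZMod ℓ`, `φ := Affine.Point.map (frobeniusAlgHom (ZMod ℓ) k)`
sends the affine point `(x, y)` of `W(k)` to `(x ^ ℓ, y ^ ℓ)`.
Also: elements of `ZMod ℓ` are fixed by `x ↦ x ^ ℓ`; `2, 3, 5 ≠ 0` in `k` for `ℓ ≥ 7`; existence of a
primitive fifth root of unity in an algebraically closed field.
-/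

set_option autoImplicit false

namespace Fermat.Agent.S52

open WeierstrassCurve

/-- the Frobenius of `k / ZMod ℓ` is `x ↦ x ^ ℓ`. -/
theorem S52_frob_apply (ℓ : ℕ) [Fact ℓ.Prime] (k : Type*) [Field k] [Algebra (ZMod ℓ) k] (x : k) :
    FiniteField.frobeniusAlgHom (ZMod ℓ) k x = x ^ ℓ := by
  rw [FiniteField.coe_frobeniusAlgHom, ZMod.card]

/-- **K1**: Frobenius on points in coordinates. -/
theorem S52_frob_isPt (ℓ : ℕ) [Fact ℓ.Prime] (W : WeierstrassCurve (ZMod ℓ)) (k : Type*) [Field k]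
    [Algebra (ZMod ℓ) k] [DecidableEq k]
    (P : (W.baseChange k).toAffine.Point) (x y : k) (h : kleinIsPt (W.baseChange k) P x y) :
    kleinIsPt (W.baseChange k)
      (Affine.Point.map (W' := W.toAffine) (FiniteField.frobeniusAlgHom (ZMod ℓ) k) P)
      (x ^ ℓ) (y ^ ℓ) := by
  obtain ⟨hn, rfl⟩ := h
  rw [← S52_frob_apply ℓ k x, ← S52_frob_apply ℓ k y]
  exact ⟨_, Affine.Point.map_some (W' := W.toAffine) (FiniteField.frobeniusAlgHom (ZMod ℓ) k) hn⟩

/-- elements of the prime field are fixed by `x ↦ x ^ ℓ`. -/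
theorem S52_frob_algebraMap (ℓ : ℕ) [Fact ℓ.Prime] (k : Type*) [Field k] [Algebra (ZMod ℓ) k]
    (c : ZMod ℓ) : (algebraMap (ZMod ℓ) k c) ^ ℓ = algebraMap (ZMod ℓ) k c := by
  rw [← map_pow, ZMod.pow_card]

/-- `2, 3, 5 ≠ 0` in a field of characteristic `ℓ ≥ 7`. -/
theorem S52_char_ne (ℓ : ℕ) [Fact ℓ.Prime] (k : Type*) [Field k] [Algebra (ZMod ℓ) k]
    (hℓ : 7 ≤ ℓ) : (2 : k) ≠ 0 ∧ (3 : k) ≠ 0 ∧ (5 : k) ≠ 0 := by
  have hp : ℓ.Prime := Fact.out
  have hne : ∀ q : ℕ, q.Prime → q < 7 → ((q : ℕ) : k) ≠ 0 := by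
    intro q hq hq7 h0
    have h1 : algebraMap (ZMod ℓ) k ((q : ℕ) : ZMod ℓ) = 0 := by rw [map_natCast]; exact h0
    have h2 : ((q : ℕ) : ZMod ℓ) = 0 :=
      (map_eq_zero_iff _ (algebraMap (ZMod ℓ) k).injective).1 h1
    rw [ZMod.natCast_eq_zero_iff] at h2
    have := (Nat.prime_dvd_prime_iff_eq hp hq).1 h2
    omega
  refine ⟨?_, ?_, ?_⟩
  · simpa using hne 2 (by norm_num) (by norm_num)
  · simpa using hne 3 (by norm_num) (by norm_num)
  · simpa using hne 5 (by norm_num) (by norm_num)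

/-- a root of the fifth cyclotomic polynomial exists in an algebraically closed field. -/
theorem S52_exists_zeta (k : Type*) [Field k] [IsAlgClosed k] :
    ∃ ζ : k, ζ ^ 4 + ζ ^ 3 + ζ ^ 2 + ζ + 1 = 0 := by
  have hdeg : (Polynomial.X ^ 4 + Polynomial.X ^ 3 + Polynomial.X ^ 2 + Polynomial.X + 1 :
      Polynomial k).degree ≠ 0 := by
    have : (Polynomial.X ^ 4 + Polynomial.X ^ 3 + Polynomial.X ^ 2 + Polynomial.X + 1 :
        Polynomial k).degree = 4 := by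
      compute_degree!
    rw [this]
    norm_num
  obtain ⟨ζ, hζ⟩ := IsAlgClosed.exists_root _ hdeg
  refine ⟨ζ, ?_⟩
  simpa [Polynomial.IsRoot] using hζ

end Fermat.Agent.S52
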