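import Fermat.Agent.S52.Klein
import Fermat.Agent.Lib.DivPolyCount

/-!
# S52 block F1 (helper27), N2: the universal level structure is bijective onto the 5-torsion

* `klein_card_torsion_le` : a characteristic-free version of `dp_card_torsion_le`
  (hypothesis `(p : F) ≠ 0` instead of `CharZero F`);
* `klein_torsion_inj`, `klein_torsion_surj` : the homomorphism `A` of `klein_torsion` is injective
  and every point killed by `5` is a value of `A`.
-/

set_option autoImplicit false

namespace Fermat.Agent.S52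

open WeierstrassCurve Fermat.Agent.S51 Fermat.Agent.Lib

section count

variable {F : Type*} [Field F] (W : WeierstrassCurve.Affine F) [DecidableEq F]

omit [DecidableEq F] in
/-- degree of `preΨ_p` for odd `p` invertible in `F`. -/
theorem klein_preΨ_data {p : ℕ} (hp : Odd p) (hp0 : (p : F) ≠ 0) :
    (W.preΨ (p : ℤ)).natDegree = (p ^ 2 - 1) / 2 ∧ W.preΨ (p : ℤ) ≠ 0 := by
  have hp0' : ((p : ℤ) : F) ≠ 0 := by exact_mod_cast hp0
  have hodd : ¬ Even (p : ℤ) := by
    rw [Int.not_even_iff_odd]
    exact_mod_cast hp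
  refine ⟨?_, W.preΨ_ne_zero hp0'⟩
  rw [W.natDegree_preΨ hp0', if_neg hodd, Int.natAbs_natCast]

/-- at most `p²` points of `p`-torsion, `p` an odd prime invertible in `F`. -/
theorem klein_card_torsion_le {p : ℕ} (hp : p.Prime) (hp2 : p ≠ 2) (hp0 : (p : F) ≠ 0) :
    {Q : W.Point | p • Q = 0}.Finite ∧ {Q : W.Point | p • Q = 0}.ncard ≤ p ^ 2 := by
  classical
  have hodd : Odd p := hp.odd_of_ne_two hp2
  have hne : W.preΨ (p : ℤ) ≠ 0 := (klein_preΨ_data W hodd hp0).2
  have hRcard : (W.preΨ (p : ℤ)).roots.toFinset.card ≤ (p ^ 2 - 1) / 2 := by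
    calc (W.preΨ (p : ℤ)).roots.toFinset.card
        ≤ Multiset.card (W.preΨ (p : ℤ)).roots := Multiset.toFinset_card_le _
      _ ≤ (W.preΨ (p : ℤ)).natDegree := Polynomial.card_roots' _
      _ = (p ^ 2 - 1) / 2 := (klein_preΨ_data W hodd hp0).1
  let T : F → Finset W.Point := fun x =>
    if h : ∃ Q : W.Point, S51_c_IsX Q x then {h.choose, -h.choose} else ∅
  have hT : ∀ x, (T x).card ≤ 2 := by
    intro x
    simp only [T]
    split_ifs with h
    · exact Finset.card_le_two
    · simp
  have hsub : {Q : W.Point | p • Q = 0} ⊆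
      ↑(insert (0 : W.Point) ((W.preΨ (p : ℤ)).roots.toFinset.biUnion T)) := by
    intro Q hQ
    change p • Q = 0 at hQ
    simp only [Finset.coe_insert, Finset.coe_biUnion, Set.mem_insert_iff, Set.mem_iUnion,
      Finset.mem_coe]
    by_cases hQ0 : Q = 0
    · exact Or.inl hQ0
    · right
      obtain ⟨x, y, h, rfl⟩ := S51_c_exists_isX_of_ne_zero hQ0
      have hx : (W.preΨ (p : ℤ)).eval x = 0 := dp_preΨ_eval_eq_zero W h hodd hQ
      refine ⟨x, ?_, ?_⟩
      · rw [Multiset.mem_toFinset, Polynomial.mem_roots hne]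
        exact hx
      · have hex : ∃ Q : W.Point, S51_c_IsX Q x := ⟨_, y, h, rfl⟩
        simp only [T, dif_pos hex]
        have := S51_c_IsX.eq_or_eq_neg (P := Affine.Point.some x y h) ⟨y, h, rfl⟩
          hex.choose_spec
        simpa using this
  have hfin : {Q : W.Point | p • Q = 0}.Finite := (Finset.finite_toSet _).subset hsub
  refine ⟨hfin, ?_⟩
  calc {Q : W.Point | p • Q = 0}.ncard
      ≤ (↑(insert (0 : W.Point) ((W.preΨ (p : ℤ)).roots.toFinset.biUnion T)) :
          Set W.Point).ncard := Set.ncard_le_ncard hsub (Finset.finite_toSet _)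
    _ = (insert (0 : W.Point) ((W.preΨ (p : ℤ)).roots.toFinset.biUnion T)).card :=
        Set.ncard_coe_finset _
    _ ≤ ((W.preΨ (p : ℤ)).roots.toFinset.biUnion T).card + 1 := Finset.card_insert_le _ _
    _ ≤ (W.preΨ (p : ℤ)).roots.toFinset.card * 2 + 1 := by
        gcongr
        exact Finset.card_biUnion_le_card_mul _ _ _ (fun x _ => hT x)
    _ ≤ (p ^ 2 - 1) / 2 * 2 + 1 := by gcongr
    _ ≤ p ^ 2 := by
        have h1 : 1 ≤ p ^ 2 := Nat.one_le_pow _ _ hp.pos
        have := Nat.div_mul_le_self (p ^ 2 - 1) 2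
        omega

/-- an injective homomorphism from `(ZMod 5)²` into the points of `W` is onto the `5`-torsion. -/
theorem klein_surj_of_inj (h5 : (5 : F) ≠ 0) (A : ZMod 5 × ZMod 5 →+ W.Point)
    (hA : Function.Injective A) (P : W.Point) (hP : 5 • P = 0) : ∃ r, A r = P := by
  classical
  obtain ⟨hfin, hcard⟩ := klein_card_torsion_le W (p := 5) (by norm_num) (by norm_num)
    (by exact_mod_cast h5)
  have hsub : Set.range A ⊆ {Q : W.Point | 5 • Q = 0} := by
    rintro _ ⟨r, rfl⟩
    change 5 • A r = 0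
    rw [← map_nsmul]
    have h25 : ∀ r : ZMod 5 × ZMod 5, 5 • r = 0 := by decide
    have : 5 • r = 0 := h25 r
    rw [this, map_zero]
  have hrange : (Set.range A).ncard = 25 := by
    rw [← Set.image_univ, Set.ncard_image_of_injective _ hA, Set.ncard_univ]
    simp [Nat.card_eq_fintype_card]
  have heq : Set.range A = {Q : W.Point | 5 • Q = 0} := by
    apply Set.eq_of_subset_of_ncard_le hsub _ hfin
    rw [hrange]
    norm_num at hcard
    exact hcard
  have : P ∈ Set.range A := by rw [heq]; exact hP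
  exact this

end count

section field

variable {k : Type*} [Field k] [DecidableEq k]

/-- **F1 + N2**: the universal level-5 structure, with injectivity and surjectivity onto `E[5]`. -/
theorem klein_torsion_bij (ζ h u v : k) (hζ : ζ ^ 4 + ζ ^ 3 + ζ ^ 2 + ζ + 1 = 0) (h5 : 5 * h = 1)
    (h2 : (2 : k) ≠ 0) (h3 : (3 : k) ≠ 0) (hf : kleinF u v ≠ 0) :
    ∃ A : ZMod 5 × ZMod 5 →+ (kleinShort (27 * kleinH u v) (54 * kleinT u v)).toAffine.Point,
      (∀ r : ZMod 5 × ZMod 5, r ≠ 0 →
        kleinIsPt (kleinShort (27 * kleinH u v) (54 * kleinT u v)) (A r)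
          (kleinSX r ζ h u v) (kleinSY r ζ h u v)) ∧
      Function.Injective A ∧
      ∀ P : (kleinShort (27 * kleinH u v) (54 * kleinT u v)).toAffine.Point,
        5 • P = 0 → ∃ r, A r = P := by
  obtain ⟨A, hA⟩ := klein_torsion ζ h u v hζ h5 h2 h3 hf
  have h5' : (5 : k) ≠ 0 := by
    intro h0
    rw [h0, zero_mul] at h5
    exact zero_ne_one h5
  have hinj : Function.Injective A := by
    rw [injective_iff_map_eq_zero]
    intro r hr
    by_contra hne
    exact (hA r hne).ne_zero hr
  exact ⟨A, hA, hinj, klein_surj_of_inj _ h5' A hinj⟩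

end field

end Fermat.Agent.S52
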