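import Fermat.Agent.S52.KleinSec

/-!
# S52 block F3 (helper11): every `(c₄, c₆)` with `c₄³ ≠ c₆²` over an algebraically closed field of
characteristic `∤ 30` is `(-H, -T)(u, v)` for some `(u, v)`.

`S52_klein_exists : ∃ u v, kleinH u v = -c4 ∧ kleinT u v = -c6` (then `kleinF u v ≠ 0` by
`S52_kleinF_ne_zero_of`).
-/

set_option autoImplicit false

namespace Fermat.Agent.S52

open Polynomial

section exist

variable {k : Type*} [Field k]

/-- `H(s, 1)` as a polynomial in `z = s ^ 5`. -/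
def S52_kHz (z : k) : k := -z ^ 4 + 228 * z ^ 3 - 494 * z ^ 2 - 228 * z - 1

/-- `T(s, 1)` as a polynomial in `z = s ^ 5`. -/
def S52_kTz (z : k) : k := z ^ 6 + 522 * z ^ 5 - 10005 * z ^ 4 - 10005 * z ^ 2 - 522 * z + 1

theorem S52_kleinH_one (s : k) : kleinH s 1 = S52_kHz (s ^ 5) := by
  unfold kleinH S52_kHz
  ring

theorem S52_kleinT_one (s : k) : kleinT s 1 = S52_kTz (s ^ 5) := by
  unfold kleinT S52_kTz
  ring

theorem S52_kleinH_smul (l u v : k) : kleinH (l * u) (l * v) = l ^ 20 * kleinH u v := by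
  unfold kleinH
  ring

theorem S52_kleinT_smul (l u v : k) : kleinT (l * u) (l * v) = l ^ 30 * kleinT u v := by
  unfold kleinT
  ring

theorem S52_kleinF_smul (l u v : k) : kleinF (l * u) (l * v) = l ^ 12 * kleinF u v := by
  unfold kleinF
  ring

/-- Bezout identity: `H(s,1)` and `T(s,1)` have no common zero away from `2, 3, 5`. -/
theorem S52_kHz_kTz_bezout (z : k) :
    ((950431323) + (20237705983) * z + (-103588896) * z ^ 2 + (20237108822) * z ^ 3 + (-1055557719) * z ^ 4 + (-2022161) * z ^ 5) * S52_kHz z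
      + ((-455818677) + (-1001301767) * z + (461063031) * z ^ 2 + (-2022161) * z ^ 3) * S52_kTz z
      = -(2 ^ 4 * 3 ^ 2 * 5 ^ 10) := by
  unfold S52_kHz S52_kTz
  ring

theorem S52_kHz_kTz_ne (h2 : (2 : k) ≠ 0) (h3 : (3 : k) ≠ 0) (h5 : (5 : k) ≠ 0) (z : k) :
    ¬ (S52_kHz z = 0 ∧ S52_kTz z = 0) := by
  rintro ⟨hH, hT⟩
  have h := S52_kHz_kTz_bezout z
  rw [hH, hT, mul_zero, mul_zero, add_zero] at h
  have h' : (2 : k) ^ 4 * 3 ^ 2 * 5 ^ 10 = 0 := by
    rw [eq_comm, neg_eq_zero] at h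
    exact h
  exact mul_ne_zero (mul_ne_zero (pow_ne_zero _ h2) (pow_ne_zero _ h3)) (pow_ne_zero _ h5) h'

/-- The polynomial `t² H(z)³ - h³ T(z)²` of degree 12 in `z`. -/
noncomputable def S52_kPsi (h t : k) : k[X] :=
  C ((-1) * t ^ 2 - (1) * h ^ 3) * X ^ 12
    + C ((684) * t ^ 2 - (1044) * h ^ 3) * X ^ 11
    + C ((-157434) * t ^ 2 - (252474) * h ^ 3) * X ^ 10
    + C ((12527460) * t ^ 2 - (-10445220) * h ^ 3) * X ^ 9
    + C ((-77460495) * t ^ 2 - (100080015) * h ^ 3) * X ^ 8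
    + C ((130689144) * t ^ 2 - (-10446264) * h ^ 3) * X ^ 7
    + C ((33211924) * t ^ 2 - (199655084) * h ^ 3) * X ^ 6
    + C ((-130689144) * t ^ 2 - (10446264) * h ^ 3) * X ^ 5
    + C ((-77460495) * t ^ 2 - (100080015) * h ^ 3) * X ^ 4
    + C ((-12527460) * t ^ 2 - (10445220) * h ^ 3) * X ^ 3
    + C ((-157434) * t ^ 2 - (252474) * h ^ 3) * X ^ 2
    + C ((-684) * t ^ 2 - (-1044) * h ^ 3) * X
    + C ((-1) * t ^ 2 - (1) * h ^ 3)

theorem S52_kPsi_eval (h t z : k) :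
    (S52_kPsi h t).eval z = t ^ 2 * S52_kHz z ^ 3 - h ^ 3 * S52_kTz z ^ 2 := by
  unfold S52_kPsi S52_kHz S52_kTz
  simp only [eval_add, eval_mul, eval_C, eval_pow, eval_X]
  ring

theorem S52_kPsi_natDegree (h t : k) (hne : t ^ 2 + h ^ 3 ≠ 0) : (S52_kPsi h t).natDegree = 12 := by
  unfold S52_kPsi
  compute_degree!
  intro h0
  apply hne
  linear_combination -h0

theorem S52_kPsi_root [IsAlgClosed k] (h t : k) (hne : t ^ 2 + h ^ 3 ≠ 0) :
    ∃ z : k, t ^ 2 * S52_kHz z ^ 3 = h ^ 3 * S52_kTz z ^ 2 := by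
  have hdeg : (S52_kPsi h t).degree ≠ 0 := by
    intro h0
    have := natDegree_eq_of_degree_eq_some h0
    rw [S52_kPsi_natDegree h t hne] at this
    norm_num at this
  obtain ⟨z, hz⟩ := IsAlgClosed.exists_root (S52_kPsi h t) hdeg
  refine ⟨z, ?_⟩
  rw [IsRoot, S52_kPsi_eval] at hz
  exact sub_eq_zero.mp hz

/-- **F3** (target values `h = H`, `t = T`). -/
theorem S52_klein_exists' [IsAlgClosed k] (h2 : (2 : k) ≠ 0) (h3 : (3 : k) ≠ 0) (h5 : (5 : k) ≠ 0)
    (h t : k) (hne : t ^ 2 + h ^ 3 ≠ 0) : ∃ u v : k, kleinH u v = h ∧ kleinT u v = t := by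
  obtain ⟨z, hz⟩ := S52_kPsi_root h t hne
  obtain ⟨s, hs⟩ := IsAlgClosed.exists_pow_nat_eq z (n := 5) (by norm_num)
  have hHs : kleinH s 1 = S52_kHz z := by rw [S52_kleinH_one, hs]
  have hTs : kleinT s 1 = S52_kTz z := by rw [S52_kleinT_one, hs]
  have hno := S52_kHz_kTz_ne h2 h3 h5 z
  -- it suffices to find `l` with `l ^ 20 * H' = h` and `l ^ 30 * T' = t`
  suffices hl : ∃ l : k, l ^ 20 * S52_kHz z = h ∧ l ^ 30 * S52_kTz z = t by
    obtain ⟨l, hl1, hl2⟩ := hl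
    refine ⟨l * s, l * 1, ?_, ?_⟩
    · rw [S52_kleinH_smul, hHs, hl1]
    · rw [S52_kleinT_smul, hTs, hl2]
  by_cases hh : h = 0
  · -- `h = 0`, so `t ≠ 0`, `H' = 0`, `T' ≠ 0`
    have ht : t ≠ 0 := by
      intro ht
      apply hne
      rw [hh, ht]
      ring
    have hH0 : S52_kHz z = 0 := by
      have : t ^ 2 * S52_kHz z ^ 3 = 0 := by rw [hz, hh]; ring
      rcases mul_eq_zero.mp this with h1 | h1
      · exact absurd (pow_eq_zero_iff (n := 2) (by norm_num) |>.mp h1) ht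
      · exact pow_eq_zero_iff (n := 3) (by norm_num) |>.mp h1
    have hT0 : S52_kTz z ≠ 0 := fun hT0 => hno ⟨hH0, hT0⟩
    obtain ⟨l, hl⟩ := IsAlgClosed.exists_pow_nat_eq (t / S52_kTz z) (n := 30) (by norm_num)
    refine ⟨l, ?_, ?_⟩
    · rw [hH0, mul_zero, hh]
    · rw [hl]
      field_simp
  by_cases ht : t = 0
  · have hT0 : S52_kTz z = 0 := by
      have : h ^ 3 * S52_kTz z ^ 2 = 0 := by rw [← hz, ht]; ring
      rcases mul_eq_zero.mp this with h1 | h1
      · exact absurd (pow_eq_zero_iff (n := 3) (by norm_num) |>.mp h1) hh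
      · exact pow_eq_zero_iff (n := 2) (by norm_num) |>.mp h1
    have hH0 : S52_kHz z ≠ 0 := fun hH0 => hno ⟨hH0, hT0⟩
    obtain ⟨l, hl⟩ := IsAlgClosed.exists_pow_nat_eq (h / S52_kHz z) (n := 20) (by norm_num)
    refine ⟨l, ?_, ?_⟩
    · rw [hl]
      field_simp
    · rw [hT0, mul_zero, ht]
  · -- generic case
    have hH0 : S52_kHz z ≠ 0 := by
      intro hH0
      apply hno
      refine ⟨hH0, ?_⟩
      have : h ^ 3 * S52_kTz z ^ 2 = 0 := by rw [← hz, hH0]; ring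
      rcases mul_eq_zero.mp this with h1 | h1
      · exact absurd (pow_eq_zero_iff (n := 3) (by norm_num) |>.mp h1) hh
      · exact pow_eq_zero_iff (n := 2) (by norm_num) |>.mp h1
    have hT0 : S52_kTz z ≠ 0 := by
      intro hT0
      apply hno
      refine ⟨?_, hT0⟩
      have : t ^ 2 * S52_kHz z ^ 3 = 0 := by rw [hz, hT0]; ring
      rcases mul_eq_zero.mp this with h1 | h1
      · exact absurd (pow_eq_zero_iff (n := 2) (by norm_num) |>.mp h1) ht
      · exact pow_eq_zero_iff (n := 3) (by norm_num) |>.mp h1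
    obtain ⟨l, hl⟩ := IsAlgClosed.exists_pow_nat_eq (t / S52_kTz z * (S52_kHz z / h)) (n := 10)
      (by norm_num)
    have e2 : (t / S52_kTz z * (S52_kHz z / h)) ^ 2 = h / S52_kHz z := by
      field_simp
      linear_combination hz
    have e3 : (t / S52_kTz z * (S52_kHz z / h)) ^ 3 = t / S52_kTz z := by
      have : (t / S52_kTz z * (S52_kHz z / h)) ^ 3
          = (t / S52_kTz z * (S52_kHz z / h)) * (t / S52_kTz z * (S52_kHz z / h)) ^ 2 := by ring
      rw [this, e2]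
      field_simp
    refine ⟨l, ?_, ?_⟩
    · have : l ^ 20 = (l ^ 10) ^ 2 := by ring
      rw [this, hl, e2]
      field_simp
    · have : l ^ 30 = (l ^ 10) ^ 3 := by ring
      rw [this, hl, e3]
      field_simp

/-- **F3**: over an algebraically closed field in which `2, 3, 5` are invertible every `(c₄, c₆)` with
`c₄³ ≠ c₆²` is `(-H, -T)` of a point of the `(u, v)`-plane. -/
theorem S52_klein_exists [IsAlgClosed k] (h2 : (2 : k) ≠ 0) (h3 : (3 : k) ≠ 0) (h5 : (5 : k) ≠ 0)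
    (c4 c6 : k) (hΔ : c4 ^ 3 - c6 ^ 2 ≠ 0) :
    ∃ u v : k, kleinH u v = -c4 ∧ kleinT u v = -c6 := by
  apply S52_klein_exists' h2 h3 h5
  intro h0
  apply hΔ
  linear_combination -h0

/-- `f(u, v) ≠ 0` as soon as `(-H, -T)(u, v) = (c₄, c₆)` with `c₄³ ≠ c₆²`. -/
theorem S52_kleinF_ne_zero_of {u v c4 c6 : k} (hH : kleinH u v = -c4) (hT : kleinT u v = -c6)
    (hΔ : c4 ^ 3 - c6 ^ 2 ≠ 0) : kleinF u v ≠ 0 := by
  intro hf
  apply hΔ
  have h := klein_rel u v
  rw [hH, hT, hf] at h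
  linear_combination -h

end exist

end Fermat.Agent.S52
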