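import Mathlib
import Fermat.Agent.S52.FamilyStep6

/-! # S52: the discriminant identity of the family, step 7 (helper15; generated, low memory) -/

set_option autoImplicit false

namespace Fermat.Agent.S52

variable {R : Type*} [CommRing R]

set_option maxHeartbeats 4000000 in
theorem S52_dl_rel (c4 c6 σ τ : R) :
    S52_A3 c4 c6 σ τ - S52_B2 c4 c6 σ τ = (c4 ^ 3 - c6 ^ 2) * S52_D5 c4 c6 σ τ := by
  simp only [S52_A3, S52_A3c_0, S52_A3c_1, S52_A3c_2, S52_A3c_3, S52_A3c_4, S52_A3c_5, S52_A3c_6,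
    S52_A3c_7, S52_A3c_8, S52_A3c_9, S52_A3c_10, S52_A3c_11, S52_A3c_12, S52_A3c_13, S52_A3c_14,
    S52_A3c_15, S52_A3c_16, S52_A3c_17, S52_A3c_18, S52_A3c_19, S52_A3c_20, S52_A3c_21,
    S52_A3c_22, S52_A3c_23, S52_A3c_24, S52_A3c_25, S52_A3c_26, S52_A3c_27, S52_A3c_28,
    S52_A3c_29, S52_A3c_30, S52_A3c_31, S52_A3c_32, S52_A3c_33, S52_A3c_34, S52_A3c_35,
    S52_A3c_36, S52_A3c_37, S52_A3c_38, S52_A3c_39, S52_A3c_40, S52_A3c_41, S52_A3c_42,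
    S52_A3c_43, S52_A3c_44, S52_A3c_45, S52_A3c_46, S52_A3c_47, S52_A3c_48, S52_A3c_49,
    S52_A3c_50, S52_A3c_51, S52_A3c_52, S52_A3c_53, S52_A3c_54, S52_A3c_55, S52_A3c_56,
    S52_A3c_57, S52_A3c_58, S52_A3c_59, S52_A3c_60, S52_B2, S52_B2c_0, S52_B2c_1, S52_B2c_2,
    S52_B2c_3, S52_B2c_4, S52_B2c_5, S52_B2c_6, S52_B2c_7, S52_B2c_8, S52_B2c_9, S52_B2c_10,
    S52_B2c_11, S52_B2c_12, S52_B2c_13, S52_B2c_14, S52_B2c_15, S52_B2c_16, S52_B2c_17,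
    S52_B2c_18, S52_B2c_19, S52_B2c_20, S52_B2c_21, S52_B2c_22, S52_B2c_23, S52_B2c_24,
    S52_B2c_25, S52_B2c_26, S52_B2c_27, S52_B2c_28, S52_B2c_29, S52_B2c_30, S52_B2c_31,
    S52_B2c_32, S52_B2c_33, S52_B2c_34, S52_B2c_35, S52_B2c_36, S52_B2c_37, S52_B2c_38,
    S52_B2c_39, S52_B2c_40, S52_B2c_41, S52_B2c_42, S52_B2c_43, S52_B2c_44, S52_B2c_45,
    S52_B2c_46, S52_B2c_47, S52_B2c_48, S52_B2c_49, S52_B2c_50, S52_B2c_51, S52_B2c_52,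
    S52_B2c_53, S52_B2c_54, S52_B2c_55, S52_B2c_56, S52_B2c_57, S52_B2c_58, S52_B2c_59,
    S52_B2c_60, S52_D5, S52_D5c_0, S52_D5c_1, S52_D5c_2, S52_D5c_3, S52_D5c_4, S52_D5c_5,
    S52_D5c_6, S52_D5c_7, S52_D5c_8, S52_D5c_9, S52_D5c_10, S52_D5c_11, S52_D5c_12, S52_D5c_13,
    S52_D5c_14, S52_D5c_15, S52_D5c_16, S52_D5c_17, S52_D5c_18, S52_D5c_19, S52_D5c_20,
    S52_D5c_21, S52_D5c_22, S52_D5c_23, S52_D5c_24, S52_D5c_25, S52_D5c_26, S52_D5c_27,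
    S52_D5c_28, S52_D5c_29, S52_D5c_30, S52_D5c_31, S52_D5c_32, S52_D5c_33, S52_D5c_34,
    S52_D5c_35, S52_D5c_36, S52_D5c_37, S52_D5c_38, S52_D5c_39, S52_D5c_40, S52_D5c_41,
    S52_D5c_42, S52_D5c_43, S52_D5c_44, S52_D5c_45, S52_D5c_46, S52_D5c_47, S52_D5c_48,
    S52_D5c_49, S52_D5c_50, S52_D5c_51, S52_D5c_52, S52_D5c_53, S52_D5c_54, S52_D5c_55,
    S52_D5c_56, S52_D5c_57, S52_D5c_58, S52_D5c_59, S52_D5c_60]
  ring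

end Fermat.Agent.S52
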