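import Mathlib
import Fermat.Agent.S52.FamilyStep7

/-!
# S52: the discriminant identity of the family (helper15)

`S52_delta_h` : `c₄(σ,τ)³ − c₆(σ,τ)² = (c₄³ − c₆²) · D(σ,τ)⁵`, assembled from the steps
`FamilyStep1` … `FamilyStep7` (explicit tables for `D²`, `D⁴`, `D⁵`, `c₄(σ,τ)²`, `c₄(σ,τ)³`,
`c₆(σ,τ)²`; one small `ring` call per file; the files are chained by imports so that they are
never elaborated in parallel).
-/

set_option autoImplicit false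

namespace Fermat.Agent.S52

variable {R : Type*} [CommRing R]

/-- `c₄(σ,τ)³ − c₆(σ,τ)² = (c₄³ − c₆²) · D(σ,τ)⁵`. -/
theorem S52_delta_h (c4 c6 σ τ : R) :
    S52_c4h c4 c6 σ τ ^ 3 - S52_c6h c4 c6 σ τ ^ 2 = (c4 ^ 3 - c6 ^ 2) * S52_Dh c4 c6 σ τ ^ 5 := by
  have h3 : S52_c4h c4 c6 σ τ ^ 3 = S52_c4h c4 c6 σ τ ^ 2 * S52_c4h c4 c6 σ τ := by ring
  have h5 : S52_Dh c4 c6 σ τ ^ 5 = (S52_Dh c4 c6 σ τ ^ 2) ^ 2 * S52_Dh c4 c6 σ τ := by ring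
  rw [h3, h5, S52_dl_A2, S52_dl_A3, S52_dl_B2, S52_dl_D2, S52_dl_D4, S52_dl_D5, S52_dl_rel]

end Fermat.Agent.S52
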