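import Mathlib
import Fermat.Agent.S52.FamilyDelta

/-!
# S52: the mod-5 family (Rubin–Silverberg in Klein's icosahedral coordinates) — shared lemmas

The polynomials `S52_c4h`, `S52_c6h`, `S52_Dh` are defined in `FamilyDefs.lean`, the discriminant
identity `S52_delta_h` is proved in `FamilyDelta.lean` (small steps, low memory).  This file
contains the generic identities between them that hold in every commutative ring.
-/

set_option autoImplicit false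

namespace Fermat.Agent.S52

variable {R : Type*} [CommRing R]

/-! ### generic facts on binary forms `∑ a k σ^(n-k) τ^k` -/

/-- splitting off the `τ = 0` term. -/
theorem S52_form_split (a : ℕ → R) (n : ℕ) (σ τ : R) :
    ∑ k ∈ Finset.range (n + 1), a k * σ ^ (n - k) * τ ^ k =
      a 0 * σ ^ n + τ * ∑ k ∈ Finset.range n, a (k + 1) * σ ^ (n - (k + 1)) * τ ^ k := by
  rw [Finset.sum_range_succ', Finset.mul_sum]
  simp only [pow_zero, mul_one, Nat.sub_zero]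
  rw [add_comm]
  congr 1
  apply Finset.sum_congr rfl
  intro k _
  ring

/-- homogeneity of a binary form. -/
theorem S52_form_smul (a : ℕ → R) (n : ℕ) (l σ τ : R) :
    ∑ k ∈ Finset.range (n + 1), a k * (l * σ) ^ (n - k) * (l * τ) ^ k =
      l ^ n * ∑ k ∈ Finset.range (n + 1), a k * σ ^ (n - k) * τ ^ k := by
  rw [Finset.mul_sum]
  apply Finset.sum_congr rfl
  intro k hk
  have hk' : k ≤ n := Nat.lt_succ_iff.mp (Finset.mem_range.mp hk)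
  have : l ^ n = l ^ (n - k) * l ^ k := by rw [← pow_add, Nat.sub_add_cancel hk']
  rw [this, mul_pow, mul_pow]
  ring

/-! ### the base point `τ = 0` -/

theorem S52_c4h_split (c4 c6 σ τ : R) :
    ∃ g : R, S52_c4h c4 c6 σ τ = c4 * σ ^ 20 + τ * g :=
  ⟨_, by rw [S52_c4h, S52_form_split]; rfl⟩

theorem S52_c6h_split (c4 c6 σ τ : R) :
    ∃ g : R, S52_c6h c4 c6 σ τ = c6 * σ ^ 30 + τ * g :=
  ⟨_, by rw [S52_c6h, S52_form_split]; rfl⟩

theorem S52_Dh_split (c4 c6 σ τ : R) :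
    ∃ g : R, S52_Dh c4 c6 σ τ = σ ^ 12 + τ * g := by
  refine ⟨∑ k ∈ Finset.range 12, S52_Dc c4 c6 (k + 1) * σ ^ (12 - (k + 1)) * τ ^ k, ?_⟩
  have h0 : S52_Dc c4 c6 0 = 1 := rfl
  rw [S52_Dh, S52_form_split, h0, one_mul]

@[simp] theorem S52_c4h_zero (c4 c6 σ : R) : S52_c4h c4 c6 σ 0 = c4 * σ ^ 20 := by
  obtain ⟨g, hg⟩ := S52_c4h_split c4 c6 σ 0
  rw [hg, zero_mul, add_zero]

@[simp] theorem S52_c6h_zero (c4 c6 σ : R) : S52_c6h c4 c6 σ 0 = c6 * σ ^ 30 := by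
  obtain ⟨g, hg⟩ := S52_c6h_split c4 c6 σ 0
  rw [hg, zero_mul, add_zero]

@[simp] theorem S52_Dh_zero (c4 c6 σ : R) : S52_Dh c4 c6 σ 0 = σ ^ 12 := by
  obtain ⟨g, hg⟩ := S52_Dh_split c4 c6 σ 0
  rw [hg, zero_mul, add_zero]

/-- congruence to the base curve: `σ ≡ 1`, `τ ≡ 0 (mod m)` gives `c₄(σ,τ) ≡ c₄ (mod m)`. -/
theorem S52_c4h_dvd_sub (c4 c6 σ τ m : R) (hσ : m ∣ σ - 1) (hτ : m ∣ τ) :
    m ∣ S52_c4h c4 c6 σ τ - c4 := by
  obtain ⟨g, hg⟩ := S52_c4h_split c4 c6 σ τ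
  have h1 : σ - 1 ∣ σ ^ 20 - 1 := by simpa using sub_dvd_pow_sub_pow σ 1 20
  have : S52_c4h c4 c6 σ τ - c4 = c4 * (σ ^ 20 - 1) + τ * g := by rw [hg]; ring
  rw [this]
  exact dvd_add (Dvd.dvd.mul_left (hσ.trans h1) _) (Dvd.dvd.mul_right hτ _)

theorem S52_c6h_dvd_sub (c4 c6 σ τ m : R) (hσ : m ∣ σ - 1) (hτ : m ∣ τ) :
    m ∣ S52_c6h c4 c6 σ τ - c6 := by
  obtain ⟨g, hg⟩ := S52_c6h_split c4 c6 σ τ
  have h1 : σ - 1 ∣ σ ^ 30 - 1 := by simpa using sub_dvd_pow_sub_pow σ 1 30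
  have : S52_c6h c4 c6 σ τ - c6 = c6 * (σ ^ 30 - 1) + τ * g := by rw [hg]; ring
  rw [this]
  exact dvd_add (Dvd.dvd.mul_left (hσ.trans h1) _) (Dvd.dvd.mul_right hτ _)

theorem S52_Dh_dvd_sub (c4 c6 σ τ m : R) (hσ : m ∣ σ - 1) (hτ : m ∣ τ) :
    m ∣ S52_Dh c4 c6 σ τ - 1 := by
  obtain ⟨g, hg⟩ := S52_Dh_split c4 c6 σ τ
  have h1 : σ - 1 ∣ σ ^ 12 - 1 := by simpa using sub_dvd_pow_sub_pow σ 1 12
  have : S52_Dh c4 c6 σ τ - 1 = (σ ^ 12 - 1) + τ * g := by rw [hg]; ring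
  rw [this]
  exact dvd_add (hσ.trans h1) (Dvd.dvd.mul_right hτ _)

/-! ### homogeneity in `(σ, τ)` -/

theorem S52_c4h_smul (c4 c6 l σ τ : R) :
    S52_c4h c4 c6 (l * σ) (l * τ) = l ^ 20 * S52_c4h c4 c6 σ τ := by
  rw [S52_c4h, S52_c4h, S52_form_smul]

theorem S52_c6h_smul (c4 c6 l σ τ : R) :
    S52_c6h c4 c6 (l * σ) (l * τ) = l ^ 30 * S52_c6h c4 c6 σ τ := by
  rw [S52_c6h, S52_c6h, S52_form_smul]

theorem S52_Dh_smul (c4 c6 l σ τ : R) :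
    S52_Dh c4 c6 (l * σ) (l * τ) = l ^ 12 * S52_Dh c4 c6 σ τ := by
  rw [S52_Dh, S52_Dh, S52_form_smul]

theorem S52_c4c_of_le (c4 c6 : R) {k : ℕ} (hk : 21 ≤ k) : S52_c4c c4 c6 k = 0 := by
  unfold S52_c4c
  split <;> first | omega | rfl

theorem S52_c6c_of_le (c4 c6 : R) {k : ℕ} (hk : 31 ≤ k) : S52_c6c c4 c6 k = 0 := by
  unfold S52_c6c
  split <;> first | omega | rfl

theorem S52_Dc_of_le (c4 c6 : R) {k : ℕ} (hk : 13 ≤ k) : S52_Dc c4 c6 k = 0 := by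
  unfold S52_Dc
  split <;> first | omega | rfl

/-! ### compatibility with ring homomorphisms -/

section map

variable {S : Type*} [CommRing S] (φ : R →+* S)

theorem S52_c4c_map (c4 c6 : R) (k : ℕ) : φ (S52_c4c c4 c6 k) = S52_c4c (φ c4) (φ c6) k := by
  by_cases hk : k < 21
  · interval_cases k <;> simp [S52_c4c, map_ofNat]
  · rw [S52_c4c_of_le c4 c6 (not_lt.mp hk), S52_c4c_of_le _ _ (not_lt.mp hk), map_zero]

theorem S52_c6c_map (c4 c6 : R) (k : ℕ) : φ (S52_c6c c4 c6 k) = S52_c6c (φ c4) (φ c6) k := by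
  by_cases hk : k < 31
  · interval_cases k <;> simp [S52_c6c, map_ofNat]
  · rw [S52_c6c_of_le c4 c6 (not_lt.mp hk), S52_c6c_of_le _ _ (not_lt.mp hk), map_zero]

theorem S52_Dc_map (c4 c6 : R) (k : ℕ) : φ (S52_Dc c4 c6 k) = S52_Dc (φ c4) (φ c6) k := by
  by_cases hk : k < 13
  · interval_cases k <;> simp [S52_Dc, map_ofNat]
  · rw [S52_Dc_of_le c4 c6 (not_lt.mp hk), S52_Dc_of_le _ _ (not_lt.mp hk), map_zero]

theorem S52_c4h_map (c4 c6 σ τ : R) :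
    φ (S52_c4h c4 c6 σ τ) = S52_c4h (φ c4) (φ c6) (φ σ) (φ τ) := by
  simp only [S52_c4h, map_sum, map_mul, map_pow, S52_c4c_map]

theorem S52_c6h_map (c4 c6 σ τ : R) :
    φ (S52_c6h c4 c6 σ τ) = S52_c6h (φ c4) (φ c6) (φ σ) (φ τ) := by
  simp only [S52_c6h, map_sum, map_mul, map_pow, S52_c6c_map]

theorem S52_Dh_map (c4 c6 σ τ : R) :
    φ (S52_Dh c4 c6 σ τ) = S52_Dh (φ c4) (φ c6) (φ σ) (φ τ) := by
  simp only [S52_Dh, map_sum, map_mul, map_pow, S52_Dc_map]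

end map

end Fermat.Agent.S52
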