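import Fermat.Agent.S52.KleinFamilyDefs
import Fermat.Agent.S52.Family

/-!
# S52 block F2 (helper27): the family identity in Klein's coordinates, `f`-part

For `w(z) = (∂f/∂v, −∂f/∂u)(z)` and `Z = σ z + τ w(z)`:
`f(Z) = f(z) · S52_Dh (−H z) (−T z) σ τ`, as a polynomial identity in `u, v, σ, τ`.
-/

set_option autoImplicit false

namespace Fermat.Agent.S52

variable {R : Type*} [CommRing R]

set_option maxHeartbeats 8000000 in
theorem klein_family_D (u v σ τ : R) :
    kleinF (σ * u + τ * kleinWu u v) (σ * v + τ * kleinWv u v)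
      = kleinF u v * S52_Dh (-kleinH u v) (-kleinT u v) σ τ := by
  simp only [S52_Dh, Finset.sum_range_succ, Finset.sum_range_zero, S52_Dc, kleinF, kleinH, kleinT,
    kleinWu, kleinWv]
  ring

end Fermat.Agent.S52
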