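import Fermat.Agent.S52.KleinMap
import Fermat.Agent.S52.KleinFamilyD

/-!
# S52 block F2 (helper27): the family identity in Klein's coordinates, `c₄`-part

For `w(z) = (∂f/∂v, −∂f/∂u)(z)` and `Z = σ z + τ w(z)`:
`−H(Z) = S52_c4h (−H z) (−T z) σ τ`, as a polynomial identity in `u, v, σ, τ`.

Proof (no big `ring` computation): `H` is the Hessian of `f` (up to `121`), and the Hessian is a
covariant: the Hessian of `(σ, τ) ↦ f(σ z + τ w) = f(z) · Dh(σ, τ)` is
`det(z, w)² · (Hess f)(Z) = (12 f)² · 121 · H(Z)` on one side and `f² · Hess(Dh) = −17424 f² · c₄h`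
on the other (`klein_hessian_Dh`, a small `ring` identity).  Carried out with the partial
derivatives `∂/∂σ, ∂/∂τ` of the universal domain `ℤ[u, v, σ, τ]`, then specialised.
-/

set_option autoImplicit false

namespace Fermat.Agent.S52

section deriv

variable {K A : Type*} [CommRing K] [CommRing A] [Algebra K A] (d : Derivation K A A)

omit [Algebra K A] in
/-- `∂f/∂u`. -/
def kleinFu (u v : A) : A := 11 * u ^ 10 * v + 66 * u ^ 5 * v ^ 6 - v ^ 11
/-- `∂f/∂v`. -/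
def kleinFv (u v : A) : A := u ^ 11 + 66 * u ^ 6 * v ^ 5 - 11 * u * v ^ 10
/-- `∂²f/∂u²`. -/
def kleinFuu (u v : A) : A := 110 * u ^ 9 * v + 330 * u ^ 4 * v ^ 6
/-- `∂²f/∂u∂v`. -/
def kleinFuv (u v : A) : A := 11 * u ^ 10 + 396 * u ^ 5 * v ^ 5 - 11 * v ^ 10
/-- `∂²f/∂v²`. -/
def kleinFvv (u v : A) : A := 330 * u ^ 6 * v ^ 4 - 110 * u * v ^ 9

theorem klein_hessian (u v : A) :
    kleinFuu u v * kleinFvv u v - kleinFuv u v ^ 2 = 121 * kleinH u v := by
  unfold kleinFuu kleinFvv kleinFuv kleinH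
  ring

theorem kleinWu_eq_Fv (u v : A) : kleinWu u v = kleinFv u v := by
  unfold kleinWu kleinFv; ring

theorem kleinWv_eq_neg_Fu (u v : A) : kleinWv u v = -kleinFu u v := by
  unfold kleinWv kleinFu; ring

theorem klein_d_ofNat (n : ℕ) [n.AtLeastTwo] : d (no_index (OfNat.ofNat n) : A) = 0 := by
  rw [← Nat.cast_ofNat (R := A), Derivation.map_natCast]

theorem klein_d_F (x y : A) :
    d (kleinF x y) = kleinFu x y * d x + kleinFv x y * d y := by
  simp only [kleinF, kleinFu, kleinFv, Derivation.leibniz, Derivation.leibniz_pow, map_add,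
    map_sub, klein_d_ofNat, smul_eq_mul, nsmul_eq_mul, smul_zero, mul_zero, add_zero, zero_add]
  push_cast
  ring

theorem klein_d_Fu (x y : A) :
    d (kleinFu x y) = kleinFuu x y * d x + kleinFuv x y * d y := by
  simp only [kleinFu, kleinFuu, kleinFuv, Derivation.leibniz, Derivation.leibniz_pow, map_add,
    map_sub, klein_d_ofNat, smul_eq_mul, nsmul_eq_mul, smul_zero, mul_zero, add_zero, zero_add]
  push_cast
  ring

theorem klein_d_Fv (x y : A) :
    d (kleinFv x y) = kleinFuv x y * d x + kleinFvv x y * d y := by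
  simp only [kleinFv, kleinFvv, kleinFuv, Derivation.leibniz, Derivation.leibniz_pow, map_add,
    map_sub, klein_d_ofNat, smul_eq_mul, nsmul_eq_mul, smul_zero, mul_zero, add_zero, zero_add]
  push_cast
  ring

/-- a partial derivative of `S52_Dh` with respect to `(σ, τ)`. -/
def kleinDhS (c4 c6 s t : A) : A :=
  (12) * s ^ 11
      + (-660 * c4) * s ^ 9 * t ^ 2
      + (3960 * c6) * s ^ 8 * t ^ 3
      + (-11880 * c4 ^ 2) * s ^ 7 * t ^ 4
      + (22176 * c4 * c6) * s ^ 6 * t ^ 5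
      + (-63360 * c6 ^ 2 + 35640 * c4 ^ 3) * s ^ 5 * t ^ 6
      + (23760 * c4 ^ 2 * c6) * s ^ 4 * t ^ 7
      + (253440 * c4 * c6 ^ 2 - 267300 * c4 ^ 4) * s ^ 3 * t ^ 8
      + (-422400 * c6 ^ 3 + 427680 * c4 ^ 3 * c6) * s ^ 2 * t ^ 9
      + (266112 * c4 ^ 2 * c6 ^ 2 - 267300 * c4 ^ 5) * s * t ^ 10
      + (-61440 * c4 * c6 ^ 3 + 61560 * c4 ^ 4 * c6) * t ^ 11

/-- a partial derivative of `S52_Dh` with respect to `(σ, τ)`. -/
def kleinDhT (c4 c6 s t : A) : A :=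
  (-132 * c4) * s ^ 10 * t
      + (1320 * c6) * s ^ 9 * t ^ 2
      + (-5940 * c4 ^ 2) * s ^ 8 * t ^ 3
      + (15840 * c4 * c6) * s ^ 7 * t ^ 4
      + (-63360 * c6 ^ 2 + 35640 * c4 ^ 3) * s ^ 6 * t ^ 5
      + (33264 * c4 ^ 2 * c6) * s ^ 5 * t ^ 6
      + (506880 * c4 * c6 ^ 2 - 534600 * c4 ^ 4) * s ^ 4 * t ^ 7
      + (-1267200 * c6 ^ 3 + 1283040 * c4 ^ 3 * c6) * s ^ 3 * t ^ 8
      + (1330560 * c4 ^ 2 * c6 ^ 2 - 1336500 * c4 ^ 5) * s ^ 2 * t ^ 9
      + (-675840 * c4 * c6 ^ 3 + 677160 * c4 ^ 4 * c6) * s * t ^ 10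
      + (1228800 * c6 ^ 4 - 2322432 * c4 ^ 3 * c6 ^ 2 + 1093500 * c4 ^ 6) * t ^ 11

/-- a partial derivative of `S52_Dh` with respect to `(σ, τ)`. -/
def kleinDhSS (c4 c6 s t : A) : A :=
  (132) * s ^ 10
      + (-5940 * c4) * s ^ 8 * t ^ 2
      + (31680 * c6) * s ^ 7 * t ^ 3
      + (-83160 * c4 ^ 2) * s ^ 6 * t ^ 4
      + (133056 * c4 * c6) * s ^ 5 * t ^ 5
      + (-316800 * c6 ^ 2 + 178200 * c4 ^ 3) * s ^ 4 * t ^ 6
      + (95040 * c4 ^ 2 * c6) * s ^ 3 * t ^ 7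
      + (760320 * c4 * c6 ^ 2 - 801900 * c4 ^ 4) * s ^ 2 * t ^ 8
      + (-844800 * c6 ^ 3 + 855360 * c4 ^ 3 * c6) * s * t ^ 9
      + (266112 * c4 ^ 2 * c6 ^ 2 - 267300 * c4 ^ 5) * t ^ 10

/-- a partial derivative of `S52_Dh` with respect to `(σ, τ)`. -/
def kleinDhST (c4 c6 s t : A) : A :=
  (-1320 * c4) * s ^ 9 * t
      + (11880 * c6) * s ^ 8 * t ^ 2
      + (-47520 * c4 ^ 2) * s ^ 7 * t ^ 3
      + (110880 * c4 * c6) * s ^ 6 * t ^ 4
      + (-380160 * c6 ^ 2 + 213840 * c4 ^ 3) * s ^ 5 * t ^ 5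
      + (166320 * c4 ^ 2 * c6) * s ^ 4 * t ^ 6
      + (2027520 * c4 * c6 ^ 2 - 2138400 * c4 ^ 4) * s ^ 3 * t ^ 7
      + (-3801600 * c6 ^ 3 + 3849120 * c4 ^ 3 * c6) * s ^ 2 * t ^ 8
      + (2661120 * c4 ^ 2 * c6 ^ 2 - 2673000 * c4 ^ 5) * s * t ^ 9
      + (-675840 * c4 * c6 ^ 3 + 677160 * c4 ^ 4 * c6) * t ^ 10

/-- a partial derivative of `S52_Dh` with respect to `(σ, τ)`. -/
def kleinDhTT (c4 c6 s t : A) : A :=
  (-132 * c4) * s ^ 10
      + (2640 * c6) * s ^ 9 * t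
      + (-17820 * c4 ^ 2) * s ^ 8 * t ^ 2
      + (63360 * c4 * c6) * s ^ 7 * t ^ 3
      + (-316800 * c6 ^ 2 + 178200 * c4 ^ 3) * s ^ 6 * t ^ 4
      + (199584 * c4 ^ 2 * c6) * s ^ 5 * t ^ 5
      + (3548160 * c4 * c6 ^ 2 - 3742200 * c4 ^ 4) * s ^ 4 * t ^ 6
      + (-10137600 * c6 ^ 3 + 10264320 * c4 ^ 3 * c6) * s ^ 3 * t ^ 7
      + (11975040 * c4 ^ 2 * c6 ^ 2 - 12028500 * c4 ^ 5) * s ^ 2 * t ^ 8
      + (-6758400 * c4 * c6 ^ 3 + 6771600 * c4 ^ 4 * c6) * s * t ^ 9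
      + (13516800 * c6 ^ 4 - 25546752 * c4 ^ 3 * c6 ^ 2 + 12028500 * c4 ^ 6) * t ^ 10


theorem klein_d_H_zero {x y : A} (hx : d x = 0) (hy : d y = 0) : d (kleinH x y) = 0 := by
  simp only [kleinH, Derivation.leibniz, Derivation.leibniz_pow, map_add, map_sub, map_neg,
    klein_d_ofNat, hx, hy, smul_zero, add_zero, sub_zero, neg_zero]

theorem klein_d_T_zero {x y : A} (hx : d x = 0) (hy : d y = 0) : d (kleinT x y) = 0 := by
  simp only [kleinT, Derivation.leibniz, Derivation.leibniz_pow, map_add, map_sub, map_neg,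
    klein_d_ofNat, hx, hy, smul_zero, add_zero, sub_zero, neg_zero]

theorem klein_d_F_zero {x y : A} (hx : d x = 0) (hy : d y = 0) : d (kleinF x y) = 0 := by
  rw [klein_d_F, hx, hy, mul_zero, mul_zero, add_zero]

theorem klein_d_Fu_zero {x y : A} (hx : d x = 0) (hy : d y = 0) : d (kleinFu x y) = 0 := by
  rw [klein_d_Fu, hx, hy, mul_zero, mul_zero, add_zero]

theorem klein_d_Fv_zero {x y : A} (hx : d x = 0) (hy : d y = 0) : d (kleinFv x y) = 0 := by
  rw [klein_d_Fv, hx, hy, mul_zero, mul_zero, add_zero]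

theorem klein_d_Dh {c4 c6 : A} (h4 : d c4 = 0) (h6 : d c6 = 0) (s t : A) :
    d (S52_Dh c4 c6 s t) = kleinDhS c4 c6 s t * d s + kleinDhT c4 c6 s t * d t := by
  simp only [S52_Dh, Finset.sum_range_succ, Finset.sum_range_zero, S52_Dc, kleinDhS, kleinDhT,
    Derivation.leibniz, Derivation.leibniz_pow, map_add, map_sub, map_neg, map_one, map_zero,
    klein_d_ofNat, h4, h6, smul_eq_mul, nsmul_eq_mul, smul_zero, mul_zero, add_zero, zero_add,
    sub_zero, neg_zero, pow_zero, zero_mul, Derivation.map_one_eq_zero]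
  push_cast
  ring

theorem klein_d_DhS {c4 c6 : A} (h4 : d c4 = 0) (h6 : d c6 = 0) (s t : A) :
    d (kleinDhS c4 c6 s t) = kleinDhSS c4 c6 s t * d s + kleinDhST c4 c6 s t * d t := by
  simp only [kleinDhS, kleinDhSS, kleinDhST,
    Derivation.leibniz, Derivation.leibniz_pow, map_add, map_sub, map_neg, map_one, map_zero,
    klein_d_ofNat, h4, h6, smul_eq_mul, nsmul_eq_mul, smul_zero, mul_zero, add_zero, zero_add,
    sub_zero, neg_zero, pow_zero, zero_mul, Derivation.map_one_eq_zero]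
  push_cast
  ring

theorem klein_d_DhT {c4 c6 : A} (h4 : d c4 = 0) (h6 : d c6 = 0) (s t : A) :
    d (kleinDhT c4 c6 s t) = kleinDhST c4 c6 s t * d s + kleinDhTT c4 c6 s t * d t := by
  simp only [kleinDhT, kleinDhTT, kleinDhST,
    Derivation.leibniz, Derivation.leibniz_pow, map_add, map_sub, map_neg, map_one, map_zero,
    klein_d_ofNat, h4, h6, smul_eq_mul, nsmul_eq_mul, smul_zero, mul_zero, add_zero, zero_add,
    sub_zero, neg_zero, pow_zero, zero_mul, Derivation.map_one_eq_zero]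
  push_cast
  ring

set_option maxHeartbeats 4000000 in
/-- `c₄h` is the Hessian of `Dh` (up to the factor `-17424 = -(12 · 11)²`). -/
theorem klein_hessian_Dh (c4 c6 s t : A) :
    kleinDhSS c4 c6 s t * kleinDhTT c4 c6 s t - kleinDhST c4 c6 s t ^ 2
      = -17424 * S52_c4h c4 c6 s t := by
  simp only [S52_c4h, Finset.sum_range_succ, Finset.sum_range_zero, S52_c4c, kleinDhSS, kleinDhTT,
    kleinDhST]
  ring

end deriv

section univ

open MvPolynomial

/-- the `c₄`-identity in the universal domain `ℤ[u, v, σ, τ]`, from the `f`-identity: apply the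
Hessian with respect to `(σ, τ)` to `f(σ z + τ w) = f(z) · Dh(σ, τ)`. -/
theorem klein_family_c4_univ
    (hD : ∀ u v σ τ : MvPolynomial (Fin 4) ℤ,
      kleinF (σ * u + τ * kleinWu u v) (σ * v + τ * kleinWv u v)
        = kleinF u v * S52_Dh (-kleinH u v) (-kleinT u v) σ τ) :
    -kleinH ((X 2 : MvPolynomial (Fin 4) ℤ) * X 0 + X 3 * kleinWu (X 0) (X 1))
        (X 2 * X 1 + X 3 * kleinWv (X 0) (X 1))
      = S52_c4h (-kleinH (X 0 : MvPolynomial (Fin 4) ℤ) (X 1)) (-kleinT (X 0) (X 1))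
          (X 2) (X 3) := by
  set u : MvPolynomial (Fin 4) ℤ := X 0 with hu
  set v : MvPolynomial (Fin 4) ℤ := X 1 with hv
  set s : MvPolynomial (Fin 4) ℤ := X 2 with hs
  set t : MvPolynomial (Fin 4) ℤ := X 3 with ht
  -- the two derivations
  set d2 : Derivation ℤ (MvPolynomial (Fin 4) ℤ) (MvPolynomial (Fin 4) ℤ) := pderiv 2 with hd2
  set d3 : Derivation ℤ (MvPolynomial (Fin 4) ℤ) (MvPolynomial (Fin 4) ℤ) := pderiv 3 with hd3
  have d2u : d2 u = 0 := pderiv_X_of_ne (by decide)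
  have d2v : d2 v = 0 := pderiv_X_of_ne (by decide)
  have d2s : d2 s = 1 := pderiv_X_self 2
  have d2t : d2 t = 0 := pderiv_X_of_ne (by decide)
  have d3u : d3 u = 0 := pderiv_X_of_ne (by decide)
  have d3v : d3 v = 0 := pderiv_X_of_ne (by decide)
  have d3s : d3 s = 0 := pderiv_X_of_ne (by decide)
  have d3t : d3 t = 1 := pderiv_X_self 3
  -- constants
  set Wu := kleinWu u v with hWu
  set Wv := kleinWv u v with hWv
  have d2Wu : d2 Wu = 0 := by rw [hWu, kleinWu_eq_Fv]; exact klein_d_Fv_zero d2 d2u d2v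
  have d3Wu : d3 Wu = 0 := by rw [hWu, kleinWu_eq_Fv]; exact klein_d_Fv_zero d3 d3u d3v
  have d2Wv : d2 Wv = 0 := by
    rw [hWv, kleinWv_eq_neg_Fu, map_neg, klein_d_Fu_zero d2 d2u d2v, neg_zero]
  have d3Wv : d3 Wv = 0 := by
    rw [hWv, kleinWv_eq_neg_Fu, map_neg, klein_d_Fu_zero d3 d3u d3v, neg_zero]
  set f := kleinF u v with hf
  have d2f : d2 f = 0 := klein_d_F_zero d2 d2u d2v
  have d3f : d3 f = 0 := klein_d_F_zero d3 d3u d3v
  set c4 := -kleinH u v with hc4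
  set c6 := -kleinT u v with hc6
  have d2c4 : d2 c4 = 0 := by rw [hc4, map_neg, klein_d_H_zero d2 d2u d2v, neg_zero]
  have d3c4 : d3 c4 = 0 := by rw [hc4, map_neg, klein_d_H_zero d3 d3u d3v, neg_zero]
  have d2c6 : d2 c6 = 0 := by rw [hc6, map_neg, klein_d_T_zero d2 d2u d2v, neg_zero]
  have d3c6 : d3 c6 = 0 := by rw [hc6, map_neg, klein_d_T_zero d3 d3u d3v, neg_zero]
  -- the point `Z`
  set Zu := s * u + t * Wu with hZu
  set Zv := s * v + t * Wv with hZv
  have d2Zu : d2 Zu = u := by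
    simp only [hZu, map_add, Derivation.leibniz, d2u, d2s, d2t, d2Wu, smul_zero, smul_eq_mul,
      mul_one, zero_add, add_zero, mul_zero]
  have d3Zu : d3 Zu = Wu := by
    simp only [hZu, map_add, Derivation.leibniz, d3u, d3s, d3t, d3Wu, smul_zero, smul_eq_mul,
      mul_one, zero_add, add_zero, mul_zero]
  have d2Zv : d2 Zv = v := by
    simp only [hZv, map_add, Derivation.leibniz, d2v, d2s, d2t, d2Wv, smul_zero, smul_eq_mul,
      mul_one, zero_add, add_zero, mul_zero]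
  have d3Zv : d3 Zv = Wv := by
    simp only [hZv, map_add, Derivation.leibniz, d3v, d3s, d3t, d3Wv, smul_zero, smul_eq_mul,
      mul_one, zero_add, add_zero, mul_zero]
  have hΦ : kleinF Zu Zv = f * S52_Dh c4 c6 s t := hD u v s t
  -- first derivatives
  have e2 : kleinFu Zu Zv * u + kleinFv Zu Zv * v = f * kleinDhS c4 c6 s t := by
    have := congrArg d2 hΦ
    rw [klein_d_F, d2Zu, d2Zv, Derivation.leibniz, d2f, klein_d_Dh d2 d2c4 d2c6, d2s, d2t] at this
    simpa using this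
  have e3 : kleinFu Zu Zv * Wu + kleinFv Zu Zv * Wv = f * kleinDhT c4 c6 s t := by
    have := congrArg d3 hΦ
    rw [klein_d_F, d3Zu, d3Zv, Derivation.leibniz, d3f, klein_d_Dh d3 d3c4 d3c6, d3s, d3t] at this
    simpa using this
  -- second derivatives
  have e22 : (kleinFuu Zu Zv * u + kleinFuv Zu Zv * v) * u
      + (kleinFuv Zu Zv * u + kleinFvv Zu Zv * v) * v = f * kleinDhSS c4 c6 s t := by
    have := congrArg d2 e2
    simp only [map_add, Derivation.leibniz, klein_d_Fu, klein_d_Fv, d2Zu, d2Zv, d2u, d2v, d2f,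
      klein_d_DhS d2 d2c4 d2c6, d2s, d2t, smul_eq_mul, smul_zero, mul_zero, add_zero, mul_one,
      zero_add] at this
    linear_combination this
  have e23 : (kleinFuu Zu Zv * Wu + kleinFuv Zu Zv * Wv) * u
      + (kleinFuv Zu Zv * Wu + kleinFvv Zu Zv * Wv) * v = f * kleinDhST c4 c6 s t := by
    have := congrArg d3 e2
    simp only [map_add, Derivation.leibniz, klein_d_Fu, klein_d_Fv, d3Zu, d3Zv, d3u, d3v, d3f,
      klein_d_DhS d3 d3c4 d3c6, d3s, d3t, smul_eq_mul, smul_zero, mul_zero, add_zero, mul_one,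
      zero_add] at this
    linear_combination this
  have e33 : (kleinFuu Zu Zv * Wu + kleinFuv Zu Zv * Wv) * Wu
      + (kleinFuv Zu Zv * Wu + kleinFvv Zu Zv * Wv) * Wv = f * kleinDhTT c4 c6 s t := by
    have := congrArg d3 e3
    simp only [map_add, Derivation.leibniz, klein_d_Fu, klein_d_Fv, d3Zu, d3Zv, d3Wu, d3Wv, d3f,
      klein_d_DhT d3 d3c4 d3c6, d3s, d3t, smul_eq_mul, smul_zero, mul_zero, add_zero, mul_one,
      zero_add] at this
    linear_combination this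
  -- Hessians
  have hdet : u * Wv - v * Wu = -12 * f := klein_det_w u v
  have hH := klein_hessian Zu Zv
  have hHD := klein_hessian_Dh c4 c6 s t
  have h1 : ((kleinFuu Zu Zv * u + kleinFuv Zu Zv * v) * u
        + (kleinFuv Zu Zv * u + kleinFvv Zu Zv * v) * v)
      * ((kleinFuu Zu Zv * Wu + kleinFuv Zu Zv * Wv) * Wu
        + (kleinFuv Zu Zv * Wu + kleinFvv Zu Zv * Wv) * Wv)
      - ((kleinFuu Zu Zv * Wu + kleinFuv Zu Zv * Wv) * u
        + (kleinFuv Zu Zv * Wu + kleinFvv Zu Zv * Wv) * v) ^ 2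
      = (u * Wv - v * Wu) ^ 2 * (kleinFuu Zu Zv * kleinFvv Zu Zv - kleinFuv Zu Zv ^ 2) := by
    ring
  rw [e22, e33, e23, hdet, hH] at h1
  have key : 17424 * f ^ 2 * (kleinH Zu Zv + S52_c4h c4 c6 s t) = 0 := by
    linear_combination -h1 + f ^ 2 * hHD
  have hf0 : f ≠ 0 := by
    intro h0
    have := congrArg (MvPolynomial.eval (![1, 1, 0, 0] : Fin 4 → ℤ)) h0
    rw [hf, kleinF_map, hu, hv, MvPolynomial.eval_X, MvPolynomial.eval_X, map_zero] at this
    have e0 : (![1, 1, 0, 0] : Fin 4 → ℤ) 0 = 1 := rfl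
    have e1 : (![1, 1, 0, 0] : Fin 4 → ℤ) 1 = 1 := rfl
    rw [e0, e1] at this
    norm_num [kleinF] at this
  have h17 : (17424 : MvPolynomial (Fin 4) ℤ) * f ^ 2 ≠ 0 :=
    mul_ne_zero (by norm_num) (pow_ne_zero _ hf0)
  have := (mul_eq_zero.1 key).resolve_left h17
  linear_combination -this

end univ

/-- **F2, `c₄`-part**. -/
theorem klein_family_c4 {R : Type*} [CommRing R] (u v σ τ : R) :
    -kleinH (σ * u + τ * kleinWu u v) (σ * v + τ * kleinWv u v)
      = S52_c4h (-kleinH u v) (-kleinT u v) σ τ := by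
  have key := klein_family_c4_univ (fun u v σ τ => klein_family_D u v σ τ)
  have hφ := congrArg (MvPolynomial.aeval (![u, v, σ, τ] : Fin 4 → R)).toRingHom key
  simp only [AlgHom.toRingHom_eq_coe, RingHom.coe_coe] at hφ
  have hφ' := hφ
  simp only [map_neg] at hφ'
  rw [← RingHom.coe_coe, kleinH_map, S52_c4h_map] at hφ'
  simp only [map_add, map_mul, map_neg, kleinWu_map, kleinWv_map, kleinH_map, kleinT_map,
    RingHom.coe_coe, MvPolynomial.aeval_X] at hφ'
  simpa using hφ'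

end Fermat.Agent.S52
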