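import Fermat.Agent.S52.KleinSec

/-!
# S52 block F2 (helper27): the covariant `w = (∂f/∂v, −∂f/∂u)` of Klein's form `f`
-/

set_option autoImplicit false

namespace Fermat.Agent.S52

variable {R : Type*} [CommRing R]

/-- first component of the covariant `w = (∂f/∂v, −∂f/∂u)`. -/
def kleinWu (u v : R) : R := u * (u ^ 10 + 66 * u ^ 5 * v ^ 5 - 11 * v ^ 10)

/-- second component of the covariant `w = (∂f/∂v, −∂f/∂u)`. -/
def kleinWv (u v : R) : R := -(v * (11 * u ^ 10 + 66 * u ^ 5 * v ^ 5 - v ^ 10))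

theorem kleinWu_map {S : Type*} [CommRing S] (φ : R →+* S) (u v : R) :
    φ (kleinWu u v) = kleinWu (φ u) (φ v) := by
  simp only [kleinWu, map_add, map_sub, map_mul, map_pow, map_neg, map_ofNat]

theorem kleinWv_map {S : Type*} [CommRing S] (φ : R →+* S) (u v : R) :
    φ (kleinWv u v) = kleinWv (φ u) (φ v) := by
  simp only [kleinWv, map_add, map_sub, map_mul, map_pow, map_neg, map_ofNat]

/-- `det (z, w(z)) = -12 f(z)`. -/
theorem klein_det_w (u v : R) : u * kleinWv u v - v * kleinWu u v = -12 * kleinF u v := by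
  unfold kleinWu kleinWv kleinF
  ring

end Fermat.Agent.S52
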