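import Fermat.Agent.S52.KleinMap
import Fermat.Agent.S52.KleinFamilyDefs
import Fermat.Agent.S52.Family

/-!
# S52 block F2 (helper27): the `c₆`-identity of the family follows from the `c₄`- and `f`-identities

For `w(z) = (∂f/∂v, −∂f/∂u)(z)` and `Z = σ z + τ w(z)`:
`−H(Z) = S52_c4h (−H z) (−T z) σ τ` (`klein_family_c4`, file `KleinFamilyC4`),
`f(Z) = f(z) · S52_Dh (−H z) (−T z) σ τ` (`klein_family_D`, file `KleinFamilyD`) and
`−T(Z) = S52_c6h (−H z) (−T z) σ τ` (`klein_family_c6`, here).  The last identity is deduced from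
the first two in the universal domain `ℤ[u, v, σ, τ]`: `T(Z)² = c₆h²` by `T² + H³ = 1728 f⁵` and
`c₄h³ − c₆h² = Δ · Dh⁵`, and the sign is fixed at `(u, v, σ, τ) = (1, 0, 1, 0)`.
-/

set_option autoImplicit false

namespace Fermat.Agent.S52

open MvPolynomial

/-- the `c₆`-identity of the family follows from the `c₄`- and `D`-identities (in the universal
domain `ℤ[u, v, σ, τ]`) and the relations `T² + H³ = 1728 f⁵`, `c₄h³ − c₆h² = Δ · Dh⁵`. -/
theorem klein_family_c6_of
    (hc4 : ∀ u v σ τ : MvPolynomial (Fin 4) ℤ,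
      -kleinH (σ * u + τ * kleinWu u v) (σ * v + τ * kleinWv u v)
        = S52_c4h (-kleinH u v) (-kleinT u v) σ τ)
    (hD : ∀ u v σ τ : MvPolynomial (Fin 4) ℤ,
      kleinF (σ * u + τ * kleinWu u v) (σ * v + τ * kleinWv u v)
        = kleinF u v * S52_Dh (-kleinH u v) (-kleinT u v) σ τ)
    {R : Type*} [CommRing R] (u v σ τ : R) :
    -kleinT (σ * u + τ * kleinWu u v) (σ * v + τ * kleinWv u v)
      = S52_c6h (-kleinH u v) (-kleinT u v) σ τ := by
  -- the universal identity
  have key : -kleinT ((X 2 : MvPolynomial (Fin 4) ℤ) * X 0 + X 3 * kleinWu (X 0) (X 1))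
        (X 2 * X 1 + X 3 * kleinWv (X 0) (X 1))
      = S52_c6h (-kleinH (X 0 : MvPolynomial (Fin 4) ℤ) (X 1)) (-kleinT (X 0) (X 1)) (X 2) (X 3) := by
    set U : MvPolynomial (Fin 4) ℤ := X 0 with hU
    set V : MvPolynomial (Fin 4) ℤ := X 1 with hV
    set s : MvPolynomial (Fin 4) ℤ := X 2 with hs
    set t : MvPolynomial (Fin 4) ℤ := X 3 with ht
    set Zu := s * U + t * kleinWu U V with hZu
    set Zv := s * V + t * kleinWv U V with hZv
    have h1 := klein_rel Zu Zv
    have h2 := hc4 U V s t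
    have h3 := hD U V s t
    have h4 := S52_delta_h (-kleinH U V) (-kleinT U V) s t
    have h5 := klein_rel U V
    rw [← hZu, ← hZv] at h2 h3
    set C4 := S52_c4h (-kleinH U V) (-kleinT U V) s t with hC4
    set C6 := S52_c6h (-kleinH U V) (-kleinT U V) s t with hC6
    set D := S52_Dh (-kleinH U V) (-kleinT U V) s t with hDd
    have hH : kleinH Zu Zv = -C4 := by rw [← h2]; ring
    have hsq : (kleinT Zu Zv - C6) * (kleinT Zu Zv + C6) = 0 := by
      have e1 : kleinT Zu Zv ^ 2 = 1728 * (kleinF U V * D) ^ 5 - (-C4) ^ 3 := by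
        rw [← hH, ← h3]; linear_combination h1
      have e2 : C6 ^ 2 = C4 ^ 3 - ((-kleinH U V) ^ 3 - (-kleinT U V) ^ 2) * D ^ 5 := by
        linear_combination -h4
      linear_combination e1 - e2 - D ^ 5 * h5
    rcases mul_eq_zero.1 hsq with h | h
    · -- impossible: evaluate at (1, 0, 1, 0)
      exfalso
      have hev := congrArg (MvPolynomial.eval (![1, 0, 1, 0] : Fin 4 → ℤ)) h
      simp only [map_sub, map_zero] at hev
      rw [kleinT_map, hC6, S52_c6h_map] at hev
      simp only [hZu, hZv, hU, hV, hs, ht, map_add, map_mul, map_neg, kleinWu_map, kleinWv_map,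
        kleinH_map, kleinT_map, MvPolynomial.eval_X] at hev
      have e0 : (![1, 0, 1, 0] : Fin 4 → ℤ) 0 = 1 := rfl
      have e1 : (![1, 0, 1, 0] : Fin 4 → ℤ) 1 = 0 := rfl
      have e2 : (![1, 0, 1, 0] : Fin 4 → ℤ) 2 = 1 := rfl
      have e3 : (![1, 0, 1, 0] : Fin 4 → ℤ) 3 = 0 := rfl
      rw [e0, e1, e2, e3] at hev
      norm_num [kleinT, kleinH, kleinWu, kleinWv, S52_c6h_zero] at hev
    · linear_combination -h
  -- specialise
  have hφ := congrArg (MvPolynomial.aeval (![u, v, σ, τ] : Fin 4 → R)).toRingHom key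
  simp only [AlgHom.toRingHom_eq_coe, RingHom.coe_coe] at hφ
  have hφ' := hφ
  simp only [map_neg] at hφ'
  rw [← RingHom.coe_coe, kleinT_map, S52_c6h_map] at hφ'
  simp only [map_add, map_mul, map_neg, kleinWu_map, kleinWv_map, kleinH_map, kleinT_map,
    RingHom.coe_coe, MvPolynomial.aeval_X] at hφ'
  simpa using hφ'

end Fermat.Agent.S52
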