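import Fermat.Agent.S52.KleinFamilyD
import Fermat.Agent.S52.KleinFamilyC4
import Fermat.Agent.S52.KleinFamilyC6

/-!
# S52 block F2 (helper27): the family identity in Klein's coordinates

For `w(z) = (∂f/∂v, −∂f/∂u)(z)` and `Z = σ z + τ w(z)`:
`−H(Z) = S52_c4h (−H z) (−T z) σ τ` (`klein_family_c4`, file `KleinFamilyC4`),
`f(Z) = f(z) · S52_Dh (−H z) (−T z) σ τ` (`klein_family_D`, file `KleinFamilyD`) and
`−T(Z) = S52_c6h (−H z) (−T z) σ τ` (`klein_family_c6`, here, from `klein_family_c6_of`).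
-/

set_option autoImplicit false

namespace Fermat.Agent.S52

theorem klein_family_c6 {R : Type*} [CommRing R] (u v σ τ : R) :
    -kleinT (σ * u + τ * kleinWu u v) (σ * v + τ * kleinWv u v)
      = S52_c6h (-kleinH u v) (-kleinT u v) σ τ :=
  klein_family_c6_of (fun u v σ τ => klein_family_c4 u v σ τ)
    (fun u v σ τ => klein_family_D u v σ τ) u v σ τ

end Fermat.Agent.S52
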