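import Fermat.Agent.S52.Klein

/-!
# S52 block F1 (helper27), N1: Klein's forms and the universal sections commute with ring homs

GENERATED FILE.  `φ (kleinSX r ζ h u v) = kleinSX r (φ ζ) (φ h) (φ u) (φ v)` etc.; in particular
sections evaluated at polynomial arguments are polynomials whose evaluations are the sections.
-/

set_option autoImplicit false
set_option linter.unusedSimpArgs false

namespace Fermat.Agent.S52

variable {R S : Type*} [CommRing R] [CommRing S] (φ : R →+* S)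

theorem kleinF_map (u v : R) : φ (kleinF u v) = kleinF (φ u) (φ v) := by
  simp only [kleinF, map_add, map_sub, map_mul, map_pow, map_neg, map_ofNat]

theorem kleinH_map (u v : R) : φ (kleinH u v) = kleinH (φ u) (φ v) := by
  simp only [kleinH, map_add, map_sub, map_mul, map_pow, map_neg, map_ofNat]

theorem kleinT_map (u v : R) : φ (kleinT u v) = kleinT (φ u) (φ v) := by
  simp only [kleinT, map_add, map_sub, map_mul, map_pow, map_neg, map_ofNat]

theorem kleinX_0_1_map (ζ h u v : R) :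
    φ (kleinX_0_1 ζ h u v) = kleinX_0_1 (φ ζ) (φ h) (φ u) (φ v) := by
  simp only [kleinX_0_1, map_add, map_sub, map_mul, map_pow, map_neg, map_ofNat, map_one]

theorem kleinY_0_1_map (ζ h u v : R) :
    φ (kleinY_0_1 ζ h u v) = kleinY_0_1 (φ ζ) (φ h) (φ u) (φ v) := by
  simp only [kleinY_0_1, map_add, map_sub, map_mul, map_pow, map_neg, map_ofNat, map_one]

theorem kleinX_0_2_map (ζ h u v : R) :
    φ (kleinX_0_2 ζ h u v) = kleinX_0_2 (φ ζ) (φ h) (φ u) (φ v) := by
  simp only [kleinX_0_2, map_add, map_sub, map_mul, map_pow, map_neg, map_ofNat, map_one]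

theorem kleinY_0_2_map (ζ h u v : R) :
    φ (kleinY_0_2 ζ h u v) = kleinY_0_2 (φ ζ) (φ h) (φ u) (φ v) := by
  simp only [kleinY_0_2, map_add, map_sub, map_mul, map_pow, map_neg, map_ofNat, map_one]

theorem kleinX_1_0_map (ζ h u v : R) :
    φ (kleinX_1_0 ζ h u v) = kleinX_1_0 (φ ζ) (φ h) (φ u) (φ v) := by
  simp only [kleinX_1_0, map_add, map_sub, map_mul, map_pow, map_neg, map_ofNat, map_one]

theorem kleinY_1_0_map (ζ h u v : R) :
    φ (kleinY_1_0 ζ h u v) = kleinY_1_0 (φ ζ) (φ h) (φ u) (φ v) := by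
  simp only [kleinY_1_0, map_add, map_sub, map_mul, map_pow, map_neg, map_ofNat, map_one]

theorem kleinX_1_1_map (ζ h u v : R) :
    φ (kleinX_1_1 ζ h u v) = kleinX_1_1 (φ ζ) (φ h) (φ u) (φ v) := by
  simp only [kleinX_1_1, map_add, map_sub, map_mul, map_pow, map_neg, map_ofNat, map_one]

theorem kleinY_1_1_map (ζ h u v : R) :
    φ (kleinY_1_1 ζ h u v) = kleinY_1_1 (φ ζ) (φ h) (φ u) (φ v) := by
  simp only [kleinY_1_1, map_add, map_sub, map_mul, map_pow, map_neg, map_ofNat, map_one]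

theorem kleinX_1_2_map (ζ h u v : R) :
    φ (kleinX_1_2 ζ h u v) = kleinX_1_2 (φ ζ) (φ h) (φ u) (φ v) := by
  simp only [kleinX_1_2, map_add, map_sub, map_mul, map_pow, map_neg, map_ofNat, map_one]

theorem kleinY_1_2_map (ζ h u v : R) :
    φ (kleinY_1_2 ζ h u v) = kleinY_1_2 (φ ζ) (φ h) (φ u) (φ v) := by
  simp only [kleinY_1_2, map_add, map_sub, map_mul, map_pow, map_neg, map_ofNat, map_one]

theorem kleinX_1_3_map (ζ h u v : R) :
    φ (kleinX_1_3 ζ h u v) = kleinX_1_3 (φ ζ) (φ h) (φ u) (φ v) := by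
  simp only [kleinX_1_3, map_add, map_sub, map_mul, map_pow, map_neg, map_ofNat, map_one]

theorem kleinY_1_3_map (ζ h u v : R) :
    φ (kleinY_1_3 ζ h u v) = kleinY_1_3 (φ ζ) (φ h) (φ u) (φ v) := by
  simp only [kleinY_1_3, map_add, map_sub, map_mul, map_pow, map_neg, map_ofNat, map_one]

theorem kleinX_1_4_map (ζ h u v : R) :
    φ (kleinX_1_4 ζ h u v) = kleinX_1_4 (φ ζ) (φ h) (φ u) (φ v) := by
  simp only [kleinX_1_4, map_add, map_sub, map_mul, map_pow, map_neg, map_ofNat, map_one]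

theorem kleinY_1_4_map (ζ h u v : R) :
    φ (kleinY_1_4 ζ h u v) = kleinY_1_4 (φ ζ) (φ h) (φ u) (φ v) := by
  simp only [kleinY_1_4, map_add, map_sub, map_mul, map_pow, map_neg, map_ofNat, map_one]

theorem kleinX_2_0_map (ζ h u v : R) :
    φ (kleinX_2_0 ζ h u v) = kleinX_2_0 (φ ζ) (φ h) (φ u) (φ v) := by
  simp only [kleinX_2_0, map_add, map_sub, map_mul, map_pow, map_neg, map_ofNat, map_one]

theorem kleinY_2_0_map (ζ h u v : R) :
    φ (kleinY_2_0 ζ h u v) = kleinY_2_0 (φ ζ) (φ h) (φ u) (φ v) := by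
  simp only [kleinY_2_0, map_add, map_sub, map_mul, map_pow, map_neg, map_ofNat, map_one]

theorem kleinX_2_1_map (ζ h u v : R) :
    φ (kleinX_2_1 ζ h u v) = kleinX_2_1 (φ ζ) (φ h) (φ u) (φ v) := by
  simp only [kleinX_2_1, map_add, map_sub, map_mul, map_pow, map_neg, map_ofNat, map_one]

theorem kleinY_2_1_map (ζ h u v : R) :
    φ (kleinY_2_1 ζ h u v) = kleinY_2_1 (φ ζ) (φ h) (φ u) (φ v) := by
  simp only [kleinY_2_1, map_add, map_sub, map_mul, map_pow, map_neg, map_ofNat, map_one]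

theorem kleinX_2_2_map (ζ h u v : R) :
    φ (kleinX_2_2 ζ h u v) = kleinX_2_2 (φ ζ) (φ h) (φ u) (φ v) := by
  simp only [kleinX_2_2, map_add, map_sub, map_mul, map_pow, map_neg, map_ofNat, map_one]

theorem kleinY_2_2_map (ζ h u v : R) :
    φ (kleinY_2_2 ζ h u v) = kleinY_2_2 (φ ζ) (φ h) (φ u) (φ v) := by
  simp only [kleinY_2_2, map_add, map_sub, map_mul, map_pow, map_neg, map_ofNat, map_one]

theorem kleinX_2_3_map (ζ h u v : R) :
    φ (kleinX_2_3 ζ h u v) = kleinX_2_3 (φ ζ) (φ h) (φ u) (φ v) := by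
  simp only [kleinX_2_3, map_add, map_sub, map_mul, map_pow, map_neg, map_ofNat, map_one]

theorem kleinY_2_3_map (ζ h u v : R) :
    φ (kleinY_2_3 ζ h u v) = kleinY_2_3 (φ ζ) (φ h) (φ u) (φ v) := by
  simp only [kleinY_2_3, map_add, map_sub, map_mul, map_pow, map_neg, map_ofNat, map_one]

theorem kleinX_2_4_map (ζ h u v : R) :
    φ (kleinX_2_4 ζ h u v) = kleinX_2_4 (φ ζ) (φ h) (φ u) (φ v) := by
  simp only [kleinX_2_4, map_add, map_sub, map_mul, map_pow, map_neg, map_ofNat, map_one]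

theorem kleinY_2_4_map (ζ h u v : R) :
    φ (kleinY_2_4 ζ h u v) = kleinY_2_4 (φ ζ) (φ h) (φ u) (φ v) := by
  simp only [kleinY_2_4, map_add, map_sub, map_mul, map_pow, map_neg, map_ofNat, map_one]

theorem kleinNX_map (a b : ℕ) (ζ h u v : R) :
    φ (kleinNX a b ζ h u v) = kleinNX a b (φ ζ) (φ h) (φ u) (φ v) := by
  unfold kleinNX
  split <;> simp only [kleinX_0_1_map, kleinX_0_2_map, kleinX_1_0_map, kleinX_1_1_map, kleinX_1_2_map, kleinX_1_3_map, kleinX_1_4_map, kleinX_2_0_map, kleinX_2_1_map, kleinX_2_2_map, kleinX_2_3_map, kleinX_2_4_map, map_neg, map_zero]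

theorem kleinNY_map (a b : ℕ) (ζ h u v : R) :
    φ (kleinNY a b ζ h u v) = kleinNY a b (φ ζ) (φ h) (φ u) (φ v) := by
  unfold kleinNY
  split <;> simp only [kleinY_0_1_map, kleinY_0_2_map, kleinY_1_0_map, kleinY_1_1_map, kleinY_1_2_map, kleinY_1_3_map, kleinY_1_4_map, kleinY_2_0_map, kleinY_2_1_map, kleinY_2_2_map, kleinY_2_3_map, kleinY_2_4_map, map_neg, map_zero]

theorem kleinSX_map (r : ZMod 5 × ZMod 5) (ζ h u v : R) :
    φ (kleinSX r ζ h u v) = kleinSX r (φ ζ) (φ h) (φ u) (φ v) :=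
  kleinNX_map φ _ _ ζ h u v

theorem kleinSY_map (r : ZMod 5 × ZMod 5) (ζ h u v : R) :
    φ (kleinSY r ζ h u v) = kleinSY r (φ ζ) (φ h) (φ u) (φ v) :=
  kleinNY_map φ _ _ ζ h u v

/-- the sections of the opposite label. -/
theorem kleinSX_neg (r : ZMod 5 × ZMod 5) (ζ h u v : R) :
    kleinSX (-r) ζ h u v = kleinSX r ζ h u v := by
  revert r
  have key : ∀ a b : ZMod 5, kleinSX (-(a, b)) ζ h u v = kleinSX (a, b) ζ h u v := by
    intro a b
    fin_cases a <;> fin_cases b <;> rfl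
  exact fun r => key r.1 r.2

theorem kleinSY_neg (r : ZMod 5 × ZMod 5) (ζ h u v : R) :
    kleinSY (-r) ζ h u v = -kleinSY r ζ h u v := by
  revert r
  have key : ∀ a b : ZMod 5, kleinSY (-(a, b)) ζ h u v = -kleinSY (a, b) ζ h u v := by
    intro a b
    fin_cases a <;> fin_cases b <;>
      first | rfl | exact (neg_neg _).symm | exact neg_zero.symm
  exact fun r => key r.1 r.2

end Fermat.Agent.S52
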