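import Mathlib

/-!
# S52, block F4: the Klein-free rigidity core

`S52_rig_core` : over an infinite field, a pair of polynomials `(a, b)` which at every point `s`
outside the zero set of a nonzero polynomial `D` coincides with one of finitely many pairs
`(x i, y i)` (with `i` in a set `P`), coincides identically with one of them.
-/

set_option autoImplicit false

namespace Fermat.Agent.S52

open Polynomial

theorem S52_rig_infinite {k : Type*} [Field k] [Infinite k] (D : k[X]) (hD : D ≠ 0) :
    {s : k | D.eval s ≠ 0}.Infinite := by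
  have hfin : {s : k | D.eval s = 0}.Finite := by
    have : {s : k | D.eval s = 0} = {s : k | D.IsRoot s} := rfl
    rw [this]
    exact Polynomial.finite_setOfPred_isRoot hD
  have hc : {s : k | D.eval s ≠ 0} = {s : k | D.eval s = 0}ᶜ := by
    ext s; simp
  rw [hc]
  exact hfin.infinite_compl

theorem S52_rig_core {k : Type*} [Field k] [Infinite k] {ι : Type*} [Finite ι] (P : ι → Prop)
    (a b : k[X]) (x y : ι → k[X]) (D : k[X]) (hD : D ≠ 0)
    (h : ∀ s : k, D.eval s ≠ 0 → ∃ i, P i ∧ a.eval s = (x i).eval s ∧ b.eval s = (y i).eval s) :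
    ∃ i, P i ∧ a = x i ∧ b = y i := by
  classical
  have hinf := S52_rig_infinite D hD
  -- cover by finitely many sets
  have hcov : {s : k | D.eval s ≠ 0} ⊆
      ⋃ i : ι, {s : k | P i ∧ a.eval s = (x i).eval s ∧ b.eval s = (y i).eval s} := by
    intro s hs
    obtain ⟨i, hi⟩ := h s hs
    exact Set.mem_iUnion.2 ⟨i, hi⟩
  have hU : (⋃ i : ι, {s : k | P i ∧ a.eval s = (x i).eval s ∧ b.eval s = (y i).eval s}).Infinite :=
    hinf.mono hcov
  obtain ⟨i, hi⟩ : ∃ i : ι,
      {s : k | P i ∧ a.eval s = (x i).eval s ∧ b.eval s = (y i).eval s}.Infinite := by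
    by_contra hcon
    push Not at hcon
    exact hU (Set.finite_iUnion fun i => hcon i)
  have hPi : P i := by
    obtain ⟨s, hs⟩ := hi.nonempty
    exact hs.1
  refine ⟨i, hPi, ?_, ?_⟩
  · apply Polynomial.eq_of_infinite_eval_eq
    exact hi.mono fun s hs => hs.2.1
  · apply Polynomial.eq_of_infinite_eval_eq
    exact hi.mono fun s hs => hs.2.2

end Fermat.Agent.S52
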