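import Mathlib
import Fermat.Agent.S52.Family
import Fermat.Agent.S52.KleinCount
import Fermat.Agent.S52.KleinMap
import Fermat.Agent.S52.KleinFamilyDefs
import Fermat.Agent.S52.KleinFamily
import Fermat.Agent.S52.RigidCore

/-!
# S52, block F4, part K2 (helper15): Klein rigidity on coordinates

`S52_klein_rigid` : let `(ζ, u, v)` and `(ζ', u', v')` be two Klein parametrisations of the same
curve (`H(u',v') = H(u,v)`, `T(u',v') = T(u,v)`).  If the section `r` of the second one is the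
section `r'` of the first one, then the same holds along the whole family `(σ, τ)`.

Proof: on the line `(σ_s, τ_s) = (1 + s(σ - 1), sτ)` all sections are polynomials in `s`; for
every `s` with `D(s) ≠ 0` both parametrisations give the full `5`-torsion of the same curve
(F2 + `klein_torsion_bij`), hence the section `r` of the second one agrees at `s` with some
section `i ≠ 0` of the first one; by `S52_rig_core` one `i` works identically in `s`;
`s = 0` gives `i = r'` and `s = 1` gives the claim.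
-/

set_option autoImplicit false

namespace Fermat.Agent.S52

open Polynomial WeierstrassCurve

section field

variable {k : Type*} [Field k] [DecidableEq k]

/-- `klein_torsion_bij` transported to a propositionally equal curve. -/
theorem S52_kr_bij (E : WeierstrassCurve k) (ζ h a b : k)
    (hE : E = kleinShort (27 * kleinH a b) (54 * kleinT a b))
    (hζ : ζ ^ 4 + ζ ^ 3 + ζ ^ 2 + ζ + 1 = 0) (h5 : 5 * h = 1)
    (h2 : (2 : k) ≠ 0) (h3 : (3 : k) ≠ 0) (hf : kleinF a b ≠ 0) :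
    ∃ A : ZMod 5 × ZMod 5 →+ E.toAffine.Point,
      (∀ r : ZMod 5 × ZMod 5, r ≠ 0 →
        kleinIsPt E (A r) (kleinSX r ζ h a b) (kleinSY r ζ h a b)) ∧
      Function.Injective A ∧
      ∀ P : E.toAffine.Point, 5 • P = 0 → ∃ r, A r = P := by
  subst hE
  exact klein_torsion_bij ζ h a b hζ h5 h2 h3 hf

omit [DecidableEq k] in
/-- `f ≠ 0` only depends on `(H, T)`. -/
theorem S52_kr_f_ne (h2 : (2 : k) ≠ 0) (h3 : (3 : k) ≠ 0) (a b a' b' : k)
    (hH : kleinH a' b' = kleinH a b) (hT : kleinT a' b' = kleinT a b) (hf : kleinF a b ≠ 0) :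
    kleinF a' b' ≠ 0 := by
  intro h0
  have e1 := klein_rel a b
  have e2 := klein_rel a' b'
  rw [hH, hT, e1, h0] at e2
  have h1728 : (1728 : k) ≠ 0 := by
    have : (1728 : k) = 2 ^ 6 * 3 ^ 3 := by norm_num
    rw [this]
    exact mul_ne_zero (pow_ne_zero _ h2) (pow_ne_zero _ h3)
  have : (1728 : k) * kleinF a b ^ 5 = 0 := by rw [e2]; ring
  rcases mul_eq_zero.1 this with h | h
  · exact h1728 h
  · exact hf (pow_eq_zero_iff (by norm_num) |>.1 h)

/-- two Klein parametrisations of the same curve: every section of the second one is a section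
of the first one. -/
theorem S52_kr_pointwise (ζ ζ' h a b a' b' : k)
    (hζ : ζ ^ 4 + ζ ^ 3 + ζ ^ 2 + ζ + 1 = 0) (hζ' : ζ' ^ 4 + ζ' ^ 3 + ζ' ^ 2 + ζ' + 1 = 0)
    (h5 : 5 * h = 1) (h2 : (2 : k) ≠ 0) (h3 : (3 : k) ≠ 0)
    (hH : kleinH a' b' = kleinH a b) (hT : kleinT a' b' = kleinT a b) (hf : kleinF a b ≠ 0)
    (r : ZMod 5 × ZMod 5) (hr : r ≠ 0) :
    ∃ i : ZMod 5 × ZMod 5, i ≠ 0 ∧ kleinSX r ζ' h a' b' = kleinSX i ζ h a b ∧
      kleinSY r ζ' h a' b' = kleinSY i ζ h a b := by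
  have hf' : kleinF a' b' ≠ 0 := S52_kr_f_ne h2 h3 a b a' b' hH hT hf
  obtain ⟨A, hA, -, hAsurj⟩ := klein_torsion_bij ζ h a b hζ h5 h2 h3 hf
  obtain ⟨A', hA', -, -⟩ := S52_kr_bij (kleinShort (27 * kleinH a b) (54 * kleinT a b)) ζ' h a' b'
    (by rw [hH, hT]) hζ' h5 h2 h3 hf'
  have h5r : 5 • A' r = 0 := by
    rw [← map_nsmul]
    have h25 : ∀ r : ZMod 5 × ZMod 5, 5 • r = 0 := by decide
    rw [h25 r, map_zero]
  obtain ⟨i, hi⟩ := hAsurj (A' r) h5r
  have hi0 : i ≠ 0 := by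
    rintro rfl
    rw [map_zero] at hi
    exact (hA' r hr).ne_zero hi.symm
  have h1 := hA i hi0
  rw [hi] at h1
  obtain ⟨hx, hy⟩ := (hA' r hr).coord h1
  exact ⟨i, hi0, hx, hy⟩

/-- injectivity of the labelling on coordinates. -/
theorem S52_kr_label_inj (ζ h a b : k)
    (hζ : ζ ^ 4 + ζ ^ 3 + ζ ^ 2 + ζ + 1 = 0) (h5 : 5 * h = 1) (h2 : (2 : k) ≠ 0)
    (h3 : (3 : k) ≠ 0) (hf : kleinF a b ≠ 0) (i j : ZMod 5 × ZMod 5) (hi : i ≠ 0) (hj : j ≠ 0)
    (hX : kleinSX i ζ h a b = kleinSX j ζ h a b) (hY : kleinSY i ζ h a b = kleinSY j ζ h a b) :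
    i = j := by
  obtain ⟨A, hA, hinj, -⟩ := klein_torsion_bij ζ h a b hζ h5 h2 h3 hf
  have h1 := hA i hi
  have h2' := hA j hj
  rw [hX, hY] at h1
  exact hinj (h1.unique h2')

end field

section poly

variable {k : Type*} [Field k]

/-- the parameter line `σ_s = 1 + s (σ - 1)`. -/
noncomputable def S52_krS (σ : k) : k[X] := 1 + X * C (σ - 1)

/-- the parameter line `τ_s = s τ`. -/
noncomputable def S52_krT (τ : k) : k[X] := X * C τ

/-- the first coordinate of `Z_s`. -/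
noncomputable def S52_krU (u v σ τ : k) : k[X] :=
  S52_krS σ * C u + S52_krT τ * C (kleinWu u v)

/-- the second coordinate of `Z_s`. -/
noncomputable def S52_krV (u v σ τ : k) : k[X] :=
  S52_krS σ * C v + S52_krT τ * C (kleinWv u v)

@[simp] theorem S52_krS_eval (σ s : k) : (S52_krS σ).eval s = 1 + s * (σ - 1) := by
  simp [S52_krS]

@[simp] theorem S52_krT_eval (τ s : k) : (S52_krT τ).eval s = s * τ := by
  rw [S52_krT, eval_mul, eval_X, eval_C]

@[simp] theorem S52_krU_eval (u v σ τ s : k) :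
    (S52_krU u v σ τ).eval s = (1 + s * (σ - 1)) * u + s * τ * kleinWu u v := by
  simp [S52_krU]

@[simp] theorem S52_krV_eval (u v σ τ s : k) :
    (S52_krV u v σ τ).eval s = (1 + s * (σ - 1)) * v + s * τ * kleinWv u v := by
  simp [S52_krV]

theorem S52_kr_evalSX (r : ZMod 5 × ZMod 5) (ζ h u v σ τ s : k) :
    (kleinSX r (C ζ) (C h) (S52_krU u v σ τ) (S52_krV u v σ τ)).eval s
      = kleinSX r ζ h ((1 + s * (σ - 1)) * u + s * τ * kleinWu u v)
          ((1 + s * (σ - 1)) * v + s * τ * kleinWv u v) := by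
  have := kleinSX_map (evalRingHom s) r (C ζ) (C h) (S52_krU u v σ τ) (S52_krV u v σ τ)
  simpa only [coe_evalRingHom, eval_C, S52_krU_eval, S52_krV_eval] using this

theorem S52_kr_evalSY (r : ZMod 5 × ZMod 5) (ζ h u v σ τ s : k) :
    (kleinSY r (C ζ) (C h) (S52_krU u v σ τ) (S52_krV u v σ τ)).eval s
      = kleinSY r ζ h ((1 + s * (σ - 1)) * u + s * τ * kleinWu u v)
          ((1 + s * (σ - 1)) * v + s * τ * kleinWv u v) := by
  have := kleinSY_map (evalRingHom s) r (C ζ) (C h) (S52_krU u v σ τ) (S52_krV u v σ τ)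
  simpa only [coe_evalRingHom, eval_C, S52_krU_eval, S52_krV_eval] using this

/-- the discriminant factor along the line. -/
noncomputable def S52_krD (c4 c6 σ τ : k) : k[X] :=
  S52_Dh (C c4) (C c6) (S52_krS σ) (S52_krT τ)

theorem S52_krD_eval (c4 c6 σ τ s : k) :
    (S52_krD c4 c6 σ τ).eval s = S52_Dh c4 c6 (1 + s * (σ - 1)) (s * τ) := by
  have := S52_Dh_map (evalRingHom s) (C c4) (C c6) (S52_krS σ) (S52_krT τ)
  rw [S52_krD]
  simpa only [coe_evalRingHom, eval_C, S52_krS_eval, S52_krT_eval] using this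

theorem S52_krD_ne_zero (c4 c6 σ τ : k) : S52_krD c4 c6 σ τ ≠ 0 := by
  intro h0
  have h := S52_krD_eval c4 c6 σ τ 0
  rw [h0] at h
  simp at h

end poly

section main

variable {k : Type*} [Field k] [Infinite k] [DecidableEq k]

/-- **K2**: Klein rigidity on coordinates. -/
theorem S52_klein_rigid (ζ ζ' h u v u' v' σ τ : k)
    (hζ : ζ ^ 4 + ζ ^ 3 + ζ ^ 2 + ζ + 1 = 0) (hζ' : ζ' ^ 4 + ζ' ^ 3 + ζ' ^ 2 + ζ' + 1 = 0)
    (h5 : 5 * h = 1) (h2 : (2 : k) ≠ 0) (h3 : (3 : k) ≠ 0)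
    (hH : kleinH u' v' = kleinH u v) (hT : kleinT u' v' = kleinT u v) (hf : kleinF u v ≠ 0)
    (hD : S52_Dh (-kleinH u v) (-kleinT u v) σ τ ≠ 0) (r r' : ZMod 5 × ZMod 5) (hr : r ≠ 0)
    (hr' : r' ≠ 0)
    (hX : kleinSX r ζ' h u' v' = kleinSX r' ζ h u v)
    (hY : kleinSY r ζ' h u' v' = kleinSY r' ζ h u v) :
    kleinSX r ζ' h (σ * u' + τ * kleinWu u' v') (σ * v' + τ * kleinWv u' v')
        = kleinSX r' ζ h (σ * u + τ * kleinWu u v) (σ * v + τ * kleinWv u v) ∧
      kleinSY r ζ' h (σ * u' + τ * kleinWu u' v') (σ * v' + τ * kleinWv u' v')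
        = kleinSY r' ζ h (σ * u + τ * kleinWu u v) (σ * v + τ * kleinWv u v) := by
  classical
  have _ := hD
  have hf' : kleinF u' v' ≠ 0 := S52_kr_f_ne h2 h3 u v u' v' hH hT hf
  set c4 : k := -kleinH u v with hc4
  set c6 : k := -kleinT u v with hc6
  -- pointwise statement along the line
  have hpt : ∀ s : k, (S52_krD c4 c6 σ τ).eval s ≠ 0 →
      ∃ i : ZMod 5 × ZMod 5, i ≠ 0 ∧
        (kleinSX r (C ζ') (C h) (S52_krU u' v' σ τ) (S52_krV u' v' σ τ)).eval s
          = (kleinSX i (C ζ) (C h) (S52_krU u v σ τ) (S52_krV u v σ τ)).eval s ∧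
        (kleinSY r (C ζ') (C h) (S52_krU u' v' σ τ) (S52_krV u' v' σ τ)).eval s
          = (kleinSY i (C ζ) (C h) (S52_krU u v σ τ) (S52_krV u v σ τ)).eval s := by
    intro s hs
    rw [S52_krD_eval] at hs
    set σs : k := 1 + s * (σ - 1) with hσs
    set τs : k := s * τ with hτs
    have e4 := klein_family_c4 u v σs τs
    have e6 := klein_family_c6 u v σs τs
    have eD := klein_family_D u v σs τs
    have e4' := klein_family_c4 u' v' σs τs
    have e6' := klein_family_c6 u' v' σs τs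
    rw [hH, hT] at e4' e6'
    have hHs : kleinH (σs * u' + τs * kleinWu u' v') (σs * v' + τs * kleinWv u' v')
        = kleinH (σs * u + τs * kleinWu u v) (σs * v + τs * kleinWv u v) := by
      have := e4'.trans e4.symm
      exact neg_injective this
    have hTs : kleinT (σs * u' + τs * kleinWu u' v') (σs * v' + τs * kleinWv u' v')
        = kleinT (σs * u + τs * kleinWu u v) (σs * v + τs * kleinWv u v) := by
      have := e6'.trans e6.symm
      exact neg_injective this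
    have hfs : kleinF (σs * u + τs * kleinWu u v) (σs * v + τs * kleinWv u v) ≠ 0 := by
      rw [eD]
      exact mul_ne_zero hf hs
    obtain ⟨i, hi0, hiX, hiY⟩ := S52_kr_pointwise ζ ζ' h _ _ _ _ hζ hζ' h5 h2 h3 hHs hTs hfs r hr
    refine ⟨i, hi0, ?_, ?_⟩
    · rw [S52_kr_evalSX, S52_kr_evalSX]
      exact hiX
    · rw [S52_kr_evalSY, S52_kr_evalSY]
      exact hiY
  obtain ⟨i, hi0, hiX, hiY⟩ := S52_rig_core (fun i : ZMod 5 × ZMod 5 => i ≠ 0)
    (kleinSX r (C ζ') (C h) (S52_krU u' v' σ τ) (S52_krV u' v' σ τ))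
    (kleinSY r (C ζ') (C h) (S52_krU u' v' σ τ) (S52_krV u' v' σ τ))
    (fun i => kleinSX i (C ζ) (C h) (S52_krU u v σ τ) (S52_krV u v σ τ))
    (fun i => kleinSY i (C ζ) (C h) (S52_krU u v σ τ) (S52_krV u v σ τ))
    (S52_krD c4 c6 σ τ) (S52_krD_ne_zero c4 c6 σ τ) hpt
  -- `s = 0`
  have h0X := congrArg (Polynomial.eval 0) hiX
  have h0Y := congrArg (Polynomial.eval 0) hiY
  rw [S52_kr_evalSX, S52_kr_evalSX] at h0X
  rw [S52_kr_evalSY, S52_kr_evalSY] at h0Y
  simp only [zero_mul, add_zero, one_mul] at h0X h0Y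
  have hir : i = r' := by
    apply S52_kr_label_inj ζ h u v hζ h5 h2 h3 hf i r' hi0 hr'
    · rw [← h0X, hX]
    · rw [← h0Y, hY]
  subst hir
  -- `s = 1`
  have h1X := congrArg (Polynomial.eval 1) hiX
  have h1Y := congrArg (Polynomial.eval 1) hiY
  rw [S52_kr_evalSX, S52_kr_evalSX] at h1X
  rw [S52_kr_evalSY, S52_kr_evalSY] at h1Y
  have hσ1 : (1 : k) + (σ - 1) = σ := by ring
  simp only [one_mul, hσ1] at h1X h1Y
  exact ⟨h1X, h1Y⟩

end main

end Fermat.Agent.S52
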