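import Fermat.Agent.S52.Cong
import Fermat.Agent.S52.KleinCount
import Fermat.Agent.S52.KleinMap
import Fermat.Agent.S52.KleinFamily
import Fermat.Agent.S52.KleinExist
import Fermat.Agent.S52.FrobPt
import Fermat.Agent.S52.KleinRigid

/-!
# S52 block F4, assembly K3 (helper11): `S52_F4Hyp`

For `ℓ ≥ 7`, `c4 c6 σ τ : ZMod ℓ` with `c4³ ≠ c6²`, `D(σ,τ) ≠ 0` and `k ⊇ 𝔽_ℓ` algebraically closed:
level-5 structures `A`, `A'` on `E`, `E_{σ,τ}` over `k` and ONE self-map `π` of `(ZMod 5)²` with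
`Frob ∘ A = A ∘ π`, `Frob ∘ A' = A' ∘ π`.

Inputs: F1 `klein_torsion_bij` (helper27), F2 `klein_family_*` (helper27), F3 `S52_klein_exists`,
K1 `S52_frob_isPt` (helper14), K2 `S52_klein_rigid` (helper15).
-/

set_option autoImplicit false

namespace Fermat.Agent.S52

open WeierstrassCurve

/-- F1 transported to any curve equal to the Klein curve of `(u, v)`. -/
theorem S52_klein_bij_on {k : Type*} [Field k] [DecidableEq k] (E : WeierstrassCurve k)
    (ζ h u v : k) (hζ : ζ ^ 4 + ζ ^ 3 + ζ ^ 2 + ζ + 1 = 0) (h5 : 5 * h = 1)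
    (h2 : (2 : k) ≠ 0) (h3 : (3 : k) ≠ 0) (hf : kleinF u v ≠ 0)
    (hE : E = kleinShort (27 * kleinH u v) (54 * kleinT u v)) :
    ∃ A : ZMod 5 × ZMod 5 →+ E.toAffine.Point,
      (∀ r : ZMod 5 × ZMod 5, r ≠ 0 → kleinIsPt E (A r) (kleinSX r ζ h u v) (kleinSY r ζ h u v)) ∧
      Function.Injective A ∧ ∀ P : E.toAffine.Point, 5 • P = 0 → ∃ r, A r = P := by
  subst hE
  exact klein_torsion_bij ζ h u v hζ h5 h2 h3 hf

/-- the base change of the short form of `(c4, c6)` is the Klein curve of any `(u, v)` over it. -/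
theorem S52_shortOf_baseChange_klein (ℓ : ℕ) [Fact ℓ.Prime] (k : Type*) [Field k]
    [Algebra (ZMod ℓ) k] (c4 c6 : ZMod ℓ) (u v : k)
    (hH : kleinH u v = -algebraMap (ZMod ℓ) k c4) (hT : kleinT u v = -algebraMap (ZMod ℓ) k c6) :
    (S52_shortOf c4 c6).baseChange k = kleinShort (27 * kleinH u v) (54 * kleinT u v) := by
  rw [hH, hT]
  ext <;> simp [S52_shortOf, kleinShort, WeierstrassCurve.baseChange, WeierstrassCurve.map]
  · left; exact map_ofNat _ 27
  · left; exact map_ofNat _ 54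

theorem S52_F4At_of (ℓ : ℕ) [Fact ℓ.Prime] (hℓ : 7 ≤ ℓ) (c4 c6 σ τ : ZMod ℓ)
    (hΔ : c4 ^ 3 - c6 ^ 2 ≠ 0) (hD : S52_Dh c4 c6 σ τ ≠ 0)
    (k : Type*) [Field k] [Algebra (ZMod ℓ) k] [DecidableEq k] [IsAlgClosed k] :
    S52_F4At ℓ c4 c6 σ τ k := by
  obtain ⟨h2, h3, h5⟩ := S52_char_ne ℓ k hℓ
  obtain ⟨ζ, hζ⟩ := S52_exists_zeta k
  have hinj : Function.Injective (algebraMap (ZMod ℓ) k) := (algebraMap (ZMod ℓ) k).injective
  have hΔk : (algebraMap (ZMod ℓ) k c4) ^ 3 - (algebraMap (ZMod ℓ) k c6) ^ 2 ≠ 0 := by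
    rw [← map_pow, ← map_pow, ← map_sub]
    exact fun h0 => hΔ (hinj (by rw [h0, map_zero]))
  obtain ⟨u, v, hH, hT⟩ := S52_klein_exists h2 h3 h5 _ _ hΔk
  have hf : kleinF u v ≠ 0 := S52_kleinF_ne_zero_of hH hT hΔk
  have hh5 : (5 : k) * 5⁻¹ = 1 := mul_inv_cancel₀ h5
  -- the Frobenius ring homomorphism of `k`
  let F : k →+* k := (FiniteField.frobeniusAlgHom (ZMod ℓ) k : k →+* k)
  have hF : ∀ x : k, F x = x ^ ℓ := fun x => S52_frob_apply ℓ k x
  have hFc : ∀ c : ZMod ℓ, F (algebraMap (ZMod ℓ) k c) = algebraMap (ZMod ℓ) k c := fun c => by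
    rw [hF, S52_frob_algebraMap]
  have hFh : F (5⁻¹ : k) = 5⁻¹ := by
    rw [map_inv₀, map_ofNat]
  -- the second parametrisation `(ζ', u', v') = Frob (ζ, u, v)` of the same curve
  have hζ' : (F ζ) ^ 4 + (F ζ) ^ 3 + (F ζ) ^ 2 + F ζ + 1 = 0 := by
    have := congrArg F hζ
    simpa only [map_add, map_pow, map_one, map_zero] using this
  have hH' : kleinH (F u) (F v) = kleinH u v := by
    rw [← kleinH_map, hH, map_neg, hFc]
  have hT' : kleinT (F u) (F v) = kleinT u v := by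
    rw [← kleinT_map, hT, map_neg, hFc]
  have hf' : kleinF (F u) (F v) ≠ 0 := by
    rw [← kleinF_map]
    exact fun h0 => hf ((map_eq_zero F).1 h0)
  -- the points of the family
  set s : k := algebraMap (ZMod ℓ) k σ with hs
  set t : k := algebraMap (ZMod ℓ) k τ with ht
  have hDk : S52_Dh (-kleinH u v) (-kleinT u v) s t ≠ 0 := by
    rw [hH, hT, neg_neg, neg_neg, hs, ht, ← S52_Dh_map]
    exact fun h0 => hD (hinj (by rw [h0, map_zero]))
  have hZH : ∀ a b : k, kleinH a b = kleinH u v → kleinT a b = kleinT u v →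
      kleinH (s * a + t * kleinWu a b) (s * b + t * kleinWv a b)
        = -algebraMap (ZMod ℓ) k (S52_c4h c4 c6 σ τ) := by
    intro a b ha hb
    have e := klein_family_c4 a b s t
    rw [ha, hb, hH, hT, neg_neg, neg_neg, hs, ht, ← S52_c4h_map] at e
    rw [← e, neg_neg]
  have hZT : ∀ a b : k, kleinH a b = kleinH u v → kleinT a b = kleinT u v →
      kleinT (s * a + t * kleinWu a b) (s * b + t * kleinWv a b)
        = -algebraMap (ZMod ℓ) k (S52_c6h c4 c6 σ τ) := by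
    intro a b ha hb
    have e := klein_family_c6 a b s t
    rw [ha, hb, hH, hT, neg_neg, neg_neg, hs, ht, ← S52_c6h_map] at e
    rw [← e, neg_neg]
  have hZf : ∀ a b : k, kleinH a b = kleinH u v → kleinT a b = kleinT u v → kleinF a b ≠ 0 →
      kleinF (s * a + t * kleinWu a b) (s * b + t * kleinWv a b) ≠ 0 := by
    intro a b ha hb hab
    rw [klein_family_D, ha, hb]
    exact mul_ne_zero hab hDk
  -- the four level structures
  obtain ⟨A, hApt, hAinj, hAsurj⟩ := S52_klein_bij_on ((S52_shortOf c4 c6).baseChange k)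
    ζ 5⁻¹ u v hζ hh5 h2 h3 hf (S52_shortOf_baseChange_klein ℓ k c4 c6 u v hH hT)
  obtain ⟨B, hBpt, -, -⟩ := S52_klein_bij_on ((S52_shortOf c4 c6).baseChange k)
    (F ζ) 5⁻¹ (F u) (F v) hζ' hh5 h2 h3 hf'
    (S52_shortOf_baseChange_klein ℓ k c4 c6 (F u) (F v) (hH'.trans hH) (hT'.trans hT))
  obtain ⟨A', hA'pt, hA'inj, -⟩ := S52_klein_bij_on
    ((S52_shortOf (S52_c4h c4 c6 σ τ) (S52_c6h c4 c6 σ τ)).baseChange k)
    ζ 5⁻¹ (s * u + t * kleinWu u v) (s * v + t * kleinWv u v) hζ hh5 h2 h3 (hZf u v rfl rfl hf)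
    (S52_shortOf_baseChange_klein ℓ k _ _ _ _ (hZH u v rfl rfl) (hZT u v rfl rfl))
  obtain ⟨B', hB'pt, -, -⟩ := S52_klein_bij_on
    ((S52_shortOf (S52_c4h c4 c6 σ τ) (S52_c6h c4 c6 σ τ)).baseChange k)
    (F ζ) 5⁻¹ (s * F u + t * kleinWu (F u) (F v)) (s * F v + t * kleinWv (F u) (F v))
    hζ' hh5 h2 h3 (hZf _ _ hH' hT' hf')
    (S52_shortOf_baseChange_klein ℓ k _ _ _ _ (hZH _ _ hH' hT') (hZT _ _ hH' hT'))
  -- Frobenius carries `A` to `B` and `A'` to `B'`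
  have hFZu : F (s * u + t * kleinWu u v) = s * F u + t * kleinWu (F u) (F v) := by
    rw [map_add, map_mul, map_mul, kleinWu_map, hs, ht, hFc, hFc]
  have hFZv : F (s * v + t * kleinWv u v) = s * F v + t * kleinWv (F u) (F v) := by
    rw [map_add, map_mul, map_mul, kleinWv_map, hs, ht, hFc, hFc]
  have hφA : ∀ r, Affine.Point.map (W' := (S52_shortOf c4 c6).toAffine)
      (FiniteField.frobeniusAlgHom (ZMod ℓ) k) (A r) = B r := by
    intro r
    by_cases hr : r = 0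
    · subst hr
      rw [map_zero, map_zero, map_zero]
    · have h1 := S52_frob_isPt ℓ (S52_shortOf c4 c6) k (A r) _ _ (hApt r hr)
      rw [← hF, ← hF, kleinSX_map, kleinSY_map, hFh] at h1
      exact h1.unique (hBpt r hr)
  have hφA' : ∀ r, Affine.Point.map
      (W' := (S52_shortOf (S52_c4h c4 c6 σ τ) (S52_c6h c4 c6 σ τ)).toAffine)
      (FiniteField.frobeniusAlgHom (ZMod ℓ) k) (A' r) = B' r := by
    intro r
    by_cases hr : r = 0
    · subst hr
      rw [map_zero, map_zero, map_zero]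
    · have h1 := S52_frob_isPt ℓ (S52_shortOf (S52_c4h c4 c6 σ τ) (S52_c6h c4 c6 σ τ)) k (A' r)
        _ _ (hA'pt r hr)
      rw [← hF, ← hF, kleinSX_map, kleinSY_map, hFh, hFZu, hFZv] at h1
      exact h1.unique (hB'pt r hr)
  -- the permutation `π`
  have h5tors : ∀ r, 5 • B r = 0 := by
    intro r
    rw [← map_nsmul]
    have h50 : ∀ x : ZMod 5, (5 : ℕ) • x = 0 := by decide
    have : (5 : ℕ) • r = 0 := Prod.ext (h50 r.1) (h50 r.2)
    rw [this, map_zero]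
  choose π hπ using fun r => hAsurj (B r) (h5tors r)
  refine ⟨A, A', π, hAinj, hA'inj, fun r => by rw [hφA, hπ], fun r => ?_⟩
  rw [hφA']
  by_cases hr : r = 0
  · subst hr
    have h0 : π 0 = 0 := hAinj (by rw [hπ, map_zero, map_zero])
    rw [h0, map_zero, map_zero]
  · have hBr : B r ≠ 0 := (hBpt r hr).ne_zero
    have hπr : π r ≠ 0 := by
      intro h0
      apply hBr
      rw [← hπ, h0, map_zero]
    have hc := ((hApt (π r) hπr).congr (hπ r)).coord (hBpt r hr)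
    obtain ⟨cX, cY⟩ := S52_klein_rigid ζ (F ζ) 5⁻¹ u v (F u) (F v) s t hζ hζ' hh5 h2 h3 hH' hT' hf
      hDk r (π r) hr hπr hc.1.symm hc.2.symm
    have h2' := hB'pt r hr
    rw [cX, cY] at h2'
    exact h2'.unique (hA'pt (π r) hπr)

/-- **F4**. -/
theorem S52_F4Hyp_holds : S52_F4Hyp := by
  intro ℓ _ hℓ c4 c6 σ τ hΔ hD
  exact @S52_F4At_of ℓ _ hℓ c4 c6 σ τ hΔ hD (AlgebraicClosure (ZMod ℓ)) _ _ (Classical.decEq _) _

end Fermat.Agent.S52
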