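import Mathlib
import Fermat.Prelude.Def_FLTPrelim_Modularity

/-!
# S52, block MODEL (generic part): changing `a₄`, `a₆` of an integral model to prescribe `c₄`, `c₆`

Given `W / ℤ` and target integers `C4 ≡ c₄(W) mod 576`, `C6 ≡ c₆(W) mod 864`, the model
`S52_model W C4 C6` (same `a₁, a₂, a₃`) has `c₄ = C4`, `c₆ = C6`.  If moreover
`C4 ≡ c₄ mod 576 ℓ` and `C6 ≡ c₆ mod 864 ℓ` then it has the same reduction mod `ℓ` as `W`.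
-/

set_option autoImplicit false

namespace Fermat.Agent.S52

open WeierstrassCurve

/-- The correction of `a₄`. -/
def S52_modelD4 (W : WeierstrassCurve ℤ) (C4 : ℤ) : ℤ := -((C4 - W.c₄) / 48)

/-- The correction of `a₆`. -/
def S52_modelD6 (W : WeierstrassCurve ℤ) (C4 C6 : ℤ) : ℤ :=
  (72 * W.b₂ * S52_modelD4 W C4 - (C6 - W.c₆)) / 864

/-- The model with the same `a₁, a₂, a₃` and prescribed `c₄ = C4`, `c₆ = C6`. -/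
def S52_model (W : WeierstrassCurve ℤ) (C4 C6 : ℤ) : WeierstrassCurve ℤ :=
  ⟨W.a₁, W.a₂, W.a₃, W.a₄ + S52_modelD4 W C4, W.a₆ + S52_modelD6 W C4 C6⟩

variable (W : WeierstrassCurve ℤ) (C4 C6 : ℤ)

@[simp] lemma S52_model_a₁ : (S52_model W C4 C6).a₁ = W.a₁ := rfl
@[simp] lemma S52_model_a₂ : (S52_model W C4 C6).a₂ = W.a₂ := rfl
@[simp] lemma S52_model_a₃ : (S52_model W C4 C6).a₃ = W.a₃ := rfl
@[simp] lemma S52_model_a₄ : (S52_model W C4 C6).a₄ = W.a₄ + S52_modelD4 W C4 := rfl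
@[simp] lemma S52_model_a₆ : (S52_model W C4 C6).a₆ = W.a₆ + S52_modelD6 W C4 C6 := rfl

lemma S52_modelD4_mul {C4 : ℤ} (h4 : (48 : ℤ) ∣ C4 - W.c₄) :
    48 * S52_modelD4 W C4 = -(C4 - W.c₄) := by
  unfold S52_modelD4
  rw [mul_neg, Int.mul_ediv_cancel' h4]

lemma S52_modelD4_dvd {C4 : ℤ} {m : ℤ} (h4 : 48 * m ∣ C4 - W.c₄) : m ∣ S52_modelD4 W C4 := by
  obtain ⟨k, hk⟩ := h4
  unfold S52_modelD4
  rw [hk, mul_assoc, Int.mul_ediv_cancel_left _ (by norm_num : (48 : ℤ) ≠ 0)]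
  exact (dvd_mul_right m k).neg_right

lemma S52_modelD6_aux {C4 C6 : ℤ} (h4 : (576 : ℤ) ∣ C4 - W.c₄) (h6 : (864 : ℤ) ∣ C6 - W.c₆) :
    (864 : ℤ) ∣ 72 * W.b₂ * S52_modelD4 W C4 - (C6 - W.c₆) := by
  have h12 : (12 : ℤ) ∣ S52_modelD4 W C4 :=
    S52_modelD4_dvd W (m := 12) (by norm_num; exact h4)
  obtain ⟨k, hk⟩ := h12
  refine dvd_sub ?_ h6
  rw [hk]
  exact ⟨W.b₂ * k, by ring⟩

lemma S52_modelD6_mul {C4 C6 : ℤ} (h4 : (576 : ℤ) ∣ C4 - W.c₄) (h6 : (864 : ℤ) ∣ C6 - W.c₆) :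
    864 * S52_modelD6 W C4 C6 = 72 * W.b₂ * S52_modelD4 W C4 - (C6 - W.c₆) := by
  unfold S52_modelD6
  rw [Int.mul_ediv_cancel' (S52_modelD6_aux W h4 h6)]

lemma S52_modelD6_dvd {C4 C6 : ℤ} {m : ℤ} (h4 : 576 * m ∣ C4 - W.c₄)
    (h6 : 864 * m ∣ C6 - W.c₆) : m ∣ S52_modelD6 W C4 C6 := by
  have h12 : 12 * m ∣ S52_modelD4 W C4 :=
    S52_modelD4_dvd W (m := 12 * m) (by rw [← mul_assoc]; norm_num; exact h4)
  obtain ⟨k, hk⟩ := h12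
  obtain ⟨j, hj⟩ := h6
  unfold S52_modelD6
  rw [hk, hj]
  have : 72 * W.b₂ * (12 * m * k) - 864 * m * j = 864 * (m * (W.b₂ * k - j)) := by ring
  rw [this, Int.mul_ediv_cancel_left _ (by norm_num : (864 : ℤ) ≠ 0)]
  exact dvd_mul_right _ _

lemma S52_dvd_of_mul_dvd {a m x : ℤ} (h : a * m ∣ x) : a ∣ x :=
  (dvd_mul_right a m).trans h

/-- `c₄` of the new model. -/
theorem S52_model_c₄ {C4 : ℤ} (h4 : (48 : ℤ) ∣ C4 - W.c₄) : (S52_model W C4 C6).c₄ = C4 := by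
  have h := S52_modelD4_mul W h4
  simp only [WeierstrassCurve.c₄, WeierstrassCurve.b₂, WeierstrassCurve.b₄, S52_model_a₁,
    S52_model_a₂, S52_model_a₃, S52_model_a₄] at h ⊢
  linarith

/-- `c₆` of the new model. -/
theorem S52_model_c₆ {C4 C6 : ℤ} (h4 : (576 : ℤ) ∣ C4 - W.c₄) (h6 : (864 : ℤ) ∣ C6 - W.c₆) :
    (S52_model W C4 C6).c₆ = C6 := by
  have h48 : (48 : ℤ) ∣ C4 - W.c₄ := S52_dvd_of_mul_dvd (a := 48) (m := 12) (by norm_num; exact h4)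
  have h := S52_modelD4_mul W h48
  have h' := S52_modelD6_mul W h4 h6
  simp only [WeierstrassCurve.c₄, WeierstrassCurve.c₆, WeierstrassCurve.b₂, WeierstrassCurve.b₄,
    WeierstrassCurve.b₆, S52_model_a₁, S52_model_a₂, S52_model_a₃, S52_model_a₄,
    S52_model_a₆] at h h' ⊢
  linear_combination (-1 : ℤ) * h' 

/-- `Δ` of the new model. -/
theorem S52_model_Δ {C4 C6 : ℤ} (h4 : (576 : ℤ) ∣ C4 - W.c₄) (h6 : (864 : ℤ) ∣ C6 - W.c₆) :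
    1728 * (S52_model W C4 C6).Δ = C4 ^ 3 - C6 ^ 2 := by
  have h48 : (48 : ℤ) ∣ C4 - W.c₄ := S52_dvd_of_mul_dvd (a := 48) (m := 12) (by norm_num; exact h4)
  rw [c_relation, S52_model_c₄ W C6 h48, S52_model_c₆ W h4 h6]

/-- Same reduction at a prime `ℓ` (any natural number, in fact) with
`C4 ≡ c₄ mod 576 ℓ`, `C6 ≡ c₆ mod 864 ℓ`. -/
theorem S52_model_reductionMod {C4 C6 : ℤ} (ℓ : ℕ) (h4 : 576 * (ℓ : ℤ) ∣ C4 - W.c₄)
    (h6 : 864 * (ℓ : ℤ) ∣ C6 - W.c₆) :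
    (S52_model W C4 C6).reductionMod ℓ = W.reductionMod ℓ := by
  have h48 : 48 * (ℓ : ℤ) ∣ C4 - W.c₄ := by
    refine Dvd.dvd.trans ?_ h4
    exact ⟨12, by ring⟩
  have hd4 : ((S52_modelD4 W C4 : ℤ) : ZMod ℓ) = 0 :=
    (ZMod.intCast_zmod_eq_zero_iff_dvd _ _).2 (S52_modelD4_dvd W h48)
  have hd6 : ((S52_modelD6 W C4 C6 : ℤ) : ZMod ℓ) = 0 :=
    (ZMod.intCast_zmod_eq_zero_iff_dvd _ _).2 (S52_modelD6_dvd W h4 h6)
  unfold WeierstrassCurve.reductionMod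
  ext <;> simp [WeierstrassCurve.map, hd4, hd6]

theorem S52_model_apOfModel {C4 C6 : ℤ} (ℓ : ℕ) (h4 : 576 * (ℓ : ℤ) ∣ C4 - W.c₄)
    (h6 : 864 * (ℓ : ℤ) ∣ C6 - W.c₆) :
    (S52_model W C4 C6).apOfModel ℓ = W.apOfModel ℓ := by
  unfold WeierstrassCurve.apOfModel
  rw [S52_model_reductionMod W ℓ h4 h6]

/-- `Δ` is unchanged mod `ℓ`. -/
theorem S52_model_Δ_dvd_iff {C4 C6 : ℤ} (ℓ : ℕ) (h4 : 576 * (ℓ : ℤ) ∣ C4 - W.c₄)
    (h6 : 864 * (ℓ : ℤ) ∣ C6 - W.c₆) :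
    (ℓ : ℤ) ∣ (S52_model W C4 C6).Δ ↔ (ℓ : ℤ) ∣ W.Δ := by
  have h := congrArg WeierstrassCurve.Δ (S52_model_reductionMod W ℓ h4 h6)
  unfold WeierstrassCurve.reductionMod at h
  rw [map_Δ, map_Δ] at h
  rw [← ZMod.intCast_zmod_eq_zero_iff_dvd, ← ZMod.intCast_zmod_eq_zero_iff_dvd]
  simp only [eq_intCast] at h
  rw [h]

/-- `c₄` is unchanged mod `ℓ`. -/
theorem S52_model_c₄_dvd_iff {C4 C6 : ℤ} (ℓ : ℕ) (h4 : 576 * (ℓ : ℤ) ∣ C4 - W.c₄)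
    (h6 : 864 * (ℓ : ℤ) ∣ C6 - W.c₆) :
    (ℓ : ℤ) ∣ (S52_model W C4 C6).c₄ ↔ (ℓ : ℤ) ∣ W.c₄ := by
  have h := congrArg WeierstrassCurve.c₄ (S52_model_reductionMod W ℓ h4 h6)
  unfold WeierstrassCurve.reductionMod at h
  rw [map_c₄, map_c₄] at h
  rw [← ZMod.intCast_zmod_eq_zero_iff_dvd, ← ZMod.intCast_zmod_eq_zero_iff_dvd]
  simp only [eq_intCast] at h
  rw [h]

end Fermat.Agent.S52
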