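import Mathlib
import Fermat.Prelude.Def_FLTPrelim_Modularity

/-!
# S52, block VC: the short Weierstrass form has the same number of points

For a field `F` in which `2` and `3` are invertible and a Weierstrass curve `W / F` with `Δ ≠ 0`,
the curve `y² = x³ - 27 c₄ x - 54 c₆` has the same number of points as `W`
(explicit bijection `(x, y) ↦ (36 x + 3 b₂, 108 (2 y + a₁ x + a₃))`).
Consequence: for a prime `ℓ ≥ 5` of good reduction of an integral model `W`,
`W.apOfModel ℓ` is the trace of Frobenius of the short form of `W mod ℓ`.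
-/

set_option autoImplicit false

namespace Fermat.Agent.S52

open WeierstrassCurve

/-- The short Weierstrass form `y² = x³ - 27 c₄ x - 54 c₆` attached to `(c₄, c₆)`. -/
def S52_shortOf {R : Type*} [CommRing R] (c₄ c₆ : R) : WeierstrassCurve R :=
  ⟨0, 0, 0, -27 * c₄, -54 * c₆⟩

/-- The short Weierstrass form of `W`. -/
def S52_short {R : Type*} [CommRing R] (W : WeierstrassCurve R) : WeierstrassCurve R :=
  S52_shortOf W.c₄ W.c₆

section ring

variable {R : Type*} [CommRing R]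

@[simp] lemma S52_shortOf_a₁ (c₄ c₆ : R) : (S52_shortOf c₄ c₆).a₁ = 0 := rfl
@[simp] lemma S52_shortOf_a₂ (c₄ c₆ : R) : (S52_shortOf c₄ c₆).a₂ = 0 := rfl
@[simp] lemma S52_shortOf_a₃ (c₄ c₆ : R) : (S52_shortOf c₄ c₆).a₃ = 0 := rfl
@[simp] lemma S52_shortOf_a₄ (c₄ c₆ : R) : (S52_shortOf c₄ c₆).a₄ = -27 * c₄ := rfl
@[simp] lemma S52_shortOf_a₆ (c₄ c₆ : R) : (S52_shortOf c₄ c₆).a₆ = -54 * c₆ := rfl

lemma S52_shortOf_c₄ (c₄ c₆ : R) : (S52_shortOf c₄ c₆).c₄ = 6 ^ 4 * c₄ := by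
  simp only [WeierstrassCurve.c₄, WeierstrassCurve.b₂, WeierstrassCurve.b₄, S52_shortOf_a₁,
    S52_shortOf_a₂, S52_shortOf_a₃, S52_shortOf_a₄]
  ring

lemma S52_shortOf_c₆ (c₄ c₆ : R) : (S52_shortOf c₄ c₆).c₆ = 6 ^ 6 * c₆ := by
  simp only [WeierstrassCurve.c₆, WeierstrassCurve.b₂, WeierstrassCurve.b₄, WeierstrassCurve.b₆,
    S52_shortOf_a₁, S52_shortOf_a₂, S52_shortOf_a₃, S52_shortOf_a₄, S52_shortOf_a₆]
  ring

/-- `1728 Δ(short) = 6¹² (c₄³ - c₆²)`; stated without division. -/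
lemma S52_shortOf_Δ (c₄ c₆ : R) : (S52_shortOf c₄ c₆).Δ = 6 ^ 6 * 27 * (c₄ ^ 3 - c₆ ^ 2) := by
  simp only [WeierstrassCurve.Δ, WeierstrassCurve.b₂, WeierstrassCurve.b₄, WeierstrassCurve.b₆,
    WeierstrassCurve.b₈, S52_shortOf_a₁, S52_shortOf_a₂, S52_shortOf_a₃, S52_shortOf_a₄,
    S52_shortOf_a₆]
  ring

lemma S52_short_Δ (W : WeierstrassCurve R) : (S52_short W).Δ = 6 ^ 12 * W.Δ := by
  rw [S52_short, S52_shortOf_Δ, ← W.c_relation]
  ring

lemma S52_short_c₄ (W : WeierstrassCurve R) : (S52_short W).c₄ = 6 ^ 4 * W.c₄ :=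
  S52_shortOf_c₄ _ _

lemma S52_short_c₆ (W : WeierstrassCurve R) : (S52_short W).c₆ = 6 ^ 6 * W.c₆ :=
  S52_shortOf_c₆ _ _

lemma S52_shortOf_map {S : Type*} [CommRing S] (f : R →+* S) (c₄ c₆ : R) :
    (S52_shortOf c₄ c₆).map f = S52_shortOf (f c₄) (f c₆) := by
  ext <;> simp [S52_shortOf, WeierstrassCurve.map, map_ofNat]

lemma S52_short_map {S : Type*} [CommRing S] (f : R →+* S) (W : WeierstrassCurve R) :
    (S52_short W).map f = S52_short (W.map f) := by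
  rw [S52_short, S52_short, S52_shortOf_map, map_c₄, map_c₆]

/-- The equation of the short form at the image point is `6⁶` times the equation of `W`. -/
lemma S52_short_equation_iff (W : WeierstrassCurve R) (x y : R) :
    (S52_short W).toAffine.Equation (36 * x + 3 * W.b₂) (108 * (2 * y + W.a₁ * x + W.a₃)) ↔
      6 ^ 6 * (y ^ 2 + W.a₁ * x * y + W.a₃ * y - (x ^ 3 + W.a₂ * x ^ 2 + W.a₄ * x + W.a₆)) = 0 := by
  rw [Affine.equation_iff]
  simp only [S52_short, S52_shortOf_a₁, S52_shortOf_a₂, S52_shortOf_a₃, S52_shortOf_a₄,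
    S52_shortOf_a₆, WeierstrassCurve.c₄, WeierstrassCurve.c₆, WeierstrassCurve.b₂,
    WeierstrassCurve.b₄, WeierstrassCurve.b₆]
  constructor
  · intro h
    linear_combination h
  · intro h
    linear_combination h

end ring

section field

variable {F : Type*} [Field F]

lemma S52_six_ne_zero (h2 : (2 : F) ≠ 0) (h3 : (3 : F) ≠ 0) : (6 : F) ≠ 0 := by
  have : (6 : F) = 2 * 3 := by norm_num
  rw [this]
  exact mul_ne_zero h2 h3

lemma S52_short_equation_iff' (W : WeierstrassCurve F) (h2 : (2 : F) ≠ 0) (h3 : (3 : F) ≠ 0)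
    (x y : F) :
    (S52_short W).toAffine.Equation (36 * x + 3 * W.b₂) (108 * (2 * y + W.a₁ * x + W.a₃)) ↔
      W.toAffine.Equation x y := by
  rw [S52_short_equation_iff, Affine.equation_iff, mul_eq_zero, sub_eq_zero]
  have h6 := pow_ne_zero 6 (S52_six_ne_zero h2 h3)
  simp [h6]

lemma S52_short_Δ_ne_zero (W : WeierstrassCurve F) (h2 : (2 : F) ≠ 0) (h3 : (3 : F) ≠ 0)
    (hΔ : W.Δ ≠ 0) : (S52_short W).Δ ≠ 0 := by
  rw [S52_short_Δ]
  exact mul_ne_zero (pow_ne_zero 12 (S52_six_ne_zero h2 h3)) hΔ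

/-- The map on points `W → short W`. -/
noncomputable def S52_toShort (W : WeierstrassCurve F) (h2 : (2 : F) ≠ 0) (h3 : (3 : F) ≠ 0)
    (hΔ : W.Δ ≠ 0) : W.toAffine.Point → (S52_short W).toAffine.Point
  | .zero => .zero
  | .some x y h => .some (36 * x + 3 * W.b₂) (108 * (2 * y + W.a₁ * x + W.a₃))
      ((Affine.equation_iff_nonsingular_of_Δ_ne_zero (W := (S52_short W).toAffine)
        (S52_short_Δ_ne_zero W h2 h3 hΔ)).1 ((S52_short_equation_iff' W h2 h3 x y).2 h.1))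

lemma S52_toShort_bijective (W : WeierstrassCurve F) (h2 : (2 : F) ≠ 0) (h3 : (3 : F) ≠ 0)
    (hΔ : W.Δ ≠ 0) : Function.Bijective (S52_toShort W h2 h3 hΔ) := by
  have h6 := S52_six_ne_zero h2 h3
  have h36 : (36 : F) ≠ 0 := by
    have : (36 : F) = 6 * 6 := by norm_num
    rw [this]; exact mul_ne_zero h6 h6
  have h108 : (108 : F) ≠ 0 := by
    have : (108 : F) = 6 * 6 * 3 := by norm_num
    rw [this]; exact mul_ne_zero (mul_ne_zero h6 h6) h3
  constructor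
  · rintro (_ | ⟨x, y, h⟩) (_ | ⟨x', y', h'⟩) hPQ
    · rfl
    · simp [S52_toShort] at hPQ
    · simp [S52_toShort] at hPQ
    · simp only [S52_toShort, Affine.Point.some.injEq] at hPQ
      obtain ⟨hx, hy⟩ := hPQ
      have hx' : x = x' := by
        have := add_right_cancel hx
        exact mul_left_cancel₀ h36 this
      subst hx'
      have hy' : y = y' := by
        have := mul_left_cancel₀ h108 hy
        have := add_right_cancel (add_right_cancel this)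
        exact mul_left_cancel₀ h2 this
      subst hy'
      rfl
  · rintro (_ | ⟨X, Y, h⟩)
    · exact ⟨.zero, rfl⟩
    · have hX : 36 * ((X - 3 * W.b₂) / 36) + 3 * W.b₂ = X := by field_simp; ring
      have hY : 108 * (2 * ((Y / 108 - W.a₁ * ((X - 3 * W.b₂) / 36) - W.a₃) / 2)
          + W.a₁ * ((X - 3 * W.b₂) / 36) + W.a₃) = Y := by field_simp; ring
      have heq : W.toAffine.Equation ((X - 3 * W.b₂) / 36)
          ((Y / 108 - W.a₁ * ((X - 3 * W.b₂) / 36) - W.a₃) / 2) := by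
        rw [← S52_short_equation_iff' W h2 h3, hX, hY]
        exact h.1
      refine ⟨.some _ _ ((Affine.equation_iff_nonsingular_of_Δ_ne_zero hΔ).1 heq), ?_⟩
      simp only [S52_toShort, Affine.Point.some.injEq]
      exact ⟨hX, hY⟩

/-- **VC (cardinality)**: `W` and its short form have the same number of points. -/
theorem S52_short_card (W : WeierstrassCurve F) (h2 : (2 : F) ≠ 0) (h3 : (3 : F) ≠ 0)
    (hΔ : W.Δ ≠ 0) : (S52_short W).card = W.card := by
  unfold WeierstrassCurve.card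
  exact (Nat.card_congr (Equiv.ofBijective _ (S52_toShort_bijective W h2 h3 hΔ))).symm

/-- **VC (trace)**: `W` and its short form have the same trace of Frobenius. -/
theorem S52_short_traceOfFrobenius (W : WeierstrassCurve F) (h2 : (2 : F) ≠ 0)
    (h3 : (3 : F) ≠ 0) (hΔ : W.Δ ≠ 0) :
    (S52_short W).traceOfFrobenius = W.traceOfFrobenius := by
  unfold WeierstrassCurve.traceOfFrobenius
  rw [S52_short_card W h2 h3 hΔ]

end field

section int

/-- `2 ≠ 0` in `ZMod ℓ` for a prime `ℓ ≥ 5`. -/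
lemma S52_zmod_two_ne_zero (ℓ : ℕ) [Fact ℓ.Prime] (h5 : 5 ≤ ℓ) : (2 : ZMod ℓ) ≠ 0 := by
  intro h
  have h' : ((2 : ℕ) : ZMod ℓ) = 0 := by exact_mod_cast h
  rw [ZMod.natCast_eq_zero_iff] at h'
  have := Nat.le_of_dvd (by norm_num) h'
  omega

/-- `3 ≠ 0` in `ZMod ℓ` for a prime `ℓ ≥ 5`. -/
lemma S52_zmod_three_ne_zero (ℓ : ℕ) [Fact ℓ.Prime] (h5 : 5 ≤ ℓ) : (3 : ZMod ℓ) ≠ 0 := by
  intro h
  have h' : ((3 : ℕ) : ZMod ℓ) = 0 := by exact_mod_cast h
  rw [ZMod.natCast_eq_zero_iff] at h'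
  have := Nat.le_of_dvd (by norm_num) h'
  omega

/-- good reduction at `ℓ` means `Δ ≠ 0` in `ZMod ℓ`. -/
lemma S52_reductionMod_Δ_ne_zero (W : WeierstrassCurve ℤ) (ℓ : ℕ)
    (hgood : W.IsGoodPrimeFor ℓ) : (W.reductionMod ℓ).Δ ≠ 0 := by
  unfold WeierstrassCurve.reductionMod
  rw [map_Δ]
  intro h
  apply hgood
  have : ((W.Δ : ℤ) : ZMod ℓ) = 0 := by simpa using h
  exact (ZMod.intCast_zmod_eq_zero_iff_dvd _ _).1 this

/-- The short form of `W mod ℓ` is `y² = x³ - 27 c₄ x - 54 c₆` with `c₄, c₆` reduced mod `ℓ`. -/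
lemma S52_short_reductionMod (W : WeierstrassCurve ℤ) (ℓ : ℕ) :
    S52_short (W.reductionMod ℓ) = S52_shortOf ((W.c₄ : ℤ) : ZMod ℓ) ((W.c₆ : ℤ) : ZMod ℓ) := by
  unfold WeierstrassCurve.reductionMod S52_short
  rw [map_c₄, map_c₆]
  rfl

/-- **VC for integral models**: at a good prime `ℓ ≥ 5`, `a_ℓ(W)` is the trace of Frobenius of the
short form `y² = x³ - 27 c₄ x - 54 c₆` over `𝔽_ℓ`, which has non-zero discriminant. -/
theorem S52_vc_apOfModel (W : WeierstrassCurve ℤ) (ℓ : ℕ) [Fact ℓ.Prime] (h5 : 5 ≤ ℓ)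
    (hgood : W.IsGoodPrimeFor ℓ) :
    W.apOfModel ℓ
        = (S52_shortOf ((W.c₄ : ℤ) : ZMod ℓ) ((W.c₆ : ℤ) : ZMod ℓ)).traceOfFrobenius ∧
      (S52_shortOf ((W.c₄ : ℤ) : ZMod ℓ) ((W.c₆ : ℤ) : ZMod ℓ)).Δ ≠ 0 := by
  have h2 := S52_zmod_two_ne_zero ℓ h5
  have h3 := S52_zmod_three_ne_zero ℓ h5
  have hΔ := S52_reductionMod_Δ_ne_zero W ℓ hgood
  rw [← S52_short_reductionMod]
  exact ⟨(S52_short_traceOfFrobenius _ h2 h3 hΔ).symm, S52_short_Δ_ne_zero _ h2 h3 hΔ⟩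

end int

end Fermat.Agent.S52
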