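import Mathlib
import Fermat.Prelude.Def_FLTPrelim_Modularity
import Fermat.Prelude.Def_FLTPrelim_ModularRep
import Fermat.Agent.S52.Family
import Fermat.Agent.S52.Model
import Fermat.Agent.S52.VC

/-!
# S52, block G (captain helper15): the glue

`S52_of` : statement S52 for a curve `W`, from the three inputs
* `S52_CongHyp` (block F + TR): the congruence of traces over `𝔽_ℓ`, `ℓ ≥ 7`, for the family;
* `S52_SSHyp`  (block S): the family has no cuspidal fibres in characteristic `ℓ ≥ 7`;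
* `S52_IrrHyp W` (block I): some member `(σ, m)` with `σ ≡ 1 mod m` is irreducible mod 3.
-/

set_option autoImplicit false

namespace Fermat.Agent.S52

open WeierstrassCurve

/-- Block F + TR: congruence of traces of Frobenius along the family. -/
def S52_CongHyp : Prop :=
  ∀ (ℓ : ℕ) [Fact ℓ.Prime], 7 ≤ ℓ → ∀ c4 c6 σ τ : ZMod ℓ, c4 ^ 3 - c6 ^ 2 ≠ 0 →
    S52_Dh c4 c6 σ τ ≠ 0 →
    (5 : ℤ) ∣ (S52_shortOf (S52_c4h c4 c6 σ τ) (S52_c6h c4 c6 σ τ)).traceOfFrobenius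
      - (S52_shortOf c4 c6).traceOfFrobenius

/-- Block S: no cuspidal fibre. -/
def S52_SSHyp : Prop :=
  ∀ (ℓ : ℕ) [Fact ℓ.Prime], 7 ≤ ℓ → ∀ c4 c6 σ τ : ZMod ℓ, c4 ^ 3 - c6 ^ 2 ≠ 0 →
    (σ ≠ 0 ∨ τ ≠ 0) → ¬ (S52_c4h c4 c6 σ τ = 0 ∧ S52_Dh c4 c6 σ τ = 0)

/-- Block I: an irreducible member congruent to `W` modulo `m`. -/
def S52_IrrHyp (W : WeierstrassCurve ℤ) : Prop :=
  ∀ m : ℤ, 0 < m → (576 * 864 : ℤ) ∣ m → ∃ σ : ℤ, m ∣ σ - 1 ∧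
    (S52_model W (S52_c4h W.c₄ W.c₆ σ m) (S52_c6h W.c₄ W.c₆ σ m)).ModRepIsIrreducible 3

/-- a prime not dividing `30` is at least `7`. -/
theorem S52_seven_le {ℓ : ℕ} (hℓ : ℓ.Prime) (h : ¬ (ℓ : ℤ) ∣ 30) : 7 ≤ ℓ := by
  by_contra hlt
  push Not at hlt
  have h2 := hℓ.two_le
  interval_cases ℓ
  · exact h (by norm_num)
  · exact h (by norm_num)
  · exact absurd hℓ (by norm_num)
  · exact h (by norm_num)
  · exact absurd hℓ (by norm_num)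

theorem S52_of (hcong : S52_CongHyp) (hss : S52_SSHyp) (W : WeierstrassCurve ℤ) (hΔ : W.Δ ≠ 0)
    (hW : W.IsSemistableModel) (hirr : S52_IrrHyp W) :
    ∃ W' : WeierstrassCurve ℤ, W'.Δ ≠ 0 ∧ W'.IsSemistableModel ∧ W'.ModRepIsIrreducible 3 ∧
      ∀ ℓ : ℕ, ℓ.Prime → W.IsGoodPrimeFor ℓ → W'.IsGoodPrimeFor ℓ → ℓ ≠ 5 →
        (5 : ℤ) ∣ (W'.apOfModel ℓ - W.apOfModel ℓ) := by
  -- the modulus
  set m : ℤ := 576 * 864 * (30 * W.Δ ^ 2) with hm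
  have hΔ2 : 0 < W.Δ ^ 2 := by positivity
  have hmpos : 0 < m := by rw [hm]; positivity
  have hmdvd : (576 * 864 : ℤ) ∣ m := ⟨30 * W.Δ ^ 2, by rw [hm]⟩
  obtain ⟨σ, hσ, hirr'⟩ := hirr m hmpos hmdvd
  set C4 : ℤ := S52_c4h W.c₄ W.c₆ σ m with hC4
  set C6 : ℤ := S52_c6h W.c₄ W.c₆ σ m with hC6
  set D : ℤ := S52_Dh W.c₄ W.c₆ σ m with hD
  have h4 : m ∣ C4 - W.c₄ := S52_c4h_dvd_sub _ _ _ _ _ hσ dvd_rfl
  have h6 : m ∣ C6 - W.c₆ := S52_c6h_dvd_sub _ _ _ _ _ hσ dvd_rfl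
  have hD1 : m ∣ D - 1 := S52_Dh_dvd_sub _ _ _ _ _ hσ dvd_rfl
  have h576 : (576 : ℤ) ∣ C4 - W.c₄ := Dvd.dvd.trans ⟨864 * (30 * W.Δ ^ 2), by rw [hm]; ring⟩ h4
  have h864 : (864 : ℤ) ∣ C6 - W.c₆ := Dvd.dvd.trans ⟨576 * (30 * W.Δ ^ 2), by rw [hm]; ring⟩ h6
  have h48 : (48 : ℤ) ∣ C4 - W.c₄ := Dvd.dvd.trans ⟨12, by norm_num⟩ h576
  -- old primes
  have hold4 : ∀ ℓ : ℕ, (ℓ : ℤ) ∣ 30 * W.Δ ^ 2 → 576 * (ℓ : ℤ) ∣ C4 - W.c₄ := by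
    intro ℓ hℓ
    obtain ⟨c, hc⟩ := hℓ
    exact Dvd.dvd.trans ⟨864 * c, by rw [hm, hc]; ring⟩ h4
  have hold6 : ∀ ℓ : ℕ, (ℓ : ℤ) ∣ 30 * W.Δ ^ 2 → 864 * (ℓ : ℤ) ∣ C6 - W.c₆ := by
    intro ℓ hℓ
    obtain ⟨c, hc⟩ := hℓ
    exact Dvd.dvd.trans ⟨576 * c, by rw [hm, hc]; ring⟩ h6
  -- the curve
  set W' : WeierstrassCurve ℤ := S52_model W C4 C6 with hW'
  have hc4' : W'.c₄ = C4 := S52_model_c₄ W C6 h48
  have hΔ' : W'.Δ = W.Δ * D ^ 5 := by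
    have h1 : 1728 * W'.Δ = C4 ^ 3 - C6 ^ 2 := S52_model_Δ W h576 h864
    have h2 : C4 ^ 3 - C6 ^ 2 = (W.c₄ ^ 3 - W.c₆ ^ 2) * D ^ 5 := S52_delta_h _ _ _ _
    have h3 : 1728 * W.Δ = W.c₄ ^ 3 - W.c₆ ^ 2 := W.c_relation
    have : (1728 : ℤ) * W'.Δ = 1728 * (W.Δ * D ^ 5) := by rw [h1, h2, ← h3]; ring
    exact mul_left_cancel₀ (by norm_num) this
  have hD0 : D ≠ 0 := by
    intro h0
    rw [h0, zero_sub] at hD1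
    have h1 : m ∣ 1 := (dvd_neg.mp hD1)
    have h2 : (576 * 864 : ℤ) ∣ 1 := hmdvd.trans h1
    have := Int.le_of_dvd (by norm_num) h2
    norm_num at this
  -- new primes
  have hnew : ∀ ℓ : ℕ, ℓ.Prime → ¬ (ℓ : ℤ) ∣ 30 * W.Δ ^ 2 →
      7 ≤ ℓ ∧ ((W.c₄ : ℤ) : ZMod ℓ) ^ 3 - ((W.c₆ : ℤ) : ZMod ℓ) ^ 2 ≠ 0 ∧ ((m : ℤ) : ZMod ℓ) ≠ 0 := by
    intro ℓ hℓ hnd
    have hp : Prime (ℓ : ℤ) := Nat.prime_iff_prime_int.mp hℓ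
    have h30 : ¬ (ℓ : ℤ) ∣ 30 := fun h => hnd (Dvd.dvd.mul_right h _)
    have hΔℓ : ¬ (ℓ : ℤ) ∣ W.Δ := fun h => hnd (Dvd.dvd.mul_left (Dvd.dvd.pow h (by norm_num)) _)
    have h7 := S52_seven_le hℓ h30
    refine ⟨h7, ?_, ?_⟩
    · intro h0
      have h1 : (((W.c₄ ^ 3 - W.c₆ ^ 2 : ℤ)) : ZMod ℓ) = 0 := by push_cast; exact h0
      rw [ZMod.intCast_zmod_eq_zero_iff_dvd, ← W.c_relation] at h1
      rcases hp.dvd_or_dvd h1 with h | h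
      · have h1728 : (1728 : ℤ) ∣ 30 ^ 6 := by norm_num
        have : (ℓ : ℤ) ∣ 30 ^ 6 := h.trans h1728
        exact h30 (hp.dvd_of_dvd_pow this)
      · exact hΔℓ h
    · intro h0
      rw [ZMod.intCast_zmod_eq_zero_iff_dvd, hm] at h0
      rcases hp.dvd_or_dvd h0 with h | h
      · have h1 : (576 * 864 : ℤ) ∣ 30 ^ 11 := by norm_num
        exact h30 (hp.dvd_of_dvd_pow (h.trans h1))
      · exact hnd h
  have hcast4 : ∀ ℓ : ℕ, ((C4 : ℤ) : ZMod ℓ) =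
      S52_c4h ((W.c₄ : ℤ) : ZMod ℓ) ((W.c₆ : ℤ) : ZMod ℓ) ((σ : ℤ) : ZMod ℓ) ((m : ℤ) : ZMod ℓ) := by
    intro ℓ
    have := S52_c4h_map (Int.castRingHom (ZMod ℓ)) W.c₄ W.c₆ σ m
    simpa using this
  have hcast6 : ∀ ℓ : ℕ, ((C6 : ℤ) : ZMod ℓ) =
      S52_c6h ((W.c₄ : ℤ) : ZMod ℓ) ((W.c₆ : ℤ) : ZMod ℓ) ((σ : ℤ) : ZMod ℓ) ((m : ℤ) : ZMod ℓ) := by
    intro ℓ
    have := S52_c6h_map (Int.castRingHom (ZMod ℓ)) W.c₄ W.c₆ σ m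
    simpa using this
  have hcastD : ∀ ℓ : ℕ, ((D : ℤ) : ZMod ℓ) =
      S52_Dh ((W.c₄ : ℤ) : ZMod ℓ) ((W.c₆ : ℤ) : ZMod ℓ) ((σ : ℤ) : ZMod ℓ) ((m : ℤ) : ZMod ℓ) := by
    intro ℓ
    have := S52_Dh_map (Int.castRingHom (ZMod ℓ)) W.c₄ W.c₆ σ m
    simpa using this
  refine ⟨W', ?_, ?_, hirr', ?_⟩
  · rw [hΔ']
    exact mul_ne_zero hΔ (pow_ne_zero _ hD0)
  · intro p hp hpΔ
    by_cases hold : (p : ℤ) ∣ 30 * W.Δ ^ 2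
    · have h1 := (S52_model_Δ_dvd_iff W p (hold4 p hold) (hold6 p hold)).mp hpΔ
      have h2 := hW p hp h1
      intro h3
      exact h2 ((S52_model_c₄_dvd_iff W p (hold4 p hold) (hold6 p hold)).mp h3)
    · obtain ⟨h7, hΔp, hmp⟩ := hnew p hp hold
      have : Fact p.Prime := ⟨hp⟩
      have hpp : Prime (p : ℤ) := Nat.prime_iff_prime_int.mp hp
      intro hc4
      rw [hc4'] at hc4
      have hDp : (p : ℤ) ∣ D := by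
        rw [hΔ'] at hpΔ
        rcases hpp.dvd_or_dvd hpΔ with h | h
        · exact absurd (Dvd.dvd.mul_left (Dvd.dvd.pow h (by norm_num)) _) hold
        · exact hpp.dvd_of_dvd_pow h
      have e4 : ((C4 : ℤ) : ZMod p) = 0 := (ZMod.intCast_zmod_eq_zero_iff_dvd _ _).mpr hc4
      have eD : ((D : ℤ) : ZMod p) = 0 := (ZMod.intCast_zmod_eq_zero_iff_dvd _ _).mpr hDp
      rw [hcast4] at e4
      rw [hcastD] at eD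
      exact hss p h7 _ _ _ _ hΔp (Or.inr hmp) ⟨e4, eD⟩
  · intro ℓ hℓ hgood hgood' hℓ5
    by_cases hold : (ℓ : ℤ) ∣ 30 * W.Δ ^ 2
    · rw [S52_model_apOfModel W ℓ (hold4 ℓ hold) (hold6 ℓ hold), sub_self]
      exact dvd_zero _
    · obtain ⟨h7, hΔℓ, hmℓ⟩ := hnew ℓ hℓ hold
      have : Fact ℓ.Prime := ⟨hℓ⟩
      have h5 : 5 ≤ ℓ := by omega
      have hpp : Prime (ℓ : ℤ) := Nat.prime_iff_prime_int.mp hℓ
      obtain ⟨e1, -⟩ := S52_vc_apOfModel W ℓ h5 hgood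
      obtain ⟨e2, -⟩ := S52_vc_apOfModel W' ℓ h5 hgood'
      have hc6' : W'.c₆ = C6 := S52_model_c₆ W h576 h864
      rw [e1, e2, hc4', hc6', hcast4, hcast6]
      apply hcong ℓ h7 _ _ _ _ hΔℓ
      rw [← hcastD]
      intro h0
      rw [ZMod.intCast_zmod_eq_zero_iff_dvd] at h0
      apply hgood'
      show (ℓ : ℤ) ∣ W'.Δ
      rw [hΔ']
      exact Dvd.dvd.mul_left (Dvd.dvd.pow h0 (by norm_num)) _

end Fermat.Agent.S52
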