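import Mathlib
import Fermat.Prelude.Def_FLTPrelim_Modularity
import Fermat.Agent.S52.Family
import Fermat.Agent.S52.VC
import Fermat.Agent.S52.Glue
import Fermat.Agent.Lib.FrobTrace.Final

/-!
# S52, block F5 = CONG (helper14): congruence of the traces of Frobenius along the family

Input: the rigidity statement F4 (`S52_F4At`, helper11): over an algebraically closed field `k ⊇ 𝔽_ℓ`
there are injective homomorphisms `A, A' : (ZMod 5)² → E(k), E_{σ,τ}(k)` and ONE self-map `π` of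
`(ZMod 5)²` with `Frob ∘ A = A ∘ π`, `Frob ∘ A' = A' ∘ π`.

Together with `ft_TR` (`φ² - a φ + ℓ = 0` on both curves, helper29) this gives
`5 ∣ a(E_{σ,τ}) - a(E)`:  for `r = (1, 0)`, `π² r - a π r + ℓ r = 0 = π² r - a' π r + ℓ r` in
`(ZMod 5)²`, so `(a' - a) π r = 0`, and `π r ≠ 0` because Frobenius is injective.

* `S52_cong_core`  : the abstract group-theoretic statement.
* `S52_cong_of`    : the congruence from `S52_F4At` over one algebraically closed `k`.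
* `S52_congHyp_of` : `S52_F4Hyp → S52_CongHyp` (the input of the glue `S52_of`).
-/

set_option autoImplicit false

namespace Fermat.Agent.S52

open WeierstrassCurve

/-- a nonzero vector of `(ZMod 5)²` killed by the integer `n` forces `5 ∣ n`. -/
theorem S52_five_dvd_of_smul_eq_zero (n : ℤ) (v : ZMod 5 × ZMod 5) (hv : v ≠ 0)
    (h : n • v = 0) : (5 : ℤ) ∣ n := by
  have : Fact (Nat.Prime 5) := ⟨by norm_num⟩
  have key := ZMod.intCast_zmod_eq_zero_iff_dvd n 5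
  rw [Nat.cast_ofNat] at key
  rw [← key]
  by_contra hn
  apply hv
  have h1 : n • v.1 = 0 := by simpa using congrArg Prod.fst h
  have h2 : n • v.2 = 0 := by simpa using congrArg Prod.snd h
  rw [zsmul_eq_mul] at h1 h2
  have e1 : v.1 = 0 := (mul_eq_zero.mp h1).resolve_left hn
  have e2 : v.2 = 0 := (mul_eq_zero.mp h2).resolve_left hn
  exact Prod.ext e1 e2

/-- abstract form of the congruence argument: two groups with "Frobenius" endomorphisms satisfying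
quadratic relations `φ² - a φ + l = 0`, `φ'² - a' φ' + l = 0`, and injective maps from `(ZMod 5)²`
intertwining both with the same self-map `π` of `(ZMod 5)²`.  Then `5 ∣ a' - a`. -/
theorem S52_cong_core {G G' : Type*} [AddCommGroup G] [AddCommGroup G']
    (φ : G →+ G) (φ' : G' →+ G') (hφinj : Function.Injective φ)
    (A : ZMod 5 × ZMod 5 →+ G) (A' : ZMod 5 × ZMod 5 →+ G')
    (π : ZMod 5 × ZMod 5 → ZMod 5 × ZMod 5)
    (hA : Function.Injective A) (hA' : Function.Injective A')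
    (hφ : ∀ r, φ (A r) = A (π r)) (hφ' : ∀ r, φ' (A' r) = A' (π r))
    (a a' l : ℤ)
    (h : ∀ Q : G, φ (φ Q) - a • φ Q + l • Q = 0)
    (h' : ∀ Q : G', φ' (φ' Q) - a' • φ' Q + l • Q = 0) :
    (5 : ℤ) ∣ a' - a := by
  set r : ZMod 5 × ZMod 5 := (1, 0) with hr
  have hr0 : r ≠ 0 := by
    intro h0
    have h1 := congrArg Prod.fst h0
    simp only [hr, Prod.fst_zero] at h1
    exact absurd h1 (by decide)
  -- `π r ≠ 0`
  have hπ : π r ≠ 0 := by
    intro h0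
    apply hr0
    apply hA
    apply hφinj
    rw [hφ, h0, map_zero, map_zero]
  -- the two relations in `(ZMod 5)²`
  have e : π (π r) - a • π r + l • r = 0 := by
    apply hA
    have := h (A r)
    rw [hφ, hφ] at this
    rw [map_zero, map_add, map_sub, map_zsmul, map_zsmul]
    exact this
  have e' : π (π r) - a' • π r + l • r = 0 := by
    apply hA'
    have := h' (A' r)
    rw [hφ', hφ'] at this
    rw [map_zero, map_add, map_sub, map_zsmul, map_zsmul]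
    exact this
  apply S52_five_dvd_of_smul_eq_zero _ _ hπ
  rw [sub_smul]
  have := congrArg₂ (· - ·) e e'
  simp only [sub_zero] at this
  rw [← this]
  abel

/-- **F4-shape** (output of the rigidity block, helper11) for one `(ℓ, c4, c6, σ, τ)` and one
field `k ⊇ 𝔽_ℓ`: level-5 structures on `E = S52_shortOf c4 c6` and on the member `(σ : τ)` of the
family, on which Frobenius acts through the SAME self-map `π` of `(ZMod 5)²`. -/
def S52_F4At (ℓ : ℕ) [Fact ℓ.Prime] (c4 c6 σ τ : ZMod ℓ) (k : Type*) [Field k]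
    [Algebra (ZMod ℓ) k] [DecidableEq k] : Prop :=
  ∃ (A : ZMod 5 × ZMod 5 →+ ((S52_shortOf c4 c6).baseChange k).toAffine.Point)
    (A' : ZMod 5 × ZMod 5 →+
      ((S52_shortOf (S52_c4h c4 c6 σ τ) (S52_c6h c4 c6 σ τ)).baseChange k).toAffine.Point)
    (π : ZMod 5 × ZMod 5 → ZMod 5 × ZMod 5),
    Function.Injective A ∧ Function.Injective A' ∧
    (∀ r, Affine.Point.map (W' := (S52_shortOf c4 c6).toAffine)
        (FiniteField.frobeniusAlgHom (ZMod ℓ) k) (A r) = A (π r)) ∧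
    (∀ r, Affine.Point.map
        (W' := (S52_shortOf (S52_c4h c4 c6 σ τ) (S52_c6h c4 c6 σ τ)).toAffine)
        (FiniteField.frobeniusAlgHom (ZMod ℓ) k) (A' r) = A' (π r))

/-- the discriminant of the short form is nonzero over `𝔽_ℓ`, `ℓ ≥ 5`, when `c4³ ≠ c6²`. -/
theorem S52_shortOf_Δ_ne_zero (ℓ : ℕ) [Fact ℓ.Prime] (hℓ : 5 ≤ ℓ) (c4 c6 : ZMod ℓ)
    (hΔ : c4 ^ 3 - c6 ^ 2 ≠ 0) : (S52_shortOf c4 c6).Δ ≠ 0 := by
  have h2 := S52_zmod_two_ne_zero ℓ hℓ
  have h3 := S52_zmod_three_ne_zero ℓ hℓ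
  rw [S52_shortOf_Δ]
  have h6 : (6 : ZMod ℓ) ≠ 0 := S52_six_ne_zero h2 h3
  have h27 : (27 : ZMod ℓ) ≠ 0 := by
    have : (27 : ZMod ℓ) = 3 ^ 3 := by norm_num
    rw [this]
    exact pow_ne_zero _ h3
  exact mul_ne_zero (mul_ne_zero (pow_ne_zero _ h6) h27) hΔ

/-- **F5 = CONG**, from the F4-shape over one algebraically closed field `k ⊇ 𝔽_ℓ`. -/
theorem S52_cong_of (ℓ : ℕ) [Fact ℓ.Prime] (hℓ : 7 ≤ ℓ) (c4 c6 σ τ : ZMod ℓ)
    (hΔ : c4 ^ 3 - c6 ^ 2 ≠ 0) (hD : S52_Dh c4 c6 σ τ ≠ 0)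
    (k : Type*) [Field k] [Algebra (ZMod ℓ) k] [DecidableEq k] [IsAlgClosed k]
    (hF4 : S52_F4At ℓ c4 c6 σ τ k) :
    (5 : ℤ) ∣ (S52_shortOf (S52_c4h c4 c6 σ τ) (S52_c6h c4 c6 σ τ)).traceOfFrobenius
      - (S52_shortOf c4 c6).traceOfFrobenius := by
  obtain ⟨A, A', π, hA, hA', hφ, hφ'⟩ := hF4
  have h5 : 5 ≤ ℓ := by omega
  have hΔ0 : (S52_shortOf c4 c6).Δ ≠ 0 := S52_shortOf_Δ_ne_zero ℓ h5 c4 c6 hΔ
  have hΔ1 : (S52_shortOf (S52_c4h c4 c6 σ τ) (S52_c6h c4 c6 σ τ)).Δ ≠ 0 := by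
    apply S52_shortOf_Δ_ne_zero ℓ h5
    rw [S52_delta_h]
    exact mul_ne_zero hΔ (pow_ne_zero _ hD)
  exact S52_cong_core
    (Affine.Point.map (W' := (S52_shortOf c4 c6).toAffine)
      (FiniteField.frobeniusAlgHom (ZMod ℓ) k))
    (Affine.Point.map
      (W' := (S52_shortOf (S52_c4h c4 c6 σ τ) (S52_c6h c4 c6 σ τ)).toAffine)
      (FiniteField.frobeniusAlgHom (ZMod ℓ) k))
    (Affine.Point.map_injective _)
    A A' π hA hA' hφ hφ'
    (S52_shortOf c4 c6).traceOfFrobenius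
    (S52_shortOf (S52_c4h c4 c6 σ τ) (S52_c6h c4 c6 σ τ)).traceOfFrobenius (ℓ : ℤ)
    (fun Q => Fermat.Agent.Lib.ft_TR ℓ _ hΔ0 k Q)
    (fun Q => Fermat.Agent.Lib.ft_TR ℓ _ hΔ1 k Q)

/-- **F4** as a hypothesis for all `ℓ ≥ 7`, over the algebraic closure of `𝔽_ℓ`
(any other algebraically closed `k` works as well: use `S52_cong_of` directly). -/
def S52_F4Hyp : Prop :=
  ∀ (ℓ : ℕ) [Fact ℓ.Prime], 7 ≤ ℓ → ∀ c4 c6 σ τ : ZMod ℓ, c4 ^ 3 - c6 ^ 2 ≠ 0 →
    S52_Dh c4 c6 σ τ ≠ 0 →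
    @S52_F4At ℓ _ c4 c6 σ τ (AlgebraicClosure (ZMod ℓ)) _ _ (Classical.decEq _)

/-- the input `S52_CongHyp` of the glue `S52_of`, from F4. -/
theorem S52_congHyp_of (h : S52_F4Hyp) : S52_CongHyp := by
  intro ℓ _ hℓ c4 c6 σ τ hΔ hD
  let _ : DecidableEq (AlgebraicClosure (ZMod ℓ)) := Classical.decEq _
  exact S52_cong_of ℓ hℓ c4 c6 σ τ hΔ hD (AlgebraicClosure (ZMod ℓ)) (h ℓ hℓ c4 c6 σ τ hΔ hD)

end Fermat.Agent.S52
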