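import Mathlib

/-!
# S52, block I, step (I2a): real roots of a monic polynomial with polynomial coefficients

`G ∈ ℝ[ε][z]` monic in `z`, all real roots of `G(·, 0)` simple.  Then there are at most `deg G`
real polynomials `T(ε)` of degree `≤ d` such that, for all small `ε > 0`, every real root `z` of
`G(·, ε)` satisfies `|z − T(ε)| ≤ C ε^(d+1)` for one of them.
(Hensel lifting modulo `ε^(d+1)` + mean value theorem + compactness.)
-/

open Polynomial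

namespace Fermat.Agent.S52

theorem S52_evalEval_eq_sum (G : ℝ[X][X]) (z ε : ℝ) :
    evalEval ε z G = ∑ k ∈ Finset.range (G.natDegree + 1), (G.coeff k).eval ε * z ^ k := by
  unfold evalEval
  conv_lhs => rw [eval_eq_sum_range (p := G)]
  rw [eval_finsetSum]
  refine Finset.sum_congr rfl fun k _ => ?_
  rw [eval_mul, eval_pow, eval_C]

theorem S52_continuous_evalEval (G : ℝ[X][X]) :
    Continuous fun p : ℝ × ℝ => evalEval p.2 p.1 G := by
  simp_rw [S52_evalEval_eq_sum]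
  refine continuous_finsetSum _ fun k _ => ?_
  exact ((G.coeff k).continuous.comp continuous_snd).mul (continuous_fst.pow k)

/-- substitution of a polynomial `T(ε)` for `z`. -/
theorem S52_eval_eval (G : ℝ[X][X]) (T : ℝ[X]) (ε : ℝ) :
    (G.eval T).eval ε = evalEval ε (T.eval ε) G := by
  have := Polynomial.hom_eval₂ G (RingHom.id ℝ[X]) (evalRingHom ε) T
  simp only [RingHom.comp_id, coe_evalRingHom] at this
  rw [eval₂_id] at this
  rw [this, eval₂_evalRingHom]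

theorem S52_evalEval_eq_eval_map (G : ℝ[X][X]) (z ε : ℝ) :
    evalEval ε z G = (G.map (evalRingHom ε)).eval z := (map_evalRingHom_eval ε z G).symm

/-- Hensel lifting in `ℝ[ε]` modulo `ε^(m+1)`. -/
theorem S52_hensel (G : ℝ[X][X]) (z₀ : ℝ) (hz₀ : evalEval 0 z₀ G = 0)
    (hd : evalEval 0 z₀ (derivative G) ≠ 0) (m : ℕ) :
    ∃ T : ℝ[X], T.eval 0 = z₀ ∧ T.natDegree ≤ m ∧ X ^ (m + 1) ∣ G.eval T := by
  induction m with
  | zero =>
    refine ⟨C z₀, eval_C, by simp, ?_⟩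
    rw [pow_one, X_dvd_iff, coeff_zero_eq_eval_zero, S52_eval_eval, eval_C, hz₀]
  | succ m ih =>
    obtain ⟨T, hT0, hTdeg, r, hr⟩ := ih
    set F₀ : ℝ := evalEval 0 z₀ (derivative G) with hF₀
    set c : ℝ := r.eval 0 / F₀ with hc
    refine ⟨T - C c * X ^ (m + 1), ?_, ?_, ?_⟩
    · simp [hT0]
    · refine (natDegree_sub_le _ _).trans (max_le (hTdeg.trans (Nat.le_succ m)) ?_)
      exact (natDegree_C_mul_le _ _).trans (by simp)
    · obtain ⟨k, hk⟩ := binomExpansion G T (-(C c * X ^ (m + 1)))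
      have hsub : T - C c * X ^ (m + 1) = T + -(C c * X ^ (m + 1)) := by ring
      rw [hsub, hk, hr]
      have hfac : X ^ (m + 1) * r + (derivative G).eval T * -(C c * X ^ (m + 1))
            + k * (-(C c * X ^ (m + 1))) ^ 2
          = X ^ (m + 1) * (r - C c * (derivative G).eval T + k * C c ^ 2 * X ^ (m + 1)) := by
        ring
      rw [hfac, pow_succ (X : ℝ[X]) (m + 1)]
      refine mul_dvd_mul_left _ ?_
      rw [X_dvd_iff, coeff_zero_eq_eval_zero]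
      simp only [eval_add, eval_sub, eval_mul, eval_C, eval_pow, eval_X]
      rw [S52_eval_eval, hT0, ← hF₀, hc]
      field_simp
      ring

theorem S52_poly_mvt (p : ℝ[X]) (z w c : ℝ)
    (h : ∀ ξ, min z w ≤ ξ → ξ ≤ max z w → c ≤ |p.derivative.eval ξ|) :
    c * |z - w| ≤ |p.eval z - p.eval w| := by
  rcases eq_or_ne z w with rfl | hne
  · simp
  wlog hlt : z < w generalizing z w
  · have hlt' : w < z := lt_of_le_of_ne (not_lt.mp hlt) (Ne.symm hne)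
    have := this w z (fun ξ h1 h2 => h ξ (by rwa [min_comm]) (by rwa [max_comm])) (Ne.symm hne) hlt'
    rwa [abs_sub_comm w z, abs_sub_comm (p.eval w)] at this
  obtain ⟨ξ, hξ, hξ'⟩ := exists_deriv_eq_slope (fun x => p.eval x) hlt
    p.continuous.continuousOn p.differentiable.differentiableOn
  rw [Polynomial.deriv] at hξ'
  have h1 := h ξ (by rw [min_eq_left hlt.le]; exact hξ.1.le) (by rw [max_eq_right hlt.le]; exact hξ.2.le)
  rw [hξ', abs_div] at h1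
  have hpos : 0 < |w - z| := abs_pos.mpr (sub_ne_zero.mpr (Ne.symm hne))
  rw [le_div_iff₀ hpos] at h1
  rwa [abs_sub_comm z w, abs_sub_comm (p.eval z)]

theorem S52_local (G : ℝ[X][X]) (z₀ : ℝ) (hd : evalEval 0 z₀ (derivative G) ≠ 0)
    (T : ℝ[X]) (hT0 : T.eval 0 = z₀) (m : ℕ) (hT : X ^ m ∣ G.eval T) :
    ∃ δ : ℝ, 0 < δ ∧ ∃ C : ℝ, 0 ≤ C ∧ ∀ ε, 0 ≤ ε → ε ≤ δ → ∀ z, |z - z₀| ≤ δ →
      evalEval ε z G = 0 → |z - T.eval ε| ≤ C * ε ^ m := by
  set F : ℝ × ℝ → ℝ := fun p => evalEval p.2 p.1 (derivative G) with hF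
  have hFc : Continuous F := S52_continuous_evalEval (derivative G)
  set c : ℝ := |F (z₀, 0)| / 2 with hc
  have hcpos : 0 < c := by
    have : 0 < |F (z₀, 0)| := abs_pos.mpr hd
    positivity
  obtain ⟨δ₁, hδ₁, hδ₁'⟩ := Metric.continuousAt_iff.mp hFc.continuousAt c hcpos
  have hFlow : ∀ ξ ε : ℝ, |ξ - z₀| < δ₁ → |ε| < δ₁ → c ≤ |F (ξ, ε)| := by
    intro ξ ε h1 h2
    have hdist : dist ((ξ, ε) : ℝ × ℝ) (z₀, 0) < δ₁ := by
      rw [Prod.dist_eq]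
      simp only [Real.dist_eq, sub_zero]
      exact max_lt h1 h2
    have := hδ₁' hdist
    rw [Real.dist_eq] at this
    have h3 : |F (z₀, 0)| - |F (ξ, ε)| ≤ |F (ξ, ε) - F (z₀, 0)| := by
      rw [abs_sub_comm]; exact abs_sub_abs_le_abs_sub _ _
    have : |F (z₀, 0)| = 2 * c := by rw [hc]; ring
    linarith
  obtain ⟨δ₂, hδ₂, hδ₂'⟩ := Metric.continuousAt_iff.mp (T.continuous.continuousAt (x := 0)) δ₁ hδ₁
  obtain ⟨S, hS⟩ := hT
  obtain ⟨C₁, hC₁⟩ := (isCompact_Icc (a := (0:ℝ)) (b := 1)).exists_bound_of_continuousOn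
    S.continuous.continuousOn
  have hC₁0 : 0 ≤ C₁ := (norm_nonneg _).trans (hC₁ 0 (by simp))
  refine ⟨min (δ₁ / 2) (min (δ₂ / 2) 1), by positivity, C₁ / c, by positivity, ?_⟩
  intro ε hε0 hεδ z hz hG
  have hε1 : ε ≤ 1 := hεδ.trans ((min_le_right _ _).trans (min_le_right _ _))
  have hε2 : ε < δ₂ := by
    have := hεδ.trans ((min_le_right _ _).trans (min_le_left _ _))
    linarith
  have hε3 : |ε| < δ₁ := by
    rw [abs_of_nonneg hε0]
    have := hεδ.trans (min_le_left _ _)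
    linarith
  have hz' : |z - z₀| < δ₁ := by
    have := hz.trans (min_le_left _ _)
    linarith
  set w : ℝ := T.eval ε with hw
  have hw' : |w - z₀| < δ₁ := by
    have := hδ₂' (x := ε) (by rw [Real.dist_eq, sub_zero, abs_of_nonneg hε0]; exact hε2)
    rwa [Real.dist_eq, hT0] at this
  set p : ℝ[X] := G.map (evalRingHom ε) with hp
  have hpz : p.eval z = 0 := by rw [hp, ← S52_evalEval_eq_eval_map]; exact hG
  have hpw : p.eval w = ε ^ m * S.eval ε := by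
    rw [hp, ← S52_evalEval_eq_eval_map, hw, ← S52_eval_eval, hS]
    simp
  have hmvt := S52_poly_mvt p z w c (by
    intro ξ h1 h2
    have hξ : |ξ - z₀| < δ₁ := by
      rw [abs_lt] at hz' hw' ⊢
      have hmin : z₀ - δ₁ < min z w := lt_min (by linarith) (by linarith)
      have hmax : max z w < z₀ + δ₁ := max_lt (by linarith) (by linarith)
      constructor <;> linarith
    have hder : p.derivative.eval ξ = F (ξ, ε) := by
      rw [hp, hF, derivative_map, ← S52_evalEval_eq_eval_map]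
    rw [hder]
    exact hFlow ξ ε hξ hε3)
  rw [hpz, hpw, zero_sub, abs_neg, abs_mul, abs_pow, abs_of_nonneg hε0] at hmvt
  have hSb : |S.eval ε| ≤ C₁ := hC₁ ε ⟨hε0, hε1⟩
  rw [div_mul_eq_mul_div, le_div_iff₀ hcpos, mul_comm]
  calc c * |z - w| ≤ ε ^ m * |S.eval ε| := hmvt
    _ ≤ ε ^ m * C₁ := by gcongr
    _ = C₁ * ε ^ m := mul_comm _ _

theorem S52_root_bound (G : ℝ[X][X]) (hG : G.Monic) :
    ∃ R : ℝ, 0 < R ∧ ∀ ε ∈ Set.Icc (0 : ℝ) 1, ∀ z, evalEval ε z G = 0 → |z| ≤ R := by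
  have hb : ∀ k : ℕ, ∃ B : ℝ, ∀ ε ∈ Set.Icc (0 : ℝ) 1, ‖(G.coeff k).eval ε‖ ≤ B := fun k =>
    (isCompact_Icc (a := (0:ℝ)) (b := 1)).exists_bound_of_continuousOn
      (G.coeff k).continuous.continuousOn
  choose B hB using hb
  have hB0 : ∀ k, 0 ≤ B k := fun k => (norm_nonneg _).trans (hB k 0 (by simp))
  refine ⟨∑ k ∈ Finset.range G.natDegree, B k + 1, by
    have := Finset.sum_nonneg (s := Finset.range G.natDegree) (fun k _ => hB0 k); linarith, ?_⟩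
  intro ε hε z hz
  set p : ℝ[X] := G.map (evalRingHom ε) with hp
  have hpm : p.Monic := hG.map _
  have hroot : p.IsRoot z := by
    rw [IsRoot.def, hp, ← S52_evalEval_eq_eval_map]; exact hz
  have h1 := hroot.norm_lt_cauchyBound hpm.ne_zero
  have h2 : (cauchyBound p : ℝ) ≤ ∑ k ∈ Finset.range G.natDegree, B k + 1 := by
    unfold cauchyBound
    rw [hpm.leadingCoeff, nnnorm_one, div_one]
    push_cast
    gcongr
    have hnat : p.natDegree = G.natDegree := hG.natDegree_map _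
    rw [hnat]
    have hs0 : 0 ≤ ∑ k ∈ Finset.range G.natDegree, B k := Finset.sum_nonneg (fun k _ => hB0 k)
    have : (Finset.range G.natDegree).sup (fun i => ‖p.coeff i‖₊)
        ≤ Real.toNNReal (∑ k ∈ Finset.range G.natDegree, B k) := by
      refine Finset.sup_le fun i hi => ?_
      rw [Real.le_toNNReal_iff_coe_le hs0, coe_nnnorm, hp, coeff_map, coe_evalRingHom]
      exact (hB i ε hε).trans (Finset.single_le_sum (f := B) (fun k _ => hB0 k) hi)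
    have h := NNReal.coe_le_coe.mpr this
    rwa [Real.coe_toNNReal _ hs0] at h
  have h3 : (‖z‖₊ : ℝ) < cauchyBound p := by exact_mod_cast h1
  rw [coe_nnnorm, Real.norm_eq_abs] at h3
  linarith

/-- roots of `G(·, ε)` are close to roots of `G(·, 0)` for small `ε`. -/
theorem S52_roots_near (G : ℝ[X][X]) (hG : G.Monic) (δ : ℝ) (hδ : 0 < δ) :
    ∃ ε₁ : ℝ, 0 < ε₁ ∧ ε₁ ≤ 1 ∧ ∀ ε, 0 ≤ ε → ε ≤ ε₁ → ∀ z, evalEval ε z G = 0 →
      ∃ z₀, evalEval 0 z₀ G = 0 ∧ |z - z₀| < δ := by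
  obtain ⟨R, hR, hRb⟩ := S52_root_bound G hG
  set K : Set (ℝ × ℝ) := (Set.Icc (-R) R ×ˢ Set.Icc (0 : ℝ) 1) ∩
    ({p | evalEval p.2 p.1 G = 0} ∩ ⋂ z₀ ∈ {z₀ : ℝ | evalEval 0 z₀ G = 0},
      {p : ℝ × ℝ | δ ≤ |p.1 - z₀|}) with hK
  have hKc : IsCompact K := by
    refine (isCompact_Icc.prod isCompact_Icc).inter_right (IsClosed.inter ?_ ?_)
    · exact isClosed_eq (S52_continuous_evalEval G) continuous_const
    · refine isClosed_biInter fun z₀ _ => ?_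
      exact isClosed_le continuous_const (continuous_abs.comp (continuous_fst.sub continuous_const))
  rcases K.eq_empty_or_nonempty with hKe | hKne
  · refine ⟨1, one_pos, le_refl _, fun ε hε0 hε1 z hz => ?_⟩
    by_contra hcon
    push Not at hcon
    have : ((z, ε) : ℝ × ℝ) ∈ K := by
      refine ⟨⟨abs_le.mp (hRb ε ⟨hε0, hε1⟩ z hz), ⟨hε0, hε1⟩⟩, hz, ?_⟩
      simp only [Set.mem_iInter, Set.mem_ofPred_eq]
      exact fun z₀ hz₀ => hcon z₀ hz₀
    rw [hKe] at this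
    exact this
  · obtain ⟨q, hqK, hqmin⟩ := hKc.exists_isMinOn hKne continuous_snd.continuousOn
    have hq0 : 0 < q.2 := by
      rcases (hqK.1.2.1 : (0:ℝ) ≤ q.2).lt_or_eq with h | h
      · exact h
      · exfalso
        have h1 : evalEval 0 q.1 G = 0 := by
          have := hqK.2.1
          simp only [Set.mem_ofPred_eq] at this
          rwa [← h] at this
        have h2 := hqK.2.2
        simp only [Set.mem_iInter, Set.mem_ofPred_eq] at h2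
        have := h2 q.1 h1
        simp at this
        linarith
    have hq1 : q.2 ≤ 1 := hqK.1.2.2
    refine ⟨q.2 / 2, by positivity, by linarith, fun ε hε0 hε1 z hz => ?_⟩
    by_contra hcon
    push Not at hcon
    have hmem : ((z, ε) : ℝ × ℝ) ∈ K := by
      refine ⟨⟨abs_le.mp (hRb ε ⟨hε0, by linarith⟩ z hz), ⟨hε0, by linarith⟩⟩, hz, ?_⟩
      simp only [Set.mem_iInter, Set.mem_ofPred_eq]
      exact fun z₀ hz₀ => hcon z₀ hz₀
    have := hqmin hmem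
    simp only [Set.mem_ofPred_eq] at this
    linarith

/-- **(I2a)** all real roots of `G(·, ε)` are approximated by finitely many polynomials. -/
theorem S52_roots_approx (G : ℝ[X][X]) (hG : G.Monic)
    (hsep : ∀ z₀ : ℝ, evalEval 0 z₀ G = 0 → evalEval 0 z₀ (derivative G) ≠ 0) (d : ℕ) :
    ∃ 𝒯 : Finset ℝ[X], 𝒯.card ≤ G.natDegree ∧ (∀ T ∈ 𝒯, T.natDegree ≤ d) ∧
      ∃ C : ℝ, 0 ≤ C ∧ ∃ ε₀ : ℝ, 0 < ε₀ ∧ ∀ ε, 0 < ε → ε ≤ ε₀ → ∀ z, evalEval ε z G = 0 →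
        ∃ T ∈ 𝒯, |z - T.eval ε| ≤ C * ε ^ (d + 1) := by
  classical
  set ℓ : ℝ[X] := G.map (evalRingHom 0) with hℓ
  have hℓm : ℓ.Monic := hG.map _
  set Z : Finset ℝ := ℓ.roots.toFinset with hZ
  have hZmem : ∀ z₀, z₀ ∈ Z ↔ evalEval 0 z₀ G = 0 := by
    intro z₀
    rw [hZ, Multiset.mem_toFinset, mem_roots hℓm.ne_zero, IsRoot.def, hℓ,
      ← S52_evalEval_eq_eval_map]
  have hZcard : Z.card ≤ G.natDegree := by
    calc Z.card ≤ Multiset.card ℓ.roots := Multiset.toFinset_card_le _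
      _ ≤ ℓ.natDegree := card_roots' _
      _ = G.natDegree := hG.natDegree_map _
  -- Hensel lifts
  have hT : ∀ z₀ : ℝ, ∃ T : ℝ[X], z₀ ∈ Z → (T.eval 0 = z₀ ∧ T.natDegree ≤ d ∧
      ∃ δ : ℝ, 0 < δ ∧ ∃ C : ℝ, 0 ≤ C ∧ ∀ ε, 0 ≤ ε → ε ≤ δ → ∀ z, |z - z₀| ≤ δ →
        evalEval ε z G = 0 → |z - T.eval ε| ≤ C * ε ^ (d + 1)) := by
    intro z₀
    by_cases hz₀ : z₀ ∈ Z
    · have h0 := (hZmem z₀).mp hz₀
      obtain ⟨T, hT0, hTd, hTdvd⟩ := S52_hensel G z₀ h0 (hsep z₀ h0) d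
      exact ⟨T, fun _ => ⟨hT0, hTd, S52_local G z₀ (hsep z₀ h0) T hT0 (d + 1) hTdvd⟩⟩
    · exact ⟨0, fun h => absurd h hz₀⟩
  choose T hT using hT
  have hδ : ∀ z₀ : ℝ, ∃ δ : ℝ, 0 < δ ∧ (z₀ ∈ Z → ∃ C : ℝ, 0 ≤ C ∧ ∀ ε, 0 ≤ ε → ε ≤ δ →
      ∀ z, |z - z₀| ≤ δ → evalEval ε z G = 0 → |z - (T z₀).eval ε| ≤ C * ε ^ (d + 1)) := by
    intro z₀
    by_cases hz₀ : z₀ ∈ Z
    · obtain ⟨δ, hδ, h⟩ := (hT z₀ hz₀).2.2
      exact ⟨δ, hδ, fun _ => h⟩
    · exact ⟨1, one_pos, fun h => absurd h hz₀⟩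
  choose δf hδf0 hδf using hδ
  have hC : ∀ z₀ : ℝ, ∃ C : ℝ, 0 ≤ C ∧ (z₀ ∈ Z → ∀ ε, 0 ≤ ε → ε ≤ δf z₀ →
      ∀ z, |z - z₀| ≤ δf z₀ → evalEval ε z G = 0 → |z - (T z₀).eval ε| ≤ C * ε ^ (d + 1)) := by
    intro z₀
    by_cases hz₀ : z₀ ∈ Z
    · obtain ⟨C, hC, h⟩ := hδf z₀ hz₀
      exact ⟨C, hC, fun _ => h⟩
    · exact ⟨0, le_refl _, fun h => absurd h hz₀⟩
  choose Cf hCf0 hCf using hC
  -- uniform constants
  obtain ⟨δ, hδ0, hδle⟩ : ∃ δ : ℝ, 0 < δ ∧ ∀ z₀ ∈ Z, δ ≤ δf z₀ := by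
    rcases Z.eq_empty_or_nonempty with hZe | hZne
    · exact ⟨1, one_pos, fun z₀ hz₀ => by rw [hZe] at hz₀; simp at hz₀⟩
    · refine ⟨Z.inf' hZne δf, ?_, fun z₀ hz₀ => Finset.inf'_le _ hz₀⟩
      rw [Finset.lt_inf'_iff]
      exact fun z₀ _ => hδf0 z₀
  set C : ℝ := ∑ z₀ ∈ Z, Cf z₀ with hCdef
  have hC0 : 0 ≤ C := Finset.sum_nonneg fun z₀ _ => hCf0 z₀
  have hCle : ∀ z₀ ∈ Z, Cf z₀ ≤ C := fun z₀ hz₀ =>
    Finset.single_le_sum (f := Cf) (fun z _ => hCf0 z) hz₀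
  obtain ⟨ε₁, hε₁0, hε₁1, hε₁⟩ := S52_roots_near G hG δ hδ0
  refine ⟨Z.image T, (Finset.card_image_le).trans hZcard, ?_, C, hC0, min ε₁ δ,
    lt_min hε₁0 hδ0, ?_⟩
  · intro T' hT'
    obtain ⟨z₀, hz₀, rfl⟩ := Finset.mem_image.mp hT'
    exact (hT z₀ hz₀).2.1
  · intro ε hε0 hεle z hz
    obtain ⟨z₀, hz₀, hzz₀⟩ := hε₁ ε hε0.le (hεle.trans (min_le_left _ _)) z hz
    have hz₀Z : z₀ ∈ Z := (hZmem z₀).mpr hz₀
    refine ⟨T z₀, Finset.mem_image_of_mem T hz₀Z, ?_⟩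
    have h1 := hCf z₀ hz₀Z ε hε0.le ((hεle.trans (min_le_right _ _)).trans (hδle z₀ hz₀Z)) z
      (hzz₀.le.trans (hδle z₀ hz₀Z)) hz
    refine h1.trans ?_
    gcongr
    exact hCle z₀ hz₀Z

end Fermat.Agent.S52
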