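import Fermat.Agent.S52.HitCore
import Fermat.Agent.S52.HITAnalytic

/-!
# S52, block I2b (helper14): elementary Hilbert irreducibility for the 3-division quartic

`S52_hit_quartic`: if `3x⁴ + 6Â(n)x² + 12B̂(n)x − Â(n)²` has a rational root for every large `n`
of an arithmetic progression, then it has a root `Q ∈ ℚ[n]`.
(`S52_roots_approx` (helper1) + `S52_dorge`.)
-/

set_option autoImplicit false

namespace Fermat.Agent.S52

open Polynomial Finset

/-- the monic quartic `z⁴ + 18 a z² + 108 b z − 27 a²` (`z = 3x` in the 3-division quartic) as a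
polynomial in `z` over `R[ε]`. -/
noncomputable def S52_hqG {R : Type*} [CommRing R] (a b : R[X]) : R[X][X] :=
  X ^ 4 + C (18 * a) * X ^ 2 + C (108 * b) * X - C (27 * a ^ 2)

theorem S52_hqG_monic {R : Type*} [CommRing R] [Nontrivial R] (a b : R[X]) : (S52_hqG a b).Monic := by
  unfold S52_hqG
  have h : X ^ 4 + C (18 * a) * X ^ 2 + C (108 * b) * X - C (27 * a ^ 2)
      = X ^ 4 + (C (18 * a) * X ^ 2 + C (108 * b) * X + C (-(27 * a ^ 2))) := by
    rw [C_neg]; ring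
  rw [h]
  apply monic_X_pow_add
  refine lt_of_le_of_lt (degree_quadratic_le) ?_
  norm_num

theorem S52_hqG_evalEval {R : Type*} [CommRing R] (a b : R[X]) (ε z : R) :
    evalEval ε z (S52_hqG a b) =
      z ^ 4 + 18 * a.eval ε * z ^ 2 + 108 * b.eval ε * z - 27 * (a.eval ε) ^ 2 := by
  simp [S52_hqG, evalEval]

theorem S52_hqG_derivative_evalEval {R : Type*} [CommRing R] (a b : R[X]) (ε z : R) :
    evalEval ε z (derivative (S52_hqG a b)) =
      4 * z ^ 3 + 36 * a.eval ε * z + 108 * b.eval ε := by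
  have hder : derivative (S52_hqG a b) = C 4 * X ^ 3 + C (36 * a) * X + C (108 * b) := by
    unfold S52_hqG
    simp only [derivative_sub, derivative_add, derivative_C_mul, derivative_X_pow, derivative_X,
      derivative_C, Nat.cast_ofNat, sub_zero, mul_one]
    simp only [map_mul, map_ofNat]
    norm_num
    ring
  rw [hder]
  simp [evalEval]

/-- separability of the monic quartic. -/
theorem S52_hq_sep (a b z : ℝ) (hsep : 4 * a ^ 3 + 27 * b ^ 2 ≠ 0)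
    (h1 : z ^ 4 + 18 * a * z ^ 2 + 108 * b * z - 27 * a ^ 2 = 0) :
    4 * z ^ 3 + 36 * a * z + 108 * b ≠ 0 := by
  intro h2
  set x := z / 3 with hx
  have hz : z = 3 * x := by rw [hx]; ring
  rw [hz] at h1 h2
  have hf : x ^ 3 + a * x + b = 0 := by linear_combination h2 / 108
  have hψ : 3 * x ^ 4 + 6 * a * x ^ 2 + 12 * b * x - a ^ 2 = 0 := by linear_combination h1 / 27
  have hf' : 3 * x ^ 2 + a = 0 := by
    have hsq : (3 * x ^ 2 + a) ^ 2 = 0 := by linear_combination 12 * x * hf - hψ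
    exact pow_eq_zero_iff (two_ne_zero) |>.mp hsq
  apply hsep
  linear_combination (-18 * a * x + 27 * b) * hf + (6 * a * x ^ 2 - 9 * b * x + 4 * a ^ 2) * hf'

/-- evaluation of a reflected polynomial. -/
theorem S52_eval_reflect (f : ℝ[X]) (N : ℕ) (hf : f.natDegree ≤ N) (n : ℝ) (hn : n ≠ 0) :
    (f.reflect N).eval n⁻¹ * n ^ N = f.eval n := by
  let _ : Invertible n := invertibleOfNonzero hn
  have := eval₂_reflect_mul_pow (RingHom.id ℝ) n N f hf
  simpa [eval₂_id, invOf_eq_inv] using this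

theorem S52_eval_reflect' (f : ℝ[X]) (N : ℕ) (hf : f.natDegree ≤ N) (n : ℝ) (hn : n ≠ 0) :
    (f.reflect N).eval n = f.eval n⁻¹ * n ^ N := by
  have h := S52_eval_reflect f N hf n⁻¹ (inv_ne_zero hn)
  rw [inv_inv] at h
  rw [← h, mul_assoc, ← mul_pow, inv_mul_cancel₀ hn, one_pow, mul_one]

theorem S52_natDegree_reflect_le (f : ℝ[X]) (N : ℕ) (hf : f.natDegree ≤ N) :
    (f.reflect N).natDegree ≤ N := by
  rw [natDegree_le_iff_coeff_eq_zero]
  intro i hi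
  rw [coeff_reflect, revAt_eq_self_of_lt hi]
  exact coeff_eq_zero_of_natDegree_lt (lt_of_le_of_lt hf hi)

/-- a rational root `x` of the 3-division quartic with integer coefficients has `3x ∈ ℤ`. -/
theorem S52_int_root (A B : ℤ) (x : ℚ)
    (h : 3 * x ^ 4 + 6 * (A : ℚ) * x ^ 2 + 12 * (B : ℚ) * x - (A : ℚ) ^ 2 = 0) :
    ∃ y : ℤ, (y : ℚ) = 3 * x := by
  set p : ℤ[X] := X ^ 4 + (C (18 * A) * X ^ 2 + C (108 * B) * X + C (-(27 * A ^ 2))) with hp
  have hpm : p.Monic := by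
    rw [hp]
    apply monic_X_pow_add
    refine lt_of_le_of_lt (degree_quadratic_le) ?_
    norm_num
  have hr : aeval (3 * x) p = 0 := by
    rw [hp]
    simp only [map_add, map_mul, map_pow, aeval_X, aeval_C, map_neg]
    simp only [eq_intCast, Int.cast_ofNat]
    linear_combination 27 * h
  obtain ⟨y, hy⟩ := isInteger_of_is_root_of_monic hpm hr
  exact ⟨y, by simpa using hy⟩

/-- **Elementary Hilbert irreducibility for the 3-division quartic** (Dörge). -/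
theorem S52_hit_quartic (A B : ℤ[X]) (d : ℕ) (hA : A.natDegree ≤ 2 * d) (hB : B.natDegree ≤ 3 * d)
    (hsep : 4 * (A.coeff (2 * d)) ^ 3 + 27 * (B.coeff (3 * d)) ^ 2 ≠ 0)
    (r M n₀ : ℤ) (hM : 0 < M)
    (hroot : ∀ n : ℤ, n₀ ≤ n → n ≡ r [ZMOD M] →
      ∃ x : ℚ, 3 * x ^ 4 + 6 * ((A.eval n : ℤ) : ℚ) * x ^ 2 + 12 * ((B.eval n : ℤ) : ℚ) * x
        - ((A.eval n : ℤ) : ℚ) ^ 2 = 0) :
    ∃ Q : ℚ[X], 3 * Q ^ 4 + 6 * A.map (Int.castRingHom ℚ) * Q ^ 2
        + 12 * B.map (Int.castRingHom ℚ) * Q - (A.map (Int.castRingHom ℚ)) ^ 2 = 0 := by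
  classical
  set AR : ℝ[X] := A.map (Int.castRingHom ℝ) with hAR
  set BR : ℝ[X] := B.map (Int.castRingHom ℝ) with hBR
  have hARdeg : AR.natDegree ≤ 2 * d := (natDegree_map_le).trans hA
  have hBRdeg : BR.natDegree ≤ 3 * d := (natDegree_map_le).trans hB
  set a : ℝ[X] := AR.reflect (2 * d) with ha
  set b : ℝ[X] := BR.reflect (3 * d) with hb
  have ha0 : a.eval 0 = ((A.coeff (2 * d) : ℤ) : ℝ) := by
    rw [← coeff_zero_eq_eval_zero, ha, coeff_reflect, revAt_zero, hAR, coeff_map]; rfl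
  have hb0 : b.eval 0 = ((B.coeff (3 * d) : ℤ) : ℝ) := by
    rw [← coeff_zero_eq_eval_zero, hb, coeff_reflect, revAt_zero, hBR, coeff_map]; rfl
  have hsepR : 4 * (a.eval 0) ^ 3 + 27 * (b.eval 0) ^ 2 ≠ 0 := by
    rw [ha0, hb0]; exact_mod_cast hsep
  have hsepG : ∀ z₀ : ℝ, evalEval 0 z₀ (S52_hqG a b) = 0 →
      evalEval 0 z₀ (derivative (S52_hqG a b)) ≠ 0 := by
    intro z₀ h0
    rw [S52_hqG_evalEval] at h0
    rw [S52_hqG_derivative_evalEval]
    exact S52_hq_sep _ _ z₀ hsepR h0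
  obtain ⟨𝒯, -, h𝒯deg, Cc, hC, ε₀, hε₀, happ⟩ :=
    S52_roots_approx (S52_hqG a b) (S52_hqG_monic a b) hsepG d
  -- the integer roots
  have hyex : ∀ n : ℤ, n₀ ≤ n → n ≡ r [ZMOD M] → ∃ y : ℤ,
      (y : ℚ) ^ 4 + 18 * ((A.eval n : ℤ) : ℚ) * (y : ℚ) ^ 2 + 108 * ((B.eval n : ℤ) : ℚ) * (y : ℚ)
        - 27 * ((A.eval n : ℤ) : ℚ) ^ 2 = 0 := by
    intro n h1 h2
    obtain ⟨x, hx⟩ := hroot n h1 h2
    obtain ⟨y, hy⟩ := S52_int_root _ _ x hx
    refine ⟨y, ?_⟩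
    rw [hy]; linear_combination 27 * hx
  choose! y hy using hyex
  -- the threshold
  set n₁ : ℤ := max n₀ (max 1 ⌈ε₀⁻¹⌉) with hn₁
  have hevalA : ∀ n : ℤ, AR.eval (n : ℝ) = ((A.eval n : ℤ) : ℝ) := by
    intro n; rw [hAR, eval_map, eval₂_at_intCast]; simp
  have hevalB : ∀ n : ℤ, BR.eval (n : ℝ) = ((B.eval n : ℤ) : ℝ) := by
    intro n; rw [hBR, eval_map, eval₂_at_intCast]; simp
  -- the hypothesis of the Dörge core
  have hdor : ∀ n : ℤ, n₁ ≤ n → n ≡ r [ZMOD M] →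
      ∃ T ∈ 𝒯.image (fun T : ℝ[X] => T.reflect d),
        |((y n : ℤ) : ℝ) - T.eval (n : ℝ)| * (n : ℝ) ≤ Cc := by
    intro n hn hnr
    have hn0 : n₀ ≤ n := (le_max_left _ _).trans hn
    have hn1 : (1 : ℤ) ≤ n := (le_trans (le_max_left _ _) (le_max_right _ _)).trans hn
    have hnε : ⌈ε₀⁻¹⌉ ≤ n := (le_trans (le_max_right _ _) (le_max_right _ _)).trans hn
    have hnpos : (0 : ℝ) < (n : ℝ) := by exact_mod_cast (by linarith : (0 : ℤ) < n)
    have hnne : (n : ℝ) ≠ 0 := hnpos.ne'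
    set ε : ℝ := (n : ℝ)⁻¹ with hε
    have hεpos : 0 < ε := inv_pos.mpr hnpos
    have hεle : ε ≤ ε₀ := by
      rw [hε, inv_le_comm₀ hnpos hε₀]
      calc ε₀⁻¹ ≤ (⌈ε₀⁻¹⌉ : ℝ) := Int.le_ceil _
        _ ≤ (n : ℝ) := by exact_mod_cast hnε
    have hεn : ε * (n : ℝ) = 1 := inv_mul_cancel₀ hnne
    have haε : a.eval ε * (n : ℝ) ^ (2 * d) = ((A.eval n : ℤ) : ℝ) := by
      rw [ha, hε, S52_eval_reflect AR (2 * d) hARdeg (n : ℝ) hnne, hevalA]
    have hbε : b.eval ε * (n : ℝ) ^ (3 * d) = ((B.eval n : ℤ) : ℝ) := by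
      rw [hb, hε, S52_eval_reflect BR (3 * d) hBRdeg (n : ℝ) hnne, hevalB]
    have hyR : ((y n : ℤ) : ℝ) ^ 4 + 18 * ((A.eval n : ℤ) : ℝ) * ((y n : ℤ) : ℝ) ^ 2
        + 108 * ((B.eval n : ℤ) : ℝ) * ((y n : ℤ) : ℝ) - 27 * ((A.eval n : ℤ) : ℝ) ^ 2 = 0 := by
      have := hy n hn0 hnr
      exact_mod_cast this
    set z : ℝ := ((y n : ℤ) : ℝ) * ε ^ d with hz
    have hGz : evalEval ε z (S52_hqG a b) = 0 := by
      rw [S52_hqG_evalEval]
      have hnd : (n : ℝ) ^ d ≠ 0 := pow_ne_zero _ hnne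
      have e1 : ε ^ d * (n : ℝ) ^ d = 1 := by rw [← mul_pow, hεn, one_pow]
      have key : (z ^ 4 + 18 * a.eval ε * z ^ 2 + 108 * b.eval ε * z - 27 * (a.eval ε) ^ 2)
          * ((n : ℝ) ^ d) ^ 4 = 0 := by
        rw [← hyR, ← haε, ← hbε, hz]
        have e2 : ((n : ℝ) ^ d) ^ 4 = (n : ℝ) ^ (2 * d) * (n : ℝ) ^ (2 * d) := by
          rw [← pow_mul, ← pow_add]; congr 1; ring
        have e3 : (n : ℝ) ^ (3 * d) = (n : ℝ) ^ (2 * d) * (n : ℝ) ^ d := by
          rw [← pow_add]; congr 1; ring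
        have e4 : (n : ℝ) ^ (2 * d) = (n : ℝ) ^ d * (n : ℝ) ^ d := by
          rw [← pow_add]; congr 1; ring
        rw [e3, e4]
        linear_combination
          (((y n : ℤ) : ℝ) ^ 4 * (ε ^ d * (n : ℝ) ^ d + 1) * ((ε ^ d * (n : ℝ) ^ d) ^ 2 + 1)
            + 18 * a.eval ε * ((n : ℝ) ^ d) ^ 2 * ((y n : ℤ) : ℝ) ^ 2 * (ε ^ d * (n : ℝ) ^ d + 1)
            + 108 * b.eval ε * ((n : ℝ) ^ d) ^ 3 * ((y n : ℤ) : ℝ)) * e1
      rcases mul_eq_zero.mp key with h | h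
      · exact h
      · exact absurd h (pow_ne_zero _ hnd)
    obtain ⟨T, hT, hTz⟩ := happ ε hεpos hεle z hGz
    refine ⟨T.reflect d, Finset.mem_image_of_mem _ hT, ?_⟩
    rw [S52_eval_reflect' T d (h𝒯deg T hT) (n : ℝ) hnne, ← hε]
    have hnd : (0 : ℝ) < (n : ℝ) ^ d := pow_pos hnpos d
    have e1 : ε ^ d * (n : ℝ) ^ d = 1 := by rw [← mul_pow, hεn, one_pow]
    have h1 : ((y n : ℤ) : ℝ) - T.eval ε * (n : ℝ) ^ d = (z - T.eval ε) * (n : ℝ) ^ d := by
      rw [hz]; linear_combination -((y n : ℤ) : ℝ) * e1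
    rw [h1, abs_mul, abs_of_pos hnd]
    have e2 : ε ^ (d + 1) * ((n : ℝ) ^ d * (n : ℝ)) = 1 := by
      rw [← pow_succ, ← mul_pow, hεn, one_pow]
    calc |z - T.eval ε| * (n : ℝ) ^ d * (n : ℝ)
        = |z - T.eval ε| * ((n : ℝ) ^ d * (n : ℝ)) := by ring
      _ ≤ Cc * ε ^ (d + 1) * ((n : ℝ) ^ d * (n : ℝ)) :=
          mul_le_mul_of_nonneg_right hTz (by positivity)
      _ = Cc := by rw [mul_assoc, e2, mul_one]
  have hdeg' : ∀ T ∈ 𝒯.image (fun T : ℝ[X] => T.reflect d), T.natDegree ≤ d := by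
    intro T hT
    obtain ⟨T₀, hT₀, rfl⟩ := Finset.mem_image.mp hT
    exact S52_natDegree_reflect_le T₀ d (h𝒯deg T₀ hT₀)
  obtain ⟨Q', hQ'deg, S, hScard, hS⟩ := S52_dorge _ d hdeg' Cc hC r M n₁ hM y hdor (4 * d + 1)
  -- the polynomial root
  set AQ : ℚ[X] := A.map (Int.castRingHom ℚ) with hAQ
  set BQ : ℚ[X] := B.map (Int.castRingHom ℚ) with hBQ
  set Q : ℚ[X] := C (1 / 3 : ℚ) * Q' with hQ
  refine ⟨Q, ?_⟩
  set P : ℚ[X] := 3 * Q ^ 4 + 6 * AQ * Q ^ 2 + 12 * BQ * Q - AQ ^ 2 with hP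
  have hAQdeg : AQ.natDegree ≤ 2 * d := (natDegree_map_le).trans hA
  have hBQdeg : BQ.natDegree ≤ 3 * d := (natDegree_map_le).trans hB
  have hQdeg : Q.natDegree ≤ d := (natDegree_C_mul_le _ _).trans hQ'deg
  have hPdeg : P.natDegree ≤ 4 * d := by
    have h3 : (3 : ℚ[X]) = C 3 := (map_ofNat C 3).symm
    have h6 : (6 : ℚ[X]) = C 6 := (map_ofNat C 6).symm
    have h12 : (12 : ℚ[X]) = C 12 := (map_ofNat C 12).symm
    have t1 : (3 * Q ^ 4).natDegree ≤ 4 * d := by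
      rw [h3]
      refine (natDegree_C_mul_le _ _).trans ((natDegree_pow_le).trans ?_)
      exact Nat.mul_le_mul_left 4 hQdeg
    have t2 : (6 * AQ * Q ^ 2).natDegree ≤ 4 * d := by
      rw [h6, mul_assoc]
      refine (natDegree_C_mul_le _ _).trans ((natDegree_mul_le).trans ?_)
      have := (natDegree_pow_le (p := Q) (n := 2))
      have := Nat.mul_le_mul_left 2 hQdeg
      omega
    have t3 : (12 * BQ * Q).natDegree ≤ 4 * d := by
      rw [h12, mul_assoc]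
      refine (natDegree_C_mul_le _ _).trans ((natDegree_mul_le).trans ?_)
      omega
    have t4 : (AQ ^ 2).natDegree ≤ 4 * d := by
      refine (natDegree_pow_le).trans ?_
      have := Nat.mul_le_mul_left 2 hAQdeg
      omega
    rw [hP]
    refine (natDegree_sub_le _ _).trans (max_le ?_ t4)
    refine (natDegree_add_le _ _).trans (max_le ?_ t3)
    exact (natDegree_add_le _ _).trans (max_le t1 t2)
  have hevalAQ : ∀ n : ℤ, AQ.eval (n : ℚ) = ((A.eval n : ℤ) : ℚ) := by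
    intro n; rw [hAQ, eval_map, eval₂_at_intCast]; simp
  have hevalBQ : ∀ n : ℤ, BQ.eval (n : ℚ) = ((B.eval n : ℤ) : ℚ) := by
    intro n; rw [hBQ, eval_map, eval₂_at_intCast]; simp
  have hPS : ∀ x ∈ S.image (fun n : ℤ => (n : ℚ)), P.eval x = 0 := by
    intro x hx
    obtain ⟨n, hn, rfl⟩ := Finset.mem_image.mp hx
    obtain ⟨h1, h2, h3⟩ := hS n hn
    have hn0 : n₀ ≤ n := (le_max_left _ _).trans h1
    have hyn := hy n hn0 h2
    rw [hP]
    simp only [eval_sub, eval_add, eval_mul, eval_pow, eval_ofNat, hevalAQ, hevalBQ, hQ, eval_C, h3]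
    linear_combination (1 / 27 : ℚ) * hyn
  have hcard : P.natDegree < #(S.image (fun n : ℤ => (n : ℚ))) := by
    rw [Finset.card_image_of_injective _ Int.cast_injective]
    omega
  exact eq_zero_of_natDegree_lt_card_of_eval_eq_zero' P _ hPS hcard

end Fermat.Agent.S52
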