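import Fermat.Agent.S52.BlockI
import Fermat.Agent.S52.HitQuartic
import Fermat.Agent.S52.Glue

/-!
# S52, block I: the input `S52_IrrHyp W` of the glue

`S52_irrHyp_of`: if the family has no cuspidal fibre over `ℚ̄` (block S over a field of
characteristic `0`), then `S52_IrrHyp W` holds for every `W / ℤ` with `Δ ≠ 0`.
-/

open Polynomial

namespace Fermat.Agent.S52

/-- Block S over a field `K`: the family has no cuspidal fibre. -/
def S52_SSField (K : Type*) [Field K] : Prop :=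
  ∀ c4 c6 σ τ : K, c4 ^ 3 - c6 ^ 2 ≠ 0 → (σ ≠ 0 ∨ τ ≠ 0) →
    ¬ (S52_c4h c4 c6 σ τ = 0 ∧ S52_Dh c4 c6 σ τ = 0)

section formPoly

variable {R : Type*} [CommRing R]

/-- The binary form `∑ a k σ^(n-k) τ^k` as a polynomial in `σ = X`, with `τ = m` constant. -/
noncomputable def S52_formPoly (a : ℕ → R) (n : ℕ) (m : R) : R[X] :=
  ∑ k ∈ Finset.range (n + 1), C (a k) * X ^ (n - k) * C m ^ k

theorem S52_formPoly_term (a : ℕ → R) (n : ℕ) (m : R) (k : ℕ) :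
    (C (a k) * X ^ (n - k) * C m ^ k : R[X]) = C (a k * m ^ k) * X ^ (n - k) := by
  rw [C_mul, C_pow]; ring

theorem S52_formPoly_natDegree_le (a : ℕ → R) (n : ℕ) (m : R) :
    (S52_formPoly a n m).natDegree ≤ n := by
  unfold S52_formPoly
  refine natDegree_sum_le_of_forall_le _ _ ?_
  intro k _
  rw [S52_formPoly_term]
  exact (natDegree_C_mul_X_pow_le _ _).trans (Nat.sub_le _ _)

theorem S52_formPoly_coeff_top (a : ℕ → R) (n : ℕ) (m : R) :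
    (S52_formPoly a n m).coeff n = a 0 := by
  unfold S52_formPoly
  rw [finsetSum_coeff]
  rw [Finset.sum_eq_single 0]
  · rw [S52_formPoly_term, coeff_C_mul_X_pow]
    simp
  · intro k hk hk0
    rw [S52_formPoly_term, coeff_C_mul_X_pow]
    have hk' : k ≤ n := Nat.lt_succ_iff.mp (Finset.mem_range.mp hk)
    have : n ≠ n - k := by omega
    simp [this]
  · intro h
    exact absurd (Finset.mem_range.mpr (Nat.succ_pos n)) h

theorem S52_formPoly_eval (a : ℕ → R) (n : ℕ) (m x : R) :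
    (S52_formPoly a n m).eval x = ∑ k ∈ Finset.range (n + 1), a k * x ^ (n - k) * m ^ k := by
  unfold S52_formPoly
  rw [eval_finsetSum]
  simp

theorem S52_formPoly_map {S : Type*} [CommRing S] (φ : R →+* S) (a : ℕ → R) (n : ℕ) (m : R) :
    (S52_formPoly a n m).map φ = S52_formPoly (fun k => φ (a k)) n (φ m) := by
  unfold S52_formPoly
  rw [Polynomial.map_sum]
  simp

/-- the family polynomials, in the variable `σ = X` with `τ = m`. -/
theorem S52_c4h_poly (c4 c6 m : R) :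
    S52_c4h (C c4) (C c6) (X : R[X]) (C m) = S52_formPoly (S52_c4c c4 c6) 20 m := by
  unfold S52_c4h S52_formPoly
  refine Finset.sum_congr rfl ?_
  intro k _
  rw [← S52_c4c_map C c4 c6 k]

theorem S52_c6h_poly (c4 c6 m : R) :
    S52_c6h (C c4) (C c6) (X : R[X]) (C m) = S52_formPoly (S52_c6c c4 c6) 30 m := by
  unfold S52_c6h S52_formPoly
  refine Finset.sum_congr rfl ?_
  intro k _
  rw [← S52_c6c_map C c4 c6 k]

theorem S52_Dh_poly (c4 c6 m : R) :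
    S52_Dh (C c4) (C c6) (X : R[X]) (C m) = S52_formPoly (S52_Dc c4 c6) 12 m := by
  unfold S52_Dh S52_formPoly
  refine Finset.sum_congr rfl ?_
  intro k _
  rw [← S52_Dc_map C c4 c6 k]

end formPoly

/-- **Block I**: the input `S52_IrrHyp W` of the glue, from block S over `ℚ̄`. -/
theorem S52_irrHyp_of (hss : S52_SSField (AlgebraicClosure ℚ)) (W : WeierstrassCurve ℤ)
    (hΔ : W.Δ ≠ 0) : S52_IrrHyp W := by
  intro m hm hmdvd
  have hΔ0 : W.c₄ ^ 3 - W.c₆ ^ 2 ≠ 0 := by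
    rw [← W.c_relation]
    exact mul_ne_zero (by norm_num) hΔ
  set φ : ℤ →+* ℚ := Int.castRingHom ℚ with hφ
  set P4 : ℤ[X] := S52_formPoly (S52_c4c W.c₄ W.c₆) 20 m with hP4
  set P6 : ℤ[X] := S52_formPoly (S52_c6c W.c₄ W.c₆) 30 m with hP6
  set PD : ℤ[X] := S52_formPoly (S52_Dc W.c₄ W.c₆) 12 m with hPD
  set Ah : ℤ[X] := C (-27) * P4 with hAh
  set Bh : ℤ[X] := C (-54) * P6 with hBh
  have hA : Ah.natDegree ≤ 2 * 10 :=
    (natDegree_C_mul_le _ _).trans (S52_formPoly_natDegree_le _ _ _)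
  have hB : Bh.natDegree ≤ 3 * 10 :=
    (natDegree_C_mul_le _ _).trans (S52_formPoly_natDegree_le _ _ _)
  have hAtop : Ah.coeff (2 * 10) = -27 * W.c₄ := by
    rw [hAh, coeff_C_mul, hP4, S52_formPoly_coeff_top]
    rfl
  have hBtop : Bh.coeff (3 * 10) = -54 * W.c₆ := by
    rw [hBh, coeff_C_mul, hP6, S52_formPoly_coeff_top]
    rfl
  have hsep : 4 * (Ah.coeff (2 * 10)) ^ 3 + 27 * (Bh.coeff (3 * 10)) ^ 2 ≠ 0 := by
    rw [hAtop, hBtop]
    have : 4 * (-27 * W.c₄) ^ 3 + 27 * (-54 * W.c₆) ^ 2 = -78732 * (W.c₄ ^ 3 - W.c₆ ^ 2) := by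
      ring
    rw [this]
    exact mul_ne_zero (by norm_num) hΔ0
  have hDdeg : PD.natDegree = 12 := by
    refine le_antisymm (S52_formPoly_natDegree_le _ _ _) (le_natDegree_of_ne_zero ?_)
    rw [hPD, S52_formPoly_coeff_top]
    exact one_ne_zero
  -- over `ℚ`
  have hP4q : P4.map φ = S52_c4h (C (W.c₄ : ℚ)) (C (W.c₆ : ℚ)) (X : ℚ[X]) (C (m : ℚ)) := by
    rw [S52_c4h_poly, hP4, S52_formPoly_map]
    congr 1
    · funext k
      rw [S52_c4c_map]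
      simp [hφ]
  have hP6q : P6.map φ = S52_c6h (C (W.c₄ : ℚ)) (C (W.c₆ : ℚ)) (X : ℚ[X]) (C (m : ℚ)) := by
    rw [S52_c6h_poly, hP6, S52_formPoly_map]
    congr 1
    · funext k
      rw [S52_c6c_map]
      simp [hφ]
  have hPDq : PD.map φ = S52_Dh (C (W.c₄ : ℚ)) (C (W.c₆ : ℚ)) (X : ℚ[X]) (C (m : ℚ)) := by
    rw [S52_Dh_poly, hPD, S52_formPoly_map]
    congr 1
    · funext k
      rw [S52_Dc_map]
      simp [hφ]
  have hAq : Ah.map φ = -27 * P4.map φ := by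
    rw [hAh, Polynomial.map_mul, map_C]
    have : (C (φ (-27)) : ℚ[X]) = -27 := by
      rw [map_neg, map_ofNat, C_neg, C_ofNat]
    rw [this]
  have hBq : Bh.map φ = -54 * P6.map φ := by
    rw [hBh, Polynomial.map_mul, map_C]
    have : (C (φ (-54)) : ℚ[X]) = -54 := by
      rw [map_neg, map_ofNat, C_neg, C_ofNat]
    rw [this]
  set κ : ℚ := -78732 * ((W.c₄ : ℚ) ^ 3 - (W.c₆ : ℚ) ^ 2) with hκdef
  have hκ : κ ≠ 0 := by
    rw [hκdef]
    refine mul_ne_zero (by norm_num) ?_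
    have : ((W.c₄ ^ 3 - W.c₆ ^ 2 : ℤ) : ℚ) ≠ 0 := Int.cast_ne_zero.mpr hΔ0
    simpa using this
  have hsyz : 4 * (Ah.map φ) ^ 3 + 27 * (Bh.map φ) ^ 2 = C κ * (PD.map φ) ^ 5 := by
    have h := S52_delta_h (C (W.c₄ : ℚ)) (C (W.c₆ : ℚ)) (X : ℚ[X]) (C (m : ℚ))
    rw [hAq, hBq, hP4q, hP6q, hPDq, hκdef]
    simp only [C_mul, C_neg, C_sub, C_pow, C_ofNat]
    linear_combination (-78732 : ℚ[X]) * h
  have hcop : IsCoprime (Ah.map φ) (PD.map φ) := by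
    rw [hAq]
    have hu : IsUnit (-27 : ℚ[X]) := by
      have : (-27 : ℚ[X]) = C (-27 : ℚ) := by rw [C_neg, C_ofNat]
      rw [this]
      exact isUnit_C.mpr (IsUnit.mk0 _ (by norm_num))
    rw [isCoprime_mul_unit_left_left hu]
    refine (Polynomial.isCoprime_iff_aeval_ne_zero_of_isAlgClosed (k := ℚ)
      (K := AlgebraicClosure ℚ) _ _).mpr ?_
    intro a
    by_contra hcon
    push Not at hcon
    obtain ⟨h4, hD⟩ := hcon
    have e4 := S52_c4h_map ((aeval a : ℚ[X] →ₐ[ℚ] AlgebraicClosure ℚ) : ℚ[X] →+* AlgebraicClosure ℚ)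
      (C (W.c₄ : ℚ)) (C (W.c₆ : ℚ)) (X : ℚ[X]) (C (m : ℚ))
    have eD := S52_Dh_map ((aeval a : ℚ[X] →ₐ[ℚ] AlgebraicClosure ℚ) : ℚ[X] →+* AlgebraicClosure ℚ)
      (C (W.c₄ : ℚ)) (C (W.c₆ : ℚ)) (X : ℚ[X]) (C (m : ℚ))
    simp only [RingHom.coe_coe, aeval_C, aeval_X] at e4 eD
    rw [hP4q] at h4
    rw [hPDq] at hD
    rw [h4] at e4
    rw [hD] at eD
    refine hss _ _ a _ ?_ (Or.inr ?_) ⟨e4.symm, eD.symm⟩
    · have : ((W.c₄ ^ 3 - W.c₆ ^ 2 : ℤ) : AlgebraicClosure ℚ) ≠ 0 := Int.cast_ne_zero.mpr hΔ0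
      simpa using this
    · have : ((m : ℤ) : AlgebraicClosure ℚ) ≠ 0 := Int.cast_ne_zero.mpr hm.ne'
      simpa using this
  obtain ⟨n, -, hn1, hn⟩ := S52_blockI_abs Ah Bh PD κ hκ 10 hA hB hsyz hcop
    (by rw [hDdeg]) (by rw [hDdeg]; norm_num) 1 m 0
    (S52_hit_quartic Ah Bh 10 hA hB hsep 1 m 0 hm)
  have hσ : m ∣ n - 1 := (Int.modEq_iff_dvd.mp hn1.symm)
  refine ⟨n, hσ, ?_⟩
  set C4 : ℤ := S52_c4h W.c₄ W.c₆ n m with hC4
  set C6 : ℤ := S52_c6h W.c₄ W.c₆ n m with hC6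
  set D : ℤ := S52_Dh W.c₄ W.c₆ n m with hD
  have h4 : m ∣ C4 - W.c₄ := S52_c4h_dvd_sub _ _ _ _ _ hσ dvd_rfl
  have h6 : m ∣ C6 - W.c₆ := S52_c6h_dvd_sub _ _ _ _ _ hσ dvd_rfl
  have hD1 : m ∣ D - 1 := S52_Dh_dvd_sub _ _ _ _ _ hσ dvd_rfl
  have h576 : (576 : ℤ) ∣ C4 - W.c₄ := (Dvd.dvd.trans ⟨864, by norm_num⟩ hmdvd).trans h4
  have h864 : (864 : ℤ) ∣ C6 - W.c₆ := (Dvd.dvd.trans ⟨576, by norm_num⟩ hmdvd).trans h6
  have h48 : (48 : ℤ) ∣ C4 - W.c₄ := Dvd.dvd.trans ⟨12, by norm_num⟩ h576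
  have hc4' : (S52_model W C4 C6).c₄ = C4 := S52_model_c₄ W C6 h48
  have hc6' : (S52_model W C4 C6).c₆ = C6 := S52_model_c₆ W h576 h864
  have hD0 : D ≠ 0 := by
    intro h0
    rw [h0, zero_sub] at hD1
    have h1 : m ∣ 1 := (dvd_neg.mp hD1)
    have h2 : (576 * 864 : ℤ) ∣ 1 := hmdvd.trans h1
    have := Int.le_of_dvd (by norm_num) h2
    norm_num at this
  have hΔ' : (S52_model W C4 C6).Δ ≠ 0 := by
    have h1 : 1728 * (S52_model W C4 C6).Δ = C4 ^ 3 - C6 ^ 2 := S52_model_Δ W h576 h864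
    have h2 : C4 ^ 3 - C6 ^ 2 = (W.c₄ ^ 3 - W.c₆ ^ 2) * D ^ 5 := S52_delta_h _ _ _ _
    intro h0
    rw [h0, mul_zero] at h1
    rw [h2] at h1
    exact mul_ne_zero hΔ0 (pow_ne_zero _ hD0) h1.symm
  refine hn (S52_model W C4 C6) hΔ' ?_ ?_
  · rw [hc4', hAh, eval_mul, eval_C, hP4, S52_formPoly_eval]
    rfl
  · rw [hc6', hBh, eval_mul, eval_C, hP6, S52_formPoly_eval]
    rfl

end Fermat.Agent.S52
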