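import Mathlib
import Fermat.Agent.S52.Glue
import Fermat.Agent.S52.Cong
import Fermat.Agent.S52.Irr

/-!
# S52: final assembly (captain helper15)

`S52_final_of` : statement S52 from the two remaining inputs
* `S52_SSAll` (block S): no cuspidal fibre, over every field in which `2, 3, 5` are invertible;
* `S52_F4Hyp` (block F4): Frobenius-compatible level-5 structures on `E` and `E_{σ,τ}`.
-/

set_option autoImplicit false

namespace Fermat.Agent.S52

open WeierstrassCurve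

/-- Block S, for all fields of characteristic prime to `30`. -/
def S52_SSAll : Prop :=
  ∀ (K : Type) [Field K], (2 : K) ≠ 0 → (3 : K) ≠ 0 → (5 : K) ≠ 0 → S52_SSField K

theorem S52_ssHyp_of_all (h : S52_SSAll) : S52_SSHyp := by
  intro ℓ hℓ h7 c4 c6 σ τ hΔ hστ
  have hp : ℓ.Prime := hℓ.out
  have hne : ∀ q : ℕ, q.Prime → q < 7 → ((q : ℕ) : ZMod ℓ) ≠ 0 := by
    intro q hq hq7 h0
    rw [ZMod.natCast_eq_zero_iff] at h0
    have := (Nat.prime_dvd_prime_iff_eq hp hq).1 h0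
    omega
  have h2 : (2 : ZMod ℓ) ≠ 0 := by simpa using hne 2 (by norm_num) (by norm_num)
  have h3 : (3 : ZMod ℓ) ≠ 0 := by simpa using hne 3 (by norm_num) (by norm_num)
  have h5 : (5 : ZMod ℓ) ≠ 0 := by simpa using hne 5 (by norm_num) (by norm_num)
  exact h (ZMod ℓ) h2 h3 h5 c4 c6 σ τ hΔ hστ

theorem S52_final_of (hss : S52_SSAll) (hf4 : S52_F4Hyp) (W : WeierstrassCurve ℤ) (hΔ : W.Δ ≠ 0)
    (hW : W.IsSemistableModel) :
    ∃ W' : WeierstrassCurve ℤ, W'.Δ ≠ 0 ∧ W'.IsSemistableModel ∧ W'.ModRepIsIrreducible 3 ∧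
      ∀ ℓ : ℕ, ℓ.Prime → W.IsGoodPrimeFor ℓ → W'.IsGoodPrimeFor ℓ → ℓ ≠ 5 →
        (5 : ℤ) ∣ (W'.apOfModel ℓ - W.apOfModel ℓ) := by
  have hQ : S52_SSField (AlgebraicClosure ℚ) :=
    hss (AlgebraicClosure ℚ) (by norm_num) (by norm_num) (by norm_num)
  exact S52_of (S52_congHyp_of hf4) (S52_ssHyp_of_all hss) W hΔ hW (S52_irrHyp_of hQ W hΔ)

end Fermat.Agent.S52
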