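import Mathlib
import Fermat.Agent.S52.Family
import Fermat.Agent.S52.FamBezoutCert

/-!
# S52, block S (semistability at new primes) and coprimality of `c₄(σ,τ)`, `D(σ,τ)`

Consequences of the two Bezout certificates of `FamBezoutCert.lean`
(`Us · c₄(σ,τ) + Vs · D(σ,τ) = κ (c4³ − c6²)⁶ σ³¹`, same with `τ³¹`, `κ = 2²⁶ 3¹² 5⁵`):

* `S52_fam_no_common_zero` : over a field with `2, 3, 5 ≠ 0`, `c4³ ≠ c6²`, `(σ,τ) ≠ (0,0)`: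
  not (`c₄(σ,τ) = 0` and `D(σ,τ) = 0`);
* `S52_fam_c4_c6_ne_zero` : same with `c₆(σ,τ)` instead of `D(σ,τ)`;
* `S52_fam_isCoprime_sigma`, `S52_fam_isCoprime_tau` : coprimality in `K[X]`;
* `S52_fam_int_semistable` : the integer form used for semistability at new primes.
-/

set_option autoImplicit false

namespace Fermat.Agent.S52

/-! ### consequences over a field of characteristic `∤ 30` -/

section field

variable {K : Type*} [Field K]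

theorem S52_bzK_ne_zero (h2 : (2 : K) ≠ 0) (h3 : (3 : K) ≠ 0) (h5 : (5 : K) ≠ 0) :
    ((S52_bzK : ℕ) : K) ≠ 0 := by
  have h : ((S52_bzK : ℕ) : K) = 2 ^ 26 * 3 ^ 12 * 5 ^ 5 := by
    rw [S52_bzK_eq]
    simp only [Nat.cast_mul, Nat.cast_pow, Nat.cast_ofNat]
  rw [h]
  exact mul_ne_zero (mul_ne_zero (pow_ne_zero _ h2) (pow_ne_zero _ h3)) (pow_ne_zero _ h5)

/-- **Block S, field form**: in characteristic `∤ 30`, if the base curve is nonsingular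
(`c4³ ≠ c6²`) and `(σ, τ) ≠ (0, 0)`, then `c₄(σ,τ)` and `D(σ,τ)` do not vanish together. -/
theorem S52_fam_no_common_zero (h2 : (2 : K) ≠ 0) (h3 : (3 : K) ≠ 0) (h5 : (5 : K) ≠ 0)
    (c4 c6 σ τ : K) (hΔ : c4 ^ 3 - c6 ^ 2 ≠ 0) (hστ : σ ≠ 0 ∨ τ ≠ 0) :
    ¬ (S52_c4h c4 c6 σ τ = 0 ∧ S52_Dh c4 c6 σ τ = 0) := by
  rintro ⟨h4, hD⟩
  have hK := S52_bzK_ne_zero h2 h3 h5
  have hs := S52_bez_sigma c4 c6 σ τ
  have ht := S52_bez_tau c4 c6 σ τ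
  rw [h4, hD, mul_zero, mul_zero, add_zero] at hs ht
  rcases hστ with h | h
  · exact mul_ne_zero (mul_ne_zero hK (pow_ne_zero _ hΔ)) (pow_ne_zero _ h) hs.symm
  · exact mul_ne_zero (mul_ne_zero hK (pow_ne_zero _ hΔ)) (pow_ne_zero _ h) ht.symm

/-- In characteristic `∤ 30`: `c₄(σ,τ)` and `c₆(σ,τ)` do not vanish together
(no member of the family is cuspidal). -/
theorem S52_fam_c4_c6_ne_zero (h2 : (2 : K) ≠ 0) (h3 : (3 : K) ≠ 0) (h5 : (5 : K) ≠ 0)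
    (c4 c6 σ τ : K) (hΔ : c4 ^ 3 - c6 ^ 2 ≠ 0) (hστ : σ ≠ 0 ∨ τ ≠ 0) :
    ¬ (S52_c4h c4 c6 σ τ = 0 ∧ S52_c6h c4 c6 σ τ = 0) := by
  rintro ⟨h4, h6⟩
  have hd := S52_delta_h c4 c6 σ τ
  rw [h4, h6] at hd
  have hD : S52_Dh c4 c6 σ τ = 0 := by
    have h0 : (c4 ^ 3 - c6 ^ 2) * S52_Dh c4 c6 σ τ ^ 5 = 0 := by
      rw [← hd]; ring
    rcases mul_eq_zero.mp h0 with h | h
    · exact absurd h hΔ
    · exact (pow_eq_zero_iff (by norm_num)).mp h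
  exact S52_fam_no_common_zero h2 h3 h5 c4 c6 σ τ hΔ hστ ⟨h4, hD⟩

/-- if `D(σ,τ) = 0` (bad fibre) then `c₄(σ,τ) ≠ 0` (the fibre is multiplicative). -/
theorem S52_fam_c4_ne_zero_of_D (h2 : (2 : K) ≠ 0) (h3 : (3 : K) ≠ 0) (h5 : (5 : K) ≠ 0)
    (c4 c6 σ τ : K) (hΔ : c4 ^ 3 - c6 ^ 2 ≠ 0) (hστ : σ ≠ 0 ∨ τ ≠ 0)
    (hD : S52_Dh c4 c6 σ τ = 0) : S52_c4h c4 c6 σ τ ≠ 0 :=
  fun h4 => S52_fam_no_common_zero h2 h3 h5 c4 c6 σ τ hΔ hστ ⟨h4, hD⟩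

open Polynomial in
/-- **Coprimality, `σ` variable**: for `τ ≠ 0` fixed, `c₄(X, τ)` and `D(X, τ)` are coprime
in `K[X]`. -/
theorem S52_fam_isCoprime_sigma (h2 : (2 : K) ≠ 0) (h3 : (3 : K) ≠ 0) (h5 : (5 : K) ≠ 0)
    (c4 c6 τ : K) (hΔ : c4 ^ 3 - c6 ^ 2 ≠ 0) (hτ : τ ≠ 0) :
    IsCoprime (S52_c4h (C c4) (C c6) (X : K[X]) (C τ)) (S52_Dh (C c4) (C c6) (X : K[X]) (C τ)) := by
  have hK := S52_bzK_ne_zero h2 h3 h5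
  have ht := S52_bez_tau (C c4) (C c6) (X : K[X]) (C τ)
  set κ : K := (S52_bzK : K) * (c4 ^ 3 - c6 ^ 2) ^ 6 * τ ^ 31 with hκ
  have hκ0 : κ ≠ 0 := mul_ne_zero (mul_ne_zero hK (pow_ne_zero _ hΔ)) (pow_ne_zero _ hτ)
  have hrhs : ((S52_bzK : ℕ) : K[X]) * ((C c4) ^ 3 - (C c6) ^ 2) ^ 6 * (C τ) ^ 31 = C κ := by
    rw [hκ]
    simp only [map_mul, map_pow, map_sub, map_natCast]
  rw [hrhs] at ht
  refine ⟨C κ⁻¹ * S52_bzUt (C c4) (C c6) (X : K[X]) (C τ),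
    C κ⁻¹ * S52_bzVt (C c4) (C c6) (X : K[X]) (C τ), ?_⟩
  calc C κ⁻¹ * S52_bzUt (C c4) (C c6) X (C τ) * S52_c4h (C c4) (C c6) X (C τ)
        + C κ⁻¹ * S52_bzVt (C c4) (C c6) X (C τ) * S52_Dh (C c4) (C c6) X (C τ)
      = C κ⁻¹ * (S52_bzUt (C c4) (C c6) X (C τ) * S52_c4h (C c4) (C c6) X (C τ)
        + S52_bzVt (C c4) (C c6) X (C τ) * S52_Dh (C c4) (C c6) X (C τ)) := by ring
    _ = C κ⁻¹ * C κ := by rw [ht]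
    _ = 1 := by rw [← C_mul, inv_mul_cancel₀ hκ0, C_1]

open Polynomial in
/-- **Coprimality, `τ` variable**: for `σ ≠ 0` fixed, `c₄(σ, X)` and `D(σ, X)` are coprime
in `K[X]`. -/
theorem S52_fam_isCoprime_tau (h2 : (2 : K) ≠ 0) (h3 : (3 : K) ≠ 0) (h5 : (5 : K) ≠ 0)
    (c4 c6 σ : K) (hΔ : c4 ^ 3 - c6 ^ 2 ≠ 0) (hσ : σ ≠ 0) :
    IsCoprime (S52_c4h (C c4) (C c6) (C σ) (X : K[X])) (S52_Dh (C c4) (C c6) (C σ) (X : K[X])) := by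
  have hK := S52_bzK_ne_zero h2 h3 h5
  have ht := S52_bez_sigma (C c4) (C c6) (C σ) (X : K[X])
  set κ : K := (S52_bzK : K) * (c4 ^ 3 - c6 ^ 2) ^ 6 * σ ^ 31 with hκ
  have hκ0 : κ ≠ 0 := mul_ne_zero (mul_ne_zero hK (pow_ne_zero _ hΔ)) (pow_ne_zero _ hσ)
  have hrhs : ((S52_bzK : ℕ) : K[X]) * ((C c4) ^ 3 - (C c6) ^ 2) ^ 6 * (C σ) ^ 31 = C κ := by
    rw [hκ]
    simp only [map_mul, map_pow, map_sub, map_natCast]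
  rw [hrhs] at ht
  refine ⟨C κ⁻¹ * S52_bzUs (C c4) (C c6) (C σ) (X : K[X]),
    C κ⁻¹ * S52_bzVs (C c4) (C c6) (C σ) (X : K[X]), ?_⟩
  calc C κ⁻¹ * S52_bzUs (C c4) (C c6) (C σ) X * S52_c4h (C c4) (C c6) (C σ) X
        + C κ⁻¹ * S52_bzVs (C c4) (C c6) (C σ) X * S52_Dh (C c4) (C c6) (C σ) X
      = C κ⁻¹ * (S52_bzUs (C c4) (C c6) (C σ) X * S52_c4h (C c4) (C c6) (C σ) X
        + S52_bzVs (C c4) (C c6) (C σ) X * S52_Dh (C c4) (C c6) (C σ) X) := by ring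
    _ = C κ⁻¹ * C κ := by rw [ht]
    _ = 1 := by rw [← C_mul, inv_mul_cancel₀ hκ0, C_1]

end field

/-! ### integer form (semistability of the members at new primes) -/

/-- **Block S, integer form**: if a prime `ℓ ∤ 30` does not divide `c4³ − c6²` and does not
divide both `σ` and `τ`, then it does not divide both `c₄(σ,τ)` and `c₆(σ,τ)`. -/
theorem S52_fam_int_semistable (ℓ : ℕ) (hℓ : ℓ.Prime) (h30 : ¬ (ℓ : ℤ) ∣ 30)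
    (c4 c6 σ τ : ℤ) (hΔ : ¬ (ℓ : ℤ) ∣ c4 ^ 3 - c6 ^ 2) (hστ : ¬ ((ℓ : ℤ) ∣ σ ∧ (ℓ : ℤ) ∣ τ)) :
    ¬ ((ℓ : ℤ) ∣ S52_c4h c4 c6 σ τ ∧ (ℓ : ℤ) ∣ S52_c6h c4 c6 σ τ) := by
  have : Fact ℓ.Prime := ⟨hℓ⟩
  rintro ⟨h4, h6⟩
  have hn : ∀ n : ℤ, ((n : ZMod ℓ) = 0 ↔ (ℓ : ℤ) ∣ n) := fun n =>
    ZMod.intCast_zmod_eq_zero_iff_dvd n ℓ
  have hne : ∀ n : ℕ, (n : ℤ) ∣ 30 → ((n : ℕ) : ZMod ℓ) ≠ 0 := by
    intro n hn30 h0
    have hdvd : ℓ ∣ n := (ZMod.natCast_eq_zero_iff n ℓ).mp h0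
    exact h30 (dvd_trans (Int.natCast_dvd_natCast.mpr hdvd) hn30)
  have h2 : (2 : ZMod ℓ) ≠ 0 := by simpa using hne 2 (by norm_num)
  have h3 : (3 : ZMod ℓ) ≠ 0 := by simpa using hne 3 (by norm_num)
  have h5 : (5 : ZMod ℓ) ≠ 0 := by simpa using hne 5 (by norm_num)
  refine S52_fam_c4_c6_ne_zero h2 h3 h5 (c4 : ZMod ℓ) (c6 : ZMod ℓ) (σ : ZMod ℓ) (τ : ZMod ℓ)
    ?_ ?_ ⟨?_, ?_⟩
  · intro h
    apply hΔ
    rw [← hn]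
    push_cast
    exact h
  · by_contra hcon
    rw [not_or, not_not, not_not] at hcon
    exact hστ ⟨(hn σ).mp hcon.1, (hn τ).mp hcon.2⟩
  · have h := (hn _).mpr h4
    have hm := S52_c4h_map (Int.castRingHom (ZMod ℓ)) c4 c6 σ τ
    simp only [eq_intCast] at hm
    rw [← hm]
    exact h
  · have h := (hn _).mpr h6
    have hm := S52_c6h_map (Int.castRingHom (ZMod ℓ)) c4 c6 σ τ
    simp only [eq_intCast] at hm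
    rw [← hm]
    exact h

end Fermat.Agent.S52
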