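import Mathlib
import Fermat.Agent.S52.FamBezout
import Fermat.Agent.S52.Irr
import Fermat.Agent.S52.Final

/-!
# S52, block S: `S52_SSField K` for every field with `2, 3, 5 ≠ 0`, and `S52_SSAll`

Immediate from the Bezout certificates (`FamBezout.lean`).
-/

set_option autoImplicit false

namespace Fermat.Agent.S52

/-- **Block S over a field**: no cuspidal fibre in characteristic `∤ 30`. -/
theorem S52_ssField (K : Type*) [Field K] (h2 : (2 : K) ≠ 0) (h3 : (3 : K) ≠ 0)
    (h5 : (5 : K) ≠ 0) : S52_SSField K :=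
  fun c4 c6 σ τ hΔ hστ => S52_fam_no_common_zero h2 h3 h5 c4 c6 σ τ hΔ hστ

/-- **Block S**, in the shape consumed by `S52_final_of`. -/
theorem S52_ssAll : S52_SSAll :=
  fun K _ h2 h3 h5 => S52_ssField K h2 h3 h5

end Fermat.Agent.S52
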