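import Mathlib

/-!
# S52, block I: the discriminant factor `D` of the family is squarefree *for free*

Let `K` be a field of characteristic `0` and `A, B, D ∈ K[X]` with
`4 A³ + 27 B² = κ D⁵` (`κ ≠ 0`), `A` coprime to `D`, `deg A ≤ 2e`, `deg B ≤ 3e`,
`5e ≤ 4 deg D + 2` and `deg D > 0`.  Then `D` is separable (hence squarefree).

Proof.  Put `J := 3 A' B − 2 A B'`.  The top terms cancel, so `deg J ≤ 5e − 2`.
Differentiating the syzygy gives `4 A² J = κ D⁴ (5 B D' − 2 B' D)`; since `A` is prime to `D`,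
`D⁴ ∣ J`, hence `J = c D⁴` with `c` constant and `4 c A² = κ (5 B D' − 2 B' D)`.
If `c = 0` then `D ∣ D'` (as `B` is prime to `D`), impossible in characteristic `0`.
If `c ≠ 0` then `A²` lies in the ideal `(D, D')`, which is therefore the unit ideal.
-/

open Polynomial

namespace Fermat.Agent.S52

variable {K : Type*} [Field K]

/-- The derivative of the syzygy, in the form used below. -/
theorem S52_syzygy_deriv (A B D : K[X]) (κ : K)
    (hΔ : 4 * A ^ 3 + 27 * B ^ 2 = C κ * D ^ 5) :
    4 * A ^ 2 * (3 * derivative A * B - 2 * A * derivative B)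
      = C κ * D ^ 4 * (5 * B * derivative D - 2 * derivative B * D) := by
  have h := congrArg (fun p => derivative p) hΔ
  simp only [derivative_add, derivative_mul, derivative_pow, derivative_C, derivative_ofNat,
    zero_mul, zero_add, Nat.cast_ofNat, C_ofNat] at h
  norm_num at h
  linear_combination B * h - 2 * derivative B * hΔ

/-- The "Wronskian" `3 A' B − 2 A B'` has degree at most `5e − 2`. -/
theorem S52_wronskian_natDegree_le (e : ℕ) (he : 0 < e) (A B : K[X])
    (hA : A.natDegree ≤ 2 * e) (hB : B.natDegree ≤ 3 * e) :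
    (3 * derivative A * B - 2 * A * derivative B).natDegree ≤ 5 * e - 2 := by
  have hA' : (derivative A).natDegree ≤ 2 * e - 1 :=
    (natDegree_derivative_le A).trans (by omega)
  have hB' : (derivative B).natDegree ≤ 3 * e - 1 :=
    (natDegree_derivative_le B).trans (by omega)
  have h3 : (3 : K[X]) = C (3 : K) := (C_ofNat 3).symm
  have h2 : (2 : K[X]) = C (2 : K) := (C_ofNat 2).symm
  have h1 : (derivative A * B).natDegree ≤ (2 * e - 1) + 3 * e :=
    natDegree_mul_le.trans (Nat.add_le_add hA' hB)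
  have h1' : (A * derivative B).natDegree ≤ 2 * e + (3 * e - 1) :=
    natDegree_mul_le.trans (Nat.add_le_add hA hB')
  have hc1 : (derivative A * B).coeff ((2 * e - 1) + 3 * e)
      = (derivative A).coeff (2 * e - 1) * B.coeff (3 * e) :=
    coeff_mul_add_eq_of_natDegree_le hA' hB
  have hc2 : (A * derivative B).coeff (2 * e + (3 * e - 1))
      = A.coeff (2 * e) * (derivative B).coeff (3 * e - 1) :=
    coeff_mul_add_eq_of_natDegree_le hA hB'
  rw [natDegree_le_iff_coeff_eq_zero]
  intro N hN
  have e1 : 3 * derivative A * B - 2 * A * derivative B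
      = C 3 * (derivative A * B) - C 2 * (A * derivative B) := by
    rw [← h3, ← h2]; ring
  rw [e1, coeff_sub, coeff_C_mul, coeff_C_mul]
  by_cases hN' : N = 5 * e - 1
  · have i1 : N = (2 * e - 1) + 3 * e := by omega
    have i2 : N = 2 * e + (3 * e - 1) := by omega
    rw [show (derivative A * B).coeff N = (derivative A * B).coeff ((2 * e - 1) + 3 * e) by
      rw [← i1], hc1]
    rw [show (A * derivative B).coeff N = (A * derivative B).coeff (2 * e + (3 * e - 1)) by
      rw [← i2], hc2]
    rw [coeff_derivative, coeff_derivative]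
    have j1 : 2 * e - 1 + 1 = 2 * e := by omega
    have j2 : 3 * e - 1 + 1 = 3 * e := by omega
    rw [j1, j2]
    have k1 : (((2 * e - 1 : ℕ) : K) + 1) = 2 * (e : K) := by
      have : ((2 * e - 1 : ℕ) : K) + 1 = ((2 * e - 1 + 1 : ℕ) : K) := by push_cast; ring
      rw [this, j1]; push_cast; ring
    have k2 : (((3 * e - 1 : ℕ) : K) + 1) = 3 * (e : K) := by
      have : ((3 * e - 1 : ℕ) : K) + 1 = ((3 * e - 1 + 1 : ℕ) : K) := by push_cast; ring
      rw [this, j2]; push_cast; ring
    rw [k1, k2]
    ring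
  · have hlt1 : (derivative A * B).natDegree < N := by omega
    have hlt2 : (A * derivative B).natDegree < N := by omega
    rw [coeff_eq_zero_of_natDegree_lt hlt1, coeff_eq_zero_of_natDegree_lt hlt2]
    simp

/-- **Squarefree for free**: in characteristic `0`, the syzygy, coprimality of `A` and `D`
and the degree count force `D` to be separable. -/
theorem S52_separable_of_syzygy [CharZero K] (e : ℕ) (A B D : K[X]) (κ : K) (hκ : κ ≠ 0)
    (hΔ : 4 * A ^ 3 + 27 * B ^ 2 = C κ * D ^ 5)
    (hcop : IsCoprime A D) (hA : A.natDegree ≤ 2 * e) (hB : B.natDegree ≤ 3 * e)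
    (hdeg : 5 * e ≤ 4 * D.natDegree + 2) (hD : 0 < D.natDegree) :
    D.Separable := by
  have hD0 : D ≠ 0 := by
    rintro rfl
    simp at hD
  -- `e > 0`
  have he : 0 < e := by
    by_contra h0
    have he0 : e = 0 := by omega
    subst he0
    have hA0 : A.natDegree = 0 := by omega
    have hB0 : B.natDegree = 0 := by omega
    have h1 : (4 * A ^ 3 + 27 * B ^ 2).natDegree = 0 := by
      rw [eq_C_of_natDegree_eq_zero hA0, eq_C_of_natDegree_eq_zero hB0]
      have : (4 * C (A.coeff 0) ^ 3 + 27 * C (B.coeff 0) ^ 2 : K[X])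
          = C (4 * (A.coeff 0) ^ 3 + 27 * (B.coeff 0) ^ 2) := by
        simp only [C_add, C_mul, C_pow, C_ofNat]
      rw [this, natDegree_C]
    rw [hΔ, natDegree_C_mul hκ, natDegree_pow] at h1
    omega
  set J : K[X] := 3 * derivative A * B - 2 * A * derivative B with hJ
  have hJdeg : J.natDegree ≤ 5 * e - 2 := S52_wronskian_natDegree_le e he A B hA hB
  have hkey : 4 * A ^ 2 * J = C κ * D ^ 4 * (5 * B * derivative D - 2 * derivative B * D) :=
    S52_syzygy_deriv A B D κ hΔ
  have h4 : IsUnit (4 : K[X]) := by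
    have : (4 : K[X]) = C (4 : K) := (C_ofNat 4).symm
    rw [this]
    exact isUnit_C.mpr (IsUnit.mk0 _ (by norm_num))
  have hκu : IsUnit (C κ : K[X]) := isUnit_C.mpr (IsUnit.mk0 _ hκ)
  -- `D⁴ ∣ J`
  have hdvd : D ^ 4 ∣ J := by
    have h1 : D ^ 4 ∣ (4 * A ^ 2) * J := by
      rw [hkey]
      exact ⟨C κ * (5 * B * derivative D - 2 * derivative B * D), by ring⟩
    have hc : IsCoprime (D ^ 4) (4 * A ^ 2) :=
      (isCoprime_mul_unit_left_right h4 _ _).mpr (IsCoprime.pow hcop.symm)
    exact hc.dvd_of_dvd_mul_left h1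
  obtain ⟨J₁, hJ₁⟩ := hdvd
  -- `J₁` is constant
  have hJ₁c : J₁.natDegree = 0 := by
    by_cases h0 : J₁ = 0
    · rw [h0, natDegree_zero]
    · have := natDegree_mul (pow_ne_zero 4 hD0) h0
      rw [← hJ₁, natDegree_pow] at this
      omega
  have hJ₁C : J₁ = C (J₁.coeff 0) := eq_C_of_natDegree_eq_zero hJ₁c
  set c : K := J₁.coeff 0 with hc
  -- cancel `D⁴`
  have hkey2 : 4 * A ^ 2 * C c = C κ * (5 * B * derivative D - 2 * derivative B * D) := by
    have h1 : D ^ 4 * (4 * A ^ 2 * C c)
        = D ^ 4 * (C κ * (5 * B * derivative D - 2 * derivative B * D)) := by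
      rw [← hJ₁C]
      linear_combination hkey - 4 * A ^ 2 * hJ₁
    exact mul_left_cancel₀ (pow_ne_zero 4 hD0) h1
  -- `B` is prime to `D`
  have hcopB : IsCoprime B D := by
    obtain ⟨u, v, huv⟩ := (IsCoprime.pow_left (m := 3) hcop)
    have h2 : IsCoprime (B ^ 2) D := by
      have e1 : (-27 * u) * B ^ 2 + (4 * v + u * C κ * D ^ 4) * D = 4 := by
        linear_combination (4 : K[X]) * huv - u * hΔ
      obtain ⟨w, hw⟩ := h4.exists_left_inv
      refine ⟨w * (-27 * u), w * (4 * v + u * C κ * D ^ 4), ?_⟩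
      calc w * (-27 * u) * B ^ 2 + w * (4 * v + u * C κ * D ^ 4) * D
          = w * ((-27 * u) * B ^ 2 + (4 * v + u * C κ * D ^ 4) * D) := by ring
        _ = w * 4 := by rw [e1]
        _ = 1 := hw
    exact (IsCoprime.pow_left_iff (by norm_num : 0 < 2)).mp h2
  by_cases hc0 : c = 0
  · -- then `D ∣ D'`, impossible
    exfalso
    rw [hc0, C_0, mul_zero] at hkey2
    have h5 : (5 : K[X]) * B * derivative D = 2 * derivative B * D := by
      have h1 := (mul_eq_zero.mp hkey2.symm).resolve_left hκu.ne_zero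
      linear_combination h1
    have h5u : IsUnit (5 : K[X]) := by
      have : (5 : K[X]) = C (5 : K) := (C_ofNat 5).symm
      rw [this]
      exact isUnit_C.mpr (IsUnit.mk0 _ (by norm_num))
    have hdd : D ∣ derivative D := by
      have h1 : D ∣ (5 * B) * derivative D := by
        rw [h5]
        exact Dvd.intro_left _ rfl
      have hc' : IsCoprime D (5 * B) :=
        (isCoprime_mul_unit_left_right h5u _ _).mpr hcopB.symm
      exact hc'.dvd_of_dvd_mul_left h1
    have hne : derivative D ≠ 0 := derivative_ne_zero.mpr (by omega)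
    have h1 := natDegree_le_of_dvd hdd hne
    have h2 := natDegree_derivative_lt (p := D) (by omega)
    omega
  · -- `1 ∈ (D, D')`
    obtain ⟨u, v, huv⟩ := (IsCoprime.pow_left (m := 2) hcop)
    have h4c : IsUnit (C (4 * c) : K[X]) :=
      isUnit_C.mpr (IsUnit.mk0 _ (mul_ne_zero (by norm_num) hc0))
    -- explicit Bezout
    have hB : (C (4 * c) * v - 2 * u * C κ * derivative B) * D
        + (5 * u * C κ * B) * derivative D = C (4 * c) := by
      have e4 : (C (4 * c) : K[X]) = 4 * C c := by rw [C_mul, C_ofNat]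
      rw [e4]
      linear_combination (4 * C c) * huv - u * hkey2
    obtain ⟨w, hw⟩ := h4c.exists_left_inv
    refine ⟨w * (C (4 * c) * v - 2 * u * C κ * derivative B), w * (5 * u * C κ * B), ?_⟩
    calc w * (C (4 * c) * v - 2 * u * C κ * derivative B) * D
          + w * (5 * u * C κ * B) * derivative D
        = w * ((C (4 * c) * v - 2 * u * C κ * derivative B) * D
          + (5 * u * C κ * B) * derivative D) := by ring
      _ = w * C (4 * c) := by rw [hB]
      _ = 1 := hw

/-- Squarefree version. -/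
theorem S52_squarefree_of_syzygy [CharZero K] (e : ℕ) (A B D : K[X]) (κ : K) (hκ : κ ≠ 0)
    (hΔ : 4 * A ^ 3 + 27 * B ^ 2 = C κ * D ^ 5)
    (hcop : IsCoprime A D) (hA : A.natDegree ≤ 2 * e) (hB : B.natDegree ≤ 3 * e)
    (hdeg : 5 * e ≤ 4 * D.natDegree + 2) (hD : 0 < D.natDegree) :
    Squarefree D :=
  (S52_separable_of_syzygy e A B D κ hκ hΔ hcop hA hB hdeg hD).squarefree

end Fermat.Agent.S52
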