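import Fermat.Agent.S52.NoSection
import Fermat.Agent.S52.SqFree
import Fermat.Agent.S51.Tors3Final

/-!
# S52, block I: assembly

`S52_blockI_abs`: abstract form of block I.  Let `Â, B̂, D̂ ∈ ℤ[s]` be the family
(`Â = −27·c₄(s)`, `B̂ = −54·c₆(s)`), with the syzygy `4Â³ + 27B̂² = κ·D̂⁵`, `Â` prime to `D̂` over `ℚ`
and the degree count `5d ≤ 4·deg D̂ + 2`.  Given the conclusion of Hilbert irreducibility for the
3-division quartic (`S52_hit_quartic`, helper14), there are arbitrarily large `n ≡ r mod M` such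
that every integral Weierstrass curve `W'` with `Δ ≠ 0`, `−27·c₄(W') = Â(n)`, `−54·c₆(W') = B̂(n)`
has irreducible mod-3 representation.
-/

open Polynomial

namespace Fermat.Agent.S52

/-- Passage from the 3-division polynomial of a Weierstrass curve to the short form:
`X = 36 x + 3 b₂`, `A = −27 c₄`, `B = −54 c₆`. -/
theorem S52_psi3_short {R : Type*} [CommRing R] (b₂ b₄ b₆ b₈ x : R)
    (hrel : 4 * b₈ = b₂ * b₆ - b₄ ^ 2) :
    3 * (36 * x + 3 * b₂) ^ 4 + 6 * (-27 * (b₂ ^ 2 - 24 * b₄)) * (36 * x + 3 * b₂) ^ 2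
      + 12 * (-54 * (-b₂ ^ 3 + 36 * b₂ * b₄ - 216 * b₆)) * (36 * x + 3 * b₂)
      - (-27 * (b₂ ^ 2 - 24 * b₄)) ^ 2
    = 1679616 * (3 * x ^ 4 + b₂ * x ^ 3 + 3 * b₄ * x ^ 2 + 3 * b₆ * x + b₈) := by
  linear_combination (-419904 : R) * hrel

/-- A curve over `ℤ` with reducible mod-3 representation gives a rational root of the short
3-division quartic with `A = −27 c₄`, `B = −54 c₆`. -/
theorem S52_short_root_of_reducible (W : WeierstrassCurve ℤ) (hΔ : W.Δ ≠ 0)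
    (h : ¬ W.ModRepIsIrreducible 3) :
    ∃ x : ℚ, 3 * x ^ 4 + 6 * ((-27 * W.c₄ : ℤ) : ℚ) * x ^ 2 + 12 * ((-54 * W.c₆ : ℤ) : ℚ) * x
      - ((-27 * W.c₄ : ℤ) : ℚ) ^ 2 = 0 := by
  obtain ⟨x₀, hx₀⟩ := Fermat.Agent.S51.S51_A3 W hΔ h
  refine ⟨36 * x₀ + 3 * (W.b₂ : ℚ), ?_⟩
  have hrel : 4 * (W.b₈ : ℚ) = (W.b₂ : ℚ) * (W.b₆ : ℚ) - (W.b₄ : ℚ) ^ 2 := by
    have := W.b_relation
    exact_mod_cast this
  have key := S52_psi3_short (W.b₂ : ℚ) (W.b₄ : ℚ) (W.b₆ : ℚ) (W.b₈ : ℚ) x₀ hrel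
  rw [hx₀, mul_zero] at key
  rw [← key]
  simp only [WeierstrassCurve.c₄, WeierstrassCurve.c₆]
  push_cast
  ring

/-- **Block I, abstract form.** -/
theorem S52_blockI_abs (Ah Bh Dh : ℤ[X]) (κ : ℚ) (hκ : κ ≠ 0) (d : ℕ)
    (hA : Ah.natDegree ≤ 2 * d) (hB : Bh.natDegree ≤ 3 * d)
    (hΔ : 4 * (Ah.map (Int.castRingHom ℚ)) ^ 3 + 27 * (Bh.map (Int.castRingHom ℚ)) ^ 2
      = C κ * (Dh.map (Int.castRingHom ℚ)) ^ 5)
    (hcop : IsCoprime (Ah.map (Int.castRingHom ℚ)) (Dh.map (Int.castRingHom ℚ)))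
    (hdeg : 5 * d ≤ 4 * Dh.natDegree + 2) (hD : 0 < Dh.natDegree)
    (r M n₀ : ℤ)
    (hHIT : (∀ n : ℤ, n₀ ≤ n → n ≡ r [ZMOD M] →
        ∃ x : ℚ, 3 * x ^ 4 + 6 * ((Ah.eval n : ℤ) : ℚ) * x ^ 2
          + 12 * ((Bh.eval n : ℤ) : ℚ) * x - ((Ah.eval n : ℤ) : ℚ) ^ 2 = 0) →
      ∃ Q : ℚ[X], 3 * Q ^ 4 + 6 * Ah.map (Int.castRingHom ℚ) * Q ^ 2
        + 12 * Bh.map (Int.castRingHom ℚ) * Q - (Ah.map (Int.castRingHom ℚ)) ^ 2 = 0) :
    ∃ n : ℤ, n₀ ≤ n ∧ n ≡ r [ZMOD M] ∧ ∀ W' : WeierstrassCurve ℤ, W'.Δ ≠ 0 →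
      -27 * W'.c₄ = Ah.eval n → -54 * W'.c₆ = Bh.eval n → W'.ModRepIsIrreducible 3 := by
  by_contra hcon
  push Not at hcon
  have hinj : Function.Injective (Int.castRingHom ℚ) := Int.cast_injective
  have hDdeg : (Dh.map (Int.castRingHom ℚ)).natDegree = Dh.natDegree :=
    natDegree_map_eq_of_injective hinj Dh
  have hA' : (Ah.map (Int.castRingHom ℚ)).natDegree ≤ 2 * d := natDegree_map_le.trans hA
  have hB' : (Bh.map (Int.castRingHom ℚ)).natDegree ≤ 3 * d := natDegree_map_le.trans hB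
  obtain ⟨Q, hQ⟩ := hHIT (by
    intro n hn hnr
    obtain ⟨W', hW'Δ, hc4, hc6, hred⟩ := hcon n hn hnr
    obtain ⟨x, hx⟩ := S52_short_root_of_reducible W' hW'Δ hred
    refine ⟨x, ?_⟩
    rw [← hc4, ← hc6]
    exact hx)
  have hsq : Squarefree (Dh.map (Int.castRingHom ℚ)) :=
    S52_squarefree_of_syzygy d _ _ _ κ hκ hΔ hcop hA' hB' (by rw [hDdeg]; exact hdeg)
      (by rw [hDdeg]; exact hD)
  exact S52_no_section (by norm_num) (by norm_num) d _ _ _ Q κ hκ hΔ hsq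
    (by rw [hDdeg]; omega) hcop hA' hB' hQ

end Fermat.Agent.S52
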