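import Mathlib

/-!
# S52: the mod-5 family (Rubin–Silverberg in Klein's icosahedral coordinates) — shared definitions

Data: NOTES/items/46_F_data.txt (helper27).  For Klein's forms `f, H, T` (`T² + H³ = 1728 f⁵`),
`w = (∂f/∂v, −∂f/∂u)` and `Z = σ z + τ w(z)`:
`−H(Z) = S52_c4h c4 c6 σ τ`, `−T(Z) = S52_c6h c4 c6 σ τ`, `f(Z) = f(z) · S52_Dh c4 c6 σ τ`
with `c4 = −H(z)`, `c6 = −T(z)` (proved in `KleinFamily.lean`).  This file only contains the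
polynomials (integer coefficients, homogeneous of degrees 20, 30, 12 in `(σ, τ)`) and the
identities between them that hold in every commutative ring.
-/

set_option autoImplicit false

namespace Fermat.Agent.S52

variable {R : Type*} [CommRing R]

/-- coefficient of `σ ^ (20 - k) * τ ^ k` in `S52_c4h`. -/
def S52_c4c (c4 c6 : R) : ℕ → R
  | 0 => c4
  | 1 => -20 * c6
  | 2 => 190 * c4 ^ 2
  | 3 => -1140 * c4 * c6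
  | 4 => 5700 * c6 ^ 2 - 855 * c4 ^ 3
  | 5 => -15504 * c4 ^ 2 * c6
  | 6 => -63840 * c4 * c6 ^ 2 + 102600 * c4 ^ 4
  | 7 => 182400 * c6 ^ 3 - 259920 * c4 ^ 3 * c6
  | 8 => 1126320 * c4 ^ 2 * c6 ^ 2 - 1000350 * c4 ^ 5
  | 9 => -7904000 * c4 * c6 ^ 3 + 7736040 * c4 ^ 4 * c6
  | 10 => 15808000 * c6 ^ 4 - 5619744 * c4 ^ 3 * c6 ^ 2 - 10003500 * c4 ^ 6
  | 11 => -54853760 * c4 ^ 2 * c6 ^ 3 + 54685800 * c4 ^ 5 * c6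
  | 12 => 37939200 * c4 * c6 ^ 4 + 7202520 * c4 ^ 4 * c6 ^ 2 - 45015750 * c4 ^ 7
  | 13 => -58368000 * c6 ^ 5 + 23201280 * c4 ^ 3 * c6 ^ 3 + 35089200 * c4 ^ 6 * c6
  | 14 => 287462400 * c4 ^ 2 * c6 ^ 4 - 495188640 * c4 ^ 5 * c6 ^ 2 + 207765000 * c4 ^ 8
  | 15 => -466944000 * c4 * c6 ^ 5 + 882458496 * c4 ^ 4 * c6 ^ 3 - 415530000 * c4 ^ 7 * c6
  | 16 => 583680000 * c6 ^ 6 - 1220474880 * c4 ^ 3 * c6 ^ 4 + 714711600 * c4 ^ 6 * c6 ^ 2 - 77911875 * c4 ^ 9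
  | 17 => -361881600 * c4 ^ 2 * c6 ^ 5 + 715080960 * c4 ^ 5 * c6 ^ 3 - 353200500 * c4 ^ 8 * c6
  | 18 => -622592000 * c4 * c6 ^ 6 + 2026391040 * c4 ^ 4 * c6 ^ 4 - 2182917600 * c4 ^ 7 * c6 ^ 2 + 779118750 * c4 ^ 10
  | 19 => 655360000 * c6 ^ 7 - 2005401600 * c4 ^ 3 * c6 ^ 5 + 2044414080 * c4 ^ 6 * c6 ^ 3 - 694372500 * c4 ^ 9 * c6
  | 20 => -180224000 * c4 ^ 2 * c6 ^ 6 + 544997376 * c4 ^ 5 * c6 ^ 4 - 549301500 * c4 ^ 8 * c6 ^ 2 + 184528125 * c4 ^ 11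
  | _ => 0

/-- `c₄` of the member `(σ : τ)` of the family based at `(c4, c6)`. -/
def S52_c4h (c4 c6 σ τ : R) : R :=
  ∑ k ∈ Finset.range 21, S52_c4c c4 c6 k * σ ^ (20 - k) * τ ^ k

/-- coefficient of `σ ^ (30 - k) * τ ^ k` in `S52_c6h`. -/
def S52_c6c (c4 c6 : R) : ℕ → R
  | 0 => c6
  | 1 => -30 * c4 ^ 2
  | 2 => 435 * c4 * c6
  | 3 => -2900 * c6 ^ 2 - 1160 * c4 ^ 3
  | 4 => 27405 * c4 ^ 2 * c6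
  | 5 => -46980 * c4 * c6 ^ 2 - 95526 * c4 ^ 4
  | 6 => 156600 * c6 ^ 3 + 437175 * c4 ^ 3 * c6
  | 7 => -3915000 * c4 ^ 2 * c6 ^ 2 + 1879200 * c4 ^ 5
  | 8 => 14407200 * c4 * c6 ^ 3 - 8554275 * c4 ^ 4 * c6
  | 9 => -32016000 * c6 ^ 4 + 42021000 * c4 ^ 3 * c6 ^ 2 - 24312150 * c4 ^ 6
  | 10 => -216588240 * c4 ^ 2 * c6 ^ 3 + 246633255 * c4 ^ 5 * c6
  | 11 => 1459929600 * c4 * c6 ^ 4 - 1352475900 * c4 ^ 4 * c6 ^ 2 - 162081000 * c4 ^ 7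
  | 12 => -2433216000 * c6 ^ 5 - 1612005600 * c4 ^ 3 * c6 ^ 3 + 4131714825 * c4 ^ 6 * c6
  | 13 => 12044419200 * c4 ^ 2 * c6 ^ 4 - 5235216300 * c4 ^ 5 * c6 ^ 2 - 6928962750 * c4 ^ 8
  | 14 => -43045111800 * c4 ^ 4 * c6 ^ 3 + 43190534475 * c4 ^ 7 * c6
  | 15 => 79420170240 * c4 ^ 3 * c6 ^ 4 - 79575287760 * c4 ^ 6 * c6 ^ 2
  | 16 => -297825638400 * c4 ^ 2 * c6 ^ 5 + 474659611200 * c4 ^ 5 * c6 ^ 3 - 176688550125 * c4 ^ 8 * c6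
  | 17 => 700766208000 * c4 * c6 ^ 6 - 935084908800 * c4 ^ 4 * c6 ^ 4 - 77604382800 * c4 ^ 7 * c6 ^ 2 + 311803323750 * c4 ^ 10
  | 18 => -778629120000 * c6 ^ 7 - 303665356800 * c4 ^ 3 * c6 ^ 5 + 2776512362400 * c4 ^ 6 * c6 ^ 3 - 1694131392375 * c4 ^ 9 * c6
  | 19 => 4290656256000 * c4 ^ 2 * c6 ^ 6 - 8100765158400 * c4 ^ 5 * c6 ^ 4 + 3481840250100 * c4 ^ 8 * c6 ^ 2 + 328214025000 * c4 ^ 11
  | 20 => -3442360320000 * c4 * c6 ^ 7 + 3892110842880 * c4 ^ 4 * c6 ^ 5 + 2424887357760 * c4 ^ 7 * c6 ^ 3 - 2874607835625 * c4 ^ 10 * c6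
  | 21 => 3278438400000 * c6 ^ 8 - 5125838438400 * c4 ^ 3 * c6 ^ 6 + 2709129888000 * c4 ^ 6 * c6 ^ 4 - 3077188825500 * c4 ^ 9 * c6 ^ 2 + 2215444668750 * c4 ^ 12
  | 22 => -4573421568000 * c4 ^ 2 * c6 ^ 7 + 7701051801600 * c4 ^ 5 * c6 ^ 5 - 1724509423800 * c4 ^ 8 * c6 ^ 3 - 1403114956875 * c4 ^ 11 * c6
  | 23 => -6157762560000 * c4 * c6 ^ 8 + 30337884979200 * c4 ^ 4 * c6 ^ 6 - 49888700928000 * c4 ^ 7 * c6 ^ 4 + 33414470973000 * c4 ^ 10 * c6 ^ 2 - 7705894500000 * c4 ^ 13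
  | 24 => 5131468800000 * c6 ^ 9 - 22779445248000 * c4 ^ 3 * c6 ^ 7 + 35246094796800 * c4 ^ 6 * c6 ^ 5 - 22687218914400 * c4 ^ 9 * c6 ^ 3 + 5089101159375 * c4 ^ 12 * c6
  | 25 => 18216714240000 * c4 ^ 2 * c6 ^ 8 - 71274600677376 * c4 ^ 5 * c6 ^ 6 + 105528606261120 * c4 ^ 8 * c6 ^ 4 - 70097953635000 * c4 ^ 11 * c6 ^ 2 + 17627233668750 * c4 ^ 14
  | 26 => -41051750400000 * c4 * c6 ^ 9 + 163803539865600 * c4 ^ 4 * c6 ^ 7 - 245438120632320 * c4 ^ 7 * c6 ^ 5 + 163672057566000 * c4 ^ 10 * c6 ^ 3 - 40985726371875 * c4 ^ 13 * c6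
  | 27 => 30408704000000 * c6 ^ 10 - 111934439424000 * c4 ^ 3 * c6 ^ 8 + 143803576074240 * c4 ^ 6 * c6 ^ 6 - 63806176396800 * c4 ^ 9 * c6 ^ 4 - 8104032382500 * c4 ^ 12 * c6 ^ 2 + 9632368125000 * c4 ^ 15
  | 28 => -21438136320000 * c4 ^ 2 * c6 ^ 9 + 85731449241600 * c4 ^ 5 * c6 ^ 7 - 128580522647040 * c4 ^ 8 * c6 ^ 5 + 85719228804000 * c4 ^ 11 * c6 ^ 3 - 21432019078125 * c4 ^ 14 * c6
  | 29 => -5033164800000 * c4 * c6 ^ 10 + 31344427008000 * c4 ^ 4 * c6 ^ 8 - 75042714746880 * c4 ^ 7 * c6 ^ 6 + 87394892457600 * c4 ^ 10 * c6 ^ 4 - 49873523512500 * c4 ^ 13 * c6 ^ 2 + 11210083593750 * c4 ^ 16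
  | 30 => 3355443200000 * c6 ^ 11 - 17532190720000 * c4 ^ 3 * c6 ^ 9 + 36574189977600 * c4 ^ 6 * c6 ^ 7 - 38083944628224 * c4 ^ 9 * c6 ^ 5 + 19796866155000 * c4 ^ 12 * c6 ^ 3 - 4110363984375 * c4 ^ 15 * c6
  | _ => 0

/-- `c₆` of the member `(σ : τ)` of the family based at `(c4, c6)`. -/
def S52_c6h (c4 c6 σ τ : R) : R :=
  ∑ k ∈ Finset.range 31, S52_c6c c4 c6 k * σ ^ (30 - k) * τ ^ k

/-- coefficient of `σ ^ (12 - k) * τ ^ k` in `S52_Dh`. -/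
def S52_Dc (c4 c6 : R) : ℕ → R
  | 0 => 1
  | 1 => 0
  | 2 => -66 * c4
  | 3 => 440 * c6
  | 4 => -1485 * c4 ^ 2
  | 5 => 3168 * c4 * c6
  | 6 => -10560 * c6 ^ 2 + 5940 * c4 ^ 3
  | 7 => 4752 * c4 ^ 2 * c6
  | 8 => 63360 * c4 * c6 ^ 2 - 66825 * c4 ^ 4
  | 9 => -140800 * c6 ^ 3 + 142560 * c4 ^ 3 * c6
  | 10 => 133056 * c4 ^ 2 * c6 ^ 2 - 133650 * c4 ^ 5
  | 11 => -61440 * c4 * c6 ^ 3 + 61560 * c4 ^ 4 * c6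
  | 12 => 102400 * c6 ^ 4 - 193536 * c4 ^ 3 * c6 ^ 2 + 91125 * c4 ^ 6
  | _ => 0

/-- The cusp form: `Δ(σ, τ) = Δ · S52_Dh ^ 5`. -/
def S52_Dh (c4 c6 σ τ : R) : R :=
  ∑ k ∈ Finset.range 13, S52_Dc c4 c6 k * σ ^ (12 - k) * τ ^ k

end Fermat.Agent.S52
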