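import Mathlib
import Fermat.Agent.S52.FamilyDefs
import Fermat.Agent.S51.TorsPoly

/-! # S52: the discriminant identity of the family, step 1 (helper15; generated, low memory) -/

set_option autoImplicit false

namespace Fermat.Agent.S52

variable {R : Type*} [CommRing R]

/-- coefficient `0` of `D²`. -/
def S52_D2c_0 (c4 c6 : R) : R := 1

/-- coefficient `1` of `D²`. -/
def S52_D2c_1 (c4 c6 : R) : R := 0

/-- coefficient `2` of `D²`. -/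
def S52_D2c_2 (c4 c6 : R) : R := -132 * c4

/-- coefficient `3` of `D²`. -/
def S52_D2c_3 (c4 c6 : R) : R := 880 * c6

/-- coefficient `4` of `D²`. -/
def S52_D2c_4 (c4 c6 : R) : R := 1386 * c4 ^ 2

/-- coefficient `5` of `D²`. -/
def S52_D2c_5 (c4 c6 : R) : R := -51744 * c4 * c6

/-- coefficient `6` of `D²`. -/
def S52_D2c_6 (c4 c6 : R) : R := 172480 * c6 ^ 2 + 207900 * c4 ^ 3

/-- coefficient `7` of `D²`. -/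
def S52_D2c_7 (c4 c6 : R) : R := -1715472 * c4 ^ 2 * c6

/-- coefficient `8` of `D²`. -/
def S52_D2c_8 (c4 c6 : R) : R := 4308480 * c4 * c6 ^ 2 + 1287495 * c4 ^ 4

/-- coefficient `9` of `D²`. -/
def S52_D2c_9 (c4 c6 : R) : R := -9574400 * c6 ^ 3 - 4523904 * c4 ^ 3 * c6

/-- coefficient `10` of `D²`. -/
def S52_D2c_10 (c4 c6 : R) : R := 37483776 * c4 ^ 2 * c6 ^ 2 - 9088200 * c4 ^ 5

/-- coefficient `11` of `D²`. -/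
def S52_D2c_11 (c4 c6 : R) : R := 7311360 * c4 * c6 ^ 3 - 53978400 * c4 ^ 4 * c6

/-- coefficient `12` of `D²`. -/
def S52_D2c_12 (c4 c6 : R) : R := -12185600 * c6 ^ 4 - 176020992 * c4 ^ 3 * c6 ^ 2 + 251577900 * c4 ^ 6

/-- coefficient `13` of `D²`. -/
def S52_D2c_13 (c4 c6 : R) : R := 844462080 * c4 ^ 2 * c6 ^ 3 - 916090560 * c4 ^ 5 * c6

/-- coefficient `14` of `D²`. -/
def S52_D2c_14 (c4 c6 : R) : R := -2297856000 * c4 * c6 ^ 4 + 2774445696 * c4 ^ 4 * c6 ^ 2 - 408969000 * c4 ^ 7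

/-- coefficient `15` of `D²`. -/
def S52_D2c_15 (c4 c6 : R) : R := 3063808000 * c6 ^ 5 - 3226189824 * c4 ^ 3 * c6 ^ 3 + 109058400 * c4 ^ 6 * c6

/-- coefficient `16` of `D²`. -/
def S52_D2c_16 (c4 c6 : R) : R := -827228160 * c4 ^ 2 * c6 ^ 4 - 1744934400 * c4 ^ 5 * c6 ^ 2 + 2607177375 * c4 ^ 8

/-- coefficient `17` of `D²`. -/
def S52_D2c_17 (c4 c6 : R) : R := -15895756800 * c4 * c6 ^ 5 + 34891388928 * c4 ^ 4 * c6 ^ 3 - 19014652800 * c4 ^ 7 * c6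

/-- coefficient `18` of `D²`. -/
def S52_D2c_18 (c4 c6 : R) : R := 17661952000 * c6 ^ 6 - 18563973120 * c4 ^ 3 * c6 ^ 4 - 18034410240 * c4 ^ 6 * c6 ^ 2 + 18944887500 * c4 ^ 9

/-- coefficient `19` of `D²`. -/
def S52_D2c_19 (c4 c6 : R) : R := -44281036800 * c4 ^ 2 * c6 ^ 5 + 89745739776 * c4 ^ 5 * c6 ^ 3 - 45467730000 * c4 ^ 8 * c6

/-- coefficient `20` of `D²`. -/
def S52_D2c_20 (c4 c6 : R) : R := 30277632000 * c4 * c6 ^ 6 - 55359811584 * c4 ^ 4 * c6 ^ 4 + 19399564800 * c4 ^ 7 * c6 ^ 2 + 5683466250 * c4 ^ 10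

/-- coefficient `21` of `D²`. -/
def S52_D2c_21 (c4 c6 : R) : R := -28835840000 * c6 ^ 7 + 67346104320 * c4 ^ 3 * c6 ^ 5 - 48037017600 * c4 ^ 6 * c6 ^ 3 + 9526572000 * c4 ^ 9 * c6

/-- coefficient `22` of `D²`. -/
def S52_D2c_22 (c4 c6 : R) : R := 31024742400 * c4 ^ 2 * c6 ^ 6 - 86438264832 * c4 ^ 5 * c6 ^ 4 + 79771262400 * c4 ^ 8 * c6 ^ 2 - 24357712500 * c4 ^ 11

/-- coefficient `23` of `D²`. -/
def S52_D2c_23 (c4 c6 : R) : R := -12582912000 * c4 * c6 ^ 7 + 36389191680 * c4 ^ 4 * c6 ^ 5 - 35025592320 * c4 ^ 7 * c6 ^ 3 + 11219310000 * c4 ^ 10 * c6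

/-- coefficient `24` of `D²`. -/
def S52_D2c_24 (c4 c6 : R) : R := 10485760000 * c6 ^ 8 - 39636172800 * c4 ^ 3 * c6 ^ 6 + 56118583296 * c4 ^ 6 * c6 ^ 4 - 35271936000 * c4 ^ 9 * c6 ^ 2 + 8303765625 * c4 ^ 12

/-- the form `D²`. -/
def S52_D2 (c4 c6 σ τ : R) : R :=
  S52_D2c_0 c4 c6 * σ ^ 24
    + S52_D2c_1 c4 c6 * σ ^ 23 * τ
    + S52_D2c_2 c4 c6 * σ ^ 22 * τ ^ 2
    + S52_D2c_3 c4 c6 * σ ^ 21 * τ ^ 3
    + S52_D2c_4 c4 c6 * σ ^ 20 * τ ^ 4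
    + S52_D2c_5 c4 c6 * σ ^ 19 * τ ^ 5
    + S52_D2c_6 c4 c6 * σ ^ 18 * τ ^ 6
    + S52_D2c_7 c4 c6 * σ ^ 17 * τ ^ 7
    + S52_D2c_8 c4 c6 * σ ^ 16 * τ ^ 8
    + S52_D2c_9 c4 c6 * σ ^ 15 * τ ^ 9
    + S52_D2c_10 c4 c6 * σ ^ 14 * τ ^ 10
    + S52_D2c_11 c4 c6 * σ ^ 13 * τ ^ 11
    + S52_D2c_12 c4 c6 * σ ^ 12 * τ ^ 12
    + S52_D2c_13 c4 c6 * σ ^ 11 * τ ^ 13
    + S52_D2c_14 c4 c6 * σ ^ 10 * τ ^ 14
    + S52_D2c_15 c4 c6 * σ ^ 9 * τ ^ 15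
    + S52_D2c_16 c4 c6 * σ ^ 8 * τ ^ 16
    + S52_D2c_17 c4 c6 * σ ^ 7 * τ ^ 17
    + S52_D2c_18 c4 c6 * σ ^ 6 * τ ^ 18
    + S52_D2c_19 c4 c6 * σ ^ 5 * τ ^ 19
    + S52_D2c_20 c4 c6 * σ ^ 4 * τ ^ 20
    + S52_D2c_21 c4 c6 * σ ^ 3 * τ ^ 21
    + S52_D2c_22 c4 c6 * σ ^ 2 * τ ^ 22
    + S52_D2c_23 c4 c6 * σ * τ ^ 23
    + S52_D2c_24 c4 c6 * τ ^ 24

set_option maxHeartbeats 4000000 in
theorem S52_dl_D2 (c4 c6 σ τ : R) :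
    S52_Dh c4 c6 σ τ ^ 2 = S52_D2 c4 c6 σ τ := by
  simp only [S52_D2, S52_D2c_0, S52_D2c_1, S52_D2c_2, S52_D2c_3, S52_D2c_4, S52_D2c_5, S52_D2c_6,
    S52_D2c_7, S52_D2c_8, S52_D2c_9, S52_D2c_10, S52_D2c_11, S52_D2c_12, S52_D2c_13, S52_D2c_14,
    S52_D2c_15, S52_D2c_16, S52_D2c_17, S52_D2c_18, S52_D2c_19, S52_D2c_20, S52_D2c_21,
    S52_D2c_22, S52_D2c_23, S52_D2c_24, S52_Dh, S52_Dc, Finset.sum_range_succ,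
    Finset.sum_range_zero]
  ring

end Fermat.Agent.S52
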