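import Mathlib
import Fermat.Agent.S52.FamilyStep1

/-! # S52: the discriminant identity of the family, step 2 (helper15; generated, low memory) -/

set_option autoImplicit false

namespace Fermat.Agent.S52

variable {R : Type*} [CommRing R]

/-- coefficient `0` of `D⁴`. -/
def S52_D4c_0 (c4 c6 : R) : R := 1

/-- coefficient `1` of `D⁴`. -/
def S52_D4c_1 (c4 c6 : R) : R := 0

/-- coefficient `2` of `D⁴`. -/
def S52_D4c_2 (c4 c6 : R) : R := -264 * c4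

/-- coefficient `3` of `D⁴`. -/
def S52_D4c_3 (c4 c6 : R) : R := 1760 * c6

/-- coefficient `4` of `D⁴`. -/
def S52_D4c_4 (c4 c6 : R) : R := 20196 * c4 ^ 2

/-- coefficient `5` of `D⁴`. -/
def S52_D4c_5 (c4 c6 : R) : R := -335808 * c4 * c6

/-- coefficient `6` of `D⁴`. -/
def S52_D4c_6 (c4 c6 : R) : R := 1119360 * c6 ^ 2 + 49896 * c4 ^ 3

/-- coefficient `7` of `D⁴`. -/
def S52_D4c_7 (c4 c6 : R) : R := 12668832 * c4 ^ 2 * c6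

/-- coefficient `8` of `D⁴`. -/
def S52_D4c_8 (c4 c6 : R) : R := -127987200 * c4 * c6 ^ 2 - 50389614 * c4 ^ 4

/-- coefficient `9` of `D⁴`. -/
def S52_D4c_9 (c4 c6 : R) : R := 284416000 * c6 ^ 3 + 666306432 * c4 ^ 3 * c6

/-- coefficient `10` of `D⁴`. -/
def S52_D4c_10 (c4 c6 : R) : R := -926145792 * c4 ^ 2 * c6 ^ 2 + 218223720 * c4 ^ 5

/-- coefficient `11` of `D⁴`. -/
def S52_D4c_11 (c4 c6 : R) : R := -7724421120 * c4 * c6 ^ 3 - 22918098528 * c4 ^ 4 * c6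

/-- coefficient `12` of `D⁴`. -/
def S52_D4c_12 (c4 c6 : R) : R := 12874035200 * c6 ^ 4 + 242981227008 * c4 ^ 3 * c6 ^ 2 + 49693786740 * c4 ^ 6

/-- coefficient `13` of `D⁴`. -/
def S52_D4c_13 (c4 c6 : R) : R := -998455265280 * c4 ^ 2 * c6 ^ 3 - 862650917568 * c4 ^ 5 * c6

/-- coefficient `14` of `D⁴`. -/
def S52_D4c_14 (c4 c6 : R) : R := 2488578048000 * c4 * c6 ^ 4 + 5707535695488 * c4 ^ 4 * c6 ^ 2 + 442913427000 * c4 ^ 7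

/-- coefficient `15` of `D⁴`. -/
def S52_D4c_15 (c4 c6 : R) : R := -3318104064000 * c6 ^ 5 - 24721796284416 * c4 ^ 3 * c6 ^ 3 - 4822627883040 * c4 ^ 6 * c6

/-- coefficient `16` of `D⁴`. -/
def S52_D4c_16 (c4 c6 : R) : R := 65643449794560 * c4 ^ 2 * c6 ^ 4 + 41816166340608 * c4 ^ 5 * c6 ^ 2 - 1310674075425 * c4 ^ 8

/-- coefficient `17` of `D⁴`. -/
def S52_D4c_17 (c4 c6 : R) : R := -83603895091200 * c4 * c6 ^ 5 - 181459915186176 * c4 ^ 4 * c6 ^ 3 - 32273423930880 * c4 ^ 7 * c6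

/-- coefficient `18` of `D⁴`. -/
def S52_D4c_18 (c4 c6 : R) : R := 92893216768000 * c6 ^ 6 + 219493508382720 * c4 ^ 3 * c6 ^ 4 + 340576731399168 * c4 ^ 6 * c6 ^ 2 + 79419999582000 * c4 ^ 9

/-- coefficient `19` of `D⁴`. -/
def S52_D4c_19 (c4 c6 : R) : R := -72708489216000 * c4 ^ 2 * c6 ^ 5 - 280557773438976 * c4 ^ 5 * c6 ^ 3 - 1248682434120000 * c4 ^ 8 * c6

/-- coefficient `20` of `D⁴`. -/
def S52_D4c_20 (c4 c6 : R) : R := -1387321098240000 * c4 * c6 ^ 6 - 1673540352000000 * c4 ^ 4 * c6 ^ 4 + 5632453385349120 * c4 ^ 7 * c6 ^ 2 + 562593658077000 * c4 ^ 10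

/-- coefficient `21` of `D⁴`. -/
def S52_D4c_21 (c4 c6 : R) : R := 1321258188800000 * c6 ^ 7 + 19371192090624000 * c4 ^ 3 * c6 ^ 5 - 23724795332468736 * c4 ^ 6 * c6 ^ 3 - 2482678012003200 * c4 ^ 9 * c6

/-- coefficient `22` of `D⁴`. -/
def S52_D4c_22 (c4 c6 : R) : R := -46020038492160000 * c4 ^ 2 * c6 ^ 6 + 20761229759938560 * c4 ^ 5 * c6 ^ 4 + 38514453608874240 * c4 ^ 8 * c6 ^ 2 - 4490841196710000 * c4 ^ 11

/-- coefficient `23` of `D⁴`. -/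
def S52_D4c_23 (c4 c6 : R) : R := 62973385113600000 * c4 * c6 ^ 7 + 19749560942592000 * c4 ^ 4 * c6 ^ 5 - 69886779776925696 * c4 ^ 7 * c6 ^ 3 - 25457686247448000 * c4 ^ 10 * c6

/-- coefficient `24` of `D⁴`. -/
def S52_D4c_24 (c4 c6 : R) : R := -52477820928000000 * c6 ^ 8 - 68443530854400000 * c4 ^ 3 * c6 ^ 6 + 36833471501598720 * c4 ^ 6 * c6 ^ 4 + 15258904053120000 * c4 ^ 9 * c6 ^ 2 + 85337965403437500 * c4 ^ 12

/-- coefficient `25` of `D⁴`. -/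
def S52_D4c_25 (c4 c6 : R) : R := -24655681290240000 * c4 ^ 2 * c6 ^ 7 + 98747588575494144 * c4 ^ 5 * c6 ^ 5 + 482089805156044800 * c4 ^ 8 * c6 ^ 3 - 575831288878560000 * c4 ^ 11 * c6

/-- coefficient `26` of `D⁴`. -/
def S52_D4c_26 (c4 c6 : R) : R := 570783537561600000 * c4 * c6 ^ 8 + 514308706113945600 * c4 ^ 4 * c6 ^ 6 - 3910405522604359680 * c4 ^ 7 * c6 ^ 4 + 3048709631508288000 * c4 ^ 10 * c6 ^ 2 - 202087853851950000 * c4 ^ 13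

/-- coefficient `27` of `D⁴`. -/
def S52_D4c_27 (c4 c6 : R) : R := -422802620416000000 * c6 ^ 9 - 6366476227313664000 * c4 ^ 3 * c6 ^ 7 + 15922150598314819584 * c4 ^ 6 * c6 ^ 5 - 9720814233096806400 * c4 ^ 9 * c6 ^ 3 + 566873340640200000 * c4 ^ 12 * c6

/-- coefficient `28` of `D⁴`. -/
def S52_D4c_28 (c4 c6 : R) : R := 12786273752186880000 * c4 ^ 2 * c6 ^ 8 - 24934313247910133760 * c4 ^ 5 * c6 ^ 6 + 10990789595730616320 * c4 ^ 8 * c6 ^ 4 + 36998157144960000 * c4 ^ 11 * c6 ^ 2 + 1139252157605925000 * c4 ^ 14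

/-- coefficient `29` of `D⁴`. -/
def S52_D4c_29 (c4 c6 : R) : R := -14268398095564800000 * c4 * c6 ^ 9 + 30875228716400640000 * c4 ^ 4 * c6 ^ 7 - 32702301341510270976 * c4 ^ 7 * c6 ^ 5 + 31671508337441280000 * c4 ^ 10 * c6 ^ 3 - 15591663284353200000 * c4 ^ 13 * c6

/-- coefficient `30` of `D⁴`. -/
def S52_D4c_30 (c4 c6 : R) : R := 9512265397043200000 * c6 ^ 10 - 47684367899688960000 * c4 ^ 3 * c6 ^ 8 + 119335769063584432128 * c4 ^ 6 * c6 ^ 6 - 128231005910748364800 * c4 ^ 9 * c6 ^ 4 + 39841903633007520000 * c4 ^ 12 * c6 ^ 2 + 7237147461909750000 * c4 ^ 15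

/-- coefficient `31` of `D⁴`. -/
def S52_D4c_31 (c4 c6 : R) : R := 96434763123916800000 * c4 ^ 2 * c6 ^ 9 - 300934412691371458560 * c4 ^ 5 * c6 ^ 7 + 272126568156940468224 * c4 ^ 8 * c6 ^ 5 - 25602625972813824000 * c4 ^ 11 * c6 ^ 3 - 42032284842695400000 * c4 ^ 14 * c6

/-- coefficient `32` of `D⁴`. -/
def S52_D4c_32 (c4 c6 : R) : R := -179400596049100800000 * c4 * c6 ^ 10 + 421798752181813248000 * c4 ^ 4 * c6 ^ 8 - 124140828578505818112 * c4 ^ 7 * c6 ^ 6 - 306145885599807897600 * c4 ^ 10 * c6 ^ 4 + 193268099192889600000 * c4 ^ 13 * c6 ^ 2 - 5374582880539640625 * c4 ^ 16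

/-- coefficient `33` of `D⁴`. -/
def S52_D4c_33 (c4 c6 : R) : R := 108727633969152000000 * c6 ^ 11 + 61908422303416320000 * c4 ^ 3 * c6 ^ 9 - 835674222707815219200 * c4 ^ 6 * c6 ^ 7 + 990510849052871491584 * c4 ^ 9 * c6 ^ 5 - 264379044280550400000 * c4 ^ 12 * c6 ^ 3 - 61096429218686400000 * c4 ^ 15 * c6

/-- coefficient `34` of `D⁴`. -/
def S52_D4c_34 (c4 c6 : R) : R := -235885871864217600000 * c4 ^ 2 * c6 ^ 10 + 274383891735773184000 * c4 ^ 5 * c6 ^ 8 + 560247640262980927488 * c4 ^ 8 * c6 ^ 6 - 918940613677424640000 * c4 ^ 11 * c6 ^ 4 + 238466390967849600000 * c4 ^ 14 * c6 ^ 2 + 81729984221634375000 * c4 ^ 17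

/-- coefficient `35` of `D⁴`. -/
def S52_D4c_35 (c4 c6 : R) : R := -242989278009753600000 * c4 * c6 ^ 11 + 946070934446407680000 * c4 ^ 4 * c6 ^ 9 - 503014563196371468288 * c4 ^ 7 * c6 ^ 7 - 1774626580915055493120 * c4 ^ 10 * c6 ^ 5 + 2489280756473825280000 * c4 ^ 13 * c6 ^ 3 - 914721922066954500000 * c4 ^ 16 * c6

/-- coefficient `36` of `D⁴`. -/
def S52_D4c_36 (c4 c6 : R) : R := 134994043338752000000 * c6 ^ 12 + 1134089201516544000000 * c4 ^ 3 * c6 ^ 10 - 6313117577231864954880 * c4 ^ 6 * c6 ^ 8 + 10396673273715279003648 * c4 ^ 9 * c6 ^ 6 - 6652837639989245952000 * c4 ^ 12 * c6 ^ 4 + 887553410270342400000 * c4 ^ 15 * c6 ^ 2 + 412645558107692812500 * c4 ^ 18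

/-- coefficient `37` of `D⁴`. -/
def S52_D4c_37 (c4 c6 : R) : R := -2213398403717529600000 * c4 ^ 2 * c6 ^ 11 + 7623221761811467468800 * c4 ^ 5 * c6 ^ 9 - 7684375356649230041088 * c4 ^ 8 * c6 ^ 7 - 566177151364277207040 * c4 ^ 11 * c6 ^ 5 + 4759657987617561600000 * c4 ^ 14 * c6 ^ 3 - 1918928937281499000000 * c4 ^ 17 * c6

/-- coefficient `38` of `D⁴`. -/
def S52_D4c_38 (c4 c6 : R) : R := 1860966379683840000000 * c4 * c6 ^ 12 - 4778959935645941760000 * c4 ^ 4 * c6 ^ 10 + 120044778141756948480 * c4 ^ 7 * c6 ^ 8 + 9629392791212170149888 * c4 ^ 10 * c6 ^ 6 - 9726397246044610560000 * c4 ^ 13 * c6 ^ 4 + 2813409727222208400000 * c4 ^ 16 * c6 ^ 2 + 81543538111303125000 * c4 ^ 19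

/-- coefficient `39` of `D⁴`. -/
def S52_D4c_39 (c4 c6 : R) : R := -954341733171200000000 * c6 ^ 13 - 507946025248358400000 * c4 ^ 3 * c6 ^ 11 + 12678766117301256192000 * c4 ^ 6 * c6 ^ 9 - 26278971457484586221568 * c4 ^ 9 * c6 ^ 7 + 22155897868422709248000 * c4 ^ 12 * c6 ^ 5 - 7924155376602009600000 * c4 ^ 15 * c6 ^ 3 + 830750597318812500000 * c4 ^ 18 * c6

/-- coefficient `40` of `D⁴`. -/
def S52_D4c_40 (c4 c6 : R) : R := 4949093392161177600000 * c4 ^ 2 * c6 ^ 12 - 20703603820578471936000 * c4 ^ 5 * c6 ^ 10 + 32343577127007327092736 * c4 ^ 8 * c6 ^ 8 - 21451617234575645736960 * c4 ^ 11 * c6 ^ 6 + 3094140744552591360000 * c4 ^ 14 * c6 ^ 4 + 2615717471624136000000 * c4 ^ 17 * c6 ^ 2 - 847307677795192968750 * c4 ^ 20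

/-- coefficient `41` of `D⁴`. -/
def S52_D4c_41 (c4 c6 : R) : R := -2523997661036544000000 * c4 * c6 ^ 13 + 8267644326327091200000 * c4 ^ 4 * c6 ^ 11 - 5343635116108661391360 * c4 ^ 7 * c6 ^ 9 - 10767915721564448882688 * c4 ^ 10 * c6 ^ 7 + 19548726945732742348800 * c4 ^ 13 * c6 ^ 5 - 11613401156461420800000 * c4 ^ 16 * c6 ^ 3 + 2432578382586990000000 * c4 ^ 19 * c6

/-- coefficient `42` of `D⁴`. -/
def S52_D4c_42 (c4 c6 : R) : R := 1201903648112640000000 * c6 ^ 14 - 2680301828859494400000 * c4 ^ 3 * c6 ^ 12 - 3768966076710046924800 * c4 ^ 6 * c6 ^ 10 + 17860234249656751620096 * c4 ^ 9 * c6 ^ 8 - 22230104469507664773120 * c4 ^ 12 * c6 ^ 6 + 12183212921121792000000 * c4 ^ 15 * c6 ^ 4 - 2603733781058388000000 * c4 ^ 18 * c6 ^ 2 + 37755337342078125000 * c4 ^ 21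

/-- coefficient `43` of `D⁴`. -/
def S52_D4c_43 (c4 c6 : R) : R := -3479851222695936000000 * c4 ^ 2 * c6 ^ 13 + 18152929638777618432000 * c4 ^ 5 * c6 ^ 11 - 38899824139182192721920 * c4 ^ 8 * c6 ^ 9 + 43672054961039109783552 * c4 ^ 11 * c6 ^ 7 - 26948768526664630272000 * c4 ^ 14 * c6 ^ 5 + 8595127899858931200000 * c4 ^ 17 * c6 ^ 3 - 1091668611148087500000 * c4 ^ 20 * c6

/-- coefficient `44` of `D⁴`. -/
def S52_D4c_44 (c4 c6 : R) : R := 1360645639372800000000 * c4 * c6 ^ 14 - 6392069689127731200000 * c4 ^ 4 * c6 ^ 12 + 10960382784895451136000 * c4 ^ 7 * c6 ^ 10 - 6447159871062675554304 * c4 ^ 10 * c6 ^ 8 - 3597487712832061440000 * c4 ^ 13 * c6 ^ 6 + 7179085005764083200000 * c4 ^ 16 * c6 ^ 4 - 3751082658595800000000 * c4 ^ 19 * c6 ^ 2 + 687686501587851562500 * c4 ^ 22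

/-- coefficient `45` of `D⁴`. -/
def S52_D4c_45 (c4 c6 : R) : R := -604731395276800000000 * c6 ^ 15 + 2917471640931532800000 * c4 ^ 3 * c6 ^ 13 - 5149325154047754240000 * c4 ^ 6 * c6 ^ 11 + 3129054808864897105920 * c4 ^ 9 * c6 ^ 9 + 1793381145205045985280 * c4 ^ 12 * c6 ^ 7 - 3723936545959575552000 * c4 ^ 15 * c6 ^ 5 + 2026426112943840000000 * c4 ^ 18 * c6 ^ 3 - 388340612661375000000 * c4 ^ 21 * c6

/-- coefficient `46` of `D⁴`. -/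
def S52_D4c_46 (c4 c6 : R) : R := 808965680136192000000 * c4 ^ 2 * c6 ^ 14 - 5187909894694502400000 * c4 ^ 5 * c6 ^ 12 + 14212838971840816742400 * c4 ^ 8 * c6 ^ 10 - 21556113889477728927744 * c4 ^ 11 * c6 ^ 8 + 19540443101291819827200 * c4 ^ 14 * c6 ^ 6 - 10582666500423168000000 * c4 ^ 17 * c6 ^ 4 + 3168964002848850000000 * c4 ^ 20 * c6 ^ 2 - 404521471522265625000 * c4 ^ 23

/-- coefficient `47` of `D⁴`. -/
def S52_D4c_47 (c4 c6 : R) : R := -263882790666240000000 * c4 * c6 ^ 15 + 1760613609819340800000 * c4 ^ 4 * c6 ^ 13 - 5031466879168806912000 * c4 ^ 7 * c6 ^ 11 + 7983713945538590146560 * c4 ^ 10 * c6 ^ 9 - 7596559844230236733440 * c4 ^ 13 * c6 ^ 7 + 4334399104851394560000 * c4 ^ 16 * c6 ^ 5 - 1373142187572480000000 * c4 ^ 19 * c6 ^ 3 + 186325041428437500000 * c4 ^ 22 * c6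

/-- coefficient `48` of `D⁴`. -/
def S52_D4c_48 (c4 c6 : R) : R := 109951162777600000000 * c6 ^ 16 - 831230790598656000000 * c4 ^ 3 * c6 ^ 14 + 2747918186195189760000 * c4 ^ 6 * c6 ^ 12 - 5188357840885619097600 * c4 ^ 9 * c6 ^ 10 + 6119527078603171823616 * c4 ^ 12 * c6 ^ 8 - 4617081135260762112000 * c4 ^ 15 * c6 ^ 6 + 2176100594982144000000 * c4 ^ 18 * c6 ^ 4 - 585779779368000000000 * c4 ^ 21 * c6 ^ 2 + 68952523554931640625 * c4 ^ 24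

/-- the form `D⁴`. -/
def S52_D4 (c4 c6 σ τ : R) : R :=
  S52_D4c_0 c4 c6 * σ ^ 48
    + S52_D4c_1 c4 c6 * σ ^ 47 * τ
    + S52_D4c_2 c4 c6 * σ ^ 46 * τ ^ 2
    + S52_D4c_3 c4 c6 * σ ^ 45 * τ ^ 3
    + S52_D4c_4 c4 c6 * σ ^ 44 * τ ^ 4
    + S52_D4c_5 c4 c6 * σ ^ 43 * τ ^ 5
    + S52_D4c_6 c4 c6 * σ ^ 42 * τ ^ 6
    + S52_D4c_7 c4 c6 * σ ^ 41 * τ ^ 7
    + S52_D4c_8 c4 c6 * σ ^ 40 * τ ^ 8
    + S52_D4c_9 c4 c6 * σ ^ 39 * τ ^ 9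
    + S52_D4c_10 c4 c6 * σ ^ 38 * τ ^ 10
    + S52_D4c_11 c4 c6 * σ ^ 37 * τ ^ 11
    + S52_D4c_12 c4 c6 * σ ^ 36 * τ ^ 12
    + S52_D4c_13 c4 c6 * σ ^ 35 * τ ^ 13
    + S52_D4c_14 c4 c6 * σ ^ 34 * τ ^ 14
    + S52_D4c_15 c4 c6 * σ ^ 33 * τ ^ 15
    + S52_D4c_16 c4 c6 * σ ^ 32 * τ ^ 16
    + S52_D4c_17 c4 c6 * σ ^ 31 * τ ^ 17
    + S52_D4c_18 c4 c6 * σ ^ 30 * τ ^ 18
    + S52_D4c_19 c4 c6 * σ ^ 29 * τ ^ 19
    + S52_D4c_20 c4 c6 * σ ^ 28 * τ ^ 20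
    + S52_D4c_21 c4 c6 * σ ^ 27 * τ ^ 21
    + S52_D4c_22 c4 c6 * σ ^ 26 * τ ^ 22
    + S52_D4c_23 c4 c6 * σ ^ 25 * τ ^ 23
    + S52_D4c_24 c4 c6 * σ ^ 24 * τ ^ 24
    + S52_D4c_25 c4 c6 * σ ^ 23 * τ ^ 25
    + S52_D4c_26 c4 c6 * σ ^ 22 * τ ^ 26
    + S52_D4c_27 c4 c6 * σ ^ 21 * τ ^ 27
    + S52_D4c_28 c4 c6 * σ ^ 20 * τ ^ 28
    + S52_D4c_29 c4 c6 * σ ^ 19 * τ ^ 29
    + S52_D4c_30 c4 c6 * σ ^ 18 * τ ^ 30
    + S52_D4c_31 c4 c6 * σ ^ 17 * τ ^ 31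
    + S52_D4c_32 c4 c6 * σ ^ 16 * τ ^ 32
    + S52_D4c_33 c4 c6 * σ ^ 15 * τ ^ 33
    + S52_D4c_34 c4 c6 * σ ^ 14 * τ ^ 34
    + S52_D4c_35 c4 c6 * σ ^ 13 * τ ^ 35
    + S52_D4c_36 c4 c6 * σ ^ 12 * τ ^ 36
    + S52_D4c_37 c4 c6 * σ ^ 11 * τ ^ 37
    + S52_D4c_38 c4 c6 * σ ^ 10 * τ ^ 38
    + S52_D4c_39 c4 c6 * σ ^ 9 * τ ^ 39
    + S52_D4c_40 c4 c6 * σ ^ 8 * τ ^ 40
    + S52_D4c_41 c4 c6 * σ ^ 7 * τ ^ 41
    + S52_D4c_42 c4 c6 * σ ^ 6 * τ ^ 42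
    + S52_D4c_43 c4 c6 * σ ^ 5 * τ ^ 43
    + S52_D4c_44 c4 c6 * σ ^ 4 * τ ^ 44
    + S52_D4c_45 c4 c6 * σ ^ 3 * τ ^ 45
    + S52_D4c_46 c4 c6 * σ ^ 2 * τ ^ 46
    + S52_D4c_47 c4 c6 * σ * τ ^ 47
    + S52_D4c_48 c4 c6 * τ ^ 48

set_option maxHeartbeats 4000000 in
theorem S52_dl_D4 (c4 c6 σ τ : R) :
    S52_D2 c4 c6 σ τ ^ 2 = S52_D4 c4 c6 σ τ := by
  simp only [S52_D4, S52_D4c_0, S52_D4c_1, S52_D4c_2, S52_D4c_3, S52_D4c_4, S52_D4c_5, S52_D4c_6,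
    S52_D4c_7, S52_D4c_8, S52_D4c_9, S52_D4c_10, S52_D4c_11, S52_D4c_12, S52_D4c_13, S52_D4c_14,
    S52_D4c_15, S52_D4c_16, S52_D4c_17, S52_D4c_18, S52_D4c_19, S52_D4c_20, S52_D4c_21,
    S52_D4c_22, S52_D4c_23, S52_D4c_24, S52_D4c_25, S52_D4c_26, S52_D4c_27, S52_D4c_28,
    S52_D4c_29, S52_D4c_30, S52_D4c_31, S52_D4c_32, S52_D4c_33, S52_D4c_34, S52_D4c_35,
    S52_D4c_36, S52_D4c_37, S52_D4c_38, S52_D4c_39, S52_D4c_40, S52_D4c_41, S52_D4c_42,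
    S52_D4c_43, S52_D4c_44, S52_D4c_45, S52_D4c_46, S52_D4c_47, S52_D4c_48, S52_D2, S52_D2c_0,
    S52_D2c_1, S52_D2c_2, S52_D2c_3, S52_D2c_4, S52_D2c_5, S52_D2c_6, S52_D2c_7, S52_D2c_8,
    S52_D2c_9, S52_D2c_10, S52_D2c_11, S52_D2c_12, S52_D2c_13, S52_D2c_14, S52_D2c_15,
    S52_D2c_16, S52_D2c_17, S52_D2c_18, S52_D2c_19, S52_D2c_20, S52_D2c_21, S52_D2c_22,
    S52_D2c_23, S52_D2c_24]
  ring

end Fermat.Agent.S52
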