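import Mathlib
import Fermat.Agent.S52.FamilyStep3

/-! # S52: the discriminant identity of the family, step 4 (helper15; generated, low memory) -/

set_option autoImplicit false

namespace Fermat.Agent.S52

variable {R : Type*} [CommRing R]

/-- coefficient `0` of `c₄(σ,τ)²`. -/
def S52_A2c_0 (c4 c6 : R) : R := c4 ^ 2

/-- coefficient `1` of `c₄(σ,τ)²`. -/
def S52_A2c_1 (c4 c6 : R) : R := -40 * c4 * c6

/-- coefficient `2` of `c₄(σ,τ)²`. -/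
def S52_A2c_2 (c4 c6 : R) : R := 400 * c6 ^ 2 + 380 * c4 ^ 3

/-- coefficient `3` of `c₄(σ,τ)²`. -/
def S52_A2c_3 (c4 c6 : R) : R := -9880 * c4 ^ 2 * c6

/-- coefficient `4` of `c₄(σ,τ)²`. -/
def S52_A2c_4 (c4 c6 : R) : R := 57000 * c4 * c6 ^ 2 + 34390 * c4 ^ 4

/-- coefficient `5` of `c₄(σ,τ)²`. -/
def S52_A2c_5 (c4 c6 : R) : R := -228000 * c6 ^ 3 - 430008 * c4 ^ 3 * c6

/-- coefficient `6` of `c₄(σ,τ)²`. -/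
def S52_A2c_6 (c4 c6 : R) : R := 3958080 * c4 ^ 2 * c6 ^ 2 - 119700 * c4 ^ 5

/-- coefficient `7` of `c₄(σ,τ)²`. -/
def S52_A2c_7 (c4 c6 : R) : R := -10077600 * c4 * c6 ^ 3 - 8565960 * c4 ^ 4 * c6

/-- coefficient `8` of `c₄(σ,τ)²`. -/
def S52_A2c_8 (c4 c6 : R) : R := 25194000 * c6 ^ 4 + 13992360 * c4 ^ 3 * c6 ^ 2 + 37718325 * c4 ^ 6

/-- coefficient `9` of `c₄(σ,τ)²`. -/
def S52_A2c_9 (c4 c6 : R) : R := -22739200 * c4 ^ 2 * c6 ^ 3 - 250699680 * c4 ^ 5 * c6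

/-- coefficient `10` of `c₄(σ,τ)²`. -/
def S52_A2c_10 (c4 c6 : R) : R := -795872000 * c4 * c6 ^ 4 + 2219118528 * c4 ^ 4 * c6 ^ 2 - 575586000 * c4 ^ 7

/-- coefficient `11` of `c₄(σ,τ)²`. -/
def S52_A2c_11 (c4 c6 : R) : R := 1447040000 * c6 ^ 5 - 6751888640 * c4 ^ 3 * c6 ^ 3 + 2993047200 * c4 ^ 6 * c6

/-- coefficient `12` of `c₄(σ,τ)²`. -/
def S52_A2c_12 (c4 c6 : R) : R := 37557923200 * c4 ^ 2 * c6 ^ 4 - 40317066720 * c4 ^ 5 * c6 ^ 2 + 8345997000 * c4 ^ 8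

/-- coefficient `13` of `c₄(σ,τ)²`. -/
def S52_A2c_13 (c4 c6 : R) : R := -151070976000 * c4 * c6 ^ 5 + 129123720320 * c4 ^ 4 * c6 ^ 3 + 9914032800 * c4 ^ 7 * c6

/-- coefficient `14` of `c₄(σ,τ)²`. -/
def S52_A2c_14 (c4 c6 : R) : R := 215815680000 * c6 ^ 6 + 54493459200 * c4 ^ 3 * c6 ^ 4 - 42245919360 * c4 ^ 6 * c6 ^ 2 - 204856290000 * c4 ^ 9

/-- coefficient `15` of `c₄(σ,τ)²`. -/
def S52_A2c_15 (c4 c6 : R) : R := 183443328000 * c4 ^ 2 * c6 ^ 5 - 2654629981056 * c4 ^ 5 * c6 ^ 3 + 2430961308000 * c4 ^ 8 * c6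

/-- coefficient `16` of `c₄(σ,τ)²`. -/
def S52_A2c_16 (c4 c6 : R) : R := -4316313600000 * c4 * c6 ^ 6 + 13897585598400 * c4 ^ 4 * c6 ^ 4 - 8622173628000 * c4 ^ 7 * c6 ^ 2 - 896246268750 * c4 ^ 10

/-- coefficient `17` of `c₄(σ,τ)²`. -/
def S52_A2c_17 (c4 c6 : R) : R := 5078016000000 * c6 ^ 7 - 22665724416000 * c4 ^ 3 * c6 ^ 5 + 15848075347200 * c4 ^ 6 * c6 ^ 3 + 1650900690000 * c4 ^ 9 * c6

/-- coefficient `18` of `c₄(σ,τ)²`. -/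
def S52_A2c_18 (c4 c6 : R) : R := 79614827520000 * c4 ^ 2 * c6 ^ 6 - 120604054291200 * c4 ^ 5 * c6 ^ 4 + 30709162908000 * c4 ^ 8 * c6 ^ 2 + 10393444125000 * c4 ^ 11

/-- coefficient `19` of `c₄(σ,τ)²`. -/
def S52_A2c_19 (c4 c6 : R) : R := -235227955200000 * c4 * c6 ^ 7 + 182324460672000 * c4 ^ 4 * c6 ^ 5 + 292076704569600 * c4 ^ 7 * c6 ^ 3 - 239304492450000 * c4 ^ 10 * c6

/-- coefficient `20` of `c₄(σ,τ)²`. -/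
def S52_A2c_20 (c4 c6 : R) : R := 235227955200000 * c6 ^ 8 + 777256273920000 * c4 ^ 3 * c6 ^ 6 - 1952661330103680 * c4 ^ 6 * c6 ^ 4 + 707118882750000 * c4 ^ 9 * c6 ^ 2 + 233196064762500 * c4 ^ 12

/-- coefficient `21` of `c₄(σ,τ)²`. -/
def S52_A2c_21 (c4 c6 : R) : R := -2321544192000000 * c4 ^ 2 * c6 ^ 7 + 2490299042457600 * c4 ^ 5 * c6 ^ 5 + 1884201998184000 * c4 ^ 8 * c6 ^ 3 - 2053088131050000 * c4 ^ 11 * c6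

/-- coefficient `22` of `c₄(σ,τ)²`. -/
def S52_A2c_22 (c4 c6 : R) : R := 1868709888000000 * c4 * c6 ^ 8 + 3068090718720000 * c4 ^ 4 * c6 ^ 6 - 11155985611603200 * c4 ^ 7 * c6 ^ 4 + 5751593399520000 * c4 ^ 10 * c6 ^ 2 + 467704985625000 * c4 ^ 13

/-- coefficient `23` of `c₄(σ,τ)²`. -/
def S52_A2c_23 (c4 c6 : R) : R := -1624965120000000 * c6 ^ 9 - 9075430195200000 * c4 ^ 3 * c6 ^ 7 + 21265615494835200 * c4 ^ 6 * c6 ^ 5 - 8930374962264000 * c4 ^ 9 * c6 ^ 3 - 1634933949750000 * c4 ^ 12 * c6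

/-- coefficient `24` of `c₄(σ,τ)²`. -/
def S52_A2c_24 (c4 c6 : R) : R := 25552576512000000 * c4 ^ 2 * c6 ^ 8 - 52229811695616000 * c4 ^ 5 * c6 ^ 6 + 26104596669986400 * c4 ^ 8 * c6 ^ 4 + 2387600059950000 * c4 ^ 11 * c6 ^ 2 - 1814898694218750 * c4 ^ 14

/-- coefficient `25` of `c₄(σ,τ)²`. -/
def S52_A2c_25 (c4 c6 : R) : R := -28729383321600000 * c4 * c6 ^ 9 + 31498730127360000 * c4 ^ 4 * c6 ^ 7 + 49918421619154944 * c4 ^ 7 * c6 ^ 5 - 79513739825760000 * c4 ^ 10 * c6 ^ 3 + 26825931175500000 * c4 ^ 13 * c6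

/-- coefficient `26` of `c₄(σ,τ)²`. -/
def S52_A2c_26 (c4 c6 : R) : R := 22099525632000000 * c6 ^ 10 + 28453139251200000 * c4 ^ 3 * c6 ^ 8 - 169648672884572160 * c4 ^ 6 * c6 ^ 6 + 146945219552352000 * c4 ^ 9 * c6 ^ 4 - 9181658917800000 * c4 ^ 12 * c6 ^ 2 - 18667529426250000 * c4 ^ 15

/-- coefficient `27` of `c₄(σ,τ)²`. -/
def S52_A2c_27 (c4 c6 : R) : R := -133211029504000000 * c4 ^ 2 * c6 ^ 9 + 308585068698009600 * c4 ^ 5 * c6 ^ 7 - 153700665457812480 * c4 ^ 8 * c6 ^ 5 - 85557819805920000 * c4 ^ 11 * c6 ^ 3 + 63884434036500000 * c4 ^ 14 * c6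

/-- coefficient `28` of `c₄(σ,τ)²`. -/
def S52_A2c_28 (c4 c6 : R) : R := 68754079744000000 * c4 * c6 ^ 10 + 25953130414080000 * c4 ^ 4 * c6 ^ 8 - 503030797468139520 * c4 ^ 7 * c6 ^ 6 + 687437727318288000 * c4 ^ 10 * c6 ^ 4 - 313337938369500000 * c4 ^ 13 * c6 ^ 2 + 34223803948125000 * c4 ^ 16

/-- coefficient `29` of `c₄(σ,τ)²`. -/
def S52_A2c_29 (c4 c6 : R) : R := -47416606720000000 * c6 ^ 11 - 125975763353600000 * c4 ^ 3 * c6 ^ 9 + 691996397322240000 * c4 ^ 6 * c6 ^ 7 - 860786439962941440 * c4 ^ 9 * c6 ^ 5 + 386555342418000000 * c4 ^ 12 * c6 ^ 3 - 44372932015500000 * c4 ^ 15 * c6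

/-- coefficient `30` of `c₄(σ,τ)²`. -/
def S52_A2c_30 (c4 c6 : R) : R := 471016249753600000 * c4 ^ 2 * c6 ^ 10 - 1748397492928512000 * c4 ^ 5 * c6 ^ 8 + 2534079367381782528 * c4 ^ 8 * c6 ^ 6 - 1813236539729760000 * c4 ^ 11 * c6 ^ 4 + 662750221726800000 * c4 ^ 14 * c6 ^ 2 - 106211805356250000 * c4 ^ 17

/-- coefficient `31` of `c₄(σ,τ)²`. -/
def S52_A2c_31 (c4 c6 : R) : R := -422685179904000000 * c4 * c6 ^ 11 + 1573481991372800000 * c4 ^ 4 * c6 ^ 9 - 2244156921104302080 * c4 ^ 7 * c6 ^ 7 + 1513964898301363200 * c4 ^ 10 * c6 ^ 5 - 475963669306800000 * c4 ^ 13 * c6 ^ 3 + 55358880367500000 * c4 ^ 16 * c6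

/-- coefficient `32` of `c₄(σ,τ)²`. -/
def S52_A2c_32 (c4 c6 : R) : R := 264178237440000000 * c6 ^ 12 - 1193882419200000000 * c4 ^ 3 * c6 ^ 10 + 2552048609565081600 * c4 ^ 6 * c6 ^ 8 - 3445898645011415040 * c4 ^ 9 * c6 ^ 6 + 3003494957651160000 * c4 ^ 12 * c6 ^ 4 - 1493144870935500000 * c4 ^ 15 * c6 ^ 2 + 313204130567578125 * c4 ^ 18

/-- coefficient `33` of `c₄(σ,τ)²`. -/
def S52_A2c_33 (c4 c6 : R) : R := 556806438912000000 * c4 ^ 2 * c6 ^ 11 - 3147146197991424000 * c4 ^ 5 * c6 ^ 9 + 6967928030174576640 * c4 ^ 8 * c6 ^ 7 - 7589683595941171200 * c4 ^ 11 * c6 ^ 5 + 4080135443148000000 * c4 ^ 14 * c6 ^ 3 - 868040118320625000 * c4 ^ 17 * c6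

/-- coefficient `34` of `c₄(σ,τ)²`. -/
def S52_A2c_34 (c4 c6 : R) : R := -1338821836800000000 * c4 * c6 ^ 12 + 6942063171993600000 * c4 ^ 4 * c6 ^ 10 - 14403508500352204800 * c4 ^ 7 * c6 ^ 8 + 14991311339158855680 * c4 ^ 10 * c6 ^ 6 - 7890968851869600000 * c4 ^ 13 * c6 ^ 4 + 1744652911412250000 * c4 ^ 16 * c6 ^ 2 - 44728233539062500 * c4 ^ 19

/-- coefficient `35` of `c₄(σ,τ)²`. -/
def S52_A2c_35 (c4 c6 : R) : R := 765041049600000000 * c6 ^ 13 - 3321808237363200000 * c4 ^ 3 * c6 ^ 11 + 5034357019901952000 * c4 ^ 6 * c6 ^ 9 - 2227162459162411008 * c4 ^ 9 * c6 ^ 7 - 1782242933572224000 * c4 ^ 12 * c6 ^ 5 + 2127340041429600000 * c4 ^ 15 * c6 ^ 3 - 595524480834375000 * c4 ^ 18 * c6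

/-- coefficient `36` of `c₄(σ,τ)²`. -/
def S52_A2c_36 (c4 c6 : R) : R := -297090940928000000 * c4 ^ 2 * c6 ^ 12 + 941602960834560000 * c4 ^ 5 * c6 ^ 10 - 215433102806876160 * c4 ^ 8 * c6 ^ 8 - 2610670219529011200 * c4 ^ 11 * c6 ^ 6 + 4164954773065200000 * c4 ^ 14 * c6 ^ 4 - 2561635632819375000 * c4 ^ 17 * c6 ^ 2 + 578272162183593750 * c4 ^ 20

/-- coefficient `37` of `c₄(σ,τ)²`. -/
def S52_A2c_37 (c4 c6 : R) : R := -816043786240000000 * c4 * c6 ^ 13 + 5283564748800000000 * c4 ^ 4 * c6 ^ 11 - 14186519672861491200 * c4 ^ 7 * c6 ^ 9 + 20230954816863928320 * c4 ^ 10 * c6 ^ 7 - 16168738799907072000 * c4 ^ 13 * c6 ^ 5 + 6869130813841500000 * c4 ^ 16 * c6 ^ 3 - 1212348120496875000 * c4 ^ 19 * c6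

/-- coefficient `38` of `c₄(σ,τ)²`. -/
def S52_A2c_38 (c4 c6 : R) : R := 429496729600000000 * c6 ^ 14 - 2404107943936000000 * c4 ^ 3 * c6 ^ 12 + 5292259389997056000 * c4 ^ 6 * c6 ^ 10 - 5430305136228433920 * c4 ^ 9 * c6 ^ 8 + 1848449107728691200 * c4 ^ 12 * c6 ^ 6 + 1156077619524000000 * c4 ^ 15 * c6 ^ 4 - 1179408410865000000 * c4 ^ 18 * c6 ^ 2 + 287538644179687500 * c4 ^ 21

/-- coefficient `39` of `c₄(σ,τ)²`. -/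
def S52_A2c_39 (c4 c6 : R) : R := -236223201280000000 * c4 ^ 2 * c6 ^ 13 + 1437181956587520000 * c4 ^ 5 * c6 ^ 11 - 3642762648040243200 * c4 ^ 8 * c6 ^ 9 + 4923690714959708160 * c4 ^ 11 * c6 ^ 7 - 3742967816703360000 * c4 ^ 14 * c6 ^ 5 + 1517343505429500000 * c4 ^ 17 * c6 ^ 3 - 256262510953125000 * c4 ^ 20 * c6

/-- coefficient `40` of `c₄(σ,τ)²`. -/
def S52_A2c_40 (c4 c6 : R) : R := 32480690176000000 * c4 ^ 4 * c6 ^ 12 - 196443214184448000 * c4 ^ 7 * c6 ^ 10 + 495016766918885376 * c4 ^ 10 * c6 ^ 8 - 665248545865728000 * c4 ^ 13 * c6 ^ 6 + 502866825748650000 * c4 ^ 16 * c6 ^ 4 - 202723151709375000 * c4 ^ 19 * c6 ^ 2 + 34050628916015625 * c4 ^ 22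

/-- the form `c₄(σ,τ)²`. -/
def S52_A2 (c4 c6 σ τ : R) : R :=
  S52_A2c_0 c4 c6 * σ ^ 40
    + S52_A2c_1 c4 c6 * σ ^ 39 * τ
    + S52_A2c_2 c4 c6 * σ ^ 38 * τ ^ 2
    + S52_A2c_3 c4 c6 * σ ^ 37 * τ ^ 3
    + S52_A2c_4 c4 c6 * σ ^ 36 * τ ^ 4
    + S52_A2c_5 c4 c6 * σ ^ 35 * τ ^ 5
    + S52_A2c_6 c4 c6 * σ ^ 34 * τ ^ 6
    + S52_A2c_7 c4 c6 * σ ^ 33 * τ ^ 7
    + S52_A2c_8 c4 c6 * σ ^ 32 * τ ^ 8
    + S52_A2c_9 c4 c6 * σ ^ 31 * τ ^ 9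
    + S52_A2c_10 c4 c6 * σ ^ 30 * τ ^ 10
    + S52_A2c_11 c4 c6 * σ ^ 29 * τ ^ 11
    + S52_A2c_12 c4 c6 * σ ^ 28 * τ ^ 12
    + S52_A2c_13 c4 c6 * σ ^ 27 * τ ^ 13
    + S52_A2c_14 c4 c6 * σ ^ 26 * τ ^ 14
    + S52_A2c_15 c4 c6 * σ ^ 25 * τ ^ 15
    + S52_A2c_16 c4 c6 * σ ^ 24 * τ ^ 16
    + S52_A2c_17 c4 c6 * σ ^ 23 * τ ^ 17
    + S52_A2c_18 c4 c6 * σ ^ 22 * τ ^ 18
    + S52_A2c_19 c4 c6 * σ ^ 21 * τ ^ 19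
    + S52_A2c_20 c4 c6 * σ ^ 20 * τ ^ 20
    + S52_A2c_21 c4 c6 * σ ^ 19 * τ ^ 21
    + S52_A2c_22 c4 c6 * σ ^ 18 * τ ^ 22
    + S52_A2c_23 c4 c6 * σ ^ 17 * τ ^ 23
    + S52_A2c_24 c4 c6 * σ ^ 16 * τ ^ 24
    + S52_A2c_25 c4 c6 * σ ^ 15 * τ ^ 25
    + S52_A2c_26 c4 c6 * σ ^ 14 * τ ^ 26
    + S52_A2c_27 c4 c6 * σ ^ 13 * τ ^ 27
    + S52_A2c_28 c4 c6 * σ ^ 12 * τ ^ 28
    + S52_A2c_29 c4 c6 * σ ^ 11 * τ ^ 29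
    + S52_A2c_30 c4 c6 * σ ^ 10 * τ ^ 30
    + S52_A2c_31 c4 c6 * σ ^ 9 * τ ^ 31
    + S52_A2c_32 c4 c6 * σ ^ 8 * τ ^ 32
    + S52_A2c_33 c4 c6 * σ ^ 7 * τ ^ 33
    + S52_A2c_34 c4 c6 * σ ^ 6 * τ ^ 34
    + S52_A2c_35 c4 c6 * σ ^ 5 * τ ^ 35
    + S52_A2c_36 c4 c6 * σ ^ 4 * τ ^ 36
    + S52_A2c_37 c4 c6 * σ ^ 3 * τ ^ 37
    + S52_A2c_38 c4 c6 * σ ^ 2 * τ ^ 38
    + S52_A2c_39 c4 c6 * σ * τ ^ 39
    + S52_A2c_40 c4 c6 * τ ^ 40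

set_option maxHeartbeats 4000000 in
theorem S52_dl_A2 (c4 c6 σ τ : R) :
    S52_c4h c4 c6 σ τ ^ 2 = S52_A2 c4 c6 σ τ := by
  simp only [S52_A2, S52_A2c_0, S52_A2c_1, S52_A2c_2, S52_A2c_3, S52_A2c_4, S52_A2c_5, S52_A2c_6,
    S52_A2c_7, S52_A2c_8, S52_A2c_9, S52_A2c_10, S52_A2c_11, S52_A2c_12, S52_A2c_13, S52_A2c_14,
    S52_A2c_15, S52_A2c_16, S52_A2c_17, S52_A2c_18, S52_A2c_19, S52_A2c_20, S52_A2c_21,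
    S52_A2c_22, S52_A2c_23, S52_A2c_24, S52_A2c_25, S52_A2c_26, S52_A2c_27, S52_A2c_28,
    S52_A2c_29, S52_A2c_30, S52_A2c_31, S52_A2c_32, S52_A2c_33, S52_A2c_34, S52_A2c_35,
    S52_A2c_36, S52_A2c_37, S52_A2c_38, S52_A2c_39, S52_A2c_40, S52_c4h, S52_c4c,
    Finset.sum_range_succ, Finset.sum_range_zero]
  ring

end Fermat.Agent.S52
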