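import Mathlib

/-!
# S52, block I2b (helper14): the combinatorial core of the elementary Hilbert irreducibility
argument (Dörge)

`S52_dorge`: if for every `n` of an arithmetic progression the integer `y n` is within `C / n`
of the value at `n` of one of finitely many real polynomials of degree `≤ d`, then there is a
rational polynomial `Q` of degree `≤ d` with `Q n = y n` at arbitrarily many points of the
progression.
-/

set_option autoImplicit false

namespace Fermat.Agent.S52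

open Polynomial Finset

/-- the key step: `d + 2` integer points near a real polynomial of degree `≤ d`, far out, have
vanishing top divided difference. -/
theorem S52_divdiff_zero (d : ℕ) (T : ℝ[X]) (hT : T.natDegree ≤ d) (C : ℝ) (hC : 0 ≤ C)
    (s : Finset ℕ) (hs : #s = d + 2) (ν : ℕ → ℤ) (hν : Function.Injective ν)
    (Bd : ℝ) (hBd : ∀ i ∈ s, ∀ k ∈ s, |((ν i - ν k : ℤ) : ℝ)| ≤ Bd) (hBd1 : 1 ≤ Bd)
    (nmin : ℝ) (hnmin : 0 < nmin) (hν0 : ∀ i ∈ s, nmin ≤ (ν i : ℝ))
    (hbig : Bd ^ ((d + 1) * (d + 2)) * ((d + 2) * C) < nmin)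
    (y : ℕ → ℤ) (hy : ∀ i ∈ s, |(y i : ℝ) - T.eval ((ν i : ℤ) : ℝ)| * (ν i : ℝ) ≤ C) :
    ∑ i ∈ s, (y i : ℚ) / ∏ k ∈ s.erase i, ((ν i : ℚ) - (ν k : ℚ)) = 0 := by
  classical
  -- integer weights
  set wZ : ℕ → ℤ := fun i => ∏ k ∈ s.erase i, (ν i - ν k) with hwZ
  have hwZne : ∀ i ∈ s, wZ i ≠ 0 := by
    intro i _
    rw [hwZ]
    simp only
    rw [Finset.prod_ne_zero_iff]
    intro k hk
    have hki : k ≠ i := (Finset.mem_erase.mp hk).1
    intro h0
    exact hki (hν (by linarith)).symm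
  have hwZq : ∀ i, ∏ k ∈ s.erase i, ((ν i : ℚ) - (ν k : ℚ)) = (wZ i : ℚ) := by
    intro i; rw [hwZ]; push_cast; rfl
  have hwZr : ∀ i, ∏ k ∈ s.erase i, ((ν i : ℝ) - (ν k : ℝ)) = (wZ i : ℝ) := by
    intro i; rw [hwZ]; push_cast; rfl
  have hcard_erase : ∀ i ∈ s, #(s.erase i) = d + 1 := by
    intro i hi; rw [Finset.card_erase_of_mem hi, hs]; rfl
  have hwZabs : ∀ i ∈ s, |(wZ i : ℝ)| ≤ Bd ^ (d + 1) := by
    intro i hi
    rw [hwZ]
    simp only
    rw [Int.cast_prod, Finset.abs_prod, ← hcard_erase i hi, ← Finset.prod_const]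
    refine Finset.prod_le_prod (fun k _ => abs_nonneg _) ?_
    intro k hk
    exact hBd i hi k (Finset.mem_of_mem_erase hk)
  have hwZge : ∀ i ∈ s, 1 ≤ |(wZ i : ℝ)| := by
    intro i hi
    have := Int.one_le_abs (hwZne i hi)
    exact_mod_cast this
  set q : ℚ := ∑ i ∈ s, (y i : ℚ) / ∏ k ∈ s.erase i, ((ν i : ℚ) - (ν k : ℚ)) with hq
  set F : ℤ := ∏ i ∈ s, wZ i with hF
  have hFne : F ≠ 0 := by
    rw [hF, Finset.prod_ne_zero_iff]; exact hwZne
  -- F * q is an integer
  have hFq : ∃ z : ℤ, (F : ℚ) * q = z := by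
    refine ⟨∑ i ∈ s, y i * ∏ j ∈ s.erase i, wZ j, ?_⟩
    rw [hq, Finset.mul_sum]
    push_cast
    refine Finset.sum_congr rfl fun i hi => ?_
    rw [hwZq i]
    have hne : (wZ i : ℚ) ≠ 0 := by exact_mod_cast hwZne i hi
    have hFi : (F : ℚ) = (wZ i : ℚ) * ∏ j ∈ s.erase i, (wZ j : ℚ) := by
      rw [hF]; push_cast; exact (Finset.mul_prod_erase s (fun j => (wZ j : ℚ)) hi).symm
    rw [hFi]; field_simp
  -- the real divided difference of `T` vanishes
  have hTdd : ∑ i ∈ s, T.eval ((ν i : ℤ) : ℝ) / ∏ k ∈ s.erase i, ((ν i : ℝ) - (ν k : ℝ)) = 0 := by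
    have hinj : Set.InjOn (fun i : ℕ => ((ν i : ℤ) : ℝ)) s := by
      intro a _ b _ hab
      have hab' : ((ν a : ℤ) : ℝ) = ((ν b : ℤ) : ℝ) := hab
      exact hν (by exact_mod_cast hab')
    have hdeg : T.degree < #s := by
      rw [hs]
      refine lt_of_le_of_lt (degree_le_natDegree) ?_
      exact_mod_cast (by omega : T.natDegree < d + 2)
    have h := Lagrange.coeff_eq_sum (v := fun i : ℕ => ((ν i : ℤ) : ℝ)) hinj hdeg
    rw [hs] at h
    rw [← h]
    exact coeff_eq_zero_of_natDegree_lt (by simp; omega)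
  -- bound on |q|
  have hqabs : |(q : ℝ)| ≤ (d + 2) * (C / nmin) := by
    have hq' : (q : ℝ) = ∑ i ∈ s, ((y i : ℝ) - T.eval ((ν i : ℤ) : ℝ)) / (wZ i : ℝ) := by
      have h1 : (q : ℝ) = ∑ i ∈ s, (y i : ℝ) / (wZ i : ℝ) := by
        rw [hq]; push_cast
        refine Finset.sum_congr rfl fun i _ => ?_
        rw [hwZr i]
      have h2 : ∑ i ∈ s, T.eval ((ν i : ℤ) : ℝ) / (wZ i : ℝ) = 0 := by
        rw [← hTdd]
        refine Finset.sum_congr rfl fun i _ => ?_
        rw [hwZr i]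
      rw [h1, ← sub_zero (∑ i ∈ s, (y i : ℝ) / (wZ i : ℝ)), ← h2, ← Finset.sum_sub_distrib]
      refine Finset.sum_congr rfl fun i _ => ?_
      ring
    rw [hq']
    calc |∑ i ∈ s, ((y i : ℝ) - T.eval ((ν i : ℤ) : ℝ)) / (wZ i : ℝ)|
        ≤ ∑ i ∈ s, |((y i : ℝ) - T.eval ((ν i : ℤ) : ℝ)) / (wZ i : ℝ)| := Finset.abs_sum_le_sum_abs _ _
      _ ≤ ∑ _i ∈ s, C / nmin := by
          refine Finset.sum_le_sum fun i hi => ?_
          rw [abs_div]
          have h1 : |(y i : ℝ) - T.eval ((ν i : ℤ) : ℝ)| ≤ C / nmin := by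
            have hνpos : 0 < (ν i : ℝ) := lt_of_lt_of_le hnmin (hν0 i hi)
            rw [le_div_iff₀ hnmin]
            calc |(y i : ℝ) - T.eval ((ν i : ℤ) : ℝ)| * nmin
                ≤ |(y i : ℝ) - T.eval ((ν i : ℤ) : ℝ)| * (ν i : ℝ) :=
                  mul_le_mul_of_nonneg_left (hν0 i hi) (abs_nonneg _)
              _ ≤ C := hy i hi
          have h2 := hwZge i hi
          have h3 : 0 ≤ C / nmin := by positivity
          calc |(y i : ℝ) - T.eval ((ν i : ℤ) : ℝ)| / |(wZ i : ℝ)|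
              ≤ |(y i : ℝ) - T.eval ((ν i : ℤ) : ℝ)| / 1 := by
                apply div_le_div_of_nonneg_left (abs_nonneg _) one_pos h2
            _ = |(y i : ℝ) - T.eval ((ν i : ℤ) : ℝ)| := div_one _
            _ ≤ C / nmin := h1
      _ = (d + 2) * (C / nmin) := by
          rw [Finset.sum_const, hs, nsmul_eq_mul]; push_cast; ring
  -- bound on |F|
  have hFabs : |(F : ℝ)| ≤ Bd ^ ((d + 1) * (d + 2)) := by
    rw [hF, Int.cast_prod, Finset.abs_prod, pow_mul, ← hs, ← Finset.prod_const]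
    refine Finset.prod_le_prod (fun i _ => abs_nonneg _) ?_
    intro i hi
    exact hwZabs i hi
  -- conclusion
  by_contra hq0
  obtain ⟨z, hz⟩ := hFq
  have hzne : z ≠ 0 := by
    intro h0
    rw [h0, Int.cast_zero] at hz
    rcases mul_eq_zero.mp hz with h | h
    · exact hFne (by exact_mod_cast h)
    · exact hq0 h
  have hz1 : (1 : ℝ) ≤ |(z : ℝ)| := by
    have := Int.one_le_abs hzne
    exact_mod_cast this
  have hzr : (z : ℝ) = (F : ℝ) * (q : ℝ) := by
    have h := congrArg (fun t : ℚ => (t : ℝ)) hz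
    beta_reduce at h
    push_cast at h
    exact h.symm
  have hlt : |(z : ℝ)| < 1 := by
    rw [hzr, abs_mul]
    have hB0 : 0 ≤ Bd ^ ((d + 1) * (d + 2)) := by positivity
    calc |(F : ℝ)| * |(q : ℝ)| ≤ Bd ^ ((d + 1) * (d + 2)) * ((d + 2) * (C / nmin)) := by
          exact mul_le_mul hFabs hqabs (abs_nonneg _) hB0
      _ = Bd ^ ((d + 1) * (d + 2)) * ((d + 2) * C) / nmin := by ring
      _ < 1 := by rw [div_lt_one hnmin]; exact hbig
  linarith

/-- **Dörge core**: integer points of an arithmetic progression that stay within `C / n` of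
finitely many real polynomial branches of degree `≤ d` lie, in arbitrarily large number, on ONE
rational polynomial of degree `≤ d`. -/
theorem S52_dorge (𝒯 : Finset ℝ[X]) (d : ℕ) (hT : ∀ T ∈ 𝒯, T.natDegree ≤ d) (C : ℝ) (hC : 0 ≤ C)
    (r M n₀ : ℤ) (hM : 0 < M) (y : ℤ → ℤ)
    (hy : ∀ n : ℤ, n₀ ≤ n → n ≡ r [ZMOD M] →
      ∃ T ∈ 𝒯, |(y n : ℝ) - T.eval (n : ℝ)| * (n : ℝ) ≤ C) (L : ℕ) :
    ∃ Q : ℚ[X], Q.natDegree ≤ d ∧ ∃ S : Finset ℤ, L ≤ #S ∧
      ∀ n ∈ S, n₀ ≤ n ∧ n ≡ r [ZMOD M] ∧ Q.eval (n : ℚ) = y n := by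
  classical
  set c := #𝒯 with hc
  set L' := L + d + 2 with hL'
  set K := c * L' + 1 with hK
  set Bd : ℝ := (M : ℝ) * K with hBd
  have hM1 : (1 : ℝ) ≤ (M : ℝ) := by exact_mod_cast hM
  have hK1 : (1 : ℝ) ≤ (K : ℝ) := by rw [hK]; push_cast; nlinarith [Nat.cast_nonneg (α := ℝ) (c * L')]
  have hBd1 : 1 ≤ Bd := by rw [hBd]; nlinarith
  set bound : ℝ := Bd ^ ((d + 1) * (d + 2)) * ((d + 2) * C) with hbound
  -- the starting point
  set kstar : ℕ := (max (max (n₀ - r) (1 - r)) (⌈bound⌉ + 1 - r)).toNat with hkstar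
  set nstar : ℤ := r + M * kstar with hnstar
  have hk_ge : max (max (n₀ - r) (1 - r)) (⌈bound⌉ + 1 - r) ≤ (kstar : ℤ) := Int.self_le_toNat _
  have hns_ge : r + (kstar : ℤ) ≤ nstar := by
    rw [hnstar]; nlinarith [Int.natCast_nonneg kstar]
  have hns1 : n₀ ≤ nstar := by
    have := le_trans (le_trans (le_max_left _ _) (le_max_left _ _)) hk_ge; linarith
  have hns2 : 1 ≤ nstar := by
    have := le_trans (le_trans (le_max_right _ _) (le_max_left _ _)) hk_ge; linarith
  have hns3 : bound < (nstar : ℝ) := by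
    have h1 := le_trans (le_max_right _ _) hk_ge
    have h2 : ⌈bound⌉ + 1 ≤ nstar := by linarith
    have h3 : (⌈bound⌉ : ℝ) + 1 ≤ (nstar : ℝ) := by exact_mod_cast h2
    linarith [Int.le_ceil bound]
  have hnspos : (0 : ℝ) < (nstar : ℝ) := by exact_mod_cast (by linarith : (0 : ℤ) < nstar)
  -- the nodes
  set ν : ℕ → ℤ := fun j => nstar + M * j with hν
  have hνinj : Function.Injective ν := by
    intro a b hab
    simp only [hν] at hab
    have : M * (a : ℤ) = M * b := by linarith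
    exact_mod_cast mul_left_cancel₀ hM.ne' this
  have hνge : ∀ j, nstar ≤ ν j := by
    intro j; simp only [hν]; nlinarith [Int.natCast_nonneg j]
  have hνmod : ∀ j, ν j ≡ r [ZMOD M] := by
    intro j
    simp only [hν, hnstar]
    have : r + M * (kstar : ℤ) + M * (j : ℤ) = r + M * ((kstar : ℤ) + j) := by ring
    rw [this]
    exact Int.modEq_iff_dvd.mpr ⟨-((kstar : ℤ) + j), by ring⟩
  -- the branches
  have hy' : ∀ j : ℕ, ∃ T ∈ 𝒯, |(y (ν j) : ℝ) - T.eval ((ν j : ℤ) : ℝ)| * ((ν j : ℤ) : ℝ) ≤ C :=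
    fun j => hy (ν j) (hns1.trans (hνge j)) (hνmod j)
  choose f hf𝒯 hfy using hy'
  -- pigeonhole
  obtain ⟨T, hT𝒯, hTcard⟩ : ∃ T ∈ 𝒯, L' < #{j ∈ Finset.range K | f j = T} := by
    apply Finset.exists_lt_card_fiber_of_mul_lt_card_of_maps_to (fun j _ => hf𝒯 j)
    rw [Finset.card_range, hK, ← hc]
    omega
  set J := {j ∈ Finset.range K | f j = T} with hJ
  have hJK : ∀ j ∈ J, j < K := fun j hj => Finset.mem_range.mp (Finset.mem_filter.mp hj).1
  have hJf : ∀ j ∈ J, f j = T := fun j hj => (Finset.mem_filter.mp hj).2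
  obtain ⟨S₀, hS₀J, hS₀card⟩ := Finset.exists_subset_card_eq (s := J) (n := d + 1) (by omega)
  set vq : ℕ → ℚ := fun j => ((ν j : ℤ) : ℚ) with hvq
  set yq : ℕ → ℚ := fun j => ((y (ν j) : ℤ) : ℚ) with hyq
  have hvq_inj : ∀ s : Finset ℕ, Set.InjOn vq s := by
    intro s a _ b _ hab
    have hab' : ((ν a : ℤ) : ℚ) = ((ν b : ℤ) : ℚ) := hab
    exact hνinj (by exact_mod_cast hab')
  set Q := Lagrange.interpolate S₀ vq yq with hQ
  have hQdeg : Q.degree < (d + 1 : ℕ) := by
    have := Lagrange.degree_interpolate_lt (r := yq) (hvq_inj S₀)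
    rwa [hS₀card] at this
  have hQnat : Q.natDegree ≤ d := by
    by_cases hQ0 : Q = 0
    · rw [hQ0]; simp
    · have := (natDegree_lt_iff_degree_lt hQ0).mpr hQdeg
      omega
  have hQS₀ : ∀ i ∈ S₀, Q.eval (vq i) = yq i := fun i hi =>
    Lagrange.eval_interpolate_at_node yq (hvq_inj S₀) hi
  -- all points of `J` lie on `Q`
  have hQJ : ∀ j ∈ J, Q.eval (vq j) = yq j := by
    intro j hj
    by_cases hjS : j ∈ S₀
    · exact hQS₀ j hjS
    set s' := insert j S₀ with hs'
    have hs'card : #s' = d + 2 := by rw [hs', Finset.card_insert_of_notMem hjS, hS₀card]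
    have hs'J : ∀ i ∈ s', i ∈ J := by
      intro i hi
      rcases Finset.mem_insert.mp hi with rfl | hi
      · exact hj
      · exact hS₀J hi
    have hdd := S52_divdiff_zero d T (hT T hT𝒯) C hC s' hs'card ν hνinj Bd ?_ hBd1
      (nstar : ℝ) hnspos (fun i _ => by exact_mod_cast hνge i) hns3 (fun i => y (ν i))
      (fun i hi => by rw [← hJf i (hs'J i hi)]; exact hfy i)
    · set R := Lagrange.interpolate s' vq yq with hR
      have hRdeg : R.degree < (d + 2 : ℕ) := by
        have := Lagrange.degree_interpolate_lt (r := yq) (hvq_inj s')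
        rwa [hs'card] at this
      have hRs' : ∀ i ∈ s', R.eval (vq i) = yq i := fun i hi =>
        Lagrange.eval_interpolate_at_node yq (hvq_inj s') hi
      have hRtop : R.coeff (d + 1) = 0 := by
        have h := Lagrange.coeff_eq_sum (v := vq) (hvq_inj s') (P := R)
          (by rw [hs'card]; exact hRdeg)
        rw [hs'card] at h
        have h2 : d + 2 - 1 = d + 1 := by omega
        rw [h2] at h
        rw [h, ← hdd]
        refine Finset.sum_congr rfl fun i hi => ?_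
        rw [hRs' i hi]
      have hRdeg' : R.degree < (d + 1 : ℕ) := by
        rw [degree_lt_iff_coeff_zero]
        intro m hm
        rcases Nat.eq_or_lt_of_le hm with h | h
        · rw [← h]; exact hRtop
        · exact coeff_eq_zero_of_degree_lt (lt_of_lt_of_le hRdeg (by exact_mod_cast h))
      have hQR : Q = R := by
        refine Polynomial.eq_of_degrees_lt_of_eval_index_eq S₀ (hvq_inj S₀) ?_ ?_ ?_
        · rw [hS₀card]; exact hQdeg
        · rw [hS₀card]; exact hRdeg'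
        · intro i hi
          rw [hQS₀ i hi, hRs' i (Finset.mem_insert_of_mem hi)]
      rw [hQR]
      exact hRs' j (Finset.mem_insert_self j S₀)
    · intro i hi k hk
      have hi' := hJK i (hs'J i hi)
      have hk' := hJK k (hs'J k hk)
      simp only [hν]
      have h1 : nstar + M * (i : ℤ) - (nstar + M * (k : ℤ)) = M * ((i : ℤ) - k) := by ring
      rw [h1, Int.cast_mul, abs_mul, abs_of_pos (by linarith : (0 : ℝ) < (M : ℝ)), hBd]
      refine mul_le_mul_of_nonneg_left ?_ (by linarith)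
      rw [abs_le]
      have hi'' : (i : ℝ) < K := by exact_mod_cast hi'
      have hk'' : (k : ℝ) < K := by exact_mod_cast hk'
      have hi0 : (0 : ℝ) ≤ i := Nat.cast_nonneg i
      have hk0 : (0 : ℝ) ≤ k := Nat.cast_nonneg k
      push_cast
      constructor <;> linarith
  refine ⟨Q, hQnat, J.image ν, ?_, ?_⟩
  · rw [Finset.card_image_of_injective _ hνinj]
    omega
  · intro n hn
    obtain ⟨j, hj, rfl⟩ := Finset.mem_image.mp hn
    exact ⟨hns1.trans (hνge j), hνmod j, hQJ j hj⟩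

end Fermat.Agent.S52
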