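import Fermat.Agent.S52.KleinId4

/-!
# S52 block F1 (helper27): the universal level-5 structure in Klein's coordinates

GENERATED FILE.  Main result `klein_torsion`: for a field `k` of characteristic `≠ 2, 3, 5`
containing a primitive 5-th root of unity `ζ`, and `(u, v) ∈ k²` with `f(u, v) ≠ 0`, the 24 explicit
sections `(kleinSX r, kleinSY r)` are the non-zero values of a group homomorphism
`A : (ZMod 5)² →+ E(k)`, `E : Y² = X³ + 27 H(u,v) X + 54 T(u,v)`.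
-/

set_option autoImplicit false
set_option maxHeartbeats 1600000

namespace Fermat.Agent.S52

open WeierstrassCurve

section labels

variable {R : Type*} [CommRing R]

/-- `X`-coordinate of the universal point `a • P₁ + b • P₂` (`0 ≤ a, b < 5`, not both `0`). -/
def kleinNX (a b : ℕ) (ζ h u v : R) : R :=
  match a, b with
  | 0, 1 => kleinX_0_1 ζ h u v
  | 0, 2 => kleinX_0_2 ζ h u v
  | 0, 3 => kleinX_0_2 ζ h u v
  | 0, 4 => kleinX_0_1 ζ h u v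
  | 1, 0 => kleinX_1_0 ζ h u v
  | 1, 1 => kleinX_1_1 ζ h u v
  | 1, 2 => kleinX_1_2 ζ h u v
  | 1, 3 => kleinX_1_3 ζ h u v
  | 1, 4 => kleinX_1_4 ζ h u v
  | 2, 0 => kleinX_2_0 ζ h u v
  | 2, 1 => kleinX_2_1 ζ h u v
  | 2, 2 => kleinX_2_2 ζ h u v
  | 2, 3 => kleinX_2_3 ζ h u v
  | 2, 4 => kleinX_2_4 ζ h u v
  | 3, 0 => kleinX_2_0 ζ h u v
  | 3, 1 => kleinX_2_4 ζ h u v
  | 3, 2 => kleinX_2_3 ζ h u v
  | 3, 3 => kleinX_2_2 ζ h u v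
  | 3, 4 => kleinX_2_1 ζ h u v
  | 4, 0 => kleinX_1_0 ζ h u v
  | 4, 1 => kleinX_1_4 ζ h u v
  | 4, 2 => kleinX_1_3 ζ h u v
  | 4, 3 => kleinX_1_2 ζ h u v
  | 4, 4 => kleinX_1_1 ζ h u v
  | _, _ => 0

/-- `Y`-coordinate of the universal point `a • P₁ + b • P₂` (`0 ≤ a, b < 5`, not both `0`). -/
def kleinNY (a b : ℕ) (ζ h u v : R) : R :=
  match a, b with
  | 0, 1 => kleinY_0_1 ζ h u v
  | 0, 2 => kleinY_0_2 ζ h u v
  | 0, 3 => -(kleinY_0_2 ζ h u v)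
  | 0, 4 => -(kleinY_0_1 ζ h u v)
  | 1, 0 => kleinY_1_0 ζ h u v
  | 1, 1 => kleinY_1_1 ζ h u v
  | 1, 2 => kleinY_1_2 ζ h u v
  | 1, 3 => kleinY_1_3 ζ h u v
  | 1, 4 => kleinY_1_4 ζ h u v
  | 2, 0 => kleinY_2_0 ζ h u v
  | 2, 1 => kleinY_2_1 ζ h u v
  | 2, 2 => kleinY_2_2 ζ h u v
  | 2, 3 => kleinY_2_3 ζ h u v
  | 2, 4 => kleinY_2_4 ζ h u v
  | 3, 0 => -(kleinY_2_0 ζ h u v)
  | 3, 1 => -(kleinY_2_4 ζ h u v)
  | 3, 2 => -(kleinY_2_3 ζ h u v)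
  | 3, 3 => -(kleinY_2_2 ζ h u v)
  | 3, 4 => -(kleinY_2_1 ζ h u v)
  | 4, 0 => -(kleinY_1_0 ζ h u v)
  | 4, 1 => -(kleinY_1_4 ζ h u v)
  | 4, 2 => -(kleinY_1_3 ζ h u v)
  | 4, 3 => -(kleinY_1_2 ζ h u v)
  | 4, 4 => -(kleinY_1_1 ζ h u v)
  | _, _ => 0

/-- `X`-coordinate of the universal 5-torsion point with label `r`. -/
def kleinSX (r : ZMod 5 × ZMod 5) (ζ h u v : R) : R := kleinNX r.1.val r.2.val ζ h u v

/-- `Y`-coordinate of the universal 5-torsion point with label `r`. -/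
def kleinSY (r : ZMod 5 × ZMod 5) (ζ h u v : R) : R := kleinNY r.1.val r.2.val ζ h u v

end labels

section field

variable {k : Type*} [Field k] [DecidableEq k]

omit [DecidableEq k] in
theorem klein_disc_ne_zero (u v : k) (h2 : (2 : k) ≠ 0) (h3 : (3 : k) ≠ 0)
    (hf : kleinF u v ≠ 0) : 4 * (27 * kleinH u v) ^ 3 + 27 * (54 * kleinT u v) ^ 2 ≠ 0 := by
  have e : 4 * (27 * kleinH u v) ^ 3 + 27 * (54 * kleinT u v) ^ 2
      = 2 ^ 8 * 3 ^ 12 * kleinF u v ^ 5 := by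
    linear_combination (4 * 27 ^ 3) * klein_rel u v
  rw [e]
  exact mul_ne_zero (mul_ne_zero (pow_ne_zero _ h2) (pow_ne_zero _ h3)) (pow_ne_zero _ hf)

theorem klein_torsion_core (ζ h u v : k) (hζ : ζ ^ 4 + ζ ^ 3 + ζ ^ 2 + ζ + 1 = 0) (h5 : 5 * h = 1)
    (h2 : (2 : k) ≠ 0) (h3 : (3 : k) ≠ 0) (hf : kleinF u v ≠ 0) :
    ∃ P₁ P₂ : (kleinShort (27 * kleinH u v) (54 * kleinT u v)).toAffine.Point,
      5 • P₁ = 0 ∧ 5 • P₂ = 0 ∧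
      ∀ a b : ℕ, a < 5 → b < 5 → ¬ (a = 0 ∧ b = 0) →
        kleinIsPt (kleinShort (27 * kleinH u v) (54 * kleinT u v)) (a • P₁ + b • P₂)
          (kleinNX a b ζ h u v) (kleinNY a b ζ h u v) := by
  have hΔ := klein_disc_ne_zero u v h2 h3 hf
  have h5' : (5 : k) ≠ 0 := by
    intro h0
    rw [h0, zero_mul] at h5
    exact zero_ne_one h5
  obtain ⟨P₁, hP₁⟩ : ∃ P, kleinIsPt (kleinShort (27 * kleinH u v) (54 * kleinT u v)) (P) (kleinX_1_0 ζ h u v) (kleinY_1_0 ζ h u v) :=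
    ⟨_, klein_isPt_of_eq _ _ hΔ h2 (klein_on_1_0 ζ h u v hζ h5)⟩
  obtain ⟨P₂, hP₂⟩ : ∃ P, kleinIsPt (kleinShort (27 * kleinH u v) (54 * kleinT u v)) (P) (kleinX_0_1 ζ h u v) (kleinY_0_1 ζ h u v) :=
    ⟨_, klein_isPt_of_eq _ _ hΔ h2 (klein_on_0_1 ζ h u v hζ h5)⟩
  have T_1_0 : kleinIsPt (kleinShort (27 * kleinH u v) (54 * kleinT u v)) (1 • P₁ + 0 • P₂) (kleinX_1_0 ζ h u v) (kleinY_1_0 ζ h u v) := hP₁.congr (by abel)
  have T_0_1 : kleinIsPt (kleinShort (27 * kleinH u v) (54 * kleinT u v)) (0 • P₁ + 1 • P₂) (kleinX_0_1 ζ h u v) (kleinY_0_1 ζ h u v) := hP₂.congr (by abel)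
  have T_0_2 : kleinIsPt (kleinShort (27 * kleinH u v) (54 * kleinT u v)) (0 • P₁ + 2 • P₂) (kleinX_0_2 ζ h u v) (kleinY_0_2 ζ h u v) :=
    (kleinIsPt.add_tangent _ _ h2 hP₂ (klein_ne_zero_of_diff (klein_ydiff_t_0_1 ζ h u v hζ h5) h2 h3 h5' hf)
      (klein_tangentX_t_0_1 ζ h u v hζ h5) (klein_tangentY_t_0_1 ζ h u v hζ h5)).congr (by abel)
  have T_0_3 : kleinIsPt (kleinShort (27 * kleinH u v) (54 * kleinT u v)) (0 • P₁ + 3 • P₂) (kleinX_0_2 ζ h u v) (-(kleinY_0_2 ζ h u v)) :=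
    (kleinIsPt.add_chord _ _ T_0_2 hP₂ (klein_ne_of_diff (klein_diff_c_0_2_e2 ζ h u v hζ h5) h2 h3 h5' hf)
      (klein_chordX_c_0_2_e2 ζ h u v hζ h5) (klein_chordY_c_0_2_e2 ζ h u v hζ h5)).congr (by abel)
  have T_0_4 : kleinIsPt (kleinShort (27 * kleinH u v) (54 * kleinT u v)) (0 • P₁ + 4 • P₂) (kleinX_0_1 ζ h u v) (-(kleinY_0_1 ζ h u v)) :=
    (kleinIsPt.add_chord _ _ T_0_3 hP₂ (klein_ne_of_diff (klein_diff_c_0_3_e2 ζ h u v hζ h5) h2 h3 h5' hf)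
      (klein_chordX_c_0_3_e2 ζ h u v hζ h5) (klein_chordY_c_0_3_e2 ζ h u v hζ h5)).congr (by abel)
  have T_2_0 : kleinIsPt (kleinShort (27 * kleinH u v) (54 * kleinT u v)) (2 • P₁ + 0 • P₂) (kleinX_2_0 ζ h u v) (kleinY_2_0 ζ h u v) :=
    (kleinIsPt.add_tangent _ _ h2 hP₁ (klein_ne_zero_of_diff (klein_ydiff_t_1_0 ζ h u v hζ h5) h2 h3 h5' hf)
      (klein_tangentX_t_1_0 ζ h u v hζ h5) (klein_tangentY_t_1_0 ζ h u v hζ h5)).congr (by abel)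
  have T_3_0 : kleinIsPt (kleinShort (27 * kleinH u v) (54 * kleinT u v)) (3 • P₁ + 0 • P₂) (kleinX_2_0 ζ h u v) (-(kleinY_2_0 ζ h u v)) :=
    (kleinIsPt.add_chord _ _ T_2_0 hP₁ (klein_ne_of_diff (klein_diff_c_2_0_e1 ζ h u v hζ h5) h2 h3 h5' hf)
      (klein_chordX_c_2_0_e1 ζ h u v hζ h5) (klein_chordY_c_2_0_e1 ζ h u v hζ h5)).congr (by abel)
  have T_4_0 : kleinIsPt (kleinShort (27 * kleinH u v) (54 * kleinT u v)) (4 • P₁ + 0 • P₂) (kleinX_1_0 ζ h u v) (-(kleinY_1_0 ζ h u v)) :=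
    (kleinIsPt.add_chord _ _ T_3_0 hP₁ (klein_ne_of_diff (klein_diff_c_3_0_e1 ζ h u v hζ h5) h2 h3 h5' hf)
      (klein_chordX_c_3_0_e1 ζ h u v hζ h5) (klein_chordY_c_3_0_e1 ζ h u v hζ h5)).congr (by abel)
  have T_1_1 : kleinIsPt (kleinShort (27 * kleinH u v) (54 * kleinT u v)) (1 • P₁ + 1 • P₂) (kleinX_1_1 ζ h u v) (kleinY_1_1 ζ h u v) :=
    (kleinIsPt.add_chord _ _ T_0_1 hP₁ (klein_ne_of_diff (klein_diff_c_0_1_e1 ζ h u v hζ h5) h2 h3 h5' hf)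
      (klein_chordX_c_0_1_e1 ζ h u v hζ h5) (klein_chordY_c_0_1_e1 ζ h u v hζ h5)).congr (by abel)
  have T_2_1 : kleinIsPt (kleinShort (27 * kleinH u v) (54 * kleinT u v)) (2 • P₁ + 1 • P₂) (kleinX_2_1 ζ h u v) (kleinY_2_1 ζ h u v) :=
    (kleinIsPt.add_chord _ _ T_1_1 hP₁ (klein_ne_of_diff (klein_diff_c_1_1_e1 ζ h u v hζ h5) h2 h3 h5' hf)
      (klein_chordX_c_1_1_e1 ζ h u v hζ h5) (klein_chordY_c_1_1_e1 ζ h u v hζ h5)).congr (by abel)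
  have T_3_1 : kleinIsPt (kleinShort (27 * kleinH u v) (54 * kleinT u v)) (3 • P₁ + 1 • P₂) (kleinX_2_4 ζ h u v) (-(kleinY_2_4 ζ h u v)) :=
    (kleinIsPt.add_chord _ _ T_2_1 hP₁ (klein_ne_of_diff (klein_diff_c_2_1_e1 ζ h u v hζ h5) h2 h3 h5' hf)
      (klein_chordX_c_2_1_e1 ζ h u v hζ h5) (klein_chordY_c_2_1_e1 ζ h u v hζ h5)).congr (by abel)
  have T_4_1 : kleinIsPt (kleinShort (27 * kleinH u v) (54 * kleinT u v)) (4 • P₁ + 1 • P₂) (kleinX_1_4 ζ h u v) (-(kleinY_1_4 ζ h u v)) :=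
    (kleinIsPt.add_chord _ _ T_3_1 hP₁ (klein_ne_of_diff (klein_diff_c_3_1_e1 ζ h u v hζ h5) h2 h3 h5' hf)
      (klein_chordX_c_3_1_e1 ζ h u v hζ h5) (klein_chordY_c_3_1_e1 ζ h u v hζ h5)).congr (by abel)
  have T_1_2 : kleinIsPt (kleinShort (27 * kleinH u v) (54 * kleinT u v)) (1 • P₁ + 2 • P₂) (kleinX_1_2 ζ h u v) (kleinY_1_2 ζ h u v) :=
    (kleinIsPt.add_chord _ _ T_0_2 hP₁ (klein_ne_of_diff (klein_diff_c_0_2_e1 ζ h u v hζ h5) h2 h3 h5' hf)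
      (klein_chordX_c_0_2_e1 ζ h u v hζ h5) (klein_chordY_c_0_2_e1 ζ h u v hζ h5)).congr (by abel)
  have T_2_2 : kleinIsPt (kleinShort (27 * kleinH u v) (54 * kleinT u v)) (2 • P₁ + 2 • P₂) (kleinX_2_2 ζ h u v) (kleinY_2_2 ζ h u v) :=
    (kleinIsPt.add_chord _ _ T_1_2 hP₁ (klein_ne_of_diff (klein_diff_c_1_2_e1 ζ h u v hζ h5) h2 h3 h5' hf)
      (klein_chordX_c_1_2_e1 ζ h u v hζ h5) (klein_chordY_c_1_2_e1 ζ h u v hζ h5)).congr (by abel)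
  have T_3_2 : kleinIsPt (kleinShort (27 * kleinH u v) (54 * kleinT u v)) (3 • P₁ + 2 • P₂) (kleinX_2_3 ζ h u v) (-(kleinY_2_3 ζ h u v)) :=
    (kleinIsPt.add_chord _ _ T_2_2 hP₁ (klein_ne_of_diff (klein_diff_c_2_2_e1 ζ h u v hζ h5) h2 h3 h5' hf)
      (klein_chordX_c_2_2_e1 ζ h u v hζ h5) (klein_chordY_c_2_2_e1 ζ h u v hζ h5)).congr (by abel)
  have T_4_2 : kleinIsPt (kleinShort (27 * kleinH u v) (54 * kleinT u v)) (4 • P₁ + 2 • P₂) (kleinX_1_3 ζ h u v) (-(kleinY_1_3 ζ h u v)) := by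
    obtain ⟨Q, hQ⟩ : ∃ P, kleinIsPt (kleinShort (27 * kleinH u v) (54 * kleinT u v)) (P) (kleinX_1_3 ζ h u v) (-(kleinY_1_3 ζ h u v)) :=
      ⟨_, klein_isPt_of_eq _ _ hΔ h2 (klein_on_4_2 ζ h u v hζ h5)⟩
    have hs := kleinIsPt.add_chord _ _ hQ (kleinIsPt.neg _ _ hP₁)
      (klein_ne_of_diff (klein_diff_f_3_2 ζ h u v hζ h5) h2 h3 h5' hf)
      (klein_chordX_f_3_2 ζ h u v hζ h5) (klein_chordY_f_3_2 ζ h u v hζ h5)
    have he : Q + -P₁ = 3 • P₁ + 2 • P₂ := hs.unique T_3_2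
    have hQe : Q = 4 • P₁ + 2 • P₂ := by
      have h0 : Q = (Q + -P₁) + P₁ := by abel
      rw [h0, he]; abel
    exact hQ.congr hQe
  have T_1_3 : kleinIsPt (kleinShort (27 * kleinH u v) (54 * kleinT u v)) (1 • P₁ + 3 • P₂) (kleinX_1_3 ζ h u v) (kleinY_1_3 ζ h u v) :=
    (kleinIsPt.add_chord _ _ T_0_3 hP₁ (klein_ne_of_diff (klein_diff_c_0_3_e1 ζ h u v hζ h5) h2 h3 h5' hf)
      (klein_chordX_c_0_3_e1 ζ h u v hζ h5) (klein_chordY_c_0_3_e1 ζ h u v hζ h5)).congr (by abel)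
  have T_2_3 : kleinIsPt (kleinShort (27 * kleinH u v) (54 * kleinT u v)) (2 • P₁ + 3 • P₂) (kleinX_2_3 ζ h u v) (kleinY_2_3 ζ h u v) :=
    (kleinIsPt.add_chord _ _ T_1_3 hP₁ (klein_ne_of_diff (klein_diff_c_1_3_e1 ζ h u v hζ h5) h2 h3 h5' hf)
      (klein_chordX_c_1_3_e1 ζ h u v hζ h5) (klein_chordY_c_1_3_e1 ζ h u v hζ h5)).congr (by abel)
  have T_3_3 : kleinIsPt (kleinShort (27 * kleinH u v) (54 * kleinT u v)) (3 • P₁ + 3 • P₂) (kleinX_2_2 ζ h u v) (-(kleinY_2_2 ζ h u v)) := by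
    obtain ⟨Q, hQ⟩ : ∃ P, kleinIsPt (kleinShort (27 * kleinH u v) (54 * kleinT u v)) (P) (kleinX_2_2 ζ h u v) (-(kleinY_2_2 ζ h u v)) :=
      ⟨_, klein_isPt_of_eq _ _ hΔ h2 (klein_on_3_3 ζ h u v hζ h5)⟩
    have hs := kleinIsPt.add_chord _ _ hQ (kleinIsPt.neg _ _ hP₁)
      (klein_ne_of_diff (klein_diff_f_2_3 ζ h u v hζ h5) h2 h3 h5' hf)
      (klein_chordX_f_2_3 ζ h u v hζ h5) (klein_chordY_f_2_3 ζ h u v hζ h5)
    have he : Q + -P₁ = 2 • P₁ + 3 • P₂ := hs.unique T_2_3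
    have hQe : Q = 3 • P₁ + 3 • P₂ := by
      have h0 : Q = (Q + -P₁) + P₁ := by abel
      rw [h0, he]; abel
    exact hQ.congr hQe
  have T_4_3 : kleinIsPt (kleinShort (27 * kleinH u v) (54 * kleinT u v)) (4 • P₁ + 3 • P₂) (kleinX_1_2 ζ h u v) (-(kleinY_1_2 ζ h u v)) :=
    (kleinIsPt.add_chord _ _ T_3_3 hP₁ (klein_ne_of_diff (klein_diff_c_3_3_e1 ζ h u v hζ h5) h2 h3 h5' hf)
      (klein_chordX_c_3_3_e1 ζ h u v hζ h5) (klein_chordY_c_3_3_e1 ζ h u v hζ h5)).congr (by abel)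
  have T_1_4 : kleinIsPt (kleinShort (27 * kleinH u v) (54 * kleinT u v)) (1 • P₁ + 4 • P₂) (kleinX_1_4 ζ h u v) (kleinY_1_4 ζ h u v) :=
    (kleinIsPt.add_chord _ _ T_0_4 hP₁ (klein_ne_of_diff (klein_diff_c_0_4_e1 ζ h u v hζ h5) h2 h3 h5' hf)
      (klein_chordX_c_0_4_e1 ζ h u v hζ h5) (klein_chordY_c_0_4_e1 ζ h u v hζ h5)).congr (by abel)
  have T_2_4 : kleinIsPt (kleinShort (27 * kleinH u v) (54 * kleinT u v)) (2 • P₁ + 4 • P₂) (kleinX_2_4 ζ h u v) (kleinY_2_4 ζ h u v) := by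
    obtain ⟨Q, hQ⟩ : ∃ P, kleinIsPt (kleinShort (27 * kleinH u v) (54 * kleinT u v)) (P) (kleinX_2_4 ζ h u v) (kleinY_2_4 ζ h u v) :=
      ⟨_, klein_isPt_of_eq _ _ hΔ h2 (klein_on_2_4 ζ h u v hζ h5)⟩
    have hs := kleinIsPt.add_chord _ _ hQ (kleinIsPt.neg _ _ hP₁)
      (klein_ne_of_diff (klein_diff_f_1_4 ζ h u v hζ h5) h2 h3 h5' hf)
      (klein_chordX_f_1_4 ζ h u v hζ h5) (klein_chordY_f_1_4 ζ h u v hζ h5)
    have he : Q + -P₁ = 1 • P₁ + 4 • P₂ := hs.unique T_1_4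
    have hQe : Q = 2 • P₁ + 4 • P₂ := by
      have h0 : Q = (Q + -P₁) + P₁ := by abel
      rw [h0, he]; abel
    exact hQ.congr hQe
  have T_3_4 : kleinIsPt (kleinShort (27 * kleinH u v) (54 * kleinT u v)) (3 • P₁ + 4 • P₂) (kleinX_2_1 ζ h u v) (-(kleinY_2_1 ζ h u v)) :=
    (kleinIsPt.add_chord _ _ T_2_4 hP₁ (klein_ne_of_diff (klein_diff_c_2_4_e1 ζ h u v hζ h5) h2 h3 h5' hf)
      (klein_chordX_c_2_4_e1 ζ h u v hζ h5) (klein_chordY_c_2_4_e1 ζ h u v hζ h5)).congr (by abel)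
  have T_4_4 : kleinIsPt (kleinShort (27 * kleinH u v) (54 * kleinT u v)) (4 • P₁ + 4 • P₂) (kleinX_1_1 ζ h u v) (-(kleinY_1_1 ζ h u v)) :=
    (kleinIsPt.add_chord _ _ T_3_4 hP₁ (klein_ne_of_diff (klein_diff_c_3_4_e1 ζ h u v hζ h5) h2 h3 h5' hf)
      (klein_chordX_c_3_4_e1 ζ h u v hζ h5) (klein_chordY_c_3_4_e1 ζ h u v hζ h5)).congr (by abel)
  have z1 : 5 • P₁ = 0 := by
    have e := T_4_0.unique ((kleinIsPt.neg _ _ hP₁).congr rfl)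
    have h0 : 5 • P₁ = (4 • P₁ + 0 • P₂) + P₁ := by abel
    rw [h0, e]; abel
  have z2 : 5 • P₂ = 0 := by
    have e := T_0_4.unique ((kleinIsPt.neg _ _ hP₂).congr rfl)
    have h0 : 5 • P₂ = (0 • P₁ + 4 • P₂) + P₂ := by abel
    rw [h0, e]; abel
  refine ⟨P₁, P₂, z1, z2, ?_⟩
  intro a b ha hb hab
  interval_cases a <;> interval_cases b
  · exact absurd ⟨rfl, rfl⟩ hab
  · exact T_0_1
  · exact T_0_2
  · exact T_0_3
  · exact T_0_4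
  · exact T_1_0
  · exact T_1_1
  · exact T_1_2
  · exact T_1_3
  · exact T_1_4
  · exact T_2_0
  · exact T_2_1
  · exact T_2_2
  · exact T_2_3
  · exact T_2_4
  · exact T_3_0
  · exact T_3_1
  · exact T_3_2
  · exact T_3_3
  · exact T_3_4
  · exact T_4_0
  · exact T_4_1
  · exact T_4_2
  · exact T_4_3
  · exact T_4_4

/-- **F1**: the universal level-5 structure. -/
theorem klein_torsion (ζ h u v : k) (hζ : ζ ^ 4 + ζ ^ 3 + ζ ^ 2 + ζ + 1 = 0) (h5 : 5 * h = 1)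
    (h2 : (2 : k) ≠ 0) (h3 : (3 : k) ≠ 0) (hf : kleinF u v ≠ 0) :
    ∃ A : ZMod 5 × ZMod 5 →+ (kleinShort (27 * kleinH u v) (54 * kleinT u v)).toAffine.Point,
      ∀ r : ZMod 5 × ZMod 5, r ≠ 0 →
        kleinIsPt (kleinShort (27 * kleinH u v) (54 * kleinT u v)) (A r)
          (kleinSX r ζ h u v) (kleinSY r ζ h u v) := by
  obtain ⟨P₁, P₂, z1, z2, hT⟩ := klein_torsion_core ζ h u v hζ h5 h2 h3 hf
  have hA : ∀ P : (kleinShort (27 * kleinH u v) (54 * kleinT u v)).toAffine.Point, 5 • P = 0 →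
      ∃ f : ZMod 5 →+ (kleinShort (27 * kleinH u v) (54 * kleinT u v)).toAffine.Point,
        ∀ a : ZMod 5, f a = a.val • P := by
    intro P hP
    have h0 : (zmultiplesHom _ P) ((5 : ℕ) : ℤ) = 0 := by
      rw [zmultiplesHom_apply, natCast_zsmul]; exact hP
    refine ⟨ZMod.lift 5 ⟨zmultiplesHom _ P, h0⟩, fun a => ?_⟩
    conv_lhs => rw [← ZMod.natCast_zmod_val a]
    have := ZMod.lift_coe 5 (⟨zmultiplesHom _ P, h0⟩ :
      {f : ℤ →+ (kleinShort (27 * kleinH u v) (54 * kleinT u v)).toAffine.Point // f (5 : ℕ) = 0})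
      (a.val : ℤ)
    rw [zmultiplesHom_apply, natCast_zsmul] at this
    rw [← this]
    norm_cast
  obtain ⟨f₁, hf₁⟩ := hA P₁ z1
  obtain ⟨f₂, hf₂⟩ := hA P₂ z2
  refine ⟨f₁.coprod f₂, fun r hr => ?_⟩
  have e : (f₁.coprod f₂) r = r.1.val • P₁ + r.2.val • P₂ := by
    rw [AddMonoidHom.coprod_apply, hf₁, hf₂]
  rw [e]
  refine hT r.1.val r.2.val (ZMod.val_lt _) (ZMod.val_lt _) ?_
  rintro ⟨h1, h2⟩
  apply hr
  have h1' : r.1 = 0 := (ZMod.val_eq_zero r.1).1 h1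
  have h2' : r.2 = 0 := (ZMod.val_eq_zero r.2).1 h2
  exact Prod.ext h1' h2'

end field

end Fermat.Agent.S52
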