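import Fermat.Agent.S52.KleinSec
import Fermat.Agent.S52.FamBezoutCert

/-! GENERATED FILE (helper27, S52 block F1): polynomial identities for the universal 5-torsion
sections, certificates computed by exact arithmetic.

The files `Family`, `FamBezoutCert`, `KleinId1`, ..., `KleinId4` are chained by imports on purpose: each needs
several GB of memory, so they must not be built in parallel. -/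

set_option autoImplicit false
set_option maxHeartbeats 1600000
set_option linter.unusedVariables false

namespace Fermat.Agent.S52

variable {R : Type*} [CommRing R]

theorem klein_on_1_0 (ζ h u v : R) (hζ : ζ ^ 4 + ζ ^ 3 + ζ ^ 2 + ζ + 1 = 0) (h5 : 5 * h = 1) :
    (kleinY_1_0 ζ h u v) ^ 2 = (kleinX_1_0 ζ h u v) ^ 3 + (27 * kleinH u v) * (kleinX_1_0 ζ h u v) + 54 * kleinT u v := by
  unfold kleinX_1_0 kleinY_1_0 kleinH kleinT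
  linear_combination (exp := 1) ((-46656 + 279936*ζ)*u^25*v^5 + (746496*ζ - 1213056*ζ^2)*u^24*v^6 + (-2939328*ζ^2
      + 2939328*ζ^3)*u^23*v^7 + (2332800 + 2332800*ζ + 2332800*ζ^2 + 9517824*ζ^3 - 2519424*ζ^4)*u^22*v^8
      + (9564480 + 3499200*ζ + 3499200*ζ^2 + 3499200*ζ^3 - 9657792*ζ^4 + 1259712*ζ^5)*u^21*v^9
      + (8351424 - 14883264*ζ - 6998400*ζ^2 - 6998400*ζ^3 - 6998400*ζ^4 + 6298560*ζ^5)*u^20*v^10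
      + (-16842816*ζ + 14976576*ζ^2 + 10497600*ζ^3 + 10497600*ζ^4 + 10497600*ζ^5)*u^19*v^11 + (5832000
      + 11664000*ζ + 37231488*ζ^2 + 15256512*ζ^3 + 11664000*ζ^4 + 5832000*ζ^5)*u^18*v^12 + (6998400
      + 6998400*ζ + 6998400*ζ^2 - 7418304*ζ^3 + 419904*ζ^4)*u^17*v^13
      + (-933120 - 6998400*ζ - 6998400*ζ^2 - 6998400*ζ^3 - 139968*ζ^4 - 1259712*ζ^5)*u^16*v^14
      + (-466560 - 1866240*ζ - 3499200*ζ^2 - 3499200*ζ^3 - 3499200*ζ^4 - 4199040*ζ^5)*u^15*v^15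
      + (1259712*ζ - 4525632*ζ^2 - 3499200*ζ^3 - 3499200*ζ^4 - 3499200*ζ^5)*u^14*v^16 + (-1679616*ζ^2
      + 1679616*ζ^3)*u^13*v^17 + (2939328*ζ^3 + 559872*ζ^4)*u^12*v^18 + (-1399680 + 979776*ζ^4
      + 419904*ζ^5)*u^11*v^19 + (-46656 - 186624*ζ + 699840*ζ^5)*u^10*v^20
      + (559872*ζ - 326592*ζ^2)*u^9*v^21 + (419904*ζ^2 - 419904*ζ^3)*u^8*v^22
      + (139968*ζ^3 - 139968*ζ^4)*u^7*v^23 + (46656*ζ^4 - 46656*ζ^5)*u^6*v^24 + (46656 - 46656*ζ)*u^5*v^25) * hζ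

theorem klein_on_2_4 (ζ h u v : R) (hζ : ζ ^ 4 + ζ ^ 3 + ζ ^ 2 + ζ + 1 = 0) (h5 : 5 * h = 1) :
    (kleinY_2_4 ζ h u v) ^ 2 = (kleinX_2_4 ζ h u v) ^ 3 + (27 * kleinH u v) * (kleinX_2_4 ζ h u v) + 54 * kleinT u v := by
  unfold kleinX_2_4 kleinY_2_4 kleinH kleinT
  linear_combination (exp := 1) (46656*ζ^2*u^27*v^3 + (139968 + 139968*ζ + 139968*ζ^2 + 279936*ζ^3)*u^26*v^4 + (-46656 + 746496*ζ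
      + 559872*ζ^2 + 559872*ζ^3 + 559872*ζ^4)*u^25*v^5 + (373248 + 746496*ζ + 2706048*ζ^2 + 419904*ζ^3
      + 746496*ζ^4 + 373248*ζ^5)*u^24*v^6 + (2659392 + 1679616*ζ + 1679616*ζ^2
      + 1679616*ζ^3 - 2799360*ζ^4)*u^23*v^7
      + (5738688*ζ - 4945536*ζ^2 - 2799360*ζ^3 - 2799360*ζ^4 - 2799360*ζ^5)*u^22*v^8
      + (-606528 - 606528*ζ - 606528*ζ^2 - 12877056*ζ^3 + 3499200*ζ^4)*u^21*v^9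
      + (8351424 - 9144576*ζ - 559872*ζ^2 - 559872*ζ^3 - 559872*ζ^4 + 6998400*ζ^5)*u^20*v^10 + (559872
      + 1119744*ζ - 13203648*ζ^2 + 14976576*ζ^3 + 1119744*ζ^4 + 559872*ζ^5)*u^19*v^11 + (-11290752
      + 1119744*ζ + 1119744*ζ^2 + 1119744*ζ^3 + 10031040*ζ^4 - 5832000*ζ^5)*u^18*v^12 + (-2472768*ζ
      + 14556672*ζ^2 - 2799360*ζ^3 - 2799360*ζ^4 - 2799360*ζ^5)*u^17*v^13 + (6578496 + 6578496*ζ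
      + 6578496*ζ^2 + 6158592*ζ^3 - 6998400*ζ^4)*u^16*v^14 + (-466560
      + 4292352*ζ - 979776*ζ^2 - 979776*ζ^3 - 979776*ζ^4 + 3499200*ζ^5)*u^15*v^15 + (279936 + 559872*ζ
      + 513216*ζ^2 - 5458752*ζ^3 + 559872*ζ^4 + 279936*ζ^5)*u^14*v^16
      + (419904 - 139968*ζ - 139968*ζ^2 - 139968*ζ^3 + 2799360*ζ^4)*u^13*v^17
      + (-653184*ζ - 3872448*ζ^2 - 699840*ζ^3 - 699840*ζ^4 - 699840*ζ^5)*u^12*v^18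
      + (-186624 - 186624*ζ - 186624*ζ^2 + 1959552*ζ^3)*u^11*v^19
      + (-46656 - 1306368*ζ - 279936*ζ^2 - 279936*ζ^3 - 279936*ζ^4)*u^10*v^20 + (46656 + 93312*ζ
      + 979776*ζ^2 + 139968*ζ^3 + 93312*ζ^4 + 46656*ζ^5)*u^9*v^21
      + (-279936 - 139968*ζ - 139968*ζ^2 - 139968*ζ^3)*u^8*v^22 + 279936*ζ*u^7*v^23 + 46656*u^5*v^25) * hζ

theorem klein_tangentX_t_1_0 (ζ h u v : R) (hζ : ζ ^ 4 + ζ ^ 3 + ζ ^ 2 + ζ + 1 = 0) (h5 : 5 * h = 1) :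
    (2 * (kleinX_1_0 ζ h u v) + kleinX_2_0 ζ h u v) * (2 * (kleinY_1_0 ζ h u v)) ^ 2 = (3 * (kleinX_1_0 ζ h u v) ^ 2 + 27 * kleinH u v) ^ 2 := by
  unfold kleinX_1_0 kleinY_1_0 kleinX_2_0 kleinH
  linear_combination (exp := 1) (8398080*ζ*u^35*v^5 + (26873856*ζ - 114213888*ζ^2)*u^34*v^6 + (-300651264*ζ^2
      + 613059840*ζ^3)*u^33*v^7 + (83980800 + 83980800*ζ + 83980800*ζ^2
      + 1597314816*ζ^3 - 1980267264*ζ^4)*u^32*v^8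
      + (344321280 - 982575360*ζ - 982575360*ζ^2 - 982575360*ζ^3 - 6026462208*ζ^4 + 3900068352*ζ^5)*u^31*v^9
      + (241864704 - 4356923904*ζ + 1284906240*ζ^2 + 1284906240*ζ^3 + 1284906240*ζ^4
      + 14073502464*ζ^5 - 4897760256*ζ^6)*u^30*v^10 + (-3092173056*ζ + 16419926016*ζ^2 + 2116316160*ζ^3
      + 2116316160*ζ^4 + 2116316160*ζ^5 - 22312018944*ζ^6 + 3265173504*ζ^7)*u^29*v^11
      + (-3905107200 - 7810214400*ζ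
      + 933866496*ζ^2 - 53077545216*ζ^3 - 30485030400*ζ^4 - 26579923200*ζ^5 - 22674816000*ζ^6
      + 17550307584*ζ^7 - 1224440064*ζ^8)*u^28*v^12
      + (-16376256000 - 23934528000*ζ - 31492800000*ζ^2 - 69855229440*ζ^3 + 21415104000*ζ^4
      + 12093235200*ζ^5 + 19651507200*ζ^6 + 27209779200*ζ^7 - 8162933760*ζ^8)*u^27*v^13 + (-16661790720
      + 9498228480*ζ + 24614772480*ζ^2 + 39731316480*ζ^3 + 113987139840*ζ^4 + 17157277440*ζ^5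
      + 9825753600*ζ^6 - 5290790400*ζ^7 - 20407334400*ζ^8)*u^26*v^14 + (-2724337152 + 43480219392*ζ
      + 18694126080*ζ^2 - 3980689920*ζ^3 - 26655505920*ζ^4 - 124666138368*ζ^5 - 64215078912*ζ^6 - 45349632000*ζ^7 - 22674816000*ζ^8)*u^25*v^15
      + (-9447840000 - 12810431232*ζ - 104670309888*ζ^2 - 134209716480*ζ^3 - 143657556480*ζ^4 - 134209716480*ζ^5 - 40542571008*ζ^6 - 29976106752*ζ^7 - 9447840000*ζ^8)*u^24*v^16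
      + (-16250284800 - 32500569600*ζ - 71363524608*ζ^2 - 27137555712*ζ^3 - 9825753600*ζ^4 + 6424531200*ζ^5
      + 22674816000*ζ^6 - 4353564672*ζ^7 + 1632586752*ζ^8)*u^23*v^17 + (-7096377600 + 8020166400*ζ
      + 23136710400*ζ^2 + 62355744000*ζ^3 + 43014965760*ζ^4 + 34768051200*ζ^5 + 19651507200*ζ^6
      + 4534963200*ζ^7 + 8162933760*ζ^8)*u^22*v^18 + (-1847577600 + 13915618560*ζ + 21473890560*ζ^2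
      + 29032162560*ζ^3 + 19315584000*ζ^4 + 39907676160*ζ^5 + 28721433600*ζ^6 + 21163161600*ζ^7
      + 13604889600*ζ^8)*u^21*v^19 + (211631616 + 2450559744*ζ + 4173845760*ζ^2 + 11732117760*ζ^3
      + 19290389760*ζ^4 + 39998375424*ζ^5 + 19863138816*ζ^6 + 15116544000*ζ^7 + 7558272000*ζ^8)*u^20*v^20
      + (-267058944*ζ + 1845897984*ζ^2 + 739031040*ζ^3 + 739031040*ζ^4
      + 739031040*ζ^5 - 10339716096*ζ^6 - 544195584*ζ^7)*u^19*v^21 + (377913600 + 755827200*ζ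
      + 3743864064*ζ^2 - 5767801344*ζ^3 - 10581580800*ζ^4 - 10959494400*ζ^5 - 11337408000*ζ^6 - 2811677184*ζ^7 - 816293376*ζ^8)*u^18*v^22
      + (2393452800 + 2393452800*ζ
      + 2393452800*ζ^2 - 747429120*ζ^3 - 3510397440*ζ^4 - 4534963200*ζ^5 - 4534963200*ζ^6 - 4534963200*ζ^7 - 2720977920*ζ^8)*u^17*v^23
      + (1478062080 - 260340480*ζ - 260340480*ζ^2 - 260340480*ζ^3
      + 890196480*ζ^4 - 1813985280*ζ^5 - 2267481600*ζ^6 - 2267481600*ζ^7 - 2267481600*ζ^8)*u^16*v^24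
      + (171320832 - 1884529152*ζ + 33592320*ζ^2 + 33592320*ζ^3 + 33592320*ζ^4 + 752467968*ζ^5
      + 1330255872*ζ^6)*u^15*v^25
      + (-559312128*ζ - 582826752*ζ^2 - 159563520*ζ^3 - 159563520*ζ^4 - 159563520*ζ^5 + 2297714688*ζ^6
      + 423263232*ζ^7)*u^14*v^26
      + (-41990400 - 83980800*ζ - 263699712*ζ^2 - 1004410368*ζ^3 - 83980800*ζ^4 - 41990400*ζ^5
      + 725594112*ζ^7 + 181398528*ζ^8)*u^13*v^27 + (344321280*ζ^3 - 235146240*ζ^4 + 302330880*ζ^8)*u^12*v^28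
      + (-50388480 + 67184640*ζ + 67184640*ζ^2 + 67184640*ζ^3 + 403107840*ζ^4 - 319127040*ζ^5)*u^11*v^29
      + (-60466176 + 52068096*ζ - 16796160*ζ^2 - 16796160*ζ^3 - 16796160*ζ^4
      + 220029696*ζ^5 - 211631616*ζ^6)*u^10*v^30 + (20155392*ζ - 38631168*ζ^2 + 16796160*ζ^3 + 16796160*ζ^4
      + 16796160*ζ^5 + 60466176*ζ^6 - 60466176*ζ^7)*u^9*v^31 + (15116544*ζ^2 - 1679616*ζ^3
      + 15116544*ζ^7 - 15116544*ζ^8)*u^8*v^32 + (5038848*ζ^3 - 20155392*ζ^4)*u^7*v^33 + (1679616*ζ^4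
      + 1679616*ζ^5)*u^6*v^34 + (-1679616*ζ^5)*u^5*v^35) * hζ

theorem klein_tangentY_t_1_0 (ζ h u v : R) (hζ : ζ ^ 4 + ζ ^ 3 + ζ ^ 2 + ζ + 1 = 0) (h5 : 5 * h = 1) :
    (kleinY_2_0 ζ h u v + kleinY_1_0 ζ h u v) * (2 * (kleinY_1_0 ζ h u v)) = -(3 * (kleinX_1_0 ζ h u v) ^ 2 + 27 * kleinH u v) * (kleinX_2_0 ζ h u v - kleinX_1_0 ζ h u v) := by
  unfold kleinX_1_0 kleinY_1_0 kleinX_2_0 kleinY_2_0 kleinH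
  linear_combination (exp := 1) (606528*ζ*u^25*v^5 + (1213056*ζ - 2659392*ζ^2)*u^24*v^6 + (-5272128*ζ^2 + 5738688*ζ^3)*u^23*v^7
      + (6298560 + 6298560*ζ + 6298560*ζ^2 + 18615744*ζ^3 - 4618944*ζ^4)*u^22*v^8 + (19735488 + 7698240*ζ
      + 7698240*ζ^2 + 7698240*ζ^3 - 17356032*ζ^4 + 2519424*ζ^5)*u^21*v^9
      + (15396480 - 27293760*ζ - 11897280*ζ^2 - 11897280*ζ^3 - 11897280*ζ^4 + 12177216*ζ^5)*u^20*v^10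
      + (-32705856*ζ + 23281344*ζ^2 + 19595520*ζ^3 + 19595520*ζ^4 + 19595520*ζ^5)*u^19*v^11 + (10497600
      + 20995200*ζ + 68724288*ζ^2 + 29953152*ζ^3 + 20995200*ζ^4 + 10497600*ζ^5)*u^18*v^12 + (34292160
      + 34292160*ζ + 34292160*ζ^2 - 3919104*ζ^3 + 1119744*ζ^4)*u^17*v^13 + (20855232 + 699840*ζ + 699840*ζ^2
      + 699840*ζ^3 + 5458752*ζ^4 - 419904*ζ^5)*u^16*v^14 + (-12597120 - 10357632*ζ + 5598720*ζ^2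
      + 5598720*ζ^3 + 5598720*ζ^4 - 2379456*ζ^5)*u^15*v^15
      + (6625152*ζ - 7278336*ζ^2 - 4898880*ζ^3 - 4898880*ζ^4 - 4898880*ζ^5)*u^14*v^16
      + (-3499200 - 6998400*ζ - 28506816*ζ^2 - 13716864*ζ^3 - 6998400*ζ^4 - 3499200*ζ^5)*u^13*v^17
      + (-6298560 - 6298560*ζ - 6298560*ζ^2 - 4758912*ζ^3 - 1539648*ζ^4)*u^12*v^18 + (1679616 + 2799360*ζ
      + 2799360*ζ^2 + 2799360*ζ^3 - 2519424*ζ^4 - 559872*ζ^5)*u^11*v^19 + (-1399680 + 5458752*ζ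
      + 1399680*ζ^2 + 1399680*ζ^3 + 1399680*ζ^4 - 139968*ζ^5)*u^10*v^20 + (-2939328*ζ + 3965760*ζ^2
      + 1399680*ζ^3 + 1399680*ζ^4 + 1399680*ζ^5)*u^9*v^21 + (-746496*ζ^2 + 1679616*ζ^3)*u^8*v^22
      + (-1259712*ζ^3 + 559872*ζ^4)*u^7*v^23 + (279936 - 419904*ζ^4 + 139968*ζ^5)*u^6*v^24
      + (46656*ζ - 139968*ζ^5)*u^5*v^25 + (-46656*ζ^2)*u^4*v^26) * hζ

theorem klein_ydiff_t_1_0 (ζ h u v : R) (hζ : ζ ^ 4 + ζ ^ 3 + ζ ^ 2 + ζ + 1 = 0) (h5 : 5 * h = 1) :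
    (kleinY_1_0 ζ h u v) * ((-1 - ζ - ζ^2 - ζ^3)*u^8*v + 4*u^7*v^2 + 7*ζ*u^6*v^3 + 7*ζ^2*u^5*v^4 + (7 + 7*ζ + 7*ζ^2
        + 7*ζ^3)*u^3*v^6 + (-3)*u^2*v^7 + ζ*u*v^8 + ζ^2*v^9)
      = 2 ^ 2 * 3 ^ 3 * 5 ^ 0 * kleinF u v ^ 2 := by
  unfold kleinY_1_0 kleinF
  linear_combination (exp := 1) ((-108)*u^22*v^2 + 432*ζ*u^21*v^3 + (-972*ζ^2)*u^20*v^4 + (-1620 - 1620*ζ - 1620*ζ^2)*u^19*v^5
      + 3780*u^18*v^6 + (8424 + 6804*ζ)*u^17*v^7 + 6048*ζ*u^16*v^8 + 7452*ζ^2*u^15*v^9 + (11880 + 11880*ζ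
      + 11880*ζ^2)*u^14*v^10 + 11880*u^13*v^11 + (-20952 - 3564*ζ)*u^12*v^12 + 13824*ζ*u^11*v^13
      + (-4644*ζ^2)*u^10*v^14 + (-3780 - 3780*ζ - 3780*ζ^2)*u^9*v^15 + 1620*u^8*v^16 + (2376
      + 108*ζ)*u^7*v^17 + (-1296*ζ)*u^6*v^18 + 756*ζ^2*u^5*v^19 + (-108 + 108*ζ)*u^2*v^22) * hζ

theorem klein_chordX_c_1_1_e1 (ζ h u v : R) (hζ : ζ ^ 4 + ζ ^ 3 + ζ ^ 2 + ζ + 1 = 0) (h5 : 5 * h = 1) :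
    (kleinX_1_1 ζ h u v + kleinX_1_0 ζ h u v + kleinX_2_1 ζ h u v) * (kleinX_1_1 ζ h u v - kleinX_1_0 ζ h u v) ^ 2 = (kleinY_1_1 ζ h u v - kleinY_1_0 ζ h u v) ^ 2 := by
  unfold kleinX_1_1 kleinY_1_1 kleinX_1_0 kleinY_1_0 kleinX_2_1
  linear_combination (exp := 1) (46656*ζ*u^26*v^4 + (-186624*ζ - 186624*ζ^2)*u^25*v^5 + (-699840*ζ + 1026432*ζ^2
      + 559872*ζ^3)*u^24*v^6 + (466560 + 46656*ζ + 3172608*ζ^2 - 1959552*ζ^3 - 746496*ζ^4)*u^23*v^7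
      + (-1632960 - 2659392*ζ - 2939328*ζ^2 - 9191232*ζ^3 + 1679616*ζ^4 + 746496*ζ^5)*u^22*v^8
      + (-8118144 - 2985984*ζ - 2939328*ζ^2 - 793152*ζ^3 + 11290752*ζ^4 + 373248*ζ^5)*u^21*v^9 + (-6765120
      + 14276736*ζ + 6018624*ζ^2 + 6485184*ζ^3 + 5365440*ζ^4 - 6298560*ζ^5)*u^20*v^10 + (-1119744
      + 11477376*ζ - 18475776*ζ^2 - 14136768*ζ^3 - 11664000*ζ^4 - 9797760*ζ^5)*u^19*v^11
      + (2099520 - 7045056*ζ - 22394880*ζ^2 - 5272128*ζ^3 - 6718464*ζ^4 - 7231680*ζ^5)*u^18*v^12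
      + (5598720 - 7604928*ζ - 11057472*ζ^2 - 5505408*ζ^3 - 15209856*ζ^4 - 12877056*ζ^5)*u^17*v^13
      + (-14276736 - 19595520*ζ - 34385472*ζ^2 - 19035648*ζ^3 - 13623552*ζ^4 - 4805568*ζ^5)*u^16*v^14
      + (-24261120 + 2799360*ζ - 6205248*ζ^2 + 17076096*ζ^3 + 4665600*ζ^4 + 7698240*ζ^5)*u^15*v^15
      + (-11010816 + 15816384*ζ - 5225472*ζ^2 + 466560*ζ^3 - 3499200*ζ^4 + 4199040*ζ^5)*u^14*v^16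
      + (-2332800 - 5038848*ζ + 4572288*ζ^2 - 3219264*ζ^3 + 13670208*ζ^4 + 7931520*ζ^5)*u^13*v^17
      + (14696640 + 1679616*ζ + 27013824*ζ^2 + 11010816*ζ^3 + 1026432*ζ^4 + 1726272*ζ^5)*u^12*v^18
      + (8724672 + 4245696*ζ - 11477376*ζ^2 + 513216*ζ^3 - 8678016*ζ^4 - 419904*ζ^5)*u^11*v^19 + (-6065280
      + 5412096*ζ - 1772928*ζ^2 + 6671808*ζ^3 + 6765120*ζ^4 - 1866240*ζ^5)*u^10*v^20 + (326592 + 1026432*ζ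
      + 3312576*ζ^2 - 9937728*ζ^3 + 1166400*ζ^4 - 4199040*ζ^5)*u^9*v^21
      + (-1632960 - 8771328*ζ - 373248*ζ^2 - 3452544*ζ^3 - 326592*ζ^4 + 1399680*ζ^5)*u^8*v^22 + (2099520
      + 1679616*ζ + 2052864*ζ^2 + 3545856*ζ^3 - 1306368*ζ^4 + 1259712*ζ^5)*u^7*v^23
      + (-373248 - 279936*ζ - 2612736*ζ^2 - 186624*ζ^3 - 979776*ζ^4 - 419904*ζ^5)*u^6*v^24 + (886464*ζ
      + 699840*ζ^2 + 606528*ζ^3 + 699840*ζ^4)*u^5*v^25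
      + (-139968 - 139968*ζ - 139968*ζ^2 - 326592*ζ^3)*u^4*v^26 + 46656*ζ^2*u^3*v^27) * hζ

theorem klein_chordY_c_1_1_e1 (ζ h u v : R) (hζ : ζ ^ 4 + ζ ^ 3 + ζ ^ 2 + ζ + 1 = 0) (h5 : 5 * h = 1) :
    (kleinY_2_1 ζ h u v + kleinY_1_1 ζ h u v) * (kleinX_1_1 ζ h u v - kleinX_1_0 ζ h u v) = -(kleinY_1_1 ζ h u v - kleinY_1_0 ζ h u v) * (kleinX_2_1 ζ h u v - kleinX_1_1 ζ h u v) := by
  unfold kleinX_1_1 kleinY_1_1 kleinX_1_0 kleinY_1_0 kleinX_2_1 kleinY_2_1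
  linear_combination (exp := 1) (7776*ζ*u^21*v^4 + (-15552*ζ^2)*u^20*v^5 + (38880*ζ + 7776*ζ^2)*u^19*v^6 + (77760 + 178848*ζ
      + 77760*ζ^2)*u^18*v^7 + (116640 - 38880*ζ)*u^17*v^8 + (-38880 - 202176*ζ + 194400*ζ^2)*u^16*v^9
      + (194400 + 194400*ζ + 482112*ζ^2)*u^15*v^10 + (388800 + 38880*ζ + 108864*ζ^2)*u^14*v^11 + (272160
      + 209952*ζ + 272160*ζ^2)*u^13*v^12 + (311040 + 544320*ζ)*u^12*v^13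
      + (-427680 - 62208*ζ - 972000*ζ^2)*u^11*v^14 + (-388800 - 388800*ζ - 381024*ζ^2)*u^10*v^15
      + (194400 - 233280*ζ + 248832*ζ^2)*u^9*v^16 + (116640 + 318816*ζ + 116640*ζ^2)*u^8*v^17 + (-116640
      + 38880*ζ)*u^7*v^18 + (38880 - 101088*ζ + 194400*ζ^2)*u^6*v^19 + (-69984*ζ^2)*u^5*v^20
      + (-23328*ζ^2)*u^4*v^21 + 7776*ζ*u^3*v^22) * hζ

theorem klein_diff_c_1_1_e1 (ζ h u v : R) (hζ : ζ ^ 4 + ζ ^ 3 + ζ ^ 2 + ζ + 1 = 0) (h5 : 5 * h = 1) :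
    (kleinX_1_1 ζ h u v - kleinX_1_0 ζ h u v) * ((-1 - ζ - ζ^2 - ζ^3)*u^13*v + (3 + ζ + ζ^2 + ζ^3)*u^12*v^2 + (-5 - ζ^3)*u^11*v^3 + (5 - 5*ζ
        + 5*ζ^3)*u^10*v^4 + (-10 - 10*ζ^2 - 15*ζ^3)*u^9*v^5 + (14 + 4*ζ + 14*ζ^2 + 14*ζ^3)*u^8*v^6
        + (-17 - 14*ζ - 14*ζ^2 - 14*ζ^3)*u^7*v^7 + (10 + 14*ζ^3)*u^6*v^8 + (-10 - 15*ζ - 10*ζ^3)*u^5*v^9
        + (-5 - 5*ζ^2 + 5*ζ^3)*u^4*v^10 + (1 - 4*ζ + ζ^2 + ζ^3)*u^3*v^11 + (-3 - ζ - ζ^2 - ζ^3)*u^2*v^12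
        + ζ^3*u*v^13)
      = 2 ^ 2 * 3 ^ 2 * 5 ^ 0 * kleinF u v ^ 2 := by
  unfold kleinX_1_1 kleinX_1_0 kleinF
  linear_combination (exp := 1) ((-36)*u^22*v^2 + 72*ζ*u^21*v^3 + (-36 - 108*ζ - 144*ζ^2)*u^20*v^4 + (-72 - 144*ζ - 36*ζ^2)*u^19*v^5
      + (180 + 36*ζ^2)*u^18*v^6 + (-972 + 468*ζ + 360*ζ^2)*u^17*v^7 + (-360 - 432*ζ - 1080*ζ^2)*u^16*v^8
      + (-324 - 1152*ζ - 756*ζ^2)*u^15*v^9 + (-108 + 1044*ζ + 1296*ζ^2)*u^14*v^10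
      + (180 - 3600*ζ - 3096*ζ^2)*u^13*v^11 + (-6264 + 2412*ζ + 3060*ζ^2)*u^12*v^12
      + (540 - 1836*ζ - 1980*ζ^2)*u^11*v^13 + (-3672 - 3996*ζ + 2052*ζ^2)*u^10*v^14 + (396
      + 2952*ζ - 252*ζ^2)*u^9*v^15 + (-1080 - 1800*ζ - 648*ζ^2)*u^8*v^16 + (972 + 36*ζ + 1440*ζ^2)*u^7*v^17
      + (360 + 324*ζ - 720*ζ^2)*u^6*v^18 + (-72 - 36*ζ + 72*ζ^2)*u^5*v^19 + (216 + 72*ζ + 108*ζ^2)*u^4*v^20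
      + (-108*ζ^2)*u^3*v^21 + (-36 + 36*ζ)*u^2*v^22) * hζ

theorem klein_chordX_c_1_2_e1 (ζ h u v : R) (hζ : ζ ^ 4 + ζ ^ 3 + ζ ^ 2 + ζ + 1 = 0) (h5 : 5 * h = 1) :
    (kleinX_1_2 ζ h u v + kleinX_1_0 ζ h u v + kleinX_2_2 ζ h u v) * (kleinX_1_2 ζ h u v - kleinX_1_0 ζ h u v) ^ 2 = (kleinY_1_2 ζ h u v - kleinY_1_0 ζ h u v) ^ 2 := by
  unfold kleinX_1_2 kleinY_1_2 kleinX_1_0 kleinY_1_0 kleinX_2_2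
  linear_combination (exp := 1) ((-46656*ζ)*u^27*v^3 + (186624*ζ^2 + 93312*ζ^3)*u^26*v^4
      + (-139968*ζ - 466560*ζ^3 - 233280*ζ^4 - 46656*ζ^5)*u^25*v^5 + (-513216 - 1213056*ζ
      + 139968*ζ^2 - 1259712*ζ^3 + 373248*ζ^4 + 233280*ζ^5)*u^24*v^6 + (-559872 + 839808*ζ
      + 4292352*ζ^2 - 466560*ζ^3 + 2612736*ζ^4 + 513216*ζ^5)*u^23*v^7 + (-2099520
      + 93312*ζ - 793152*ζ^2 - 7371648*ζ^3 + 979776*ζ^4 - 1866240*ζ^5)*u^22*v^8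
      + (-9284544 - 5085504*ζ - 10684224*ζ^2 - 10124352*ζ^3 + 2985984*ζ^4 - 3405888*ζ^5)*u^21*v^9
      + (-7231680 + 14603328*ζ + 6531840*ζ^2 + 11057472*ζ^3 + 12597120*ζ^4 - 1772928*ζ^5)*u^20*v^10
      + (1912896 + 24774336*ζ + 139968*ζ^2 + 2332800*ζ^3 - 6111936*ζ^5)*u^19*v^11 + (-1306368
      + 7791552*ζ - 22721472*ζ^2 - 11897280*ζ^3 - 6018624*ζ^4 - 3405888*ζ^5)*u^18*v^12
      + (-7931520 - 373248*ζ - 16003008*ζ^2 + 12037248*ζ^3 + 6718464*ζ^4 + 6531840*ζ^5)*u^17*v^13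
      + (-2146176 - 4945536*ζ - 13856832*ζ^2 + 5318784*ζ^3 - 5318784*ζ^4 + 373248*ζ^5)*u^16*v^14 + (11430720
      + 6718464*ζ + 12363840*ζ^2 + 14370048*ζ^3 + 2566080*ζ^4 - 606528*ζ^5)*u^15*v^15
      + (-1492992 - 12223872*ζ + 933120*ζ^2 + 2939328*ζ^3 - 5925312*ζ^4 + 46656*ζ^5)*u^14*v^16
      + (-3219264 - 5085504*ζ + 2052864*ζ^2 - 15629760*ζ^3 - 17496000*ζ^4 - 2146176*ζ^5)*u^13*v^17
      + (933120 - 3965760*ζ + 7045056*ζ^2 + 4152384*ζ^3 + 11524032*ζ^4 + 5598720*ζ^5)*u^12*v^18 + (1026432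
      + 1492992*ζ - 793152*ζ^2 - 13576896*ζ^3 + 4105728*ζ^4 + 886464*ζ^5)*u^11*v^19 + (-5598720 + 7651584*ζ
      + 7464960*ζ^2 + 6718464*ζ^3 + 4665600*ζ^4 - 2799360*ζ^5)*u^10*v^20
      + (-559872 - 793152*ζ - 12223872*ζ^2 + 559872*ζ^3 + 93312*ζ^4 - 793152*ζ^5)*u^9*v^21 + (4478976
      + 1446336*ζ - 46656*ζ^2 + 933120*ζ^3 - 5552064*ζ^4 - 793152*ζ^5)*u^8*v^22 + (-2239488*ζ + 3779136*ζ^2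
      + 2519424*ζ^3 + 559872*ζ^4 + 933120*ζ^5)*u^7*v^23 + (-839808 - 839808*ζ - 466560*ζ^2 - 2099520*ζ^3
      + 839808*ζ^4 + 653184*ζ^5)*u^6*v^24 + (699840*ζ - 279936*ζ^3 - 373248*ζ^5)*u^5*v^25 + (-139968*ζ^2
      + 279936*ζ^3 + 46656*ζ^4 - 93312*ζ^5)*u^4*v^26 + (-46656*ζ^4 + 46656*ζ^5)*u^3*v^27) * hζ

theorem klein_chordY_c_1_2_e1 (ζ h u v : R) (hζ : ζ ^ 4 + ζ ^ 3 + ζ ^ 2 + ζ + 1 = 0) (h5 : 5 * h = 1) :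
    (kleinY_2_2 ζ h u v + kleinY_1_2 ζ h u v) * (kleinX_1_2 ζ h u v - kleinX_1_0 ζ h u v) = -(kleinY_1_2 ζ h u v - kleinY_1_0 ζ h u v) * (kleinX_2_2 ζ h u v - kleinX_1_2 ζ h u v) := by
  unfold kleinX_1_2 kleinY_1_2 kleinX_1_0 kleinY_1_0 kleinX_2_2 kleinY_2_2
  linear_combination (exp := 1) ((-7776*ζ + 7776*ζ^2)*u^22*v^3 + 23328*ζ^2*u^21*v^4 + (-46656 - 46656*ζ - 77760*ζ^2)*u^20*v^5
      + (-77760 - 217728*ζ - 77760*ζ^2)*u^19*v^6 + (-155520*ζ + 233280*ζ^2)*u^18*v^7 + (-116640 + 85536*ζ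
      + 108864*ζ^2)*u^17*v^8 + (-194400 + 233280*ζ + 248832*ζ^2)*u^16*v^9 + (-147744 - 147744*ζ
      + 272160*ζ^2)*u^15*v^10 + (-272160 - 637632*ζ - 272160*ζ^2)*u^14*v^11 + (233280*ζ
      + 622080*ζ^2)*u^13*v^12 + (272160 + 334368*ζ + 248832*ζ^2)*u^12*v^13 + (388800
      + 38880*ζ - 108864*ζ^2)*u^11*v^14 + (-15552 - 15552*ζ + 233280*ζ^2)*u^10*v^15
      + (-116640 - 279936*ζ - 116640*ζ^2)*u^9*v^16 + (155520*ζ - 233280*ζ^2)*u^8*v^17 + (-77760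
      + 23328*ζ - 23328*ζ^2)*u^7*v^18 + (-38880*ζ + 7776*ζ^2)*u^6*v^19 + (23328 + 23328*ζ
      + 38880*ζ^2)*u^5*v^20 + (-7776*ζ)*u^4*v^21) * hζ

theorem klein_diff_c_1_2_e1 (ζ h u v : R) (hζ : ζ ^ 4 + ζ ^ 3 + ζ ^ 2 + ζ + 1 = 0) (h5 : 5 * h = 1) :
    (kleinX_1_2 ζ h u v - kleinX_1_0 ζ h u v) * ((-1 - ζ - ζ^2 - ζ^3)*u^13*v + (2 - ζ^2)*u^12*v^2 + (-ζ^2 - 5*ζ^3)*u^11*v^3 + (10 + 10*ζ + 5*ζ^2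
        + 5*ζ^3)*u^10*v^4 + (10*ζ + 10*ζ^2 - 5*ζ^3)*u^9*v^5 + (4 + 14*ζ + 14*ζ^2 + 14*ζ^3)*u^8*v^6 + (-3
        + 14*ζ^2)*u^7*v^7 + (14*ζ^2 + 10*ζ^3)*u^6*v^8 + (5 + 5*ζ + 15*ζ^2 + 15*ζ^3)*u^5*v^9 + (5*ζ + 5*ζ^2
        + 10*ζ^3)*u^4*v^10 + (-4 + ζ + ζ^2 + ζ^3)*u^3*v^11 + (-2 + ζ^2)*u^2*v^12 + ζ^2*u*v^13)
      = 2 ^ 2 * 3 ^ 2 * 5 ^ 0 * kleinF u v ^ 2 := by
  unfold kleinX_1_2 kleinX_1_0 kleinF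
  linear_combination (exp := 1) ((-36)*u^22*v^2 + (36 + 108*ζ + 36*ζ^2)*u^21*v^3 + (-72 + 36*ζ - 108*ζ^2)*u^20*v^4 + (-180
      + 108*ζ - 72*ζ^2)*u^19*v^5 + (-180 - 360*ζ - 720*ζ^2)*u^18*v^6 + (-432 - 72*ζ - 540*ζ^2)*u^17*v^7
      + (1764 + 1152*ζ + 324*ζ^2)*u^16*v^8 + (1692 + 1584*ζ + 288*ζ^2)*u^15*v^9 + (720 + 4032*ζ
      + 3672*ζ^2)*u^14*v^10 + (-1080 + 540*ζ + 180*ζ^2)*u^13*v^11 + (-4824 + 3672*ζ + 3960*ζ^2)*u^12*v^12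
      + (612 - 504*ζ + 3672*ζ^2)*u^11*v^13 + (1296 + 1332*ζ + 1944*ζ^2)*u^10*v^14 + (-720
      + 576*ζ - 324*ζ^2)*u^9*v^15 + (-1620 + 360*ζ - 1980*ζ^2)*u^8*v^16 + (432 - 324*ζ - 1260*ζ^2)*u^7*v^17
      + (432 + 36*ζ + 72*ζ^2)*u^6*v^18 + (216 - 288*ζ + 324*ζ^2)*u^5*v^19 + (-144*ζ + 36*ζ^2)*u^4*v^20
      + (-36 + 36*ζ)*u^2*v^22) * hζ

theorem klein_chordX_c_1_3_e1 (ζ h u v : R) (hζ : ζ ^ 4 + ζ ^ 3 + ζ ^ 2 + ζ + 1 = 0) (h5 : 5 * h = 1) :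
    (kleinX_1_3 ζ h u v + kleinX_1_0 ζ h u v + kleinX_2_3 ζ h u v) * (kleinX_1_3 ζ h u v - kleinX_1_0 ζ h u v) ^ 2 = (kleinY_1_3 ζ h u v - kleinY_1_0 ζ h u v) ^ 2 := by
  unfold kleinX_1_3 kleinY_1_3 kleinX_1_0 kleinY_1_0 kleinX_2_3
  linear_combination (exp := 1) ((-139968*h - 186624*ζ*h - 326592*ζ^2*h - 186624*ζ^3*h - 93312*ζ^4*h - 46656*ζ^5*h)*u^28*v^2
      + (233280*h + 699840*ζ*h + 559872*ζ^2*h + 933120*ζ^3*h + 466560*ζ^4*h + 46656*ζ^5*h)*u^27*v^3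
      + (1073088*ζ^2*h + 1866240*ζ^3*h + 1306368*ζ^4*h + 933120*ζ^5*h)*u^26*v^4
      + (933120*h - 4199040*ζ*h - 699840*ζ^2*h - 4665600*ζ^3*h - 3079296*ζ^4*h + 2472768*ζ^5*h)*u^25*v^5
      + (6998400*h - 2332800*ζ*h + 17962560*ζ^2*h + 4665600*ζ^3*h - 6158592*ζ^4*h + 4478976*ζ^5*h)*u^24*v^6
      + (2286144*h - 6671808*ζ*h + 18942336*ζ^2*h + 17356032*ζ^3*h - 1119744*ζ^4*h + 3639168*ζ^5*h)*u^23*v^7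
      + (-16562880*h
      + 2799360*ζ*h - 73996416*ζ^2*h - 38257920*ζ^3*h - 1399680*ζ^4*h - 10870848*ζ^5*h)*u^22*v^8
      + (-93312000*h + 69984000*ζ*h - 127090944*ζ^2*h - 29859840*ζ^3*h
      + 30139776*ζ^4*h - 35691840*ζ^5*h)*u^21*v^9 + (-209718720*h + 159330240*ζ*h - 87946560*ζ^2*h
      + 41990400*ζ^3*h + 56360448*ζ^4*h - 59439744*ζ^5*h)*u^20*v^10 + (-173793600*h
      + 155131200*ζ*h - 175426560*ζ^2*h - 88646400*ζ^3*h - 30979584*ζ^4*h - 74556288*ζ^5*h)*u^19*v^11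
      + (-73343232*h - 21974976*ζ*h - 245783808*ζ^2*h - 136982016*ζ^3*h - 61026048*ζ^4*h - 41710464*ζ^5*h)*u^18*v^12
      + (-24027840*h - 107075520*ζ*h - 88506432*ζ^2*h + 25194240*ζ^3*h + 20528640*ζ^4*h
      + 15116544*ζ^5*h)*u^17*v^13 + (40824000*h + 5832000*ζ*h + 68444352*ζ^2*h + 50388480*ζ^3*h
      + 21088512*ζ^4*h + 23794560*ζ^5*h)*u^16*v^14 + (52021440*h + 60419520*ζ*h + 121072320*ζ^2*h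
      + 51321600*ζ^3*h + 15676416*ζ^4*h + 24354432*ζ^5*h)*u^15*v^15 + (27993600*h - 9331200*ζ*h
      + 60419520*ζ^2*h + 41990400*ζ^3*h + 14090112*ζ^4*h + 21415104*ζ^5*h)*u^14*v^16
      + (7978176*h - 30186432*ζ*h - 3545856*ζ^2*h - 27620352*ζ^3*h - 19408896*ζ^4*h - 3639168*ζ^5*h)*u^13*v^17
      + (-4199040*h - 6765120*ζ*h - 12317184*ζ^2*h - 21461760*ζ^3*h - 10264320*ζ^4*h - 1492992*ζ^5*h)*u^12*v^18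
      + (-1912896*ζ^2*h + 3732480*ζ^3*h + 2052864*ζ^4*h)*u^11*v^19 + (-1632960*h
      + 4432320*ζ*h - 1399680*ζ^2*h + 1026432*ζ^4*h - 5645376*ζ^5*h)*u^10*v^20
      + (-233280*ζ^2*h - 746496*ζ^4*h + 839808*ζ^5*h)*u^9*v^21 + (-1073088*h + 513216*ζ*h - 1726272*ζ^2*h
      + 746496*ζ^3*h + 1772928*ζ^4*h - 46656*ζ^5*h)*u^8*v^22 + (-606528*ζ^2*h
      + 466560*ζ^4*h - 419904*ζ^5*h)*u^7*v^23 + (606528*ζ^2*h - 559872*ζ^4*h + 466560*ζ^5*h)*u^6*v^24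
      + (186624*ζ^4*h - 93312*ζ^5*h)*u^5*v^25 + (-93312*ζ^4*h + 46656*ζ^5*h)*u^4*v^26) * hζ
    + ((3888 - 31104*ζ - 23328*ζ^2 - 23328*ζ^3 - 27216*ζ^4 + 7776*ζ^5 + 3888*ζ^6)*u^28*v^2
      + (-46656 - 186624*ζ - 202176*ζ^2 - 388800*ζ^3 - 637632*ζ^4 - 466560*ζ^5 - 497664*ζ^6 - 326592*ζ^7 - 139968*ζ^8 - 46656*ζ^9)*u^27*v^3
      + (-69984*ζ^2 - 443232*ζ^3 - 1034208*ζ^4 - 730944*ζ^5 - 1314144*ζ^6 - 839808*ζ^7 - 466560*ζ^8 - 279936*ζ^9)*u^26*v^4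
      + (-427680 - 311040*ζ - 746496*ζ^2 - 186624*ζ^3 - 85536*ζ^4 + 1010880*ζ^5 - 474336*ζ^6
      + 513216*ζ^7 - 46656*ζ^8 - 699840*ζ^9)*u^25*v^5
      + (-1399680 - 933120*ζ - 4043520*ζ^2 - 4976640*ζ^3 - 4739472*ζ^4 - 2916000*ζ^5 - 4972752*ζ^6 - 699840*ζ^7
      + 233280*ζ^8 - 1166400*ζ^9)*u^24*v^6 + (-412128
      + 1057536*ζ - 1982880*ζ^2 - 5715360*ζ^3 - 7029504*ζ^4 - 6562944*ζ^5 - 9160128*ζ^6 - 4712256*ζ^7 - 979776*ζ^8 - 1073088*ζ^9)*u^23*v^7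
      + (2709936 + 342144*ζ + 13763520*ζ^2 + 20481984*ζ^3 + 20431440*ζ^4 + 21049632*ζ^5 + 21675600*ζ^6
      + 8118144*ζ^7 + 1399680*ζ^8 + 1586304*ζ^9)*u^22*v^8 + (18662400 + 4665600*ζ + 30054240*ζ^2
      + 36026208*ζ^3 + 30240864*ζ^4 + 20077632*ζ^5 + 31780512*ζ^6 + 7045056*ζ^7 + 1073088*ζ^8
      + 6205248*ζ^9)*u^21*v^9 + (41912640 + 9953280*ζ + 26640576*ζ^2
      + 14883264*ζ^3 - 1220832*ζ^4 - 30870720*ζ^5 - 1376352*ζ^6 - 12410496*ζ^7 - 653184*ζ^8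
      + 9797760*ζ^9)*u^20*v^10 + (34758720 + 3732480*ζ + 40085280*ζ^2 + 57814560*ζ^3 + 63304416*ζ^4
      + 47822400*ζ^5 + 71469216*ζ^6 + 37558080*ζ^7 + 19828800*ζ^8 + 11897280*ζ^9)*u^19*v^11 + (14762736
      + 19440000*ζ + 70466112*ζ^2 + 99392832*ζ^3 + 113805648*ζ^4 + 112246560*ζ^5 + 100104336*ζ^6
      + 47635776*ζ^7 + 18709056*ζ^8 + 5738688*ζ^9)*u^18*v^12 + (3522528 + 21088512*ζ + 33312384*ζ^2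
      + 18009216*ζ^3
      + 2356128*ζ^4 - 7791552*ζ^5 - 23631264*ζ^6 - 29439936*ζ^7 - 14136768*ζ^8 - 4898880*ζ^9)*u^17*v^13
      + (-8164800 - 9331200*ζ - 23553504*ζ^2 - 33631200*ζ^3 - 38526192*ζ^4 - 36243936*ζ^5 - 32880816*ζ^6 - 17216064*ζ^7 - 7138368*ζ^8 - 3685824*ζ^9)*u^16*v^14
      + (-9525600 - 18973440*ζ - 39284352*ζ^2 - 40963968*ζ^3 - 34478784*ζ^4 - 26593920*ζ^5 - 18304704*ζ^6 - 3172608*ζ^7 - 1492992*ζ^8 - 2799360*ζ^9)*u^15*v^15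
      + (-5598720 - 3732480*ζ - 15007680*ζ^2 - 23405760*ζ^3 - 26850528*ζ^4 - 24338880*ζ^5 - 27550368*ζ^6 - 17029440*ζ^7 - 8631360*ζ^8 - 4432320*ζ^9)*u^14*v^16
      + (-1741824 + 3856896*ζ + 3755808*ζ^2 + 7488288*ζ^3 + 8110368*ζ^4 + 8600256*ζ^5 + 5839776*ζ^6
      + 8304768*ζ^7 + 4572288*ζ^8 + 1586304*ζ^9)*u^13*v^17 + (470448 + 715392*ζ + 2379456*ζ^2 + 7604928*ζ^3
      + 11426832*ζ^4 + 11811744*ζ^5 + 11597904*ζ^6 + 8631360*ζ^7 + 3405888*ζ^8 + 886464*ζ^9)*u^12*v^18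
      + (381024*ζ^2 - 365472*ζ^3 - 342144*ζ^4
      + 528768*ζ^5 - 948672*ζ^6 - 1632960*ζ^7 - 886464*ζ^8 - 606528*ζ^9)*u^11*v^19 + (622080 + 622080*ζ
      + 1306368*ζ^2 + 559872*ζ^3 - 800928*ζ^4 - 1477440*ζ^5 - 256608*ζ^6 - 606528*ζ^7 + 139968*ζ^8
      + 1166400*ζ^9)*u^10*v^20 + (194400*ζ^2 + 194400*ζ^3 - 7776*ζ^4 - 233280*ζ^5 - 241056*ζ^6 + 233280*ζ^7
      + 233280*ζ^8 - 233280*ζ^9)*u^9*v^21 + (155520 - 124416*ζ - 7776*ζ^2 - 7776*ζ^3 + 272160*ζ^4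
      + 264384*ζ^5 + 349920*ζ^6 - 326592*ζ^7 - 326592*ζ^8 - 46656*ζ^9)*u^8*v^22 + (62208*ζ^2 + 62208*ζ^3
      + 124416*ζ^4 + 186624*ζ^5 + 171072*ζ^6 - 46656*ζ^7 - 46656*ζ^8 + 46656*ζ^9)*u^7*v^23
      + (-62208*ζ^2 - 62208*ζ^3 - 120528*ζ^4 - 147744*ζ^5 - 167184*ζ^6 + 46656*ζ^7
      + 46656*ζ^8 - 46656*ζ^9)*u^6*v^24 + (-7776*ζ^4 - 77760*ζ^5 - 7776*ζ^6)*u^5*v^25 + (3888*ζ^4
      + 38880*ζ^5 + 3888*ζ^6)*u^4*v^26) * h5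

theorem klein_chordY_c_1_3_e1 (ζ h u v : R) (hζ : ζ ^ 4 + ζ ^ 3 + ζ ^ 2 + ζ + 1 = 0) (h5 : 5 * h = 1) :
    (kleinY_2_3 ζ h u v + kleinY_1_3 ζ h u v) * (kleinX_1_3 ζ h u v - kleinX_1_0 ζ h u v) = -(kleinY_1_3 ζ h u v - kleinY_1_0 ζ h u v) * (kleinX_2_3 ζ h u v - kleinX_1_3 ζ h u v) := by
  unfold kleinX_1_3 kleinY_1_3 kleinX_1_0 kleinY_1_0 kleinX_2_3 kleinY_2_3
  linear_combination (exp := 1) ((-15552*h - 15552*ζ^2*h)*u^24*v + (38880*ζ*h - 38880*ζ^2*h)*u^23*v^2 + (155520*h - 233280*ζ*h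
      + 233280*ζ^2*h)*u^21*v^4 + (972000*h - 194400*ζ*h + 972000*ζ^2*h)*u^20*v^5 + (824256*h - 933120*ζ*h
      + 940896*ζ^2*h)*u^19*v^6 + (-1205280*ζ*h - 349920*ζ^2*h)*u^18*v^7 + 2916000*ζ*h*u^17*v^8 + (-3071520*h
      + 2371680*ζ*h - 2177280*ζ^2*h)*u^16*v^9 + (-4860000*h - 2138400*ζ*h - 4860000*ζ^2*h)*u^15*v^10
      + (-1656288*h + 2293920*ζ*h - 412128*ζ^2*h)*u^14*v^11 + (2410560*ζ*h + 894240*ζ^2*h)*u^13*v^12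
      + (-972000*ζ*h)*u^12*v^13 + (699840*h + 1088640*ζ*h + 1049760*ζ^2*h)*u^11*v^14 + (972000*h
      + 194400*ζ*h + 972000*ζ^2*h)*u^10*v^15 + (147744*h - 894240*ζ*h - 396576*ζ^2*h)*u^9*v^16
      + (-311040*ζ*h - 77760*ζ^2*h)*u^8*v^17 + (-77760*h - 77760*ζ*h - 116640*ζ^2*h)*u^6*v^19 + (-15552*h
      + 77760*ζ*h + 23328*ζ^2*h)*u^4*v^21) * hζ
    + ((324 + 324*ζ^2 + 324*ζ^3)*u^24*v + (-7776*ζ - 6480*ζ^2 - 6480*ζ^3 - 7776*ζ^4)*u^23*v^2 + (20412*ζ^2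
      + 20412*ζ^3 + 23328*ζ^5)*u^22*v^3 + (-4860 - 4860*ζ^2 - 4860*ζ^3 - 46656*ζ^4
      + 15552*ζ^5 - 46656*ζ^6)*u^21*v^4
      + (-93960 - 155520*ζ - 311040*ζ^2 - 311040*ζ^3 - 349920*ζ^4 - 155520*ζ^5 - 194400*ζ^6)*u^20*v^5
      + (-116316 - 116316*ζ^2 - 116316*ζ^3 - 194400*ζ^4 + 15552*ζ^5 - 194400*ζ^6)*u^19*v^6 + (241056*ζ
      + 350892*ζ^2 + 350892*ζ^3 + 241056*ζ^4 + 349920*ζ^5)*u^18*v^7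
      + (-583200*ζ - 536544*ζ^2 - 536544*ζ^3 - 583200*ζ^4 - 334368*ζ^5)*u^17*v^8 + (633420 + 633420*ζ^2
      + 633420*ζ^3 + 435456*ζ^4 + 139968*ζ^5 + 435456*ζ^6)*u^16*v^9 + (1185840 + 1399680*ζ + 2799360*ζ^2
      + 2799360*ζ^3 + 2371680*ζ^4 + 1399680*ζ^5 + 972000*ζ^6)*u^15*v^10 + (477900 + 477900*ζ^2 + 477900*ζ^3
      + 388800*ζ^4 + 178848*ζ^5 + 388800*ζ^6)*u^14*v^11
      + (-482112*ζ - 606852*ζ^2 - 606852*ζ^3 - 482112*ζ^4 - 233280*ζ^5)*u^13*v^12 + (194400*ζ + 121176*ζ^2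
      + 121176*ζ^3 + 194400*ζ^4 + 85536*ζ^5)*u^12*v^13
      + (-53460 - 53460*ζ^2 - 53460*ζ^3 - 209952*ζ^4 - 357696*ζ^5 - 209952*ζ^6)*u^11*v^14
      + (-132840 - 233280*ζ - 466560*ζ^2 - 466560*ζ^3 - 427680*ζ^4 - 233280*ζ^5 - 194400*ζ^6)*u^10*v^15
      + (-48276 - 48276*ζ^2 - 48276*ζ^3 + 69984*ζ^5)*u^9*v^16 + (62208*ζ + 84564*ζ^2 + 84564*ζ^3 + 62208*ζ^4
      + 38880*ζ^5)*u^8*v^17 + (19440*ζ^2 + 19440*ζ^3 + 7776*ζ^5)*u^7*v^18 + (1620 + 1620*ζ^2 + 1620*ζ^3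
      + 23328*ζ^4 + 31104*ζ^5 + 23328*ζ^6)*u^6*v^19 + (1296 + 1296*ζ^2 + 1296*ζ^3 - 7776*ζ^5)*u^4*v^21
      + (324*ζ^2 + 324*ζ^3)*u^3*v^22 + (-324*ζ^2 - 324*ζ^3)*u^2*v^23) * h5

theorem klein_diff_c_1_3_e1 (ζ h u v : R) (hζ : ζ ^ 4 + ζ ^ 3 + ζ ^ 2 + ζ + 1 = 0) (h5 : 5 * h = 1) :
    (kleinX_1_3 ζ h u v - kleinX_1_0 ζ h u v) * ((-2 - 4*ζ - ζ^2 - 3*ζ^3)*u^13*v + (2 + 4*ζ - 4*ζ^2 + 8*ζ^3)*u^12*v^2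
        + (-9 - 18*ζ - 2*ζ^2 - 16*ζ^3)*u^11*v^3 + (6 + 12*ζ - 7*ζ^2 + 19*ζ^3)*u^10*v^4 + (-15 - 30*ζ
        + 5*ζ^2 - 35*ζ^3)*u^9*v^5 + (-2 - 4*ζ - 26*ζ^2 + 22*ζ^3)*u^8*v^6
        + (-13 - 26*ζ - 24*ζ^2 - 2*ζ^3)*u^7*v^7 + (-44 - 88*ζ - 57*ζ^2 - 31*ζ^3)*u^6*v^8
        + (-24 - 48*ζ - 22*ζ^2 - 26*ζ^3)*u^5*v^9 + (-20 - 40*ζ - 35*ζ^2 - 5*ζ^3)*u^4*v^10
        + (-13 - 26*ζ - 19*ζ^2 - 7*ζ^3)*u^3*v^11 + (-7 - 14*ζ - 11*ζ^2 - 3*ζ^3)*u^2*v^12 + (-1 - 2*ζ - 3*ζ^2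
        + ζ^3)*u*v^13 + (-1 - 2*ζ - 3*ζ^2 + ζ^3)*v^14)
      = 2 ^ 2 * 3 ^ 2 * 5 ^ 1 * kleinF u v ^ 2 := by
  unfold kleinX_1_3 kleinX_1_0 kleinF
  linear_combination (exp := 1) ((-252 - 36*ζ - 108*ζ^2)*u^22*v^2 + (72 + 216*ζ + 72*ζ^2)*u^21*v^3
      + (-324 - 972*ζ - 324*ζ^2)*u^20*v^4 + (-144 - 432*ζ - 144*ζ^2)*u^19*v^5
      + (-180 - 540*ζ - 180*ζ^2)*u^18*v^6 + (-5508 - 684*ζ - 2340*ζ^2)*u^17*v^7 + (468 + 1404*ζ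
      + 468*ζ^2)*u^16*v^8 + (-3636 - 10908*ζ - 3636*ζ^2)*u^15*v^9 + (-1656 - 4968*ζ - 1656*ζ^2)*u^14*v^10
      + (-1980 - 5940*ζ - 1980*ζ^2)*u^13*v^11 + (-29664 - 3312*ζ - 12528*ζ^2)*u^12*v^12
      + (-3636 - 10908*ζ - 3636*ζ^2)*u^11*v^13 + (-468 - 1404*ζ - 468*ζ^2)*u^10*v^14
      + (-648 - 1944*ζ - 648*ζ^2)*u^9*v^15 + (180 + 540*ζ + 180*ζ^2)*u^8*v^16 + (4716 - 1692*ζ
      + 1548*ζ^2)*u^7*v^17 + (324 + 972*ζ + 324*ζ^2)*u^6*v^18 + (72 + 216*ζ + 72*ζ^2)*u^5*v^19 + (72 + 216*ζ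
      + 72*ζ^2)*u^4*v^20 + (-180 + 180*ζ - 36*ζ^2)*u^2*v^22) * hζ

theorem klein_chordX_f_1_4 (ζ h u v : R) (hζ : ζ ^ 4 + ζ ^ 3 + ζ ^ 2 + ζ + 1 = 0) (h5 : 5 * h = 1) :
    (kleinX_2_4 ζ h u v + kleinX_1_0 ζ h u v + kleinX_1_4 ζ h u v) * (kleinX_2_4 ζ h u v - kleinX_1_0 ζ h u v) ^ 2 = (kleinY_2_4 ζ h u v - -(kleinY_1_0 ζ h u v)) ^ 2 := by
  unfold kleinX_2_4 kleinY_2_4 kleinX_1_0 kleinY_1_0 kleinX_1_4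
  linear_combination (exp := 1) ((-93312*ζ^2*h + 46656*ζ^3*h)*u^28*v^2 + (-326592*ζ*h - 606528*ζ^2*h + 186624*ζ^3*h
      + 186624*ζ^4*h)*u^27*v^3 + (-1073088*h - 1073088*ζ*h + 326592*ζ^2*h - 186624*ζ^3*h + 466560*ζ^4*h
      + 186624*ζ^5*h)*u^26*v^4
      + (-5785344*ζ*h - 3265920*ζ^2*h - 2006208*ζ^3*h - 4852224*ζ^4*h - 559872*ζ^5*h)*u^25*v^5
      + (-8164800*h - 15863040*ζ*h - 12737088*ζ^2*h - 4992192*ζ^3*h - 7464960*ζ^4*h - 3312576*ζ^5*h)*u^24*v^6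
      + (-23328000*h - 18429120*ζ*h + 26873856*ζ^2*h - 21601728*ζ^3*h + 19362240*ζ^4*h
      + 5598720*ζ^5*h)*u^23*v^7 + (-9331200*h - 37744704*ζ*h + 51274944*ζ^2*h - 22254912*ζ^3*h
      + 42363648*ζ^4*h + 27527040*ζ^5*h)*u^22*v^8 + (-81461376*h + 2519424*ζ*h + 17915904*ζ^2*h
      + 80808192*ζ^3*h + 59486400*ζ^4*h - 4059072*ζ^5*h)*u^21*v^9 + (-134136000*h + 224975232*ζ*h
      + 142067520*ζ^2*h + 69470784*ζ^3*h + 39051072*ζ^4*h - 94898304*ζ^5*h)*u^20*v^10 + (54820800*h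
      + 238645440*ζ*h + 39844224*ζ^2*h - 194742144*ζ^3*h - 137168640*ζ^4*h - 89906112*ζ^5*h)*u^19*v^11
      + (93312000*h - 28226880*ζ*h - 275643648*ζ^2*h - 157277376*ζ^3*h - 137168640*ζ^4*h
      + 31726080*ζ^5*h)*u^18*v^12 + (-9331200*h - 47962368*ζ*h - 113467392*ζ^2*h + 59066496*ζ^3*h
      + 69097536*ζ^4*h + 69284160*ζ^5*h)*u^17*v^13 + (-1026432*h + 7138368*ζ*h + 5971968*ζ^2*h
      + 2519424*ζ^3*h + 66951360*ζ^4*h + 8211456*ζ^5*h)*u^16*v^14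
      + (5832000*h - 15443136*ζ*h - 10031040*ζ^2*h + 29066688*ζ^3*h + 41943744*ζ^4*h
      + 4292352*ζ^5*h)*u^15*v^15 + (-4665600*h - 35225280*ζ*h - 8024832*ζ^2*h
      + 53047872*ζ^3*h - 3265920*ζ^4*h + 10077696*ζ^5*h)*u^14*v^16 + (-5832000*h - 15863040*ζ*h
      + 7418304*ζ^2*h + 6205248*ζ^3*h - 21928320*ζ^4*h - 13296960*ζ^5*h)*u^13*v^17 + (-2332800*h
      + 2052864*ζ*h + 27107136*ζ^2*h - 16003008*ζ^3*h - 3405888*ζ^4*h - 933120*ζ^5*h)*u^12*v^18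
      + (1213056*h - 1119744*ζ*h + 1446336*ζ^2*h - 5692032*ζ^3*h - 10964160*ζ^4*h - 1772928*ζ^5*h)*u^11*v^19
      + (8304768*ζ*h + 2799360*ζ^2*h + 746496*ζ^3*h + 2939328*ζ^4*h - 3545856*ζ^5*h)*u^10*v^20 + (1166400*h
      + 933120*ζ*h + 2379456*ζ^2*h - 1679616*ζ^3*h + 2566080*ζ^4*h + 1492992*ζ^5*h)*u^9*v^21
      + (466560*ζ*h - 559872*ζ^2*h + 1446336*ζ^3*h + 233280*ζ^4*h + 699840*ζ^5*h)*u^8*v^22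
      + (-793152*ζ*h - 839808*ζ^2*h - 46656*ζ^3*h + 886464*ζ^4*h + 233280*ζ^5*h)*u^7*v^23
      + (-139968*h - 139968*ζ*h - 373248*ζ^2*h - 653184*ζ^3*h - 233280*ζ^4*h + 186624*ζ^5*h)*u^6*v^24
      + (46656*ζ*h + 93312*ζ^3*h - 186624*ζ^4*h - 93312*ζ^5*h)*u^5*v^25 + (-139968*ζ^2*h
      + 139968*ζ^3*h - 46656*ζ^5*h)*u^4*v^26) * hζ
    + ((3888*ζ^2 + 38880*ζ^3 + 3888*ζ^4)*u^28*v^2 + (124416*ζ + 186624*ζ^2 + 171072*ζ^3 + 15552*ζ^4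
      + 15552*ζ^5 + 46656*ζ^6)*u^27*v^3 + (155520 + 311040*ζ + 194400*ζ^2 + 69984*ζ^3 + 69984*ζ^4
      + 318816*ζ^5 + 342144*ζ^6 + 279936*ζ^7)*u^26*v^4 + (832032*ζ + 1632960*ζ^2 + 2239488*ζ^3 + 3351456*ζ^4
      + 4167936*ζ^5 + 2519424*ζ^6 + 1166400*ζ^7 + 559872*ζ^8)*u^25*v^5 + (1928448 + 5396544*ζ + 8215344*ζ^2
      + 9564480*ζ^3 + 10552032*ζ^4 + 8569152*ζ^5 + 3938544*ζ^6 + 1119744*ζ^7 + 933120*ζ^8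
      + 373248*ζ^9)*u^24*v^6 + (4665600 + 8794656*ζ + 3530304*ζ^2 + 6796224*ζ^3
      + 3483648*ζ^4 - 3149280*ζ^5 - 7278336*ζ^6 - 606528*ζ^7 - 4152384*ζ^8 - 559872*ζ^9)*u^23*v^7 + (1496880
      + 8382528*ζ - 1714608*ζ^2
      + 1446336*ζ^3 - 5602608*ζ^4 - 11671776*ζ^5 - 18693504*ζ^6 - 6718464*ζ^7 - 11757312*ζ^8 - 4572288*ζ^9)*u^22*v^8
      + (16438464 + 16080768*ζ
      + 12869280*ζ^2 - 1220832*ζ^3 - 11811744*ζ^4 - 26337312*ζ^5 - 24338880*ζ^6 - 22768128*ζ^7 - 9331200*ζ^8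
      + 1259712*ζ^9)*u^21*v^9
      + (26827200 - 16772832*ζ - 45995040*ζ^2 - 57799008*ζ^3 - 64136448*ζ^4 - 76422528*ζ^5 - 29634336*ζ^6 - 6065280*ζ^7
      + 5738688*ζ^8 + 17729280*ζ^9)*u^20*v^10
      + (-11842848 - 60450624*ζ - 71772480*ζ^2 - 39424320*ζ^3 - 17783712*ζ^4 + 3678048*ζ^5 + 49844160*ζ^6
      + 61166016*ζ^7 + 31259520*ζ^8 + 14556672*ζ^9)*u^19*v^11 + (-18662400 - 14704416*ζ + 40135824*ζ^2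
      + 71158176*ζ^3 + 92670480*ζ^4 + 112402080*ζ^5 + 108444096*ζ^6 + 52161408*ζ^7
      + 30046464*ζ^8 - 373248*ζ^9)*u^18*v^12 + (3149280 + 14370048*ζ + 40567392*ζ^2 + 38771136*ζ^3
      + 28110240*ζ^4 + 21368448*ζ^5 + 16562880*ζ^6 - 17775936*ζ^7 - 7838208*ζ^8 - 3592512*ζ^9)*u^17*v^13
      + (299376 - 1034208*ζ - 641520*ζ^2 - 2130624*ζ^3 - 12534912*ζ^4 - 12651552*ζ^5 - 14957136*ζ^6 - 11710656*ζ^7 - 11664000*ζ^8 - 1259712*ζ^9)*u^16*v^14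
      + (-1166400 + 497664*ζ
      + 3771360*ζ^2 - 4113504*ζ^3 - 13538016*ζ^4 - 6967296*ζ^5 - 14968800*ζ^6 - 13063680*ζ^7 - 5178816*ζ^8 - 933120*ζ^9)*u^15*v^15
      + (902016 + 7915968*ζ
      + 8079264*ζ^2 - 3732480*ζ^3 - 5178816*ζ^4 - 12566016*ζ^5 - 18825696*ζ^6 - 18988992*ζ^7 - 7931520*ζ^8 - 4385664*ζ^9)*u^14*v^16
      + (1166400 + 5575392*ζ + 4393440*ζ^2 + 2317248*ζ^3 + 10598688*ζ^4 + 7115040*ζ^5 + 2706048*ζ^6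
      + 6251904*ζ^7 + 3125952*ζ^8 + 46656*ζ^9)*u^13*v^17
      + (-136080 - 1088640*ζ - 7406640*ζ^2 - 6065280*ζ^3 - 5369328*ζ^4 - 5979744*ζ^5 - 6329664*ζ^6
      + 1259712*ζ^7 - 1353024*ζ^8 - 746496*ζ^9)*u^12*v^18 + (-287712 - 108864*ζ - 1010880*ζ^2 + 1298592*ζ^3
      + 3211488*ζ^4 + 3615840*ζ^5 + 5217696*ζ^6 + 4339008*ζ^7 + 2332800*ζ^8 + 419904*ζ^9)*u^11*v^19
      + (-1329696*ζ - 2371680*ζ^2 - 2558304*ζ^3 - 2737152*ζ^4 - 3359232*ζ^5 - 474336*ζ^6 + 233280*ζ^7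
      + 419904*ζ^8 + 933120*ζ^9)*u^10*v^20 + (7776 + 62208*ζ + 357696*ζ^2 + 1166400*ζ^3 + 458784*ζ^4
      + 1158624*ζ^5 + 435456*ζ^6 + 139968*ζ^7 + 46656*ζ^9)*u^9*v^21
      + (-334368*ζ - 318816*ζ^2 - 171072*ζ^3 - 878688*ζ^4 - 272160*ζ^5 + 62208*ζ^6 - 513216*ζ^7 + 93312*ζ^8
      + 46656*ζ^9)*u^8*v^22 + (62208*ζ + 326592*ζ^2 + 202176*ζ^3 + 217728*ζ^4
      + 171072*ζ^5 - 46656*ζ^6 - 139968*ζ^7 - 186624*ζ^8 - 46656*ζ^9)*u^7*v^23 + (3888 + 7776*ζ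
      + 97200*ζ^2 - 7776*ζ^3 + 38880*ζ^4 + 139968*ζ^5 + 3888*ζ^6 + 46656*ζ^7 - 46656*ζ^9)*u^6*v^24
      + (38880*ζ + 38880*ζ^2 + 38880*ζ^3 + 46656*ζ^4 - 31104*ζ^5 + 7776*ζ^6)*u^5*v^25 + (3888*ζ^2
      + 38880*ζ^4 + 3888*ζ^6)*u^4*v^26) * h5

theorem klein_chordY_f_1_4 (ζ h u v : R) (hζ : ζ ^ 4 + ζ ^ 3 + ζ ^ 2 + ζ + 1 = 0) (h5 : 5 * h = 1) :
    (kleinY_1_4 ζ h u v + kleinY_2_4 ζ h u v) * (kleinX_2_4 ζ h u v - kleinX_1_0 ζ h u v) = -(kleinY_2_4 ζ h u v - -(kleinY_1_0 ζ h u v)) * (kleinX_1_4 ζ h u v - kleinX_2_4 ζ h u v) := by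
  unfold kleinX_2_4 kleinY_2_4 kleinX_1_0 kleinY_1_0 kleinX_1_4 kleinY_1_4
  linear_combination (exp := 1) ((-46656*h - 31104*ζ*h + 7776*ζ^2*h)*u^23*v^2 + (23328*ζ*h + 46656*ζ^2*h)*u^22*v^3 + (-77760*h
      + 77760*ζ*h + 38880*ζ^2*h)*u^21*v^4 + (-388800*h + 388800*ζ*h + 583200*ζ^2*h)*u^20*v^5 + (972000*h
      + 1827360*ζ*h + 972000*ζ^2*h)*u^19*v^6 + (1228608*h + 1376352*ζ*h - 1772928*ζ^2*h)*u^18*v^7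
      + (202176*ζ*h - 2395008*ζ^2*h)*u^17*v^8 + (3965760*h + 894240*ζ*h + 544320*ζ^2*h)*u^16*v^9
      + (3499200*h - 3499200*ζ*h - 1360800*ζ^2*h)*u^15*v^10
      + (-1944000*h - 5132160*ζ*h - 1944000*ζ^2*h)*u^14*v^11
      + (-1197504*h - 1485216*ζ*h - 46656*ζ^2*h)*u^13*v^12 + (-606528*ζ*h + 1003104*ζ^2*h)*u^12*v^13
      + (-349920*h + 349920*ζ*h + 1244160*ζ^2*h)*u^11*v^14 + (-583200*h + 583200*ζ*h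
      + 388800*ζ^2*h)*u^10*v^15 + 544320*ζ*h*u^9*v^16 + (287712*h + 139968*ζ*h - 171072*ζ^2*h)*u^8*v^17
      + (225504*ζ*h - 93312*ζ^2*h)*u^7*v^18 + (38880*h - 38880*ζ*h - 116640*ζ^2*h)*u^6*v^19
      + (-38880*ζ*h)*u^4*v^21 + (-7776*h + 7776*ζ*h + 7776*ζ^2*h)*u^3*v^22 + (-15552*ζ*h
      + 7776*ζ^2*h)*u^2*v^23) * hζ
    + ((324*ζ + 324*ζ^2)*u^24*v + (1296 + 1296*ζ - 6480*ζ^3)*u^23*v^2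
      + (-20412*ζ - 23328*ζ^2 - 20412*ζ^3)*u^22*v^3 + (4860 + 4860*ζ + 20412*ζ^2 + 62208*ζ^3 + 62208*ζ^4
      + 15552*ζ^5)*u^21*v^4
      + (16200 - 77760*ζ^2 - 77760*ζ^3 - 116640*ζ^4 - 194400*ζ^5 - 116640*ζ^6)*u^20*v^5
      + (-194400 - 505116*ζ - 699516*ζ^2 - 777600*ζ^3 - 793152*ζ^4 - 583200*ζ^5 - 194400*ζ^6)*u^19*v^6
      + (-240084 - 590004*ζ - 349920*ζ^2 - 348948*ζ^3 - 349920*ζ^4 + 349920*ζ^6)*u^18*v^7 + (-46656*ζ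
      + 334368*ζ^2 + 536544*ζ^3 + 583200*ζ^4 + 583200*ζ^5 + 583200*ζ^6)*u^17*v^8
      + (-633420 - 633420*ζ - 493452*ζ^2 - 295488*ζ^3 - 295488*ζ^4 + 139968*ζ^5)*u^16*v^9 + (-486000
      + 699840*ζ^2 + 699840*ζ^3 + 272160*ζ^4 + 972000*ζ^5 + 272160*ζ^6)*u^15*v^10 + (388800 + 1255500*ζ
      + 1644300*ζ^2 + 1555200*ζ^3 + 1376352*ζ^4 + 1166400*ζ^5 + 388800*ζ^6)*u^14*v^11 + (108540 + 341820*ζ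
      + 233280*ζ^2 - 140292*ζ^3 + 233280*ζ^4 - 233280*ζ^6)*u^13*v^12
      + (73224*ζ - 85536*ζ^2 - 121176*ζ^3 - 194400*ζ^4 - 194400*ζ^5 - 194400*ζ^6)*u^12*v^13 + (53460
      + 53460*ζ - 304236*ζ^2 - 147744*ζ^3 - 147744*ζ^4 - 357696*ζ^5)*u^11*v^14
      + (16200 - 116640*ζ^2 - 116640*ζ^3 - 77760*ζ^4 - 194400*ζ^5 - 77760*ζ^6)*u^10*v^15
      + (-48276*ζ - 48276*ζ^2 - 69984*ζ^4)*u^9*v^16 + (-16524 - 55404*ζ - 38880*ζ^2 + 6804*ζ^3 - 38880*ζ^4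
      + 38880*ζ^6)*u^8*v^17 + (-19440*ζ - 7776*ζ^2 - 19440*ζ^3)*u^7*v^18 + (-1620 - 1620*ζ + 29484*ζ^2
      + 7776*ζ^3 + 7776*ζ^4 + 31104*ζ^5)*u^6*v^19 + (1296*ζ + 1296*ζ^2 + 7776*ζ^4)*u^4*v^21 + (324 + 324*ζ
      + 324*ζ^3)*u^3*v^22 + (324*ζ + 324*ζ^3)*u^2*v^23) * h5

theorem klein_diff_f_1_4 (ζ h u v : R) (hζ : ζ ^ 4 + ζ ^ 3 + ζ ^ 2 + ζ + 1 = 0) (h5 : 5 * h = 1) :
    (kleinX_2_4 ζ h u v - kleinX_1_0 ζ h u v) * ((-1 - 2*ζ - 3*ζ^2 - 4*ζ^3)*u^13*v + (6 + 12*ζ + 8*ζ^2 + 4*ζ^3)*u^12*v^2 + (-7 - 9*ζ + 9*ζ^2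
        + 7*ζ^3)*u^11*v^3 + (-7 - 19*ζ - 26*ζ^2 - 13*ζ^3)*u^10*v^4 + (30 + 35*ζ + 15*ζ^2 - 5*ζ^3)*u^9*v^5
        + (-26 - 2*ζ + 22*ζ^2 - 4*ζ^3)*u^8*v^6 + (11 + 22*ζ - 2*ζ^2 + 24*ζ^3)*u^7*v^7 + (13 - 44*ζ
        + 44*ζ^2 - 13*ζ^3)*u^6*v^8 + (-22 + 26*ζ + 4*ζ^2 + 2*ζ^3)*u^5*v^9 + (40 + 5*ζ + 20*ζ^2
        + 35*ζ^3)*u^4*v^10 + (-19 - 13*ζ - 7*ζ^2 - 26*ζ^3)*u^3*v^11 + (4 + 8*ζ - 3*ζ^2 + 11*ζ^3)*u^2*v^12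
        + (2 - ζ + ζ^2 - 2*ζ^3)*u*v^13 + (-3 - ζ - 4*ζ^2 - 2*ζ^3)*v^14)
      = 2 ^ 2 * 3 ^ 2 * 5 ^ 1 * kleinF u v ^ 2 := by
  unfold kleinX_2_4 kleinX_1_0 kleinF
  linear_combination (exp := 1) ((-180 + 144*ζ)*u^22*v^2 + (72 + 360*ζ + 288*ζ^2)*u^21*v^3 + (-432 - 1008*ζ - 720*ζ^2)*u^20*v^4
      + (324 - 612*ζ - 1512*ζ^2)*u^19*v^5 + (1584 + 5364*ζ + 3132*ζ^2)*u^18*v^6 + (-7380 - 288*ζ
      + 1476*ζ^2)*u^17*v^7 + (648 - 6480*ζ - 4788*ζ^2)*u^16*v^8 + (4392 + 8028*ζ - 3960*ζ^2)*u^15*v^9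
      + (-5364 + 1872*ζ + 1692*ζ^2)*u^14*v^10 + (3816 + 396*ζ + 7308*ζ^2)*u^13*v^11 + (-23040
      + 15192*ζ - 6336*ζ^2)*u^12*v^12 + (-1656 + 1800*ζ + 6696*ζ^2)*u^11*v^13 + (6516 - 216*ζ
      + 8280*ζ^2)*u^10*v^14 + (-4032 + 756*ζ - 8424*ζ^2)*u^9*v^15 + (1728 - 2052*ζ + 4284*ζ^2)*u^8*v^16
      + (2880 - 3420*ζ - 2268*ζ^2)*u^7*v^17 + (144 + 1440*ζ - 1044*ζ^2)*u^6*v^18 + (-144 - 1116*ζ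
      + 540*ζ^2)*u^5*v^19 + (-72 + 396*ζ - 324*ζ^2)*u^4*v^20 + (108 + 108*ζ + 144*ζ^2)*u^3*v^21 + (-180
      + 72*ζ + 72*ζ^2)*u^2*v^22) * hζ

end Fermat.Agent.S52
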