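import Fermat.Agent.S52.KleinId1

/-! GENERATED FILE (helper27, S52 block F1): polynomial identities for the universal 5-torsion
sections, certificates computed by exact arithmetic. -/

set_option autoImplicit false
set_option maxHeartbeats 1600000
set_option linter.unusedVariables false

namespace Fermat.Agent.S52

variable {R : Type*} [CommRing R]

theorem klein_on_0_1 (ζ h u v : R) (hζ : ζ ^ 4 + ζ ^ 3 + ζ ^ 2 + ζ + 1 = 0) (h5 : 5 * h = 1) :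
    (kleinY_0_1 ζ h u v) ^ 2 = (kleinX_0_1 ζ h u v) ^ 3 + (27 * kleinH u v) * (kleinX_0_1 ζ h u v) + 54 * kleinT u v := by
  unfold kleinX_0_1 kleinY_0_1 kleinH kleinT
  ring

theorem klein_tangentX_t_0_1 (ζ h u v : R) (hζ : ζ ^ 4 + ζ ^ 3 + ζ ^ 2 + ζ + 1 = 0) (h5 : 5 * h = 1) :
    (2 * (kleinX_0_1 ζ h u v) + kleinX_0_2 ζ h u v) * (2 * (kleinY_0_1 ζ h u v)) ^ 2 = (3 * (kleinX_0_1 ζ h u v) ^ 2 + 27 * kleinH u v) ^ 2 := by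
  unfold kleinX_0_1 kleinY_0_1 kleinX_0_2 kleinH
  ring

theorem klein_tangentY_t_0_1 (ζ h u v : R) (hζ : ζ ^ 4 + ζ ^ 3 + ζ ^ 2 + ζ + 1 = 0) (h5 : 5 * h = 1) :
    (kleinY_0_2 ζ h u v + kleinY_0_1 ζ h u v) * (2 * (kleinY_0_1 ζ h u v)) = -(3 * (kleinX_0_1 ζ h u v) ^ 2 + 27 * kleinH u v) * (kleinX_0_2 ζ h u v - kleinX_0_1 ζ h u v) := by
  unfold kleinX_0_1 kleinY_0_1 kleinX_0_2 kleinY_0_2 kleinH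
  ring

theorem klein_ydiff_t_0_1 (ζ h u v : R) (hζ : ζ ^ 4 + ζ ^ 3 + ζ ^ 2 + ζ + 1 = 0) (h5 : 5 * h = 1) :
    (kleinY_0_1 ζ h u v) * (u^8*v + 4*u^7*v^2 + 7*u^6*v^3 + 7*u^5*v^4 + (-7)*u^3*v^6 + (-3)*u^2*v^7 + u*v^8 + v^9)
      = 2 ^ 2 * 3 ^ 3 * 5 ^ 0 * kleinF u v ^ 2 := by
  unfold kleinY_0_1 kleinF
  ring

theorem klein_chordX_c_2_0_e1 (ζ h u v : R) (hζ : ζ ^ 4 + ζ ^ 3 + ζ ^ 2 + ζ + 1 = 0) (h5 : 5 * h = 1) :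
    (kleinX_2_0 ζ h u v + kleinX_1_0 ζ h u v + kleinX_2_0 ζ h u v) * (kleinX_2_0 ζ h u v - kleinX_1_0 ζ h u v) ^ 2 = (kleinY_2_0 ζ h u v - kleinY_1_0 ζ h u v) ^ 2 := by
  unfold kleinX_2_0 kleinY_2_0 kleinX_1_0 kleinY_1_0
  linear_combination (exp := 1) ((-186624*ζ)*u^25*v^5 + (-466560*ζ + 466560*ζ^2)*u^24*v^6 + (1912896*ζ^2 - 2099520*ζ^3)*u^23*v^7
      + (-1306368 - 1306368*ζ - 1306368*ζ^2 - 6858432*ζ^3 + 1679616*ζ^4)*u^22*v^8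
      + (-6065280 - 2939328*ζ - 2939328*ζ^2 - 2939328*ζ^3 + 6251904*ζ^4 - 933120*ζ^5)*u^21*v^9 + (-6998400
      + 9237888*ζ + 4199040*ζ^2 + 4199040*ζ^3 + 4199040*ζ^4 - 4478976*ζ^5)*u^20*v^10
      + (13763520*ζ - 13810176*ζ^2 - 7138368*ζ^3 - 7138368*ζ^4 - 7138368*ζ^5)*u^19*v^11
      + (-3779136 - 7558272*ζ - 23747904*ζ^2 - 10637568*ζ^3 - 7558272*ζ^4 - 3779136*ζ^5)*u^18*v^12
      + (-2892672 - 2892672*ζ - 2892672*ζ^2 + 559872*ζ^3 - 279936*ζ^4)*u^17*v^13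
      + (6298560 - 1959552*ζ - 1959552*ζ^2 - 1959552*ζ^3 - 2519424*ζ^4)*u^16*v^14
      + (-11664000 - 6625152*ζ - 3499200*ζ^2 - 3499200*ζ^3 - 3499200*ζ^4 + 279936*ζ^5)*u^15*v^15
      + (20528640*ζ + 5645376*ζ^2 + 1539648*ζ^3 + 1539648*ζ^4 + 1539648*ζ^5)*u^14*v^16 + (1679616
      + 3359232*ζ + 23561280*ζ^2 + 9937728*ζ^3 + 3359232*ζ^4 + 1679616*ζ^5)*u^13*v^17
      + (-12410496 - 12410496*ζ - 12410496*ζ^2 + 3079296*ζ^3 + 1959552*ζ^4)*u^12*v^18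
      + (17262720 - 2379456*ζ - 2379456*ζ^2 - 2379456*ζ^3 + 1539648*ζ^4 + 699840*ζ^5)*u^11*v^19 + (-6998400
      + 12597120*ζ - 1399680*ζ^2 - 1399680*ζ^3 - 1399680*ζ^4 + 139968*ζ^5)*u^10*v^20 + (-10730880*ζ
      + 8071488*ζ^2 - 979776*ζ^3 - 979776*ζ^4 - 979776*ζ^5)*u^9*v^21 + (139968 + 279936*ζ - 8118144*ζ^2
      + 4618944*ζ^3 + 279936*ζ^4 + 139968*ζ^5)*u^8*v^22 + (186624 + 186624*ζ + 186624*ζ^2 - 6018624*ζ^3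
      + 1259712*ζ^4)*u^7*v^23 + (466560 + 1119744*ζ + 1119744*ζ^2 + 1119744*ζ^3 - 2192832*ζ^4
      + 233280*ζ^5)*u^6*v^24 + (373248*ζ + 699840*ζ^2 + 699840*ζ^3 + 699840*ζ^4 - 559872*ζ^5)*u^5*v^25
      + (139968*ζ^2 + 419904*ζ^3 + 419904*ζ^4 + 419904*ζ^5)*u^4*v^26
      + (-93312 - 186624*ζ - 279936*ζ^2 - 279936*ζ^3 - 186624*ζ^4 - 93312*ζ^5)*u^3*v^27) * hζ

theorem klein_chordY_c_2_0_e1 (ζ h u v : R) (hζ : ζ ^ 4 + ζ ^ 3 + ζ ^ 2 + ζ + 1 = 0) (h5 : 5 * h = 1) :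
    (-(kleinY_2_0 ζ h u v) + kleinY_2_0 ζ h u v) * (kleinX_2_0 ζ h u v - kleinX_1_0 ζ h u v) = -(kleinY_2_0 ζ h u v - kleinY_1_0 ζ h u v) * (kleinX_2_0 ζ h u v - kleinX_2_0 ζ h u v) := by
  unfold kleinX_2_0 kleinY_2_0 kleinX_1_0 kleinY_1_0
  ring

theorem klein_diff_c_2_0_e1 (ζ h u v : R) (hζ : ζ ^ 4 + ζ ^ 3 + ζ ^ 2 + ζ + 1 = 0) (h5 : 5 * h = 1) :
    (kleinX_2_0 ζ h u v - kleinX_1_0 ζ h u v) * ((-1 - ζ - ζ^2 - ζ^3)*u^2 + u*v + (-ζ)*v^2)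
      = 2 ^ 2 * 3 ^ 2 * 5 ^ 0 * kleinF u v ^ 1 := by
  unfold kleinX_2_0 kleinX_1_0 kleinF
  linear_combination (exp := 1) ((-36)*u^11*v + 36*ζ*u^10*v^2 + (-72*ζ^2)*u^9*v^3 + (-108 - 108*ζ - 108*ζ^2)*u^8*v^4 + (-72)*u^7*v^5
      + (-216)*u^6*v^6 + (-72*ζ)*u^5*v^7 + (-36*ζ^2)*u^4*v^8 + (36 + 36*ζ + 36*ζ^2)*u^3*v^9 + (-36)*u^2*v^10
      + 36*u*v^11) * hζ

theorem klein_chordX_c_2_1_e1 (ζ h u v : R) (hζ : ζ ^ 4 + ζ ^ 3 + ζ ^ 2 + ζ + 1 = 0) (h5 : 5 * h = 1) :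
    (kleinX_2_1 ζ h u v + kleinX_1_0 ζ h u v + kleinX_2_4 ζ h u v) * (kleinX_2_1 ζ h u v - kleinX_1_0 ζ h u v) ^ 2 = (kleinY_2_1 ζ h u v - kleinY_1_0 ζ h u v) ^ 2 := by
  unfold kleinX_2_1 kleinY_2_1 kleinX_1_0 kleinY_1_0 kleinX_2_4
  linear_combination (exp := 1) ((-93312*ζ^2)*u^26*v^4 + (-233280*ζ + 139968*ζ^2 + 93312*ζ^3 - 46656*ζ^4)*u^25*v^5 + (-466560*ζ
      + 933120*ζ^2 - 373248*ζ^3 - 46656*ζ^4 - 46656*ζ^5)*u^24*v^6 + (-1166400*ζ + 1073088*ζ^2 - 2985984*ζ^3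
      + 699840*ζ^4 - 419904*ζ^5)*u^23*v^7 + (-2332800 - 1632960*ζ - 606528*ζ^2 - 6018624*ζ^3
      + 2519424*ζ^4 - 1726272*ζ^5)*u^22*v^8 + (-8164800 - 5272128*ζ^2 - 4898880*ζ^3
      + 2379456*ζ^4 - 4059072*ζ^5)*u^21*v^9 + (-11664000
      + 2566080*ζ - 9004608*ζ^2 - 3032640*ζ^3 - 4385664*ζ^4 - 5132160*ζ^5)*u^20*v^10 + (-8164800
      + 7231680*ζ - 16562880*ζ^2 - 8957952*ζ^3 - 8584704*ζ^4 - 2286144*ζ^5)*u^19*v^11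
      + (-3499200 - 3965760*ζ - 15303168*ζ^2 - 1213056*ζ^3 + 4665600*ζ^4 + 1119744*ζ^5)*u^18*v^12
      + (-8164800 + 5365440*ζ + 19035648*ζ^2 + 18382464*ζ^3 + 10310976*ζ^4 - 1306368*ζ^5)*u^17*v^13
      + (3499200 + 29626560*ζ + 4945536*ζ^2 - 6998400*ζ^3 - 8678016*ζ^4 - 3872448*ζ^5)*u^16*v^14
      + (11664000 - 13530240*ζ - 28646784*ζ^2 - 3872448*ζ^3 - 1726272*ζ^4 + 7698240*ζ^5)*u^15*v^15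
      + (-2332800 - 3499200*ζ + 36391680*ζ^2 + 34478784*ζ^3 + 22068288*ζ^4 + 9704448*ζ^5)*u^14*v^16
      + (8164800 + 22861440*ζ + 21508416*ζ^2 - 10637568*ζ^3 - 4898880*ζ^4 - 12270528*ζ^5)*u^13*v^17
      + (-3499200 - 15863040*ζ - 49035456*ζ^2 - 25800768*ζ^3 - 24820992*ζ^4 - 2052864*ζ^5)*u^12*v^18
      + (-3499200 - 24027840*ζ + 5645376*ζ^2 + 1632960*ζ^3 + 10824192*ζ^4 + 9377856*ζ^5)*u^11*v^19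
      + (-5832000 + 15629760*ζ + 10544256*ζ^2 + 10404288*ζ^3 + 9704448*ζ^4 - 6531840*ζ^5)*u^10*v^20
      + (8164800 + 5132160*ζ + 3499200*ζ^2 + 4852224*ζ^3 - 9424512*ζ^4 + 1772928*ζ^5)*u^9*v^21
      + (-2332800 - 3032640*ζ - 2052864*ζ^2 - 8304768*ζ^3 + 3032640*ζ^4 + 93312*ζ^5)*u^8*v^22
      + (-2379456*ζ^2 + 2892672*ζ^3 - 93312*ζ^4 - 186624*ζ^5)*u^7*v^23 + (-466560*ζ
      + 933120*ζ^2 - 233280*ζ^3 - 139968*ζ^4 + 46656*ζ^5)*u^6*v^24 + (233280*ζ - 46656*ζ^3)*u^5*v^25) * hζ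

theorem klein_chordY_c_2_1_e1 (ζ h u v : R) (hζ : ζ ^ 4 + ζ ^ 3 + ζ ^ 2 + ζ + 1 = 0) (h5 : 5 * h = 1) :
    (-(kleinY_2_4 ζ h u v) + kleinY_2_1 ζ h u v) * (kleinX_2_1 ζ h u v - kleinX_1_0 ζ h u v) = -(kleinY_2_1 ζ h u v - kleinY_1_0 ζ h u v) * (kleinX_2_4 ζ h u v - kleinX_2_1 ζ h u v) := by
  unfold kleinX_2_1 kleinY_2_1 kleinX_1_0 kleinY_1_0 kleinX_2_4 kleinY_2_4
  linear_combination (exp := 1) ((-7776*ζ)*u^22*v^3 + (-23328*ζ^2)*u^21*v^4 + 69984*ζ^2*u^20*v^5 + (38880 - 101088*ζ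
      + 194400*ζ^2)*u^19*v^6 + (116640 - 38880*ζ)*u^18*v^7 + (116640 + 318816*ζ + 116640*ζ^2)*u^17*v^8
      + (-194400 + 233280*ζ - 248832*ζ^2)*u^16*v^9 + (-388800 - 388800*ζ - 381024*ζ^2)*u^15*v^10 + (427680
      + 62208*ζ + 972000*ζ^2)*u^14*v^11 + (311040 + 544320*ζ)*u^13*v^12
      + (-272160 - 209952*ζ - 272160*ζ^2)*u^12*v^13 + (388800 + 38880*ζ + 108864*ζ^2)*u^11*v^14
      + (-194400 - 194400*ζ - 482112*ζ^2)*u^10*v^15 + (-38880 - 202176*ζ + 194400*ζ^2)*u^9*v^16 + (-116640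
      + 38880*ζ)*u^8*v^17 + (77760 + 178848*ζ + 77760*ζ^2)*u^7*v^18 + (-38880*ζ - 7776*ζ^2)*u^6*v^19
      + (-15552*ζ^2)*u^5*v^20 + (-7776*ζ)*u^4*v^21) * hζ

theorem klein_diff_c_2_1_e1 (ζ h u v : R) (hζ : ζ ^ 4 + ζ ^ 3 + ζ ^ 2 + ζ + 1 = 0) (h5 : 5 * h = 1) :
    (kleinX_2_1 ζ h u v - kleinX_1_0 ζ h u v) * ((-1 - ζ - ζ^2 - ζ^3)*u^13*v + (2 - ζ)*u^12*v^2 + (1 + ζ - 4*ζ^2 + ζ^3)*u^11*v^3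
        + (-5 - 5*ζ^2 - 10*ζ^3)*u^10*v^4 + (10 + 10*ζ^2 - 5*ζ^3)*u^9*v^5 + (14 + 14*ζ + 4*ζ^2
        + 14*ζ^3)*u^8*v^6 + (-3 + 14*ζ)*u^7*v^7 + (-14 - 14*ζ - 4*ζ^2 - 14*ζ^3)*u^6*v^8 + (10
        + 10*ζ^2 - 5*ζ^3)*u^5*v^9 + (5 + 5*ζ^2 + 10*ζ^3)*u^4*v^10 + (1 + ζ - 4*ζ^2 + ζ^3)*u^3*v^11 + (-2
        + ζ)*u^2*v^12 + (-1 - ζ - ζ^2 - ζ^3)*u*v^13)
      = 2 ^ 2 * 3 ^ 2 * 5 ^ 0 * kleinF u v ^ 2 := by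
  unfold kleinX_2_1 kleinX_1_0 kleinF
  linear_combination (exp := 1) ((-36)*u^22*v^2 + (72*ζ - 36*ζ^2)*u^21*v^3 + (36*ζ - 108*ζ^2)*u^20*v^4
      + (-180 - 432*ζ - 144*ζ^2)*u^19*v^5 + (180 + 324*ζ - 252*ζ^2)*u^18*v^6 + (-72
      + 1260*ζ - 900*ζ^2)*u^17*v^7 + (-1080 - 432*ζ - 1944*ζ^2)*u^16*v^8 + (720 + 864*ζ + 468*ζ^2)*u^15*v^9
      + (5220 + 2412*ζ + 3924*ζ^2)*u^14*v^10 + (180 + 1836*ζ - 1908*ζ^2)*u^13*v^11 + (-9864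
      + 360*ζ - 5400*ζ^2)*u^12*v^12 + (-180 - 1836*ζ + 1908*ζ^2)*u^11*v^13 + (5220 + 2412*ζ
      + 3924*ζ^2)*u^10*v^14 + (-720 - 864*ζ - 468*ζ^2)*u^9*v^15 + (-1080 - 432*ζ - 1944*ζ^2)*u^8*v^16
      + (72 - 1260*ζ + 900*ζ^2)*u^7*v^17 + (180 + 324*ζ - 252*ζ^2)*u^6*v^18 + (180 + 432*ζ
      + 144*ζ^2)*u^5*v^19 + (36*ζ - 108*ζ^2)*u^4*v^20 + (-72*ζ + 36*ζ^2)*u^3*v^21 + (-36)*u^2*v^22) * hζ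

theorem klein_chordX_c_2_2_e1 (ζ h u v : R) (hζ : ζ ^ 4 + ζ ^ 3 + ζ ^ 2 + ζ + 1 = 0) (h5 : 5 * h = 1) :
    (kleinX_2_2 ζ h u v + kleinX_1_0 ζ h u v + kleinX_2_3 ζ h u v) * (kleinX_2_2 ζ h u v - kleinX_1_0 ζ h u v) ^ 2 = (kleinY_2_2 ζ h u v - kleinY_1_0 ζ h u v) ^ 2 := by
  unfold kleinX_2_2 kleinY_2_2 kleinX_1_0 kleinY_1_0 kleinX_2_3
  linear_combination (exp := 1) ((-139968*ζ^2*h + 139968*ζ^3*h - 46656*ζ^5*h)*u^28*v^2 + (139968*ζ^2*h + 419904*ζ^3*h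
      + 46656*ζ^4*h - 233280*ζ^5*h)*u^27*v^3 + (559872*ζ*h - 1259712*ζ^2*h + 839808*ζ^3*h - 186624*ζ^4*h
      + 559872*ζ^5*h)*u^26*v^4 + (-7744896*ζ*h - 3919104*ζ^2*h - 93312*ζ^3*h + 1353024*ζ^4*h
      + 3265920*ζ^5*h)*u^25*v^5 + (-5458752*h - 5925312*ζ*h + 7884864*ζ^2*h - 9051264*ζ^3*h
      + 2752704*ζ^4*h - 513216*ζ^5*h)*u^24*v^6 + (13296960*h + 38724480*ζ*h
      + 1819584*ζ^2*h - 29113344*ζ^3*h - 20062080*ζ^4*h - 11524032*ζ^5*h)*u^23*v^7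
      + (37324800*h - 9564480*ζ*h - 9284544*ζ^2*h - 47449152*ζ^3*h - 26034048*ζ^4*h + 233280*ζ^5*h)*u^22*v^8
      + (-81181440*h - 29439936*ζ*h + 120652416*ζ^2*h - 6018624*ζ^3*h + 79408512*ζ^4*h
      + 10684224*ζ^5*h)*u^21*v^9 + (-135302400*h + 201460608*ζ*h + 131429952*ζ^2*h + 87759936*ζ^3*h
      + 100916928*ζ^4*h - 49921920*ζ^5*h)*u^20*v^10 + (-23514624*h + 59766336*ζ*h - 197914752*ζ^2*h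
      + 26453952*ζ^3*h - 108101952*ζ^4*h - 92005632*ζ^5*h)*u^19*v^11
      + (-86780160*h - 244010880*ζ*h - 252502272*ζ^2*h - 106282368*ζ^3*h - 132736320*ζ^4*h - 34712064*ζ^5*h)*u^18*v^12
      + (-61819200*h - 12597120*ζ*h - 26967168*ζ^2*h - 13483584*ζ^3*h
      + 33778944*ζ^4*h - 15629760*ζ^5*h)*u^17*v^13 + (22861440*h + 68724288*ζ*h - 40497408*ζ^2*h
      + 59113152*ζ^3*h - 12410496*ζ^4*h - 26220672*ζ^5*h)*u^16*v^14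
      + (-6998400*h - 34945344*ζ*h - 47169216*ζ^2*h - 2939328*ζ^3*h - 34945344*ζ^4*h
      + 32192640*ζ^5*h)*u^15*v^15 + (10824192*h - 7604928*ζ*h + 51134976*ζ^2*h + 7185024*ζ^3*h
      + 61166016*ζ^4*h + 41803776*ζ^5*h)*u^14*v^16 + (18429120*h + 27293760*ζ*h + 47869056*ζ^2*h
      + 6018624*ζ^3*h + 25194240*ζ^4*h - 1306368*ζ^5*h)*u^13*v^17
      + (3499200*h - 9797760*ζ*h - 12643776*ζ^2*h - 19968768*ζ^3*h - 22488192*ζ^4*h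
      + 3032640*ζ^5*h)*u^12*v^18 + (2099520*h - 9517824*ζ*h + 2519424*ζ^2*h + 1353024*ζ^3*h + 839808*ζ^4*h
      + 5412096*ζ^5*h)*u^11*v^19 + (1166400*h + 11290752*ζ*h + 8304768*ζ^2*h + 5552064*ζ^3*h
      + 5225472*ζ^4*h - 7464960*ζ^5*h)*u^10*v^20
      + (-513216*h - 1446336*ζ*h - 606528*ζ^2*h - 4059072*ζ^3*h - 3639168*ζ^4*h - 3172608*ζ^5*h)*u^9*v^21
      + (-233280*h - 699840*ζ*h - 2006208*ζ^2*h + 2239488*ζ^3*h - 466560*ζ^4*h + 1119744*ζ^5*h)*u^8*v^22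
      + (699840*ζ*h + 1073088*ζ^2*h + 186624*ζ^3*h + 746496*ζ^4*h)*u^7*v^23
      + (-233280*h - 139968*ζ*h - 793152*ζ^2*h - 326592*ζ^3*h - 1119744*ζ^4*h - 373248*ζ^5*h)*u^6*v^24
      + (-46656*ζ*h - 186624*ζ^2*h - 93312*ζ^3*h + 186624*ζ^4*h)*u^5*v^25
      + (-93312*h - 93312*ζ*h - 46656*ζ^2*h + 46656*ζ^3*h + 186624*ζ^4*h + 186624*ζ^5*h)*u^4*v^26) * hζ
    + ((3888*ζ^2 + 38880*ζ^4 + 3888*ζ^6)*u^28*v^2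
      + (-124416*ζ^2 - 15552*ζ^3 - 62208*ζ^4 - 171072*ζ^5 - 46656*ζ^7 + 46656*ζ^9)*u^27*v^3
      + (-256608*ζ - 101088*ζ^2 + 108864*ζ^3 - 381024*ζ^4 + 23328*ζ^5 + 279936*ζ^6 - 279936*ζ^7
      + 93312*ζ^8)*u^26*v^4 + (1018656*ζ + 2091744*ζ^2 + 1905120*ζ^3 + 1492992*ζ^4
      + 2301696*ζ^5 - 85536*ζ^6 - 606528*ζ^7 - 419904*ζ^8 - 559872*ζ^9)*u^25*v^5 + (874800
      + 1360800*ζ - 34992*ζ^2 + 287712*ζ^3 + 750384*ζ^4 - 357696*ζ^5 - 2006208*ζ^6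
      + 979776*ζ^7 - 933120*ζ^8 - 233280*ζ^9)*u^24*v^6
      + (-3382560 - 11850624*ζ - 13895712*ζ^2 - 10124352*ζ^3 - 6384096*ζ^4 - 2449440*ζ^5 + 7426080*ζ^6
      + 9471168*ζ^7 + 4292352*ζ^8 + 1679616*ζ^9)*u^23*v^7 + (-8067600 - 6757344*ζ - 7002288*ζ^2
      + 1539648*ζ^3 + 5458752*ζ^4 + 13382496*ζ^5 + 13814064*ζ^6 + 12317184*ζ^7
      + 3639168*ζ^8 - 279936*ζ^9)*u^22*v^8 + (16236288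
      + 22153824*ζ - 2278368*ζ^2 - 684288*ζ^3 - 18374688*ζ^4 - 35124192*ζ^5 - 41041728*ζ^6 - 17262720*ζ^7 - 16562880*ζ^8 - 1166400*ζ^9)*u^21*v^9
      + (27060480 - 13926816*ζ - 39548736*ζ^2 - 59190912*ζ^3 - 80847072*ζ^4 - 94618368*ζ^5 - 56096064*ζ^6 - 24820992*ζ^7 - 5178816*ζ^8
      + 10824192*ζ^9)*u^20*v^10 + (4385664 - 9152352*ζ + 30513024*ζ^2 + 19121184*ζ^3 + 41858208*ζ^4
      + 52402464*ζ^5 + 63498816*ζ^6 + 31212864*ζ^7 + 35225280*ζ^8 + 14929920*ζ^9)*u^19*v^11 + (16057440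
      + 63561024*ζ + 108572400*ζ^2 + 121165632*ζ^3 + 140247936*ζ^4 + 118078560*ζ^5 + 69132528*ζ^6
      + 24121152*ζ^7 + 12970368*ζ^8 + 1353024*ζ^9)*u^18*v^12 + (11080800 + 12317184*ζ + 11640672*ζ^2
      + 7231680*ζ^3 - 9097920*ζ^4 - 26034048*ζ^5 - 28996704*ζ^6 - 26593920*ζ^7 - 15769728*ζ^8
      + 559872*ζ^9)*u^17*v^13
      + (-4572288 - 17783712*ζ - 9972720*ζ^2 - 20007648*ζ^3 - 16784496*ζ^4 - 8436960*ζ^5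
      + 4774464*ζ^6 - 4478976*ζ^7 + 3359232*ζ^8 + 2332800*ζ^9)*u^16*v^14 + (1399680 + 9035712*ζ
      + 18701280*ζ^2 + 21360672*ζ^3 + 29385504*ζ^4 + 20559744*ζ^5
      + 11765088*ζ^6 - 3079296*ζ^7 - 5738688*ζ^8 - 8584704*ζ^9)*u^15*v^15
      + (-2013984 - 1150848*ζ - 9727776*ζ^2 - 10979712*ζ^3 - 20365344*ζ^4 - 23950080*ζ^5 - 24058944*ζ^6 - 14136768*ζ^7 - 14230080*ζ^8 - 5598720*ζ^9)*u^14*v^16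
      + (-3615840 - 9004608*ζ - 17278272*ζ^2 - 15583104*ζ^3 - 16928352*ζ^4 - 8048160*ζ^5 - 295488*ζ^6
      + 7978176*ζ^7 + 3919104*ζ^8 + 2426112*ζ^9)*u^13*v^17 + (-1069200 + 520992*ζ + 2468880*ζ^2
      + 5971968*ζ^3 + 11757312*ζ^4 + 13755744*ζ^5 + 12134448*ζ^6 + 10217664*ζ^7
      + 5412096*ζ^8 - 373248*ζ^9)*u^12*v^18 + (-419904 + 1485216*ζ + 870912*ζ^2
      + 388800*ζ^3 - 715392*ζ^4 - 598752*ζ^5 - 2503872*ζ^6 - 1586304*ζ^7 + 373248*ζ^8)*u^11*v^19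
      + (-233280 - 2122848*ζ - 3856896*ζ^2 - 4929984*ζ^3 - 6384096*ζ^4 - 5692032*ζ^5 - 2581632*ζ^6 - 513216*ζ^7
      + 559872*ζ^8 + 1679616*ζ^9)*u^10*v^20 + (139968 + 318816*ζ + 466560*ζ^2 + 1018656*ζ^3 + 1687392*ζ^4
      + 1547424*ζ^5 + 699840*ζ^6 + 559872*ζ^7)*u^9*v^21 + (194400 + 482112*ζ + 1026432*ζ^2 + 746496*ζ^3
      + 567648*ζ^4 - 194400*ζ^5 - 1041984*ζ^6 - 1586304*ζ^7 - 746496*ζ^8 - 373248*ζ^9)*u^8*v^22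
      + (-139968*ζ - 295488*ζ^2 - 451008*ζ^3 - 637632*ζ^4 - 482112*ζ^5 - 326592*ζ^6 - 186624*ζ^7 - 186624*ζ^8)*u^7*v^23
      + (46656 + 15552*ζ + 159408*ζ^2 + 365472*ζ^3 + 532656*ζ^4 + 637632*ζ^5 + 668736*ζ^6 + 373248*ζ^7
      + 186624*ζ^8)*u^6*v^24 + (38880*ζ + 46656*ζ^2 + 46656*ζ^3 + 38880*ζ^4 - 31104*ζ^5)*u^5*v^25 + (3888
      + 7776*ζ + 11664*ζ^2 - 23328*ζ^3 - 27216*ζ^4 - 31104*ζ^5 - 31104*ζ^6)*u^4*v^26) * h5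

theorem klein_chordY_c_2_2_e1 (ζ h u v : R) (hζ : ζ ^ 4 + ζ ^ 3 + ζ ^ 2 + ζ + 1 = 0) (h5 : 5 * h = 1) :
    (-(kleinY_2_3 ζ h u v) + kleinY_2_2 ζ h u v) * (kleinX_2_2 ζ h u v - kleinX_1_0 ζ h u v) = -(kleinY_2_2 ζ h u v - kleinY_1_0 ζ h u v) * (kleinX_2_3 ζ h u v - kleinX_2_2 ζ h u v) := by
  unfold kleinX_2_2 kleinY_2_2 kleinX_1_0 kleinY_1_0 kleinX_2_3 kleinY_2_3
  linear_combination (exp := 1) ((15552*ζ*h - 7776*ζ^2*h)*u^24*v + (-38880*ζ*h)*u^23*v^2 + (-93312*h + 23328*ζ*h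
      + 69984*ζ^2*h)*u^22*v^3 + (194400*h + 272160*ζ*h - 116640*ζ^2*h)*u^21*v^4
      + (583200*h - 583200*ζ*h - 388800*ζ^2*h)*u^20*v^5 + (147744*ζ*h + 878688*ζ^2*h)*u^19*v^6 + (1749600*h
      + 3149280*ζ*h + 1749600*ζ^2*h)*u^18*v^7 + (1874016*h + 202176*ζ*h + 723168*ζ^2*h)*u^17*v^8
      + (-2721600*h - 1827360*ζ*h + 3421440*ζ^2*h)*u^16*v^9 + (-1360800*h + 1360800*ζ*h
      + 3499200*ζ^2*h)*u^15*v^10 + (-287712*ζ*h - 1975104*ζ^2*h)*u^14*v^11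
      + (-1166400*h - 1438560*ζ*h - 1166400*ζ^2*h)*u^13*v^12
      + (-1034208*h - 606528*ζ*h - 575424*ζ^2*h)*u^12*v^13 + (-194400*h
      + 155520*ζ*h - 1594080*ζ^2*h)*u^11*v^14 + (388800*h - 388800*ζ*h - 583200*ζ^2*h)*u^10*v^15
      + (-147744*ζ*h + 520992*ζ^2*h)*u^9*v^16 + (194400*h + 311040*ζ*h + 194400*ζ^2*h)*u^8*v^17 + (186624*h
      + 225504*ζ*h + 132192*ζ^2*h)*u^7*v^18 + (-38880*ζ*h + 155520*ζ^2*h)*u^6*v^19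
      + (15552*ζ*h - 46656*ζ^2*h)*u^4*v^21 + (-15552*h - 15552*ζ*h - 7776*ζ^2*h)*u^2*v^23) * hζ
    + ((-324*ζ - 324*ζ^3)*u^24*v + (1296*ζ + 1296*ζ^2 + 7776*ζ^4)*u^23*v^2 + (2916
      + 2916*ζ - 20412*ζ^2 - 23328*ζ^5)*u^22*v^3 + (-4860 - 51516*ζ - 46656*ζ^2 + 10692*ζ^3 - 46656*ζ^4
      + 46656*ζ^6)*u^21*v^4 + (-16200 + 116640*ζ^2 + 116640*ζ^3 + 77760*ζ^4 + 194400*ζ^5
      + 77760*ζ^6)*u^20*v^5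
      + (-78084*ζ - 194400*ζ^2 - 288036*ζ^3 - 209952*ζ^4 - 209952*ζ^5 - 209952*ζ^6)*u^19*v^6
      + (-349920 - 939924*ζ - 1289844*ζ^2 - 1399680*ζ^3 - 1290816*ζ^4 - 1049760*ζ^5 - 349920*ζ^6)*u^18*v^7
      + (-381024 - 381024*ζ - 629856*ζ^2 - 583200*ζ^3 - 583200*ζ^4 - 248832*ζ^5)*u^17*v^8 + (633420
      + 1068876*ζ + 435456*ζ^2 + 773388*ζ^3 + 435456*ζ^4 - 435456*ζ^6)*u^16*v^9
      + (486000 - 272160*ζ^2 - 272160*ζ^3 - 699840*ζ^4 - 972000*ζ^5 - 699840*ζ^6)*u^15*v^10 + (-89100*ζ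
      + 388800*ζ^2 + 120852*ζ^3 + 209952*ζ^4 + 209952*ζ^5 + 209952*ζ^6)*u^14*v^11 + (233280 + 575100*ζ
      + 808380*ζ^2 + 933120*ζ^3 + 1181952*ζ^4 + 699840*ζ^5 + 233280*ζ^6)*u^13*v^12 + (158760 + 158760*ζ
      + 267624*ζ^2 + 194400*ζ^3 + 194400*ζ^4 + 108864*ζ^5)*u^12*v^13
      + (-53460 - 263412*ζ - 209952*ζ^2 - 411156*ζ^3 - 209952*ζ^4 + 209952*ζ^6)*u^11*v^14 + (-16200
      + 77760*ζ^2 + 77760*ζ^3 + 116640*ζ^4 + 194400*ζ^5 + 116640*ζ^6)*u^10*v^15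
      + (48276*ζ - 21708*ζ^3 - 69984*ζ^4 - 69984*ζ^5 - 69984*ζ^6)*u^9*v^16
      + (-38880 - 94284*ζ - 133164*ζ^2 - 155520*ζ^3 - 178848*ζ^4 - 116640*ζ^5 - 38880*ζ^6)*u^8*v^17
      + (-11664 - 11664*ζ - 19440*ζ^2 - 7776*ζ^5)*u^7*v^18 + (1620 + 24948*ζ + 23328*ζ^2 + 32724*ζ^3
      + 23328*ζ^4 - 23328*ζ^6)*u^6*v^19 + (-1296*ζ + 6480*ζ^3 + 7776*ζ^4 + 7776*ζ^5 + 7776*ζ^6)*u^4*v^21
      + (324*ζ + 324*ζ^2)*u^3*v^22 + (324 + 324*ζ + 324*ζ^2)*u^2*v^23) * h5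

theorem klein_diff_c_2_2_e1 (ζ h u v : R) (hζ : ζ ^ 4 + ζ ^ 3 + ζ ^ 2 + ζ + 1 = 0) (h5 : 5 * h = 1) :
    (kleinX_2_2 ζ h u v - kleinX_1_0 ζ h u v) * ((-3 - ζ - 4*ζ^2 - 2*ζ^3)*u^13*v + (-2 - 4*ζ + 4*ζ^2 - 8*ζ^3)*u^12*v^2 + (14 - 2*ζ + 7*ζ^2
        + 16*ζ^3)*u^11*v^3 + (-6 + 13*ζ - 13*ζ^2 + 6*ζ^3)*u^10*v^4 + (-35 - 20*ζ - 5*ζ^2 - 40*ζ^3)*u^9*v^5
        + (22 - 26*ζ - 4*ζ^2 - 2*ζ^3)*u^8*v^6 + (13 + 26*ζ + 24*ζ^2 + 2*ζ^3)*u^7*v^7 + (-26 - 57*ζ - 13*ζ^2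
        + 31*ζ^3)*u^6*v^8 + (24 - 2*ζ + 2*ζ^2 - 24*ζ^3)*u^5*v^9 + (-5 + 15*ζ + 35*ζ^2 + 30*ζ^3)*u^4*v^10
        + (-7 - 19*ζ - 26*ζ^2 - 13*ζ^3)*u^3*v^11 + (7 + 14*ζ + 11*ζ^2 + 3*ζ^3)*u^2*v^12
        + (-4 - 3*ζ - 2*ζ^2 - ζ^3)*u*v^13 + (1 + 2*ζ - 2*ζ^2 - ζ^3)*v^14)
      = 2 ^ 2 * 3 ^ 2 * 5 ^ 1 * kleinF u v ^ 2 := by
  unfold kleinX_2_2 kleinX_1_0 kleinF
  linear_combination (exp := 1) ((-180 + 72*ζ + 72*ζ^2)*u^22*v^2 + (-288*ζ + 288*ζ^2)*u^21*v^3 + (-324 + 252*ζ - 1008*ζ^2)*u^20*v^4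
      + (-756 + 180*ζ - 2304*ζ^2)*u^19*v^5 + (1152 - 2628*ζ + 3456*ζ^2)*u^18*v^6 + (-2088 + 3492*ζ
      + 4104*ζ^2)*u^17*v^7 + (-4860 + 2268*ζ - 8208*ζ^2)*u^16*v^8 + (-3816 - 7452*ζ - 7452*ζ^2)*u^15*v^9
      + (5436 - 1800*ζ + 1944*ζ^2)*u^14*v^10 + (-972 + 2448*ζ + 1944*ζ^2)*u^13*v^11 + (-23292 + 7020*ζ
      + 288*ζ^2)*u^12*v^12 + (5040 + 1584*ζ + 5076*ζ^2)*u^11*v^13 + (-2448 + 4284*ζ + 5004*ζ^2)*u^10*v^14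
      + (-972 - 5760*ζ - 3528*ζ^2)*u^9*v^15 + (1764 + 5544*ζ + 252*ζ^2)*u^8*v^16 + (2484 - 3888*ζ
      + 396*ζ^2)*u^7*v^17 + (360 - 936*ζ - 2124*ζ^2)*u^6*v^18 + (252 + 1224*ζ + 864*ζ^2)*u^5*v^19
      + (-252 - 720*ζ - 288*ζ^2)*u^4*v^20 + (144 + 144*ζ + 72*ζ^2)*u^3*v^21 + (-216 + 108*ζ
      + 72*ζ^2)*u^2*v^22) * hζ

theorem klein_chordX_f_2_3 (ζ h u v : R) (hζ : ζ ^ 4 + ζ ^ 3 + ζ ^ 2 + ζ + 1 = 0) (h5 : 5 * h = 1) :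
    (kleinX_2_2 ζ h u v + kleinX_1_0 ζ h u v + kleinX_2_3 ζ h u v) * (kleinX_2_2 ζ h u v - kleinX_1_0 ζ h u v) ^ 2 = (-(kleinY_2_2 ζ h u v) - -(kleinY_1_0 ζ h u v)) ^ 2 := by
  unfold kleinX_2_2 kleinY_2_2 kleinX_1_0 kleinY_1_0 kleinX_2_3
  linear_combination (exp := 1) ((-139968*ζ^2*h + 139968*ζ^3*h - 46656*ζ^5*h)*u^28*v^2 + (139968*ζ^2*h + 419904*ζ^3*h
      + 46656*ζ^4*h - 233280*ζ^5*h)*u^27*v^3 + (559872*ζ*h - 1259712*ζ^2*h + 839808*ζ^3*h - 186624*ζ^4*h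
      + 559872*ζ^5*h)*u^26*v^4 + (-7744896*ζ*h - 3919104*ζ^2*h - 93312*ζ^3*h + 1353024*ζ^4*h
      + 3265920*ζ^5*h)*u^25*v^5 + (-5458752*h - 5925312*ζ*h + 7884864*ζ^2*h - 9051264*ζ^3*h
      + 2752704*ζ^4*h - 513216*ζ^5*h)*u^24*v^6 + (13296960*h + 38724480*ζ*h
      + 1819584*ζ^2*h - 29113344*ζ^3*h - 20062080*ζ^4*h - 11524032*ζ^5*h)*u^23*v^7
      + (37324800*h - 9564480*ζ*h - 9284544*ζ^2*h - 47449152*ζ^3*h - 26034048*ζ^4*h + 233280*ζ^5*h)*u^22*v^8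
      + (-81181440*h - 29439936*ζ*h + 120652416*ζ^2*h - 6018624*ζ^3*h + 79408512*ζ^4*h
      + 10684224*ζ^5*h)*u^21*v^9 + (-135302400*h + 201460608*ζ*h + 131429952*ζ^2*h + 87759936*ζ^3*h
      + 100916928*ζ^4*h - 49921920*ζ^5*h)*u^20*v^10 + (-23514624*h + 59766336*ζ*h - 197914752*ζ^2*h
      + 26453952*ζ^3*h - 108101952*ζ^4*h - 92005632*ζ^5*h)*u^19*v^11
      + (-86780160*h - 244010880*ζ*h - 252502272*ζ^2*h - 106282368*ζ^3*h - 132736320*ζ^4*h - 34712064*ζ^5*h)*u^18*v^12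
      + (-61819200*h - 12597120*ζ*h - 26967168*ζ^2*h - 13483584*ζ^3*h
      + 33778944*ζ^4*h - 15629760*ζ^5*h)*u^17*v^13 + (22861440*h + 68724288*ζ*h - 40497408*ζ^2*h
      + 59113152*ζ^3*h - 12410496*ζ^4*h - 26220672*ζ^5*h)*u^16*v^14
      + (-6998400*h - 34945344*ζ*h - 47169216*ζ^2*h - 2939328*ζ^3*h - 34945344*ζ^4*h
      + 32192640*ζ^5*h)*u^15*v^15 + (10824192*h - 7604928*ζ*h + 51134976*ζ^2*h + 7185024*ζ^3*h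
      + 61166016*ζ^4*h + 41803776*ζ^5*h)*u^14*v^16 + (18429120*h + 27293760*ζ*h + 47869056*ζ^2*h
      + 6018624*ζ^3*h + 25194240*ζ^4*h - 1306368*ζ^5*h)*u^13*v^17
      + (3499200*h - 9797760*ζ*h - 12643776*ζ^2*h - 19968768*ζ^3*h - 22488192*ζ^4*h
      + 3032640*ζ^5*h)*u^12*v^18 + (2099520*h - 9517824*ζ*h + 2519424*ζ^2*h + 1353024*ζ^3*h + 839808*ζ^4*h
      + 5412096*ζ^5*h)*u^11*v^19 + (1166400*h + 11290752*ζ*h + 8304768*ζ^2*h + 5552064*ζ^3*h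
      + 5225472*ζ^4*h - 7464960*ζ^5*h)*u^10*v^20
      + (-513216*h - 1446336*ζ*h - 606528*ζ^2*h - 4059072*ζ^3*h - 3639168*ζ^4*h - 3172608*ζ^5*h)*u^9*v^21
      + (-233280*h - 699840*ζ*h - 2006208*ζ^2*h + 2239488*ζ^3*h - 466560*ζ^4*h + 1119744*ζ^5*h)*u^8*v^22
      + (699840*ζ*h + 1073088*ζ^2*h + 186624*ζ^3*h + 746496*ζ^4*h)*u^7*v^23
      + (-233280*h - 139968*ζ*h - 793152*ζ^2*h - 326592*ζ^3*h - 1119744*ζ^4*h - 373248*ζ^5*h)*u^6*v^24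
      + (-46656*ζ*h - 186624*ζ^2*h - 93312*ζ^3*h + 186624*ζ^4*h)*u^5*v^25
      + (-93312*h - 93312*ζ*h - 46656*ζ^2*h + 46656*ζ^3*h + 186624*ζ^4*h + 186624*ζ^5*h)*u^4*v^26) * hζ
    + ((3888*ζ^2 + 38880*ζ^4 + 3888*ζ^6)*u^28*v^2
      + (-124416*ζ^2 - 15552*ζ^3 - 62208*ζ^4 - 171072*ζ^5 - 46656*ζ^7 + 46656*ζ^9)*u^27*v^3
      + (-256608*ζ - 101088*ζ^2 + 108864*ζ^3 - 381024*ζ^4 + 23328*ζ^5 + 279936*ζ^6 - 279936*ζ^7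
      + 93312*ζ^8)*u^26*v^4 + (1018656*ζ + 2091744*ζ^2 + 1905120*ζ^3 + 1492992*ζ^4
      + 2301696*ζ^5 - 85536*ζ^6 - 606528*ζ^7 - 419904*ζ^8 - 559872*ζ^9)*u^25*v^5 + (874800
      + 1360800*ζ - 34992*ζ^2 + 287712*ζ^3 + 750384*ζ^4 - 357696*ζ^5 - 2006208*ζ^6
      + 979776*ζ^7 - 933120*ζ^8 - 233280*ζ^9)*u^24*v^6
      + (-3382560 - 11850624*ζ - 13895712*ζ^2 - 10124352*ζ^3 - 6384096*ζ^4 - 2449440*ζ^5 + 7426080*ζ^6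
      + 9471168*ζ^7 + 4292352*ζ^8 + 1679616*ζ^9)*u^23*v^7 + (-8067600 - 6757344*ζ - 7002288*ζ^2
      + 1539648*ζ^3 + 5458752*ζ^4 + 13382496*ζ^5 + 13814064*ζ^6 + 12317184*ζ^7
      + 3639168*ζ^8 - 279936*ζ^9)*u^22*v^8 + (16236288
      + 22153824*ζ - 2278368*ζ^2 - 684288*ζ^3 - 18374688*ζ^4 - 35124192*ζ^5 - 41041728*ζ^6 - 17262720*ζ^7 - 16562880*ζ^8 - 1166400*ζ^9)*u^21*v^9
      + (27060480 - 13926816*ζ - 39548736*ζ^2 - 59190912*ζ^3 - 80847072*ζ^4 - 94618368*ζ^5 - 56096064*ζ^6 - 24820992*ζ^7 - 5178816*ζ^8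
      + 10824192*ζ^9)*u^20*v^10 + (4385664 - 9152352*ζ + 30513024*ζ^2 + 19121184*ζ^3 + 41858208*ζ^4
      + 52402464*ζ^5 + 63498816*ζ^6 + 31212864*ζ^7 + 35225280*ζ^8 + 14929920*ζ^9)*u^19*v^11 + (16057440
      + 63561024*ζ + 108572400*ζ^2 + 121165632*ζ^3 + 140247936*ζ^4 + 118078560*ζ^5 + 69132528*ζ^6
      + 24121152*ζ^7 + 12970368*ζ^8 + 1353024*ζ^9)*u^18*v^12 + (11080800 + 12317184*ζ + 11640672*ζ^2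
      + 7231680*ζ^3 - 9097920*ζ^4 - 26034048*ζ^5 - 28996704*ζ^6 - 26593920*ζ^7 - 15769728*ζ^8
      + 559872*ζ^9)*u^17*v^13
      + (-4572288 - 17783712*ζ - 9972720*ζ^2 - 20007648*ζ^3 - 16784496*ζ^4 - 8436960*ζ^5
      + 4774464*ζ^6 - 4478976*ζ^7 + 3359232*ζ^8 + 2332800*ζ^9)*u^16*v^14 + (1399680 + 9035712*ζ
      + 18701280*ζ^2 + 21360672*ζ^3 + 29385504*ζ^4 + 20559744*ζ^5
      + 11765088*ζ^6 - 3079296*ζ^7 - 5738688*ζ^8 - 8584704*ζ^9)*u^15*v^15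
      + (-2013984 - 1150848*ζ - 9727776*ζ^2 - 10979712*ζ^3 - 20365344*ζ^4 - 23950080*ζ^5 - 24058944*ζ^6 - 14136768*ζ^7 - 14230080*ζ^8 - 5598720*ζ^9)*u^14*v^16
      + (-3615840 - 9004608*ζ - 17278272*ζ^2 - 15583104*ζ^3 - 16928352*ζ^4 - 8048160*ζ^5 - 295488*ζ^6
      + 7978176*ζ^7 + 3919104*ζ^8 + 2426112*ζ^9)*u^13*v^17 + (-1069200 + 520992*ζ + 2468880*ζ^2
      + 5971968*ζ^3 + 11757312*ζ^4 + 13755744*ζ^5 + 12134448*ζ^6 + 10217664*ζ^7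
      + 5412096*ζ^8 - 373248*ζ^9)*u^12*v^18 + (-419904 + 1485216*ζ + 870912*ζ^2
      + 388800*ζ^3 - 715392*ζ^4 - 598752*ζ^5 - 2503872*ζ^6 - 1586304*ζ^7 + 373248*ζ^8)*u^11*v^19
      + (-233280 - 2122848*ζ - 3856896*ζ^2 - 4929984*ζ^3 - 6384096*ζ^4 - 5692032*ζ^5 - 2581632*ζ^6 - 513216*ζ^7
      + 559872*ζ^8 + 1679616*ζ^9)*u^10*v^20 + (139968 + 318816*ζ + 466560*ζ^2 + 1018656*ζ^3 + 1687392*ζ^4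
      + 1547424*ζ^5 + 699840*ζ^6 + 559872*ζ^7)*u^9*v^21 + (194400 + 482112*ζ + 1026432*ζ^2 + 746496*ζ^3
      + 567648*ζ^4 - 194400*ζ^5 - 1041984*ζ^6 - 1586304*ζ^7 - 746496*ζ^8 - 373248*ζ^9)*u^8*v^22
      + (-139968*ζ - 295488*ζ^2 - 451008*ζ^3 - 637632*ζ^4 - 482112*ζ^5 - 326592*ζ^6 - 186624*ζ^7 - 186624*ζ^8)*u^7*v^23
      + (46656 + 15552*ζ + 159408*ζ^2 + 365472*ζ^3 + 532656*ζ^4 + 637632*ζ^5 + 668736*ζ^6 + 373248*ζ^7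
      + 186624*ζ^8)*u^6*v^24 + (38880*ζ + 46656*ζ^2 + 46656*ζ^3 + 38880*ζ^4 - 31104*ζ^5)*u^5*v^25 + (3888
      + 7776*ζ + 11664*ζ^2 - 23328*ζ^3 - 27216*ζ^4 - 31104*ζ^5 - 31104*ζ^6)*u^4*v^26) * h5

theorem klein_chordY_f_2_3 (ζ h u v : R) (hζ : ζ ^ 4 + ζ ^ 3 + ζ ^ 2 + ζ + 1 = 0) (h5 : 5 * h = 1) :
    (kleinY_2_3 ζ h u v + -(kleinY_2_2 ζ h u v)) * (kleinX_2_2 ζ h u v - kleinX_1_0 ζ h u v) = -(-(kleinY_2_2 ζ h u v) - -(kleinY_1_0 ζ h u v)) * (kleinX_2_3 ζ h u v - kleinX_2_2 ζ h u v) := by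
  unfold kleinX_2_2 kleinY_2_2 kleinX_1_0 kleinY_1_0 kleinX_2_3 kleinY_2_3
  linear_combination (exp := 1) ((-15552*ζ*h + 7776*ζ^2*h)*u^24*v + 38880*ζ*h*u^23*v^2 + (93312*h - 23328*ζ*h - 69984*ζ^2*h)*u^22*v^3
      + (-194400*h - 272160*ζ*h + 116640*ζ^2*h)*u^21*v^4 + (-583200*h + 583200*ζ*h + 388800*ζ^2*h)*u^20*v^5
      + (-147744*ζ*h - 878688*ζ^2*h)*u^19*v^6 + (-1749600*h - 3149280*ζ*h - 1749600*ζ^2*h)*u^18*v^7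
      + (-1874016*h - 202176*ζ*h - 723168*ζ^2*h)*u^17*v^8 + (2721600*h
      + 1827360*ζ*h - 3421440*ζ^2*h)*u^16*v^9 + (1360800*h - 1360800*ζ*h - 3499200*ζ^2*h)*u^15*v^10
      + (287712*ζ*h + 1975104*ζ^2*h)*u^14*v^11 + (1166400*h + 1438560*ζ*h + 1166400*ζ^2*h)*u^13*v^12
      + (1034208*h + 606528*ζ*h + 575424*ζ^2*h)*u^12*v^13 + (194400*h - 155520*ζ*h
      + 1594080*ζ^2*h)*u^11*v^14 + (-388800*h + 388800*ζ*h + 583200*ζ^2*h)*u^10*v^15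
      + (147744*ζ*h - 520992*ζ^2*h)*u^9*v^16 + (-194400*h - 311040*ζ*h - 194400*ζ^2*h)*u^8*v^17
      + (-186624*h - 225504*ζ*h - 132192*ζ^2*h)*u^7*v^18 + (38880*ζ*h - 155520*ζ^2*h)*u^6*v^19 + (-15552*ζ*h
      + 46656*ζ^2*h)*u^4*v^21 + (15552*h + 15552*ζ*h + 7776*ζ^2*h)*u^2*v^23) * hζ
    + ((324*ζ + 324*ζ^3)*u^24*v + (-1296*ζ - 1296*ζ^2 - 7776*ζ^4)*u^23*v^2 + (-2916 - 2916*ζ + 20412*ζ^2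
      + 23328*ζ^5)*u^22*v^3 + (4860 + 51516*ζ + 46656*ζ^2 - 10692*ζ^3 + 46656*ζ^4 - 46656*ζ^6)*u^21*v^4
      + (16200 - 116640*ζ^2 - 116640*ζ^3 - 77760*ζ^4 - 194400*ζ^5 - 77760*ζ^6)*u^20*v^5 + (78084*ζ
      + 194400*ζ^2 + 288036*ζ^3 + 209952*ζ^4 + 209952*ζ^5 + 209952*ζ^6)*u^19*v^6 + (349920 + 939924*ζ
      + 1289844*ζ^2 + 1399680*ζ^3 + 1290816*ζ^4 + 1049760*ζ^5 + 349920*ζ^6)*u^18*v^7 + (381024 + 381024*ζ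
      + 629856*ζ^2 + 583200*ζ^3 + 583200*ζ^4 + 248832*ζ^5)*u^17*v^8
      + (-633420 - 1068876*ζ - 435456*ζ^2 - 773388*ζ^3 - 435456*ζ^4 + 435456*ζ^6)*u^16*v^9 + (-486000
      + 272160*ζ^2 + 272160*ζ^3 + 699840*ζ^4 + 972000*ζ^5 + 699840*ζ^6)*u^15*v^10
      + (89100*ζ - 388800*ζ^2 - 120852*ζ^3 - 209952*ζ^4 - 209952*ζ^5 - 209952*ζ^6)*u^14*v^11
      + (-233280 - 575100*ζ - 808380*ζ^2 - 933120*ζ^3 - 1181952*ζ^4 - 699840*ζ^5 - 233280*ζ^6)*u^13*v^12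
      + (-158760 - 158760*ζ - 267624*ζ^2 - 194400*ζ^3 - 194400*ζ^4 - 108864*ζ^5)*u^12*v^13 + (53460
      + 263412*ζ + 209952*ζ^2 + 411156*ζ^3 + 209952*ζ^4 - 209952*ζ^6)*u^11*v^14
      + (16200 - 77760*ζ^2 - 77760*ζ^3 - 116640*ζ^4 - 194400*ζ^5 - 116640*ζ^6)*u^10*v^15 + (-48276*ζ
      + 21708*ζ^3 + 69984*ζ^4 + 69984*ζ^5 + 69984*ζ^6)*u^9*v^16 + (38880 + 94284*ζ + 133164*ζ^2 + 155520*ζ^3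
      + 178848*ζ^4 + 116640*ζ^5 + 38880*ζ^6)*u^8*v^17 + (11664 + 11664*ζ + 19440*ζ^2 + 7776*ζ^5)*u^7*v^18
      + (-1620 - 24948*ζ - 23328*ζ^2 - 32724*ζ^3 - 23328*ζ^4 + 23328*ζ^6)*u^6*v^19
      + (1296*ζ - 6480*ζ^3 - 7776*ζ^4 - 7776*ζ^5 - 7776*ζ^6)*u^4*v^21 + (-324*ζ - 324*ζ^2)*u^3*v^22
      + (-324 - 324*ζ - 324*ζ^2)*u^2*v^23) * h5

theorem klein_diff_f_2_3 (ζ h u v : R) (hζ : ζ ^ 4 + ζ ^ 3 + ζ ^ 2 + ζ + 1 = 0) (h5 : 5 * h = 1) :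
    (kleinX_2_2 ζ h u v - kleinX_1_0 ζ h u v) * ((-3 - ζ - 4*ζ^2 - 2*ζ^3)*u^13*v + (-2 - 4*ζ + 4*ζ^2 - 8*ζ^3)*u^12*v^2 + (14 - 2*ζ + 7*ζ^2
        + 16*ζ^3)*u^11*v^3 + (-6 + 13*ζ - 13*ζ^2 + 6*ζ^3)*u^10*v^4 + (-35 - 20*ζ - 5*ζ^2 - 40*ζ^3)*u^9*v^5
        + (22 - 26*ζ - 4*ζ^2 - 2*ζ^3)*u^8*v^6 + (13 + 26*ζ + 24*ζ^2 + 2*ζ^3)*u^7*v^7 + (-26 - 57*ζ - 13*ζ^2
        + 31*ζ^3)*u^6*v^8 + (24 - 2*ζ + 2*ζ^2 - 24*ζ^3)*u^5*v^9 + (-5 + 15*ζ + 35*ζ^2 + 30*ζ^3)*u^4*v^10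
        + (-7 - 19*ζ - 26*ζ^2 - 13*ζ^3)*u^3*v^11 + (7 + 14*ζ + 11*ζ^2 + 3*ζ^3)*u^2*v^12
        + (-4 - 3*ζ - 2*ζ^2 - ζ^3)*u*v^13 + (1 + 2*ζ - 2*ζ^2 - ζ^3)*v^14)
      = 2 ^ 2 * 3 ^ 2 * 5 ^ 1 * kleinF u v ^ 2 := by
  unfold kleinX_2_2 kleinX_1_0 kleinF
  linear_combination (exp := 1) ((-180 + 72*ζ + 72*ζ^2)*u^22*v^2 + (-288*ζ + 288*ζ^2)*u^21*v^3 + (-324 + 252*ζ - 1008*ζ^2)*u^20*v^4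
      + (-756 + 180*ζ - 2304*ζ^2)*u^19*v^5 + (1152 - 2628*ζ + 3456*ζ^2)*u^18*v^6 + (-2088 + 3492*ζ
      + 4104*ζ^2)*u^17*v^7 + (-4860 + 2268*ζ - 8208*ζ^2)*u^16*v^8 + (-3816 - 7452*ζ - 7452*ζ^2)*u^15*v^9
      + (5436 - 1800*ζ + 1944*ζ^2)*u^14*v^10 + (-972 + 2448*ζ + 1944*ζ^2)*u^13*v^11 + (-23292 + 7020*ζ
      + 288*ζ^2)*u^12*v^12 + (5040 + 1584*ζ + 5076*ζ^2)*u^11*v^13 + (-2448 + 4284*ζ + 5004*ζ^2)*u^10*v^14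
      + (-972 - 5760*ζ - 3528*ζ^2)*u^9*v^15 + (1764 + 5544*ζ + 252*ζ^2)*u^8*v^16 + (2484 - 3888*ζ
      + 396*ζ^2)*u^7*v^17 + (360 - 936*ζ - 2124*ζ^2)*u^6*v^18 + (252 + 1224*ζ + 864*ζ^2)*u^5*v^19
      + (-252 - 720*ζ - 288*ζ^2)*u^4*v^20 + (144 + 144*ζ + 72*ζ^2)*u^3*v^21 + (-216 + 108*ζ
      + 72*ζ^2)*u^2*v^22) * hζ

theorem klein_chordX_c_2_4_e1 (ζ h u v : R) (hζ : ζ ^ 4 + ζ ^ 3 + ζ ^ 2 + ζ + 1 = 0) (h5 : 5 * h = 1) :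
    (kleinX_2_4 ζ h u v + kleinX_1_0 ζ h u v + kleinX_2_1 ζ h u v) * (kleinX_2_4 ζ h u v - kleinX_1_0 ζ h u v) ^ 2 = (kleinY_2_4 ζ h u v - kleinY_1_0 ζ h u v) ^ 2 := by
  unfold kleinX_2_4 kleinY_2_4 kleinX_1_0 kleinY_1_0 kleinX_2_1
  linear_combination (exp := 1) ((46656*ζ - 46656*ζ^2)*u^27*v^3 + (-139968 - 139968*ζ - 186624*ζ^2 - 233280*ζ^3)*u^26*v^4
      + (-746496*ζ - 139968*ζ^2 - 606528*ζ^3 - 373248*ζ^4)*u^25*v^5 + (793152 + 419904*ζ - 139968*ζ^2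
      + 559872*ζ^3 - 279936*ζ^4 - 186624*ζ^5)*u^24*v^6 + (2052864*ζ + 139968*ζ^2 - 1306368*ζ^3
      + 1912896*ζ^4)*u^23*v^7 + (-1399680 - 2752704*ζ + 279936*ζ^2 - 4245696*ζ^3 + 4525632*ζ^4
      + 3125952*ζ^5)*u^22*v^8 + (1539648 + 1772928*ζ + 2379456*ζ^2 + 11757312*ζ^3 + 9704448*ζ^4
      + 1539648*ζ^5)*u^21*v^9 + (1399680 + 13203648*ζ + 2472768*ζ^2 + 4478976*ζ^3
      + 7138368*ζ^4 - 13996800*ζ^5)*u^20*v^10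
      + (-6158592 - 8351424*ζ - 14789952*ζ^2 - 24121152*ζ^3 - 9051264*ζ^4 - 11010816*ζ^5)*u^19*v^11
      + (-1166400 - 2052864*ζ - 11337408*ζ^2 + 19035648*ζ^3 - 9611136*ζ^4 + 5832000*ζ^5)*u^18*v^12
      + (-233280 + 22161600*ζ - 8491392*ζ^2 + 11710656*ζ^3 - 14556672*ζ^4 - 15956352*ζ^5)*u^17*v^13
      + (-11477376 - 11244096*ζ - 27993600*ζ^2 - 41617152*ζ^3 - 16936128*ζ^4 - 14603328*ζ^5)*u^16*v^14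
      + (233280 - 7418304*ζ - 1213056*ζ^2 + 1912896*ζ^3 + 2752704*ζ^4 + 13996800*ζ^5)*u^15*v^15 + (3452544
      + 6205248*ζ + 3685824*ζ^2 + 13950144*ζ^3 + 8071488*ζ^4 + 5458752*ζ^5)*u^14*v^16 + (2332800 + 4572288*ζ
      + 13343616*ζ^2 + 4852224*ζ^3 + 14323392*ζ^4 + 5832000*ζ^5)*u^13*v^17 + (233280 - 4618944*ζ
      + 1772928*ζ^2 - 559872*ζ^3 - 746496*ζ^4 + 1819584*ζ^5)*u^12*v^18 + (419904 - 979776*ζ - 1586304*ζ^2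
      + 186624*ζ^3 - 2052864*ζ^4 - 3219264*ζ^5)*u^11*v^19 + (-233280
      + 93312*ζ - 513216*ζ^2 - 2332800*ζ^3 - 1912896*ζ^4 - 1166400*ζ^5)*u^10*v^20 + (-279936 + 139968*ζ
      + 419904*ζ^2 - 46656*ζ^3 - 1026432*ζ^4 - 373248*ζ^5)*u^9*v^21 + (139968*ζ + 46656*ζ^2 + 419904*ζ^3
      + 326592*ζ^4)*u^8*v^22 + (186624*ζ - 233280*ζ^2 - 93312*ζ^3 + 186624*ζ^4 + 186624*ζ^5)*u^7*v^23
      + (-46656*ζ^2 - 46656*ζ^3 + 46656*ζ^4 + 46656*ζ^5)*u^6*v^24 + (-46656*ζ + 46656*ζ^3)*u^5*v^25) * hζ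

theorem klein_chordY_c_2_4_e1 (ζ h u v : R) (hζ : ζ ^ 4 + ζ ^ 3 + ζ ^ 2 + ζ + 1 = 0) (h5 : 5 * h = 1) :
    (-(kleinY_2_1 ζ h u v) + kleinY_2_4 ζ h u v) * (kleinX_2_4 ζ h u v - kleinX_1_0 ζ h u v) = -(kleinY_2_4 ζ h u v - kleinY_1_0 ζ h u v) * (kleinX_2_1 ζ h u v - kleinX_2_4 ζ h u v) := by
  unfold kleinX_2_4 kleinY_2_4 kleinX_1_0 kleinY_1_0 kleinX_2_1 kleinY_2_1
  linear_combination (exp := 1) (7776*ζ*u^22*v^3 + 23328*ζ^2*u^21*v^4 + (-69984*ζ^2)*u^20*v^5 + (-38880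
      + 101088*ζ - 194400*ζ^2)*u^19*v^6 + (-116640 + 38880*ζ)*u^18*v^7
      + (-116640 - 318816*ζ - 116640*ζ^2)*u^17*v^8 + (194400 - 233280*ζ + 248832*ζ^2)*u^16*v^9 + (388800
      + 388800*ζ + 381024*ζ^2)*u^15*v^10 + (-427680 - 62208*ζ - 972000*ζ^2)*u^14*v^11
      + (-311040 - 544320*ζ)*u^13*v^12 + (272160 + 209952*ζ + 272160*ζ^2)*u^12*v^13
      + (-388800 - 38880*ζ - 108864*ζ^2)*u^11*v^14 + (194400 + 194400*ζ + 482112*ζ^2)*u^10*v^15 + (38880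
      + 202176*ζ - 194400*ζ^2)*u^9*v^16 + (116640 - 38880*ζ)*u^8*v^17
      + (-77760 - 178848*ζ - 77760*ζ^2)*u^7*v^18 + (38880*ζ + 7776*ζ^2)*u^6*v^19 + 15552*ζ^2*u^5*v^20
      + 7776*ζ*u^4*v^21) * hζ

theorem klein_diff_c_2_4_e1 (ζ h u v : R) (hζ : ζ ^ 4 + ζ ^ 3 + ζ ^ 2 + ζ + 1 = 0) (h5 : 5 * h = 1) :
    (kleinX_2_4 ζ h u v - kleinX_1_0 ζ h u v) * ((-1 - 2*ζ - 3*ζ^2 - 4*ζ^3)*u^13*v + (6 + 12*ζ + 8*ζ^2 + 4*ζ^3)*u^12*v^2 + (-7 - 9*ζ + 9*ζ^2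
        + 7*ζ^3)*u^11*v^3 + (-7 - 19*ζ - 26*ζ^2 - 13*ζ^3)*u^10*v^4 + (30 + 35*ζ + 15*ζ^2 - 5*ζ^3)*u^9*v^5
        + (-26 - 2*ζ + 22*ζ^2 - 4*ζ^3)*u^8*v^6 + (11 + 22*ζ - 2*ζ^2 + 24*ζ^3)*u^7*v^7 + (13 - 44*ζ
        + 44*ζ^2 - 13*ζ^3)*u^6*v^8 + (-22 + 26*ζ + 4*ζ^2 + 2*ζ^3)*u^5*v^9 + (40 + 5*ζ + 20*ζ^2
        + 35*ζ^3)*u^4*v^10 + (-19 - 13*ζ - 7*ζ^2 - 26*ζ^3)*u^3*v^11 + (4 + 8*ζ - 3*ζ^2 + 11*ζ^3)*u^2*v^12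
        + (2 - ζ + ζ^2 - 2*ζ^3)*u*v^13 + (-3 - ζ - 4*ζ^2 - 2*ζ^3)*v^14)
      = 2 ^ 2 * 3 ^ 2 * 5 ^ 1 * kleinF u v ^ 2 := by
  unfold kleinX_2_4 kleinX_1_0 kleinF
  linear_combination (exp := 1) ((-180 + 144*ζ)*u^22*v^2 + (72 + 360*ζ + 288*ζ^2)*u^21*v^3 + (-432 - 1008*ζ - 720*ζ^2)*u^20*v^4
      + (324 - 612*ζ - 1512*ζ^2)*u^19*v^5 + (1584 + 5364*ζ + 3132*ζ^2)*u^18*v^6 + (-7380 - 288*ζ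
      + 1476*ζ^2)*u^17*v^7 + (648 - 6480*ζ - 4788*ζ^2)*u^16*v^8 + (4392 + 8028*ζ - 3960*ζ^2)*u^15*v^9
      + (-5364 + 1872*ζ + 1692*ζ^2)*u^14*v^10 + (3816 + 396*ζ + 7308*ζ^2)*u^13*v^11 + (-23040
      + 15192*ζ - 6336*ζ^2)*u^12*v^12 + (-1656 + 1800*ζ + 6696*ζ^2)*u^11*v^13 + (6516 - 216*ζ
      + 8280*ζ^2)*u^10*v^14 + (-4032 + 756*ζ - 8424*ζ^2)*u^9*v^15 + (1728 - 2052*ζ + 4284*ζ^2)*u^8*v^16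
      + (2880 - 3420*ζ - 2268*ζ^2)*u^7*v^17 + (144 + 1440*ζ - 1044*ζ^2)*u^6*v^18 + (-144 - 1116*ζ
      + 540*ζ^2)*u^5*v^19 + (-72 + 396*ζ - 324*ζ^2)*u^4*v^20 + (108 + 108*ζ + 144*ζ^2)*u^3*v^21 + (-180
      + 72*ζ + 72*ζ^2)*u^2*v^22) * hζ

end Fermat.Agent.S52
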