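import Fermat.Agent.S52.KleinId2

/-! GENERATED FILE (helper27, S52 block F1): polynomial identities for the universal 5-torsion
sections, certificates computed by exact arithmetic. -/

set_option autoImplicit false
set_option maxHeartbeats 1600000
set_option linter.unusedVariables false

namespace Fermat.Agent.S52

variable {R : Type*} [CommRing R]

theorem klein_on_4_2 (ζ h u v : R) (hζ : ζ ^ 4 + ζ ^ 3 + ζ ^ 2 + ζ + 1 = 0) (h5 : 5 * h = 1) :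
    (-(kleinY_1_3 ζ h u v)) ^ 2 = (kleinX_1_3 ζ h u v) ^ 3 + (27 * kleinH u v) * (kleinX_1_3 ζ h u v) + 54 * kleinT u v := by
  unfold kleinX_1_3 kleinY_1_3 kleinH kleinT
  linear_combination (exp := 1) ((-46656 - 93312*ζ - 139968*ζ^2 - 139968*ζ^3 - 93312*ζ^4 - 46656*ζ^5)*u^27*v^3
      + (-139968*ζ^2 - 279936*ζ^3 - 279936*ζ^4 - 279936*ζ^5)*u^26*v^4 + (-46656 + 279936*ζ + 419904*ζ^2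
      + 419904*ζ^3 + 419904*ζ^4 - 559872*ζ^5)*u^25*v^5 + (-746496 - 699840*ζ - 699840*ζ^2 - 699840*ζ^3
      + 2052864*ζ^4 - 373248*ζ^5)*u^24*v^6 + (-279936 - 279936*ζ - 279936*ζ^2 - 5738688*ζ^3
      + 1679616*ζ^4)*u^23*v^7 + (279936 + 559872*ζ + 8911296*ζ^2 - 4478976*ζ^3 + 559872*ζ^4
      + 279936*ζ^5)*u^22*v^8 + (-9564480*ζ + 10031040*ζ^2 + 979776*ζ^3 + 979776*ζ^4 + 979776*ζ^5)*u^21*v^9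
      + (8351424 - 14883264*ζ - 1819584*ζ^2 - 1819584*ζ^3 - 1819584*ζ^4 + 559872*ζ^5)*u^20*v^10 + (16842816
      + 2799360*ζ + 2799360*ζ^2 + 2799360*ζ^3 - 2519424*ζ^4 - 559872*ζ^5)*u^19*v^11 + (8444736 + 8444736*ζ
      + 8444736*ζ^2 + 6438528*ζ^3 + 1119744*ζ^4)*u^18*v^12 + (-559872 - 1119744*ζ
      + 2846016*ζ^2 - 4059072*ζ^3 - 1119744*ζ^4 - 559872*ζ^5)*u^17*v^13 + (933120*ζ
      + 6158592*ζ^2 - 559872*ζ^3 - 559872*ζ^4 - 559872*ζ^5)*u^16*v^14 + (-466560 - 1866240*ζ + 2239488*ζ^2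
      + 2239488*ζ^3 + 2239488*ζ^4 + 979776*ζ^5)*u^15*v^15
      + (-1259712 - 2799360*ζ - 2799360*ζ^2 - 2799360*ζ^3 - 559872*ζ^4 - 279936*ζ^5)*u^14*v^16
      + (-1259712 - 1259712*ζ - 1259712*ζ^2 + 1119744*ζ^3 - 139968*ζ^4)*u^13*v^17 + (373248 + 746496*ζ
      + 466560*ζ^2 + 979776*ζ^3 + 746496*ζ^4 + 373248*ζ^5)*u^12*v^18
      + (1399680*ζ - 1726272*ζ^2 - 559872*ζ^3 - 559872*ζ^4 - 559872*ζ^5)*u^11*v^19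
      + (-46656 - 186624*ζ - 559872*ζ^2 - 559872*ζ^3 - 559872*ζ^4 + 279936*ζ^5)*u^10*v^20 + (-559872
      + 606528*ζ^4 - 46656*ζ^5)*u^9*v^21 + (139968 + 139968*ζ + 139968*ζ^2
      + 419904*ζ^3 - 139968*ζ^4)*u^8*v^22 + (279936*ζ^2 - 139968*ζ^3)*u^7*v^23 + (-46656*ζ^2)*u^6*v^24
      + (46656 - 46656*ζ)*u^5*v^25) * hζ

theorem klein_chordX_c_0_2_e2 (ζ h u v : R) (hζ : ζ ^ 4 + ζ ^ 3 + ζ ^ 2 + ζ + 1 = 0) (h5 : 5 * h = 1) :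
    (kleinX_0_2 ζ h u v + kleinX_0_1 ζ h u v + kleinX_0_2 ζ h u v) * (kleinX_0_2 ζ h u v - kleinX_0_1 ζ h u v) ^ 2 = (kleinY_0_2 ζ h u v - kleinY_0_1 ζ h u v) ^ 2 := by
  unfold kleinX_0_2 kleinY_0_2 kleinX_0_1 kleinY_0_1
  ring

theorem klein_chordY_c_0_2_e2 (ζ h u v : R) (hζ : ζ ^ 4 + ζ ^ 3 + ζ ^ 2 + ζ + 1 = 0) (h5 : 5 * h = 1) :
    (-(kleinY_0_2 ζ h u v) + kleinY_0_2 ζ h u v) * (kleinX_0_2 ζ h u v - kleinX_0_1 ζ h u v) = -(kleinY_0_2 ζ h u v - kleinY_0_1 ζ h u v) * (kleinX_0_2 ζ h u v - kleinX_0_2 ζ h u v) := by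
  unfold kleinX_0_2 kleinY_0_2 kleinX_0_1 kleinY_0_1
  ring

theorem klein_diff_c_0_2_e2 (ζ h u v : R) (hζ : ζ ^ 4 + ζ ^ 3 + ζ ^ 2 + ζ + 1 = 0) (h5 : 5 * h = 1) :
    (kleinX_0_2 ζ h u v - kleinX_0_1 ζ h u v) * (u^2 + u*v + (-1)*v^2)
      = 2 ^ 2 * 3 ^ 2 * 5 ^ 0 * kleinF u v ^ 1 := by
  unfold kleinX_0_2 kleinX_0_1 kleinF
  ring

theorem klein_chordX_c_3_0_e1 (ζ h u v : R) (hζ : ζ ^ 4 + ζ ^ 3 + ζ ^ 2 + ζ + 1 = 0) (h5 : 5 * h = 1) :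
    (kleinX_2_0 ζ h u v + kleinX_1_0 ζ h u v + kleinX_1_0 ζ h u v) * (kleinX_2_0 ζ h u v - kleinX_1_0 ζ h u v) ^ 2 = (-(kleinY_2_0 ζ h u v) - kleinY_1_0 ζ h u v) ^ 2 := by
  unfold kleinX_2_0 kleinY_2_0 kleinX_1_0 kleinY_1_0
  linear_combination (exp := 1) ((-373248*ζ)*u^25*v^5 + (-466560*ζ + 1492992*ζ^2)*u^24*v^6 + (2612736*ζ^2 - 2939328*ζ^3)*u^23*v^7
      + (-4105728 - 4105728*ζ - 4105728*ζ^2 - 9517824*ζ^3 + 2239488*ζ^4)*u^22*v^8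
      + (-10730880 - 4199040*ζ - 4199040*ζ^2 - 4199040*ζ^3 + 8304768*ζ^4 - 1306368*ζ^5)*u^21*v^9 + (-6998400
      + 12597120*ζ + 5458752*ζ^2 + 5458752*ζ^3 + 5458752*ζ^4 - 6158592*ζ^5)*u^20*v^10
      + (17262720*ζ - 10031040*ζ^2 - 9657792*ζ^3 - 9657792*ζ^4 - 9657792*ζ^5)*u^19*v^11
      + (-5038848 - 10077696*ζ - 31959360*ζ^2 - 15676416*ζ^3 - 10077696*ζ^4 - 5038848*ζ^5)*u^18*v^12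
      + (-28553472 - 28553472*ζ - 28553472*ζ^2 - 2379456*ζ^3 - 839808*ζ^4)*u^17*v^13
      + (-20528640 - 4898880*ζ - 4898880*ζ^2 - 4898880*ζ^3 - 5038848*ζ^4 - 559872*ζ^5)*u^16*v^14 + (11664000
      + 6625152*ζ - 6858432*ζ^2 - 6858432*ζ^3 - 6858432*ζ^4 - 839808*ζ^5)*u^15*v^15
      + (-6298560*ζ - 3405888*ζ^2 + 1959552*ζ^3 + 1959552*ζ^4 + 1959552*ζ^5)*u^14*v^16 + (2939328
      + 5878656*ζ + 29673216*ζ^2 + 11337408*ζ^3 + 5878656*ζ^4 + 2939328*ζ^5)*u^13*v^17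
      + (-2146176 - 2146176*ζ - 2146176*ζ^2 + 1259712*ζ^3 + 979776*ζ^4)*u^12*v^18 + (13763520 + 979776*ζ^4
      + 419904*ζ^5)*u^11*v^19 + (-6998400 + 9237888*ζ + 419904*ζ^2 + 419904*ζ^3 + 419904*ζ^4
      + 279936*ζ^5)*u^10*v^20 + (-6065280*ζ + 5738688*ζ^2 - 419904*ζ^3 - 419904*ζ^4 - 419904*ζ^5)*u^9*v^21
      + (-279936 - 559872*ζ - 7744896*ζ^2 + 2379456*ζ^3 - 559872*ζ^4 - 279936*ζ^5)*u^8*v^22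
      + (-279936 - 279936*ζ - 279936*ζ^2 - 4339008*ζ^3 + 979776*ζ^4)*u^7*v^23 + (466560 + 699840*ζ
      + 699840*ζ^2 + 699840*ζ^3 - 1586304*ζ^4 + 186624*ζ^5)*u^6*v^24 + (186624*ζ + 419904*ζ^2 + 419904*ζ^3
      + 419904*ζ^4 - 419904*ζ^5)*u^5*v^25 + (186624*ζ^2 + 279936*ζ^3 + 279936*ζ^4 + 279936*ζ^5)*u^4*v^26
      + (-46656 - 93312*ζ - 139968*ζ^2 - 139968*ζ^3 - 93312*ζ^4 - 46656*ζ^5)*u^3*v^27) * hζ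

theorem klein_chordY_c_3_0_e1 (ζ h u v : R) (hζ : ζ ^ 4 + ζ ^ 3 + ζ ^ 2 + ζ + 1 = 0) (h5 : 5 * h = 1) :
    (-(kleinY_1_0 ζ h u v) + -(kleinY_2_0 ζ h u v)) * (kleinX_2_0 ζ h u v - kleinX_1_0 ζ h u v) = -(-(kleinY_2_0 ζ h u v) - kleinY_1_0 ζ h u v) * (kleinX_1_0 ζ h u v - kleinX_2_0 ζ h u v) := by
  unfold kleinX_2_0 kleinY_2_0 kleinX_1_0 kleinY_1_0
  ring

theorem klein_diff_c_3_0_e1 (ζ h u v : R) (hζ : ζ ^ 4 + ζ ^ 3 + ζ ^ 2 + ζ + 1 = 0) (h5 : 5 * h = 1) :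
    (kleinX_2_0 ζ h u v - kleinX_1_0 ζ h u v) * ((-1 - ζ - ζ^2 - ζ^3)*u^2 + u*v + (-ζ)*v^2)
      = 2 ^ 2 * 3 ^ 2 * 5 ^ 0 * kleinF u v ^ 1 := by
  unfold kleinX_2_0 kleinX_1_0 kleinF
  linear_combination (exp := 1) ((-36)*u^11*v + 36*ζ*u^10*v^2 + (-72*ζ^2)*u^9*v^3 + (-108 - 108*ζ - 108*ζ^2)*u^8*v^4 + (-72)*u^7*v^5
      + (-216)*u^6*v^6 + (-72*ζ)*u^5*v^7 + (-36*ζ^2)*u^4*v^8 + (36 + 36*ζ + 36*ζ^2)*u^3*v^9 + (-36)*u^2*v^10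
      + 36*u*v^11) * hζ

theorem klein_chordX_c_3_1_e1 (ζ h u v : R) (hζ : ζ ^ 4 + ζ ^ 3 + ζ ^ 2 + ζ + 1 = 0) (h5 : 5 * h = 1) :
    (kleinX_2_4 ζ h u v + kleinX_1_0 ζ h u v + kleinX_1_4 ζ h u v) * (kleinX_2_4 ζ h u v - kleinX_1_0 ζ h u v) ^ 2 = (-(kleinY_2_4 ζ h u v) - kleinY_1_0 ζ h u v) ^ 2 := by
  unfold kleinX_2_4 kleinY_2_4 kleinX_1_0 kleinY_1_0 kleinX_1_4
  linear_combination (exp := 1) ((-93312*ζ^2*h + 46656*ζ^3*h)*u^28*v^2 + (-326592*ζ*h - 606528*ζ^2*h + 186624*ζ^3*h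
      + 186624*ζ^4*h)*u^27*v^3 + (-1073088*h - 1073088*ζ*h + 326592*ζ^2*h - 186624*ζ^3*h + 466560*ζ^4*h
      + 186624*ζ^5*h)*u^26*v^4
      + (-5785344*ζ*h - 3265920*ζ^2*h - 2006208*ζ^3*h - 4852224*ζ^4*h - 559872*ζ^5*h)*u^25*v^5
      + (-8164800*h - 15863040*ζ*h - 12737088*ζ^2*h - 4992192*ζ^3*h - 7464960*ζ^4*h - 3312576*ζ^5*h)*u^24*v^6
      + (-23328000*h - 18429120*ζ*h + 26873856*ζ^2*h - 21601728*ζ^3*h + 19362240*ζ^4*h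
      + 5598720*ζ^5*h)*u^23*v^7 + (-9331200*h - 37744704*ζ*h + 51274944*ζ^2*h - 22254912*ζ^3*h
      + 42363648*ζ^4*h + 27527040*ζ^5*h)*u^22*v^8 + (-81461376*h + 2519424*ζ*h + 17915904*ζ^2*h
      + 80808192*ζ^3*h + 59486400*ζ^4*h - 4059072*ζ^5*h)*u^21*v^9 + (-134136000*h + 224975232*ζ*h
      + 142067520*ζ^2*h + 69470784*ζ^3*h + 39051072*ζ^4*h - 94898304*ζ^5*h)*u^20*v^10 + (54820800*h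
      + 238645440*ζ*h + 39844224*ζ^2*h - 194742144*ζ^3*h - 137168640*ζ^4*h - 89906112*ζ^5*h)*u^19*v^11
      + (93312000*h - 28226880*ζ*h - 275643648*ζ^2*h - 157277376*ζ^3*h - 137168640*ζ^4*h
      + 31726080*ζ^5*h)*u^18*v^12 + (-9331200*h - 47962368*ζ*h - 113467392*ζ^2*h + 59066496*ζ^3*h
      + 69097536*ζ^4*h + 69284160*ζ^5*h)*u^17*v^13 + (-1026432*h + 7138368*ζ*h + 5971968*ζ^2*h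
      + 2519424*ζ^3*h + 66951360*ζ^4*h + 8211456*ζ^5*h)*u^16*v^14
      + (5832000*h - 15443136*ζ*h - 10031040*ζ^2*h + 29066688*ζ^3*h + 41943744*ζ^4*h
      + 4292352*ζ^5*h)*u^15*v^15 + (-4665600*h - 35225280*ζ*h - 8024832*ζ^2*h
      + 53047872*ζ^3*h - 3265920*ζ^4*h + 10077696*ζ^5*h)*u^14*v^16 + (-5832000*h - 15863040*ζ*h
      + 7418304*ζ^2*h + 6205248*ζ^3*h - 21928320*ζ^4*h - 13296960*ζ^5*h)*u^13*v^17 + (-2332800*h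
      + 2052864*ζ*h + 27107136*ζ^2*h - 16003008*ζ^3*h - 3405888*ζ^4*h - 933120*ζ^5*h)*u^12*v^18
      + (1213056*h - 1119744*ζ*h + 1446336*ζ^2*h - 5692032*ζ^3*h - 10964160*ζ^4*h - 1772928*ζ^5*h)*u^11*v^19
      + (8304768*ζ*h + 2799360*ζ^2*h + 746496*ζ^3*h + 2939328*ζ^4*h - 3545856*ζ^5*h)*u^10*v^20 + (1166400*h
      + 933120*ζ*h + 2379456*ζ^2*h - 1679616*ζ^3*h + 2566080*ζ^4*h + 1492992*ζ^5*h)*u^9*v^21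
      + (466560*ζ*h - 559872*ζ^2*h + 1446336*ζ^3*h + 233280*ζ^4*h + 699840*ζ^5*h)*u^8*v^22
      + (-793152*ζ*h - 839808*ζ^2*h - 46656*ζ^3*h + 886464*ζ^4*h + 233280*ζ^5*h)*u^7*v^23
      + (-139968*h - 139968*ζ*h - 373248*ζ^2*h - 653184*ζ^3*h - 233280*ζ^4*h + 186624*ζ^5*h)*u^6*v^24
      + (46656*ζ*h + 93312*ζ^3*h - 186624*ζ^4*h - 93312*ζ^5*h)*u^5*v^25 + (-139968*ζ^2*h
      + 139968*ζ^3*h - 46656*ζ^5*h)*u^4*v^26) * hζ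
    + ((3888*ζ^2 + 38880*ζ^3 + 3888*ζ^4)*u^28*v^2 + (124416*ζ + 186624*ζ^2 + 171072*ζ^3 + 15552*ζ^4
      + 15552*ζ^5 + 46656*ζ^6)*u^27*v^3 + (155520 + 311040*ζ + 194400*ζ^2 + 69984*ζ^3 + 69984*ζ^4
      + 318816*ζ^5 + 342144*ζ^6 + 279936*ζ^7)*u^26*v^4 + (832032*ζ + 1632960*ζ^2 + 2239488*ζ^3 + 3351456*ζ^4
      + 4167936*ζ^5 + 2519424*ζ^6 + 1166400*ζ^7 + 559872*ζ^8)*u^25*v^5 + (1928448 + 5396544*ζ + 8215344*ζ^2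
      + 9564480*ζ^3 + 10552032*ζ^4 + 8569152*ζ^5 + 3938544*ζ^6 + 1119744*ζ^7 + 933120*ζ^8
      + 373248*ζ^9)*u^24*v^6 + (4665600 + 8794656*ζ + 3530304*ζ^2 + 6796224*ζ^3
      + 3483648*ζ^4 - 3149280*ζ^5 - 7278336*ζ^6 - 606528*ζ^7 - 4152384*ζ^8 - 559872*ζ^9)*u^23*v^7 + (1496880
      + 8382528*ζ - 1714608*ζ^2
      + 1446336*ζ^3 - 5602608*ζ^4 - 11671776*ζ^5 - 18693504*ζ^6 - 6718464*ζ^7 - 11757312*ζ^8 - 4572288*ζ^9)*u^22*v^8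
      + (16438464 + 16080768*ζ
      + 12869280*ζ^2 - 1220832*ζ^3 - 11811744*ζ^4 - 26337312*ζ^5 - 24338880*ζ^6 - 22768128*ζ^7 - 9331200*ζ^8
      + 1259712*ζ^9)*u^21*v^9
      + (26827200 - 16772832*ζ - 45995040*ζ^2 - 57799008*ζ^3 - 64136448*ζ^4 - 76422528*ζ^5 - 29634336*ζ^6 - 6065280*ζ^7
      + 5738688*ζ^8 + 17729280*ζ^9)*u^20*v^10
      + (-11842848 - 60450624*ζ - 71772480*ζ^2 - 39424320*ζ^3 - 17783712*ζ^4 + 3678048*ζ^5 + 49844160*ζ^6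
      + 61166016*ζ^7 + 31259520*ζ^8 + 14556672*ζ^9)*u^19*v^11 + (-18662400 - 14704416*ζ + 40135824*ζ^2
      + 71158176*ζ^3 + 92670480*ζ^4 + 112402080*ζ^5 + 108444096*ζ^6 + 52161408*ζ^7
      + 30046464*ζ^8 - 373248*ζ^9)*u^18*v^12 + (3149280 + 14370048*ζ + 40567392*ζ^2 + 38771136*ζ^3
      + 28110240*ζ^4 + 21368448*ζ^5 + 16562880*ζ^6 - 17775936*ζ^7 - 7838208*ζ^8 - 3592512*ζ^9)*u^17*v^13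
      + (299376 - 1034208*ζ - 641520*ζ^2 - 2130624*ζ^3 - 12534912*ζ^4 - 12651552*ζ^5 - 14957136*ζ^6 - 11710656*ζ^7 - 11664000*ζ^8 - 1259712*ζ^9)*u^16*v^14
      + (-1166400 + 497664*ζ
      + 3771360*ζ^2 - 4113504*ζ^3 - 13538016*ζ^4 - 6967296*ζ^5 - 14968800*ζ^6 - 13063680*ζ^7 - 5178816*ζ^8 - 933120*ζ^9)*u^15*v^15
      + (902016 + 7915968*ζ
      + 8079264*ζ^2 - 3732480*ζ^3 - 5178816*ζ^4 - 12566016*ζ^5 - 18825696*ζ^6 - 18988992*ζ^7 - 7931520*ζ^8 - 4385664*ζ^9)*u^14*v^16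
      + (1166400 + 5575392*ζ + 4393440*ζ^2 + 2317248*ζ^3 + 10598688*ζ^4 + 7115040*ζ^5 + 2706048*ζ^6
      + 6251904*ζ^7 + 3125952*ζ^8 + 46656*ζ^9)*u^13*v^17
      + (-136080 - 1088640*ζ - 7406640*ζ^2 - 6065280*ζ^3 - 5369328*ζ^4 - 5979744*ζ^5 - 6329664*ζ^6
      + 1259712*ζ^7 - 1353024*ζ^8 - 746496*ζ^9)*u^12*v^18 + (-287712 - 108864*ζ - 1010880*ζ^2 + 1298592*ζ^3
      + 3211488*ζ^4 + 3615840*ζ^5 + 5217696*ζ^6 + 4339008*ζ^7 + 2332800*ζ^8 + 419904*ζ^9)*u^11*v^19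
      + (-1329696*ζ - 2371680*ζ^2 - 2558304*ζ^3 - 2737152*ζ^4 - 3359232*ζ^5 - 474336*ζ^6 + 233280*ζ^7
      + 419904*ζ^8 + 933120*ζ^9)*u^10*v^20 + (7776 + 62208*ζ + 357696*ζ^2 + 1166400*ζ^3 + 458784*ζ^4
      + 1158624*ζ^5 + 435456*ζ^6 + 139968*ζ^7 + 46656*ζ^9)*u^9*v^21
      + (-334368*ζ - 318816*ζ^2 - 171072*ζ^3 - 878688*ζ^4 - 272160*ζ^5 + 62208*ζ^6 - 513216*ζ^7 + 93312*ζ^8
      + 46656*ζ^9)*u^8*v^22 + (62208*ζ + 326592*ζ^2 + 202176*ζ^3 + 217728*ζ^4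
      + 171072*ζ^5 - 46656*ζ^6 - 139968*ζ^7 - 186624*ζ^8 - 46656*ζ^9)*u^7*v^23 + (3888 + 7776*ζ
      + 97200*ζ^2 - 7776*ζ^3 + 38880*ζ^4 + 139968*ζ^5 + 3888*ζ^6 + 46656*ζ^7 - 46656*ζ^9)*u^6*v^24
      + (38880*ζ + 38880*ζ^2 + 38880*ζ^3 + 46656*ζ^4 - 31104*ζ^5 + 7776*ζ^6)*u^5*v^25 + (3888*ζ^2
      + 38880*ζ^4 + 3888*ζ^6)*u^4*v^26) * h5

theorem klein_chordY_c_3_1_e1 (ζ h u v : R) (hζ : ζ ^ 4 + ζ ^ 3 + ζ ^ 2 + ζ + 1 = 0) (h5 : 5 * h = 1) :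
    (-(kleinY_1_4 ζ h u v) + -(kleinY_2_4 ζ h u v)) * (kleinX_2_4 ζ h u v - kleinX_1_0 ζ h u v) = -(-(kleinY_2_4 ζ h u v) - kleinY_1_0 ζ h u v) * (kleinX_1_4 ζ h u v - kleinX_2_4 ζ h u v) := by
  unfold kleinX_2_4 kleinY_2_4 kleinX_1_0 kleinY_1_0 kleinX_1_4 kleinY_1_4
  linear_combination (exp := 1) ((46656*h + 31104*ζ*h - 7776*ζ^2*h)*u^23*v^2 + (-23328*ζ*h - 46656*ζ^2*h)*u^22*v^3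
      + (77760*h - 77760*ζ*h - 38880*ζ^2*h)*u^21*v^4 + (388800*h - 388800*ζ*h - 583200*ζ^2*h)*u^20*v^5
      + (-972000*h - 1827360*ζ*h - 972000*ζ^2*h)*u^19*v^6 + (-1228608*h - 1376352*ζ*h
      + 1772928*ζ^2*h)*u^18*v^7 + (-202176*ζ*h + 2395008*ζ^2*h)*u^17*v^8
      + (-3965760*h - 894240*ζ*h - 544320*ζ^2*h)*u^16*v^9 + (-3499200*h + 3499200*ζ*h
      + 1360800*ζ^2*h)*u^15*v^10 + (1944000*h + 5132160*ζ*h + 1944000*ζ^2*h)*u^14*v^11 + (1197504*h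
      + 1485216*ζ*h + 46656*ζ^2*h)*u^13*v^12 + (606528*ζ*h - 1003104*ζ^2*h)*u^12*v^13
      + (349920*h - 349920*ζ*h - 1244160*ζ^2*h)*u^11*v^14 + (583200*h - 583200*ζ*h - 388800*ζ^2*h)*u^10*v^15
      + (-544320*ζ*h)*u^9*v^16 + (-287712*h - 139968*ζ*h + 171072*ζ^2*h)*u^8*v^17 + (-225504*ζ*h
      + 93312*ζ^2*h)*u^7*v^18 + (-38880*h + 38880*ζ*h + 116640*ζ^2*h)*u^6*v^19 + 38880*ζ*h*u^4*v^21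
      + (7776*h - 7776*ζ*h - 7776*ζ^2*h)*u^3*v^22 + (15552*ζ*h - 7776*ζ^2*h)*u^2*v^23) * hζ
    + ((-324*ζ - 324*ζ^2)*u^24*v + (-1296 - 1296*ζ + 6480*ζ^3)*u^23*v^2 + (20412*ζ + 23328*ζ^2
      + 20412*ζ^3)*u^22*v^3 + (-4860 - 4860*ζ - 20412*ζ^2 - 62208*ζ^3 - 62208*ζ^4 - 15552*ζ^5)*u^21*v^4
      + (-16200 + 77760*ζ^2 + 77760*ζ^3 + 116640*ζ^4 + 194400*ζ^5 + 116640*ζ^6)*u^20*v^5 + (194400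
      + 505116*ζ + 699516*ζ^2 + 777600*ζ^3 + 793152*ζ^4 + 583200*ζ^5 + 194400*ζ^6)*u^19*v^6 + (240084
      + 590004*ζ + 349920*ζ^2 + 348948*ζ^3 + 349920*ζ^4 - 349920*ζ^6)*u^18*v^7
      + (46656*ζ - 334368*ζ^2 - 536544*ζ^3 - 583200*ζ^4 - 583200*ζ^5 - 583200*ζ^6)*u^17*v^8 + (633420
      + 633420*ζ + 493452*ζ^2 + 295488*ζ^3 + 295488*ζ^4 - 139968*ζ^5)*u^16*v^9
      + (486000 - 699840*ζ^2 - 699840*ζ^3 - 272160*ζ^4 - 972000*ζ^5 - 272160*ζ^6)*u^15*v^10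
      + (-388800 - 1255500*ζ - 1644300*ζ^2 - 1555200*ζ^3 - 1376352*ζ^4 - 1166400*ζ^5 - 388800*ζ^6)*u^14*v^11
      + (-108540 - 341820*ζ - 233280*ζ^2 + 140292*ζ^3 - 233280*ζ^4 + 233280*ζ^6)*u^13*v^12 + (-73224*ζ
      + 85536*ζ^2 + 121176*ζ^3 + 194400*ζ^4 + 194400*ζ^5 + 194400*ζ^6)*u^12*v^13 + (-53460 - 53460*ζ
      + 304236*ζ^2 + 147744*ζ^3 + 147744*ζ^4 + 357696*ζ^5)*u^11*v^14 + (-16200 + 116640*ζ^2 + 116640*ζ^3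
      + 77760*ζ^4 + 194400*ζ^5 + 77760*ζ^6)*u^10*v^15 + (48276*ζ + 48276*ζ^2 + 69984*ζ^4)*u^9*v^16 + (16524
      + 55404*ζ + 38880*ζ^2 - 6804*ζ^3 + 38880*ζ^4 - 38880*ζ^6)*u^8*v^17 + (19440*ζ + 7776*ζ^2
      + 19440*ζ^3)*u^7*v^18 + (1620 + 1620*ζ - 29484*ζ^2 - 7776*ζ^3 - 7776*ζ^4 - 31104*ζ^5)*u^6*v^19
      + (-1296*ζ - 1296*ζ^2 - 7776*ζ^4)*u^4*v^21 + (-324 - 324*ζ - 324*ζ^3)*u^3*v^22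
      + (-324*ζ - 324*ζ^3)*u^2*v^23) * h5

theorem klein_diff_c_3_1_e1 (ζ h u v : R) (hζ : ζ ^ 4 + ζ ^ 3 + ζ ^ 2 + ζ + 1 = 0) (h5 : 5 * h = 1) :
    (kleinX_2_4 ζ h u v - kleinX_1_0 ζ h u v) * ((-1 - 2*ζ - 3*ζ^2 - 4*ζ^3)*u^13*v + (6 + 12*ζ + 8*ζ^2 + 4*ζ^3)*u^12*v^2 + (-7 - 9*ζ + 9*ζ^2
        + 7*ζ^3)*u^11*v^3 + (-7 - 19*ζ - 26*ζ^2 - 13*ζ^3)*u^10*v^4 + (30 + 35*ζ + 15*ζ^2 - 5*ζ^3)*u^9*v^5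
        + (-26 - 2*ζ + 22*ζ^2 - 4*ζ^3)*u^8*v^6 + (11 + 22*ζ - 2*ζ^2 + 24*ζ^3)*u^7*v^7 + (13 - 44*ζ
        + 44*ζ^2 - 13*ζ^3)*u^6*v^8 + (-22 + 26*ζ + 4*ζ^2 + 2*ζ^3)*u^5*v^9 + (40 + 5*ζ + 20*ζ^2
        + 35*ζ^3)*u^4*v^10 + (-19 - 13*ζ - 7*ζ^2 - 26*ζ^3)*u^3*v^11 + (4 + 8*ζ - 3*ζ^2 + 11*ζ^3)*u^2*v^12
        + (2 - ζ + ζ^2 - 2*ζ^3)*u*v^13 + (-3 - ζ - 4*ζ^2 - 2*ζ^3)*v^14)
      = 2 ^ 2 * 3 ^ 2 * 5 ^ 1 * kleinF u v ^ 2 := by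
  unfold kleinX_2_4 kleinX_1_0 kleinF
  linear_combination (exp := 1) ((-180 + 144*ζ)*u^22*v^2 + (72 + 360*ζ + 288*ζ^2)*u^21*v^3 + (-432 - 1008*ζ - 720*ζ^2)*u^20*v^4
      + (324 - 612*ζ - 1512*ζ^2)*u^19*v^5 + (1584 + 5364*ζ + 3132*ζ^2)*u^18*v^6 + (-7380 - 288*ζ
      + 1476*ζ^2)*u^17*v^7 + (648 - 6480*ζ - 4788*ζ^2)*u^16*v^8 + (4392 + 8028*ζ - 3960*ζ^2)*u^15*v^9
      + (-5364 + 1872*ζ + 1692*ζ^2)*u^14*v^10 + (3816 + 396*ζ + 7308*ζ^2)*u^13*v^11 + (-23040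
      + 15192*ζ - 6336*ζ^2)*u^12*v^12 + (-1656 + 1800*ζ + 6696*ζ^2)*u^11*v^13 + (6516 - 216*ζ
      + 8280*ζ^2)*u^10*v^14 + (-4032 + 756*ζ - 8424*ζ^2)*u^9*v^15 + (1728 - 2052*ζ + 4284*ζ^2)*u^8*v^16
      + (2880 - 3420*ζ - 2268*ζ^2)*u^7*v^17 + (144 + 1440*ζ - 1044*ζ^2)*u^6*v^18 + (-144 - 1116*ζ
      + 540*ζ^2)*u^5*v^19 + (-72 + 396*ζ - 324*ζ^2)*u^4*v^20 + (108 + 108*ζ + 144*ζ^2)*u^3*v^21 + (-180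
      + 72*ζ + 72*ζ^2)*u^2*v^22) * hζ

theorem klein_chordX_f_3_2 (ζ h u v : R) (hζ : ζ ^ 4 + ζ ^ 3 + ζ ^ 2 + ζ + 1 = 0) (h5 : 5 * h = 1) :
    (kleinX_1_3 ζ h u v + kleinX_1_0 ζ h u v + kleinX_2_3 ζ h u v) * (kleinX_1_3 ζ h u v - kleinX_1_0 ζ h u v) ^ 2 = (-(kleinY_1_3 ζ h u v) - -(kleinY_1_0 ζ h u v)) ^ 2 := by
  unfold kleinX_1_3 kleinY_1_3 kleinX_1_0 kleinY_1_0 kleinX_2_3
  linear_combination (exp := 1) ((-139968*h - 186624*ζ*h - 326592*ζ^2*h - 186624*ζ^3*h - 93312*ζ^4*h - 46656*ζ^5*h)*u^28*v^2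
      + (233280*h + 699840*ζ*h + 559872*ζ^2*h + 933120*ζ^3*h + 466560*ζ^4*h + 46656*ζ^5*h)*u^27*v^3
      + (1073088*ζ^2*h + 1866240*ζ^3*h + 1306368*ζ^4*h + 933120*ζ^5*h)*u^26*v^4
      + (933120*h - 4199040*ζ*h - 699840*ζ^2*h - 4665600*ζ^3*h - 3079296*ζ^4*h + 2472768*ζ^5*h)*u^25*v^5
      + (6998400*h - 2332800*ζ*h + 17962560*ζ^2*h + 4665600*ζ^3*h - 6158592*ζ^4*h + 4478976*ζ^5*h)*u^24*v^6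
      + (2286144*h - 6671808*ζ*h + 18942336*ζ^2*h + 17356032*ζ^3*h - 1119744*ζ^4*h + 3639168*ζ^5*h)*u^23*v^7
      + (-16562880*h
      + 2799360*ζ*h - 73996416*ζ^2*h - 38257920*ζ^3*h - 1399680*ζ^4*h - 10870848*ζ^5*h)*u^22*v^8
      + (-93312000*h + 69984000*ζ*h - 127090944*ζ^2*h - 29859840*ζ^3*h
      + 30139776*ζ^4*h - 35691840*ζ^5*h)*u^21*v^9 + (-209718720*h + 159330240*ζ*h - 87946560*ζ^2*h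
      + 41990400*ζ^3*h + 56360448*ζ^4*h - 59439744*ζ^5*h)*u^20*v^10 + (-173793600*h
      + 155131200*ζ*h - 175426560*ζ^2*h - 88646400*ζ^3*h - 30979584*ζ^4*h - 74556288*ζ^5*h)*u^19*v^11
      + (-73343232*h - 21974976*ζ*h - 245783808*ζ^2*h - 136982016*ζ^3*h - 61026048*ζ^4*h - 41710464*ζ^5*h)*u^18*v^12
      + (-24027840*h - 107075520*ζ*h - 88506432*ζ^2*h + 25194240*ζ^3*h + 20528640*ζ^4*h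
      + 15116544*ζ^5*h)*u^17*v^13 + (40824000*h + 5832000*ζ*h + 68444352*ζ^2*h + 50388480*ζ^3*h
      + 21088512*ζ^4*h + 23794560*ζ^5*h)*u^16*v^14 + (52021440*h + 60419520*ζ*h + 121072320*ζ^2*h
      + 51321600*ζ^3*h + 15676416*ζ^4*h + 24354432*ζ^5*h)*u^15*v^15 + (27993600*h - 9331200*ζ*h
      + 60419520*ζ^2*h + 41990400*ζ^3*h + 14090112*ζ^4*h + 21415104*ζ^5*h)*u^14*v^16
      + (7978176*h - 30186432*ζ*h - 3545856*ζ^2*h - 27620352*ζ^3*h - 19408896*ζ^4*h - 3639168*ζ^5*h)*u^13*v^17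
      + (-4199040*h - 6765120*ζ*h - 12317184*ζ^2*h - 21461760*ζ^3*h - 10264320*ζ^4*h - 1492992*ζ^5*h)*u^12*v^18
      + (-1912896*ζ^2*h + 3732480*ζ^3*h + 2052864*ζ^4*h)*u^11*v^19 + (-1632960*h
      + 4432320*ζ*h - 1399680*ζ^2*h + 1026432*ζ^4*h - 5645376*ζ^5*h)*u^10*v^20
      + (-233280*ζ^2*h - 746496*ζ^4*h + 839808*ζ^5*h)*u^9*v^21 + (-1073088*h + 513216*ζ*h - 1726272*ζ^2*h
      + 746496*ζ^3*h + 1772928*ζ^4*h - 46656*ζ^5*h)*u^8*v^22 + (-606528*ζ^2*h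
      + 466560*ζ^4*h - 419904*ζ^5*h)*u^7*v^23 + (606528*ζ^2*h - 559872*ζ^4*h + 466560*ζ^5*h)*u^6*v^24
      + (186624*ζ^4*h - 93312*ζ^5*h)*u^5*v^25 + (-93312*ζ^4*h + 46656*ζ^5*h)*u^4*v^26) * hζ
    + ((3888 - 31104*ζ - 23328*ζ^2 - 23328*ζ^3 - 27216*ζ^4 + 7776*ζ^5 + 3888*ζ^6)*u^28*v^2
      + (-46656 - 186624*ζ - 202176*ζ^2 - 388800*ζ^3 - 637632*ζ^4 - 466560*ζ^5 - 497664*ζ^6 - 326592*ζ^7 - 139968*ζ^8 - 46656*ζ^9)*u^27*v^3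
      + (-69984*ζ^2 - 443232*ζ^3 - 1034208*ζ^4 - 730944*ζ^5 - 1314144*ζ^6 - 839808*ζ^7 - 466560*ζ^8 - 279936*ζ^9)*u^26*v^4
      + (-427680 - 311040*ζ - 746496*ζ^2 - 186624*ζ^3 - 85536*ζ^4 + 1010880*ζ^5 - 474336*ζ^6
      + 513216*ζ^7 - 46656*ζ^8 - 699840*ζ^9)*u^25*v^5
      + (-1399680 - 933120*ζ - 4043520*ζ^2 - 4976640*ζ^3 - 4739472*ζ^4 - 2916000*ζ^5 - 4972752*ζ^6 - 699840*ζ^7
      + 233280*ζ^8 - 1166400*ζ^9)*u^24*v^6 + (-412128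
      + 1057536*ζ - 1982880*ζ^2 - 5715360*ζ^3 - 7029504*ζ^4 - 6562944*ζ^5 - 9160128*ζ^6 - 4712256*ζ^7 - 979776*ζ^8 - 1073088*ζ^9)*u^23*v^7
      + (2709936 + 342144*ζ + 13763520*ζ^2 + 20481984*ζ^3 + 20431440*ζ^4 + 21049632*ζ^5 + 21675600*ζ^6
      + 8118144*ζ^7 + 1399680*ζ^8 + 1586304*ζ^9)*u^22*v^8 + (18662400 + 4665600*ζ + 30054240*ζ^2
      + 36026208*ζ^3 + 30240864*ζ^4 + 20077632*ζ^5 + 31780512*ζ^6 + 7045056*ζ^7 + 1073088*ζ^8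
      + 6205248*ζ^9)*u^21*v^9 + (41912640 + 9953280*ζ + 26640576*ζ^2
      + 14883264*ζ^3 - 1220832*ζ^4 - 30870720*ζ^5 - 1376352*ζ^6 - 12410496*ζ^7 - 653184*ζ^8
      + 9797760*ζ^9)*u^20*v^10 + (34758720 + 3732480*ζ + 40085280*ζ^2 + 57814560*ζ^3 + 63304416*ζ^4
      + 47822400*ζ^5 + 71469216*ζ^6 + 37558080*ζ^7 + 19828800*ζ^8 + 11897280*ζ^9)*u^19*v^11 + (14762736
      + 19440000*ζ + 70466112*ζ^2 + 99392832*ζ^3 + 113805648*ζ^4 + 112246560*ζ^5 + 100104336*ζ^6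
      + 47635776*ζ^7 + 18709056*ζ^8 + 5738688*ζ^9)*u^18*v^12 + (3522528 + 21088512*ζ + 33312384*ζ^2
      + 18009216*ζ^3
      + 2356128*ζ^4 - 7791552*ζ^5 - 23631264*ζ^6 - 29439936*ζ^7 - 14136768*ζ^8 - 4898880*ζ^9)*u^17*v^13
      + (-8164800 - 9331200*ζ - 23553504*ζ^2 - 33631200*ζ^3 - 38526192*ζ^4 - 36243936*ζ^5 - 32880816*ζ^6 - 17216064*ζ^7 - 7138368*ζ^8 - 3685824*ζ^9)*u^16*v^14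
      + (-9525600 - 18973440*ζ - 39284352*ζ^2 - 40963968*ζ^3 - 34478784*ζ^4 - 26593920*ζ^5 - 18304704*ζ^6 - 3172608*ζ^7 - 1492992*ζ^8 - 2799360*ζ^9)*u^15*v^15
      + (-5598720 - 3732480*ζ - 15007680*ζ^2 - 23405760*ζ^3 - 26850528*ζ^4 - 24338880*ζ^5 - 27550368*ζ^6 - 17029440*ζ^7 - 8631360*ζ^8 - 4432320*ζ^9)*u^14*v^16
      + (-1741824 + 3856896*ζ + 3755808*ζ^2 + 7488288*ζ^3 + 8110368*ζ^4 + 8600256*ζ^5 + 5839776*ζ^6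
      + 8304768*ζ^7 + 4572288*ζ^8 + 1586304*ζ^9)*u^13*v^17 + (470448 + 715392*ζ + 2379456*ζ^2 + 7604928*ζ^3
      + 11426832*ζ^4 + 11811744*ζ^5 + 11597904*ζ^6 + 8631360*ζ^7 + 3405888*ζ^8 + 886464*ζ^9)*u^12*v^18
      + (381024*ζ^2 - 365472*ζ^3 - 342144*ζ^4
      + 528768*ζ^5 - 948672*ζ^6 - 1632960*ζ^7 - 886464*ζ^8 - 606528*ζ^9)*u^11*v^19 + (622080 + 622080*ζ
      + 1306368*ζ^2 + 559872*ζ^3 - 800928*ζ^4 - 1477440*ζ^5 - 256608*ζ^6 - 606528*ζ^7 + 139968*ζ^8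
      + 1166400*ζ^9)*u^10*v^20 + (194400*ζ^2 + 194400*ζ^3 - 7776*ζ^4 - 233280*ζ^5 - 241056*ζ^6 + 233280*ζ^7
      + 233280*ζ^8 - 233280*ζ^9)*u^9*v^21 + (155520 - 124416*ζ - 7776*ζ^2 - 7776*ζ^3 + 272160*ζ^4
      + 264384*ζ^5 + 349920*ζ^6 - 326592*ζ^7 - 326592*ζ^8 - 46656*ζ^9)*u^8*v^22 + (62208*ζ^2 + 62208*ζ^3
      + 124416*ζ^4 + 186624*ζ^5 + 171072*ζ^6 - 46656*ζ^7 - 46656*ζ^8 + 46656*ζ^9)*u^7*v^23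
      + (-62208*ζ^2 - 62208*ζ^3 - 120528*ζ^4 - 147744*ζ^5 - 167184*ζ^6 + 46656*ζ^7
      + 46656*ζ^8 - 46656*ζ^9)*u^6*v^24 + (-7776*ζ^4 - 77760*ζ^5 - 7776*ζ^6)*u^5*v^25 + (3888*ζ^4
      + 38880*ζ^5 + 3888*ζ^6)*u^4*v^26) * h5

theorem klein_chordY_f_3_2 (ζ h u v : R) (hζ : ζ ^ 4 + ζ ^ 3 + ζ ^ 2 + ζ + 1 = 0) (h5 : 5 * h = 1) :
    (-(kleinY_2_3 ζ h u v) + -(kleinY_1_3 ζ h u v)) * (kleinX_1_3 ζ h u v - kleinX_1_0 ζ h u v) = -(-(kleinY_1_3 ζ h u v) - -(kleinY_1_0 ζ h u v)) * (kleinX_2_3 ζ h u v - kleinX_1_3 ζ h u v) := by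
  unfold kleinX_1_3 kleinY_1_3 kleinX_1_0 kleinY_1_0 kleinX_2_3 kleinY_2_3
  linear_combination (exp := 1) ((15552*h + 15552*ζ^2*h)*u^24*v + (-38880*ζ*h + 38880*ζ^2*h)*u^23*v^2 + (-155520*h
      + 233280*ζ*h - 233280*ζ^2*h)*u^21*v^4 + (-972000*h + 194400*ζ*h - 972000*ζ^2*h)*u^20*v^5 + (-824256*h
      + 933120*ζ*h - 940896*ζ^2*h)*u^19*v^6 + (1205280*ζ*h + 349920*ζ^2*h)*u^18*v^7
      + (-2916000*ζ*h)*u^17*v^8 + (3071520*h - 2371680*ζ*h + 2177280*ζ^2*h)*u^16*v^9 + (4860000*h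
      + 2138400*ζ*h + 4860000*ζ^2*h)*u^15*v^10 + (1656288*h - 2293920*ζ*h + 412128*ζ^2*h)*u^14*v^11
      + (-2410560*ζ*h - 894240*ζ^2*h)*u^13*v^12 + 972000*ζ*h*u^12*v^13
      + (-699840*h - 1088640*ζ*h - 1049760*ζ^2*h)*u^11*v^14
      + (-972000*h - 194400*ζ*h - 972000*ζ^2*h)*u^10*v^15 + (-147744*h + 894240*ζ*h + 396576*ζ^2*h)*u^9*v^16
      + (311040*ζ*h + 77760*ζ^2*h)*u^8*v^17 + (77760*h + 77760*ζ*h + 116640*ζ^2*h)*u^6*v^19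
      + (15552*h - 77760*ζ*h - 23328*ζ^2*h)*u^4*v^21) * hζ
    + ((-324 - 324*ζ^2 - 324*ζ^3)*u^24*v + (7776*ζ + 6480*ζ^2 + 6480*ζ^3 + 7776*ζ^4)*u^23*v^2
      + (-20412*ζ^2 - 20412*ζ^3 - 23328*ζ^5)*u^22*v^3 + (4860 + 4860*ζ^2 + 4860*ζ^3 + 46656*ζ^4 - 15552*ζ^5
      + 46656*ζ^6)*u^21*v^4 + (93960 + 155520*ζ + 311040*ζ^2 + 311040*ζ^3 + 349920*ζ^4 + 155520*ζ^5
      + 194400*ζ^6)*u^20*v^5 + (116316 + 116316*ζ^2 + 116316*ζ^3 + 194400*ζ^4 - 15552*ζ^5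
      + 194400*ζ^6)*u^19*v^6 + (-241056*ζ - 350892*ζ^2 - 350892*ζ^3 - 241056*ζ^4 - 349920*ζ^5)*u^18*v^7
      + (583200*ζ + 536544*ζ^2 + 536544*ζ^3 + 583200*ζ^4 + 334368*ζ^5)*u^17*v^8
      + (-633420 - 633420*ζ^2 - 633420*ζ^3 - 435456*ζ^4 - 139968*ζ^5 - 435456*ζ^6)*u^16*v^9
      + (-1185840 - 1399680*ζ - 2799360*ζ^2 - 2799360*ζ^3 - 2371680*ζ^4 - 1399680*ζ^5 - 972000*ζ^6)*u^15*v^10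
      + (-477900 - 477900*ζ^2 - 477900*ζ^3 - 388800*ζ^4 - 178848*ζ^5 - 388800*ζ^6)*u^14*v^11 + (482112*ζ
      + 606852*ζ^2 + 606852*ζ^3 + 482112*ζ^4 + 233280*ζ^5)*u^13*v^12
      + (-194400*ζ - 121176*ζ^2 - 121176*ζ^3 - 194400*ζ^4 - 85536*ζ^5)*u^12*v^13 + (53460 + 53460*ζ^2
      + 53460*ζ^3 + 209952*ζ^4 + 357696*ζ^5 + 209952*ζ^6)*u^11*v^14 + (132840 + 233280*ζ + 466560*ζ^2
      + 466560*ζ^3 + 427680*ζ^4 + 233280*ζ^5 + 194400*ζ^6)*u^10*v^15 + (48276 + 48276*ζ^2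
      + 48276*ζ^3 - 69984*ζ^5)*u^9*v^16
      + (-62208*ζ - 84564*ζ^2 - 84564*ζ^3 - 62208*ζ^4 - 38880*ζ^5)*u^8*v^17
      + (-19440*ζ^2 - 19440*ζ^3 - 7776*ζ^5)*u^7*v^18
      + (-1620 - 1620*ζ^2 - 1620*ζ^3 - 23328*ζ^4 - 31104*ζ^5 - 23328*ζ^6)*u^6*v^19
      + (-1296 - 1296*ζ^2 - 1296*ζ^3 + 7776*ζ^5)*u^4*v^21 + (-324*ζ^2 - 324*ζ^3)*u^3*v^22 + (324*ζ^2
      + 324*ζ^3)*u^2*v^23) * h5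

theorem klein_diff_f_3_2 (ζ h u v : R) (hζ : ζ ^ 4 + ζ ^ 3 + ζ ^ 2 + ζ + 1 = 0) (h5 : 5 * h = 1) :
    (kleinX_1_3 ζ h u v - kleinX_1_0 ζ h u v) * ((-2 - 4*ζ - ζ^2 - 3*ζ^3)*u^13*v + (2 + 4*ζ - 4*ζ^2 + 8*ζ^3)*u^12*v^2
        + (-9 - 18*ζ - 2*ζ^2 - 16*ζ^3)*u^11*v^3 + (6 + 12*ζ - 7*ζ^2 + 19*ζ^3)*u^10*v^4 + (-15 - 30*ζ
        + 5*ζ^2 - 35*ζ^3)*u^9*v^5 + (-2 - 4*ζ - 26*ζ^2 + 22*ζ^3)*u^8*v^6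
        + (-13 - 26*ζ - 24*ζ^2 - 2*ζ^3)*u^7*v^7 + (-44 - 88*ζ - 57*ζ^2 - 31*ζ^3)*u^6*v^8
        + (-24 - 48*ζ - 22*ζ^2 - 26*ζ^3)*u^5*v^9 + (-20 - 40*ζ - 35*ζ^2 - 5*ζ^3)*u^4*v^10
        + (-13 - 26*ζ - 19*ζ^2 - 7*ζ^3)*u^3*v^11 + (-7 - 14*ζ - 11*ζ^2 - 3*ζ^3)*u^2*v^12 + (-1 - 2*ζ - 3*ζ^2
        + ζ^3)*u*v^13 + (-1 - 2*ζ - 3*ζ^2 + ζ^3)*v^14)
      = 2 ^ 2 * 3 ^ 2 * 5 ^ 1 * kleinF u v ^ 2 := by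
  unfold kleinX_1_3 kleinX_1_0 kleinF
  linear_combination (exp := 1) ((-252 - 36*ζ - 108*ζ^2)*u^22*v^2 + (72 + 216*ζ + 72*ζ^2)*u^21*v^3
      + (-324 - 972*ζ - 324*ζ^2)*u^20*v^4 + (-144 - 432*ζ - 144*ζ^2)*u^19*v^5
      + (-180 - 540*ζ - 180*ζ^2)*u^18*v^6 + (-5508 - 684*ζ - 2340*ζ^2)*u^17*v^7 + (468 + 1404*ζ
      + 468*ζ^2)*u^16*v^8 + (-3636 - 10908*ζ - 3636*ζ^2)*u^15*v^9 + (-1656 - 4968*ζ - 1656*ζ^2)*u^14*v^10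
      + (-1980 - 5940*ζ - 1980*ζ^2)*u^13*v^11 + (-29664 - 3312*ζ - 12528*ζ^2)*u^12*v^12
      + (-3636 - 10908*ζ - 3636*ζ^2)*u^11*v^13 + (-468 - 1404*ζ - 468*ζ^2)*u^10*v^14
      + (-648 - 1944*ζ - 648*ζ^2)*u^9*v^15 + (180 + 540*ζ + 180*ζ^2)*u^8*v^16 + (4716 - 1692*ζ
      + 1548*ζ^2)*u^7*v^17 + (324 + 972*ζ + 324*ζ^2)*u^6*v^18 + (72 + 216*ζ + 72*ζ^2)*u^5*v^19 + (72 + 216*ζ
      + 72*ζ^2)*u^4*v^20 + (-180 + 180*ζ - 36*ζ^2)*u^2*v^22) * hζ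

theorem klein_chordX_c_3_3_e1 (ζ h u v : R) (hζ : ζ ^ 4 + ζ ^ 3 + ζ ^ 2 + ζ + 1 = 0) (h5 : 5 * h = 1) :
    (kleinX_2_2 ζ h u v + kleinX_1_0 ζ h u v + kleinX_1_2 ζ h u v) * (kleinX_2_2 ζ h u v - kleinX_1_0 ζ h u v) ^ 2 = (-(kleinY_2_2 ζ h u v) - kleinY_1_0 ζ h u v) ^ 2 := by
  unfold kleinX_2_2 kleinY_2_2 kleinX_1_0 kleinY_1_0 kleinX_1_2
  linear_combination (exp := 1) ((-46656*ζ^2 + 46656*ζ^3 + 46656*ζ^4 - 46656*ζ^5)*u^27*v^3 + (-139968*ζ - 186624*ζ^2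
      + 466560*ζ^3 - 93312*ζ^4 - 46656*ζ^5)*u^26*v^4 + (-933120*ζ + 373248*ζ^2 + 326592*ζ^3 - 326592*ζ^4
      + 559872*ζ^5)*u^25*v^5 + (-839808 - 2286144*ζ - 279936*ζ^2 - 2566080*ζ^3 + 886464*ζ^4
      + 886464*ζ^5)*u^24*v^6
      + (-2799360 - 3405888*ζ - 4665600*ζ^2 - 5925312*ζ^3 - 186624*ζ^4 - 1213056*ζ^5)*u^23*v^7
      + (-2752704 - 2985984*ζ - 5412096*ζ^2 - 8118144*ζ^3 - 3872448*ζ^4 - 2519424*ζ^5)*u^22*v^8 + (-139968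
      + 3965760*ζ + 513216*ζ^2 - 1912896*ζ^3 + 5225472*ζ^4 - 2519424*ζ^5)*u^21*v^9 + (933120 + 10590912*ζ
      + 6765120*ζ^2 + 12643776*ζ^3 + 6391872*ζ^4 - 8631360*ζ^5)*u^20*v^10
      + (-3359232 - 2612736*ζ - 9284544*ζ^2 - 5365440*ζ^3 - 13716864*ζ^4 - 9284544*ζ^5)*u^19*v^11
      + (-6298560 - 15489792*ζ - 29393280*ζ^2 - 14603328*ζ^3 + 7884864*ζ^4 + 1446336*ζ^5)*u^18*v^12
      + (-2146176 - 3545856*ζ - 6531840*ζ^2 + 27760320*ζ^3 + 27713664*ζ^4 - 2426112*ζ^5)*u^17*v^13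
      + (-4992192 - 4572288*ζ - 7698240*ζ^2 + 8444736*ζ^3 - 13950144*ζ^4 - 8024832*ζ^5)*u^16*v^14
      + (-4898880 - 13390272*ζ - 16656192*ζ^2 - 22114944*ζ^3 - 11150784*ζ^4 + 4525632*ζ^5)*u^15*v^15
      + (1353024 + 2892672*ζ + 5505408*ζ^2 + 6765120*ζ^3 + 12737088*ζ^4 + 3172608*ζ^5)*u^14*v^16 + (466560
      + 3685824*ζ + 4432320*ζ^2 + 46656*ζ^3 - 9471168*ζ^4 - 4059072*ζ^5)*u^13*v^17 + (793152 - 1306368*ζ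
      + 419904*ζ^2 - 5785344*ζ^3 - 5225472*ζ^4 + 4105728*ζ^5)*u^12*v^18 + (1819584 + 3172608*ζ + 6111936*ζ^2
      + 4572288*ζ^3 + 7744896*ζ^4 + 3172608*ζ^5)*u^11*v^19 + (233280 + 653184*ζ
      + 326592*ζ^2 - 233280*ζ^3 - 653184*ζ^4 - 2426112*ζ^5)*u^10*v^20
      + (-46656 - 373248*ζ - 793152*ζ^2 - 699840*ζ^3 - 1026432*ζ^4 + 373248*ζ^5)*u^9*v^21 + (186624*ζ
      + 233280*ζ^2 + 746496*ζ^3 + 559872*ζ^4 + 373248*ζ^5)*u^8*v^22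
      + (-139968 - 139968*ζ - 653184*ζ^2 - 279936*ζ^3 - 186624*ζ^4 - 933120*ζ^5)*u^7*v^23
      + (-46656 - 46656*ζ - 46656*ζ^2 - 93312*ζ^3)*u^6*v^24 + (-46656*ζ + 46656*ζ^2 + 46656*ζ^3
      + 186624*ζ^5)*u^5*v^25) * hζ

theorem klein_chordY_c_3_3_e1 (ζ h u v : R) (hζ : ζ ^ 4 + ζ ^ 3 + ζ ^ 2 + ζ + 1 = 0) (h5 : 5 * h = 1) :
    (-(kleinY_1_2 ζ h u v) + -(kleinY_2_2 ζ h u v)) * (kleinX_2_2 ζ h u v - kleinX_1_0 ζ h u v) = -(-(kleinY_2_2 ζ h u v) - kleinY_1_0 ζ h u v) * (kleinX_1_2 ζ h u v - kleinX_2_2 ζ h u v) := by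
  unfold kleinX_2_2 kleinY_2_2 kleinX_1_0 kleinY_1_0 kleinX_1_2 kleinY_1_2
  linear_combination (exp := 1) ((7776*ζ - 7776*ζ^2)*u^22*v^3 + (-23328*ζ^2)*u^21*v^4 + (46656 + 46656*ζ + 77760*ζ^2)*u^20*v^5
      + (77760 + 217728*ζ + 77760*ζ^2)*u^19*v^6 + (155520*ζ - 233280*ζ^2)*u^18*v^7
      + (116640 - 85536*ζ - 108864*ζ^2)*u^17*v^8 + (194400 - 233280*ζ - 248832*ζ^2)*u^16*v^9 + (147744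
      + 147744*ζ - 272160*ζ^2)*u^15*v^10 + (272160 + 637632*ζ + 272160*ζ^2)*u^14*v^11
      + (-233280*ζ - 622080*ζ^2)*u^13*v^12 + (-272160 - 334368*ζ - 248832*ζ^2)*u^12*v^13
      + (-388800 - 38880*ζ + 108864*ζ^2)*u^11*v^14 + (15552 + 15552*ζ - 233280*ζ^2)*u^10*v^15 + (116640
      + 279936*ζ + 116640*ζ^2)*u^9*v^16 + (-155520*ζ + 233280*ζ^2)*u^8*v^17 + (77760 - 23328*ζ
      + 23328*ζ^2)*u^7*v^18 + (38880*ζ - 7776*ζ^2)*u^6*v^19 + (-23328 - 23328*ζ - 38880*ζ^2)*u^5*v^20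
      + 7776*ζ*u^4*v^21) * hζ

theorem klein_diff_c_3_3_e1 (ζ h u v : R) (hζ : ζ ^ 4 + ζ ^ 3 + ζ ^ 2 + ζ + 1 = 0) (h5 : 5 * h = 1) :
    (kleinX_2_2 ζ h u v - kleinX_1_0 ζ h u v) * ((-3 - ζ - 4*ζ^2 - 2*ζ^3)*u^13*v + (-2 - 4*ζ + 4*ζ^2 - 8*ζ^3)*u^12*v^2 + (14 - 2*ζ + 7*ζ^2
        + 16*ζ^3)*u^11*v^3 + (-6 + 13*ζ - 13*ζ^2 + 6*ζ^3)*u^10*v^4 + (-35 - 20*ζ - 5*ζ^2 - 40*ζ^3)*u^9*v^5
        + (22 - 26*ζ - 4*ζ^2 - 2*ζ^3)*u^8*v^6 + (13 + 26*ζ + 24*ζ^2 + 2*ζ^3)*u^7*v^7 + (-26 - 57*ζ - 13*ζ^2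
        + 31*ζ^3)*u^6*v^8 + (24 - 2*ζ + 2*ζ^2 - 24*ζ^3)*u^5*v^9 + (-5 + 15*ζ + 35*ζ^2 + 30*ζ^3)*u^4*v^10
        + (-7 - 19*ζ - 26*ζ^2 - 13*ζ^3)*u^3*v^11 + (7 + 14*ζ + 11*ζ^2 + 3*ζ^3)*u^2*v^12
        + (-4 - 3*ζ - 2*ζ^2 - ζ^3)*u*v^13 + (1 + 2*ζ - 2*ζ^2 - ζ^3)*v^14)
      = 2 ^ 2 * 3 ^ 2 * 5 ^ 1 * kleinF u v ^ 2 := by
  unfold kleinX_2_2 kleinX_1_0 kleinF
  linear_combination (exp := 1) ((-180 + 72*ζ + 72*ζ^2)*u^22*v^2 + (-288*ζ + 288*ζ^2)*u^21*v^3 + (-324 + 252*ζ - 1008*ζ^2)*u^20*v^4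
      + (-756 + 180*ζ - 2304*ζ^2)*u^19*v^5 + (1152 - 2628*ζ + 3456*ζ^2)*u^18*v^6 + (-2088 + 3492*ζ
      + 4104*ζ^2)*u^17*v^7 + (-4860 + 2268*ζ - 8208*ζ^2)*u^16*v^8 + (-3816 - 7452*ζ - 7452*ζ^2)*u^15*v^9
      + (5436 - 1800*ζ + 1944*ζ^2)*u^14*v^10 + (-972 + 2448*ζ + 1944*ζ^2)*u^13*v^11 + (-23292 + 7020*ζ
      + 288*ζ^2)*u^12*v^12 + (5040 + 1584*ζ + 5076*ζ^2)*u^11*v^13 + (-2448 + 4284*ζ + 5004*ζ^2)*u^10*v^14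
      + (-972 - 5760*ζ - 3528*ζ^2)*u^9*v^15 + (1764 + 5544*ζ + 252*ζ^2)*u^8*v^16 + (2484 - 3888*ζ
      + 396*ζ^2)*u^7*v^17 + (360 - 936*ζ - 2124*ζ^2)*u^6*v^18 + (252 + 1224*ζ + 864*ζ^2)*u^5*v^19
      + (-252 - 720*ζ - 288*ζ^2)*u^4*v^20 + (144 + 144*ζ + 72*ζ^2)*u^3*v^21 + (-216 + 108*ζ
      + 72*ζ^2)*u^2*v^22) * hζ

theorem klein_chordX_c_3_4_e1 (ζ h u v : R) (hζ : ζ ^ 4 + ζ ^ 3 + ζ ^ 2 + ζ + 1 = 0) (h5 : 5 * h = 1) :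
    (kleinX_2_1 ζ h u v + kleinX_1_0 ζ h u v + kleinX_1_1 ζ h u v) * (kleinX_2_1 ζ h u v - kleinX_1_0 ζ h u v) ^ 2 = (-(kleinY_2_1 ζ h u v) - kleinY_1_0 ζ h u v) ^ 2 := by
  unfold kleinX_2_1 kleinY_2_1 kleinX_1_0 kleinY_1_0 kleinX_1_1
  linear_combination (exp := 1) ((-233280*ζ + 46656*ζ^3)*u^25*v^5 + (-466560*ζ + 933120*ζ^2 - 233280*ζ^3 - 139968*ζ^4
      + 46656*ζ^5)*u^24*v^6 + (2379456*ζ^2 - 2892672*ζ^3 + 93312*ζ^4 + 186624*ζ^5)*u^23*v^7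
      + (-2332800 - 3032640*ζ - 2052864*ζ^2 - 8304768*ζ^3 + 3032640*ζ^4 + 93312*ζ^5)*u^22*v^8
      + (-8164800 - 5132160*ζ - 3499200*ζ^2 - 4852224*ζ^3 + 9424512*ζ^4 - 1772928*ζ^5)*u^21*v^9 + (-5832000
      + 15629760*ζ + 10544256*ζ^2 + 10404288*ζ^3 + 9704448*ζ^4 - 6531840*ζ^5)*u^20*v^10 + (3499200
      + 24027840*ζ - 5645376*ζ^2 - 1632960*ζ^3 - 10824192*ζ^4 - 9377856*ζ^5)*u^19*v^11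
      + (-3499200 - 15863040*ζ - 49035456*ζ^2 - 25800768*ζ^3 - 24820992*ζ^4 - 2052864*ζ^5)*u^18*v^12
      + (-8164800 - 22861440*ζ - 21508416*ζ^2 + 10637568*ζ^3 + 4898880*ζ^4 + 12270528*ζ^5)*u^17*v^13
      + (-2332800 - 3499200*ζ + 36391680*ζ^2 + 34478784*ζ^3 + 22068288*ζ^4 + 9704448*ζ^5)*u^16*v^14
      + (-11664000 + 13530240*ζ + 28646784*ζ^2 + 3872448*ζ^3 + 1726272*ζ^4 - 7698240*ζ^5)*u^15*v^15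
      + (3499200 + 29626560*ζ + 4945536*ζ^2 - 6998400*ζ^3 - 8678016*ζ^4 - 3872448*ζ^5)*u^14*v^16
      + (8164800 - 5365440*ζ - 19035648*ζ^2 - 18382464*ζ^3 - 10310976*ζ^4 + 1306368*ζ^5)*u^13*v^17
      + (-3499200 - 3965760*ζ - 15303168*ζ^2 - 1213056*ζ^3 + 4665600*ζ^4 + 1119744*ζ^5)*u^12*v^18
      + (8164800 - 7231680*ζ + 16562880*ζ^2 + 8957952*ζ^3 + 8584704*ζ^4 + 2286144*ζ^5)*u^11*v^19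
      + (-11664000 + 2566080*ζ - 9004608*ζ^2 - 3032640*ζ^3 - 4385664*ζ^4 - 5132160*ζ^5)*u^10*v^20 + (8164800
      + 5272128*ζ^2 + 4898880*ζ^3 - 2379456*ζ^4 + 4059072*ζ^5)*u^9*v^21
      + (-2332800 - 1632960*ζ - 606528*ζ^2 - 6018624*ζ^3 + 2519424*ζ^4 - 1726272*ζ^5)*u^8*v^22
      + (1166400*ζ - 1073088*ζ^2 + 2985984*ζ^3 - 699840*ζ^4 + 419904*ζ^5)*u^7*v^23 + (-466560*ζ
      + 933120*ζ^2 - 373248*ζ^3 - 46656*ζ^4 - 46656*ζ^5)*u^6*v^24 + (233280*ζ - 139968*ζ^2 - 93312*ζ^3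
      + 46656*ζ^4)*u^5*v^25 + (-93312*ζ^2)*u^4*v^26) * hζ

theorem klein_chordY_c_3_4_e1 (ζ h u v : R) (hζ : ζ ^ 4 + ζ ^ 3 + ζ ^ 2 + ζ + 1 = 0) (h5 : 5 * h = 1) :
    (-(kleinY_1_1 ζ h u v) + -(kleinY_2_1 ζ h u v)) * (kleinX_2_1 ζ h u v - kleinX_1_0 ζ h u v) = -(-(kleinY_2_1 ζ h u v) - kleinY_1_0 ζ h u v) * (kleinX_1_1 ζ h u v - kleinX_2_1 ζ h u v) := by
  unfold kleinX_2_1 kleinY_2_1 kleinX_1_0 kleinY_1_0 kleinX_1_1 kleinY_1_1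
  linear_combination (exp := 1) ((-7776*ζ)*u^21*v^4 + 15552*ζ^2*u^20*v^5 + (-38880*ζ - 7776*ζ^2)*u^19*v^6
      + (-77760 - 178848*ζ - 77760*ζ^2)*u^18*v^7 + (-116640 + 38880*ζ)*u^17*v^8 + (38880
      + 202176*ζ - 194400*ζ^2)*u^16*v^9 + (-194400 - 194400*ζ - 482112*ζ^2)*u^15*v^10
      + (-388800 - 38880*ζ - 108864*ζ^2)*u^14*v^11 + (-272160 - 209952*ζ - 272160*ζ^2)*u^13*v^12
      + (-311040 - 544320*ζ)*u^12*v^13 + (427680 + 62208*ζ + 972000*ζ^2)*u^11*v^14 + (388800 + 388800*ζ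
      + 381024*ζ^2)*u^10*v^15 + (-194400 + 233280*ζ - 248832*ζ^2)*u^9*v^16
      + (-116640 - 318816*ζ - 116640*ζ^2)*u^8*v^17 + (116640 - 38880*ζ)*u^7*v^18 + (-38880
      + 101088*ζ - 194400*ζ^2)*u^6*v^19 + 69984*ζ^2*u^5*v^20 + 23328*ζ^2*u^4*v^21 + (-7776*ζ)*u^3*v^22) * hζ

theorem klein_diff_c_3_4_e1 (ζ h u v : R) (hζ : ζ ^ 4 + ζ ^ 3 + ζ ^ 2 + ζ + 1 = 0) (h5 : 5 * h = 1) :
    (kleinX_2_1 ζ h u v - kleinX_1_0 ζ h u v) * ((-1 - ζ - ζ^2 - ζ^3)*u^13*v + (2 - ζ)*u^12*v^2 + (1 + ζ - 4*ζ^2 + ζ^3)*u^11*v^3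
        + (-5 - 5*ζ^2 - 10*ζ^3)*u^10*v^4 + (10 + 10*ζ^2 - 5*ζ^3)*u^9*v^5 + (14 + 14*ζ + 4*ζ^2
        + 14*ζ^3)*u^8*v^6 + (-3 + 14*ζ)*u^7*v^7 + (-14 - 14*ζ - 4*ζ^2 - 14*ζ^3)*u^6*v^8 + (10
        + 10*ζ^2 - 5*ζ^3)*u^5*v^9 + (5 + 5*ζ^2 + 10*ζ^3)*u^4*v^10 + (1 + ζ - 4*ζ^2 + ζ^3)*u^3*v^11 + (-2
        + ζ)*u^2*v^12 + (-1 - ζ - ζ^2 - ζ^3)*u*v^13)
      = 2 ^ 2 * 3 ^ 2 * 5 ^ 0 * kleinF u v ^ 2 := by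
  unfold kleinX_2_1 kleinX_1_0 kleinF
  linear_combination (exp := 1) ((-36)*u^22*v^2 + (72*ζ - 36*ζ^2)*u^21*v^3 + (36*ζ - 108*ζ^2)*u^20*v^4
      + (-180 - 432*ζ - 144*ζ^2)*u^19*v^5 + (180 + 324*ζ - 252*ζ^2)*u^18*v^6 + (-72
      + 1260*ζ - 900*ζ^2)*u^17*v^7 + (-1080 - 432*ζ - 1944*ζ^2)*u^16*v^8 + (720 + 864*ζ + 468*ζ^2)*u^15*v^9
      + (5220 + 2412*ζ + 3924*ζ^2)*u^14*v^10 + (180 + 1836*ζ - 1908*ζ^2)*u^13*v^11 + (-9864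
      + 360*ζ - 5400*ζ^2)*u^12*v^12 + (-180 - 1836*ζ + 1908*ζ^2)*u^11*v^13 + (5220 + 2412*ζ
      + 3924*ζ^2)*u^10*v^14 + (-720 - 864*ζ - 468*ζ^2)*u^9*v^15 + (-1080 - 432*ζ - 1944*ζ^2)*u^8*v^16
      + (72 - 1260*ζ + 900*ζ^2)*u^7*v^17 + (180 + 324*ζ - 252*ζ^2)*u^6*v^18 + (180 + 432*ζ
      + 144*ζ^2)*u^5*v^19 + (36*ζ - 108*ζ^2)*u^4*v^20 + (-72*ζ + 36*ζ^2)*u^3*v^21 + (-36)*u^2*v^22) * hζ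

end Fermat.Agent.S52
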