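import Fermat.Agent.S52.KleinId3

/-! GENERATED FILE (helper27, S52 block F1): polynomial identities for the universal 5-torsion
sections, certificates computed by exact arithmetic. -/

set_option autoImplicit false
set_option maxHeartbeats 1600000
set_option linter.unusedVariables false

namespace Fermat.Agent.S52

variable {R : Type*} [CommRing R]

theorem klein_on_3_3 (ζ h u v : R) (hζ : ζ ^ 4 + ζ ^ 3 + ζ ^ 2 + ζ + 1 = 0) (h5 : 5 * h = 1) :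
    (-(kleinY_2_2 ζ h u v)) ^ 2 = (kleinX_2_2 ζ h u v) ^ 3 + (27 * kleinH u v) * (kleinX_2_2 ζ h u v) + 54 * kleinT u v := by
  unfold kleinX_2_2 kleinY_2_2 kleinH kleinT
  linear_combination (exp := 1) ((-46656*ζ^4 + 46656*ζ^5)*u^27*v^3 + (139968*ζ^2 - 279936*ζ^3)*u^26*v^4 + (-46656
      + 746496*ζ - 419904*ζ^5)*u^25*v^5 + (839808 + 839808*ζ + 839808*ζ^2
      + 2379456*ζ^3 - 699840*ζ^4)*u^24*v^6 + (-2659392*ζ + 3779136*ζ^2 + 1259712*ζ^3 + 1259712*ζ^4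
      + 1259712*ζ^5)*u^23*v^7 + (-5738688 - 2519424*ζ - 2519424*ζ^2 - 2519424*ζ^3
      + 4478976*ζ^4 - 279936*ζ^5)*u^22*v^8 + (-1259712 - 2519424*ζ - 13950144*ζ^2
      + 699840*ζ^3 - 2519424*ζ^4 - 1259712*ζ^5)*u^21*v^9
      + (8351424 - 9144576*ζ - 6298560*ζ^2 - 6298560*ζ^3 - 6298560*ζ^4 + 1819584*ζ^5)*u^20*v^10 + (1959552
      + 1959552*ζ + 1959552*ζ^2 - 16376256*ζ^3 + 2799360*ζ^4)*u^19*v^11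
      + (11290752*ζ - 4945536*ζ^2 - 3359232*ζ^3 - 3359232*ζ^4 - 3359232*ζ^5)*u^18*v^12 + (2472768 + 419904*ζ
      + 419904*ζ^2 + 419904*ζ^3 - 10357632*ζ^4 + 559872*ζ^5)*u^17*v^13 + (1259712 + 2519424*ζ
      + 11290752*ζ^2 - 3779136*ζ^3 + 2519424*ζ^4 + 1259712*ζ^5)*u^16*v^14 + (-466560 + 4292352*ζ
      + 4199040*ζ^2 + 4199040*ζ^3 + 4199040*ζ^4 - 2239488*ζ^5)*u^15*v^15
      + (-1586304 - 1586304*ζ - 1586304*ζ^2 + 5458752*ζ^3 - 2799360*ζ^4)*u^14*v^16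
      + (-419904*ζ - 2239488*ζ^2 + 1819584*ζ^3 + 1819584*ζ^4 + 1819584*ζ^5)*u^13*v^17 + (653184 + 559872*ζ
      + 559872*ζ^2 + 559872*ζ^3 + 3172608*ζ^4 - 373248*ζ^5)*u^12*v^18
      + (-419904 - 839808*ζ - 46656*ζ^2 - 1819584*ζ^3 - 839808*ζ^4 - 419904*ζ^5)*u^11*v^19
      + (-46656 - 1306368*ζ - 699840*ζ^2 - 699840*ζ^3 - 699840*ζ^4 + 559872*ζ^5)*u^10*v^20 + (279936
      + 279936*ζ + 279936*ζ^2 + 559872*ζ^3)*u^9*v^21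
      + (279936*ζ - 139968*ζ^2 - 279936*ζ^3 - 279936*ζ^4 - 279936*ζ^5)*u^8*v^22
      + (-279936 - 139968*ζ - 139968*ζ^2 - 139968*ζ^3)*u^7*v^23 + (46656 + 93312*ζ + 139968*ζ^2 + 139968*ζ^3
      + 93312*ζ^4 + 46656*ζ^5)*u^6*v^24 + 46656*u^5*v^25) * hζ

theorem klein_chordX_c_0_3_e2 (ζ h u v : R) (hζ : ζ ^ 4 + ζ ^ 3 + ζ ^ 2 + ζ + 1 = 0) (h5 : 5 * h = 1) :
    (kleinX_0_2 ζ h u v + kleinX_0_1 ζ h u v + kleinX_0_1 ζ h u v) * (kleinX_0_2 ζ h u v - kleinX_0_1 ζ h u v) ^ 2 = (-(kleinY_0_2 ζ h u v) - kleinY_0_1 ζ h u v) ^ 2 := by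
  unfold kleinX_0_2 kleinY_0_2 kleinX_0_1 kleinY_0_1
  ring

theorem klein_chordY_c_0_3_e2 (ζ h u v : R) (hζ : ζ ^ 4 + ζ ^ 3 + ζ ^ 2 + ζ + 1 = 0) (h5 : 5 * h = 1) :
    (-(kleinY_0_1 ζ h u v) + -(kleinY_0_2 ζ h u v)) * (kleinX_0_2 ζ h u v - kleinX_0_1 ζ h u v) = -(-(kleinY_0_2 ζ h u v) - kleinY_0_1 ζ h u v) * (kleinX_0_1 ζ h u v - kleinX_0_2 ζ h u v) := by
  unfold kleinX_0_2 kleinY_0_2 kleinX_0_1 kleinY_0_1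
  ring

theorem klein_diff_c_0_3_e2 (ζ h u v : R) (hζ : ζ ^ 4 + ζ ^ 3 + ζ ^ 2 + ζ + 1 = 0) (h5 : 5 * h = 1) :
    (kleinX_0_2 ζ h u v - kleinX_0_1 ζ h u v) * (u^2 + u*v + (-1)*v^2)
      = 2 ^ 2 * 3 ^ 2 * 5 ^ 0 * kleinF u v ^ 1 := by
  unfold kleinX_0_2 kleinX_0_1 kleinF
  ring

theorem klein_chordX_c_0_1_e1 (ζ h u v : R) (hζ : ζ ^ 4 + ζ ^ 3 + ζ ^ 2 + ζ + 1 = 0) (h5 : 5 * h = 1) :
    (kleinX_0_1 ζ h u v + kleinX_1_0 ζ h u v + kleinX_1_1 ζ h u v) * (kleinX_0_1 ζ h u v - kleinX_1_0 ζ h u v) ^ 2 = (kleinY_0_1 ζ h u v - kleinY_1_0 ζ h u v) ^ 2 := by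
  unfold kleinX_0_1 kleinY_0_1 kleinX_1_0 kleinY_1_0 kleinX_1_1
  linear_combination (exp := 1) ((233280 - 233280*ζ)*u^25*v^5 + (-373248 - 653184*ζ + 1026432*ζ^2)*u^24*v^6 + (-93312 + 46656*ζ
      + 2519424*ζ^2 - 2472768*ζ^3)*u^23*v^7 + (-1353024 - 2006208*ζ - 1632960*ζ^2 - 8631360*ζ^3
      + 1959552*ζ^4)*u^22*v^8 + (-8911296 - 2892672*ζ - 3592512*ζ^2 - 4152384*ζ^3
      + 8724672*ζ^4 - 839808*ζ^5)*u^21*v^9 + (-4292352 + 14323392*ζ + 5598720*ζ^2 + 9191232*ζ^3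
      + 9237888*ζ^4 - 4898880*ζ^5)*u^20*v^10 + (-3592512
      + 19548864*ζ - 8258112*ζ^2 - 1866240*ζ^3 - 8164800*ζ^4 - 9331200*ζ^5)*u^19*v^11
      + (-2006208 - 4712256*ζ - 34945344*ζ^2 - 14323392*ζ^3 - 16096320*ζ^4 - 3732480*ζ^5)*u^18*v^12
      + (3685824 - 13623552*ζ - 10031040*ζ^2 + 6531840*ζ^3 + 606528*ζ^4 + 6998400*ζ^5)*u^17*v^13 + (-3452544
      + 1959552*ζ + 23421312*ζ^2 + 17216064*ζ^3 + 7371648*ζ^4 + 5971968*ζ^5)*u^16*v^14 + (12923712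
      + 8771328*ζ + 6765120*ζ^2 - 326592*ζ^3 + 93312*ζ^4 + 933120*ζ^5)*u^15*v^15
      + (-9144576 - 13203648*ζ - 4945536*ζ^2 - 7698240*ζ^3 - 1166400*ζ^4 + 1166400*ζ^5)*u^14*v^16
      + (4478976 - 2706048*ζ + 4572288*ζ^2 + 653184*ζ^3 + 233280*ζ^4 - 1399680*ζ^5)*u^13*v^17 + (-2006208
      + 6251904*ζ + 233280*ζ^2 - 1866240*ζ^3 - 279936*ζ^4 - 2332800*ζ^5)*u^12*v^18
      + (1772928 - 1119744*ζ - 419904*ζ^2 - 373248*ζ^3 - 46656*ζ^4 + 186624*ζ^5)*u^11*v^19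
      + (-1819584 - 46656*ζ - 933120*ζ^2 + 1819584*ζ^3 + 746496*ζ^4 + 233280*ζ^5)*u^10*v^20 + (653184
      + 93312*ζ - 279936*ζ^2 - 466560*ζ^3)*u^9*v^21 + (-186624
      + 559872*ζ - 326592*ζ^2 - 46656*ζ^3 - 233280*ζ^4 + 233280*ζ^5)*u^8*v^22 + (93312 - 279936*ζ
      + 233280*ζ^2 - 46656*ζ^4)*u^7*v^23 + (-93312 + 46656*ζ + 46656*ζ^2
      + 93312*ζ^3 - 46656*ζ^4 - 46656*ζ^5)*u^6*v^24 + (46656 - 46656*ζ - 46656*ζ^3 + 46656*ζ^4)*u^5*v^25) * hζ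

theorem klein_chordY_c_0_1_e1 (ζ h u v : R) (hζ : ζ ^ 4 + ζ ^ 3 + ζ ^ 2 + ζ + 1 = 0) (h5 : 5 * h = 1) :
    (kleinY_1_1 ζ h u v + kleinY_0_1 ζ h u v) * (kleinX_0_1 ζ h u v - kleinX_1_0 ζ h u v) = -(kleinY_0_1 ζ h u v - kleinY_1_0 ζ h u v) * (kleinX_1_1 ζ h u v - kleinX_0_1 ζ h u v) := by
  unfold kleinX_0_1 kleinY_0_1 kleinX_1_0 kleinY_1_0 kleinX_1_1 kleinY_1_1
  linear_combination (exp := 1) ((-46656 + 7776*ζ)*u^20*v^5 + (-15552 - 23328*ζ^2)*u^19*v^6 + (38880 - 155520*ζ - 38880*ζ^2)*u^18*v^7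
      + (-116640 - 77760*ζ)*u^17*v^8 + (194400 + 233280*ζ - 233280*ζ^2)*u^16*v^9
      + (-147744 - 279936*ζ - 388800*ζ^2)*u^15*v^10 + (-178848 + 334368*ζ^2)*u^14*v^11 + (1399680 + 233280*ζ
      + 544320*ζ^2)*u^13*v^12 + (272160 - 855360*ζ)*u^12*v^13 + (-388800 + 38880*ζ - 38880*ζ^2)*u^11*v^14
      + (-15552 + 54432*ζ - 194400*ζ^2)*u^10*v^15 + (-69984 - 85536*ζ^2)*u^9*v^16 + (-38880 + 155520*ζ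
      + 38880*ζ^2)*u^8*v^17 + (-77760 + 77760*ζ)*u^7*v^18 + (-38880*ζ + 38880*ζ^2)*u^6*v^19
      + (23328 - 23328*ζ)*u^5*v^20 + (7776 - 7776*ζ^2)*u^4*v^21) * hζ

theorem klein_diff_c_0_1_e1 (ζ h u v : R) (hζ : ζ ^ 4 + ζ ^ 3 + ζ ^ 2 + ζ + 1 = 0) (h5 : 5 * h = 1) :
    (kleinX_0_1 ζ h u v - kleinX_1_0 ζ h u v) * ((-4 - 3*ζ - 2*ζ^2 - ζ^3)*u^13*v + (-6 - 12*ζ - 8*ζ^2 - 4*ζ^3)*u^12*v^2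
        + (2 - 16*ζ - 14*ζ^2 - 7*ζ^3)*u^11*v^3 + (7 - 6*ζ - 19*ζ^2 - 12*ζ^3)*u^10*v^4 + (20
        + 15*ζ - 15*ζ^2 - 20*ζ^3)*u^9*v^5 + (-4 + 22*ζ - 2*ζ^2 - 26*ζ^3)*u^8*v^6 + (-11 - 22*ζ
        + 2*ζ^2 - 24*ζ^3)*u^7*v^7 + (57 - 31*ζ + 26*ζ^2 + 13*ζ^3)*u^6*v^8 + (22 + 24*ζ + 26*ζ^2
        + 48*ζ^3)*u^5*v^9 + (-15 + 20*ζ - 20*ζ^2 + 15*ζ^3)*u^4*v^10 + (-26 - 7*ζ - 13*ζ^2 - 19*ζ^3)*u^3*v^11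
        + (-4 - 8*ζ + 3*ζ^2 - 11*ζ^3)*u^2*v^12 + (3 + ζ + 4*ζ^2 + 2*ζ^3)*u*v^13 + (3 + ζ - ζ^2 + 2*ζ^3)*v^14)
      = 2 ^ 2 * 3 ^ 2 * 5 ^ 1 * kleinF u v ^ 2 := by
  unfold kleinX_0_1 kleinX_1_0 kleinF
  linear_combination (exp := 1) ((-36)*u^22*v^2 + (-72 + 72*ζ)*u^21*v^3 + (-72 + 180*ζ - 108*ζ^2)*u^20*v^4
      + (-900 - 288*ζ - 612*ζ^2)*u^19*v^5 + (-2592 - 1332*ζ - 1476*ζ^2)*u^18*v^6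
      + (-2700 - 1836*ζ - 2556*ζ^2)*u^17*v^7 + (-108 - 972*ζ - 4320*ζ^2)*u^16*v^8 + (4572
      + 1800*ζ - 6372*ζ^2)*u^15*v^9 + (3420 + 1908*ζ - 7128*ζ^2)*u^14*v^10
      + (-6228 - 1008*ζ - 2664*ζ^2)*u^13*v^11 + (-2736 + 2196*ζ + 7956*ζ^2)*u^12*v^12 + (7596 + 3024*ζ
      + 10980*ζ^2)*u^11*v^13 + (576 - 2160*ζ + 1584*ζ^2)*u^10*v^14 + (-5580 - 2376*ζ - 3744*ζ^2)*u^9*v^15
      + (216 - 1584*ζ - 2232*ζ^2)*u^8*v^16 + (3096 + 648*ζ - 1152*ζ^2)*u^7*v^17 + (-684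
      + 1764*ζ - 180*ζ^2)*u^6*v^18 + (-864 + 180*ζ + 684*ζ^2)*u^5*v^19 + (180 - 576*ζ + 396*ζ^2)*u^4*v^20
      + (216 - 144*ζ - 72*ζ^2)*u^3*v^21 + (-72 + 108*ζ - 72*ζ^2)*u^2*v^22) * hζ

theorem klein_chordX_c_0_2_e1 (ζ h u v : R) (hζ : ζ ^ 4 + ζ ^ 3 + ζ ^ 2 + ζ + 1 = 0) (h5 : 5 * h = 1) :
    (kleinX_0_2 ζ h u v + kleinX_1_0 ζ h u v + kleinX_1_2 ζ h u v) * (kleinX_0_2 ζ h u v - kleinX_1_0 ζ h u v) ^ 2 = (kleinY_0_2 ζ h u v - kleinY_1_0 ζ h u v) ^ 2 := by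
  unfold kleinX_0_2 kleinY_0_2 kleinX_1_0 kleinY_1_0 kleinX_1_2
  linear_combination (exp := 1) ((-46656*ζ)*u^26*v^4 + (-46656 - 279936*ζ + 186624*ζ^2)*u^25*v^5 + (-279936 - 466560*ζ
      + 1213056*ζ^2 - 466560*ζ^3)*u^24*v^6 + (-1119744 - 186624*ζ + 1819584*ζ^2 - 3405888*ζ^3
      + 559872*ζ^4)*u^23*v^7 + (-4385664 - 1679616*ζ - 2379456*ζ^2 - 7651584*ζ^3
      + 3452544*ζ^4 - 419904*ζ^5)*u^22*v^8 + (-10870848 - 2006208*ζ - 4059072*ζ^2 - 3265920*ζ^3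
      + 7138368*ζ^4 - 2659392*ζ^5)*u^21*v^9 + (-10964160 + 11570688*ζ + 2379456*ζ^2 + 2099520*ζ^3
      + 1959552*ζ^4 - 6625152*ζ^5)*u^20*v^10 + (-6018624
      + 13810176*ζ - 16189632*ζ^2 - 15396480*ζ^3 - 10497600*ζ^4 - 7698240*ζ^5)*u^19*v^11
      + (-20108736 - 13576896*ζ - 38677824*ζ^2 - 20155392*ζ^3 - 5458752*ζ^4 - 3499200*ζ^5)*u^18*v^12
      + (-32705856 + 279936*ζ - 7418304*ζ^2 + 10217664*ζ^3 + 9844416*ζ^4 - 979776*ζ^5)*u^17*v^13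
      + (-24820992 + 29020032*ζ + 1026432*ζ^2 + 9564480*ζ^3 + 1492992*ζ^4 - 2472768*ζ^5)*u^16*v^14
      + (-16842816 + 11943936*ζ - 23188032*ζ^2 - 3732480*ζ^3 - 5225472*ζ^4 + 559872*ζ^5)*u^15*v^15
      + (-1726272 + 6951744*ζ - 8724672*ζ^2 + 6531840*ζ^3 + 3499200*ζ^4 + 3965760*ζ^5)*u^14*v^16 + (4059072
      + 1726272*ζ - 93312*ζ^2 + 1353024*ζ^3 - 46656*ζ^4 + 1166400*ζ^5)*u^13*v^17 + (7324992 + 373248*ζ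
      + 1073088*ζ^2 - 1539648*ζ^3 - 1492992*ζ^4 + 793152*ζ^5)*u^12*v^18 + (5785344 - 3032640*ζ
      + 2612736*ζ^2 - 233280*ζ^3 + 513216*ζ^4 + 979776*ζ^5)*u^11*v^19 + (2146176 - 3872448*ζ
      + 3405888*ζ^2 - 933120*ζ^3 - 279936*ζ^4 - 886464*ζ^5)*u^10*v^20 + (606528 - 1306368*ζ
      + 2566080*ζ^2 - 233280*ζ^3 - 466560*ζ^5)*u^9*v^21 + (-373248 - 139968*ζ + 373248*ζ^2
      + 186624*ζ^3 - 46656*ζ^4)*u^8*v^22 + (-373248 - 93312*ζ - 93312*ζ^2 + 93312*ζ^3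
      + 139968*ζ^4 - 139968*ζ^5)*u^7*v^23 + (-279936 + 93312*ζ - 186624*ζ^2 + 46656*ζ^4
      + 46656*ζ^5)*u^6*v^24 + (-93312 + 186624*ζ - 233280*ζ^2 - 46656*ζ^4 + 46656*ζ^5)*u^5*v^25
      + (93312*ζ - 93312*ζ^2)*u^4*v^26) * hζ

theorem klein_chordY_c_0_2_e1 (ζ h u v : R) (hζ : ζ ^ 4 + ζ ^ 3 + ζ ^ 2 + ζ + 1 = 0) (h5 : 5 * h = 1) :
    (kleinY_1_2 ζ h u v + kleinY_0_2 ζ h u v) * (kleinX_0_2 ζ h u v - kleinX_1_0 ζ h u v) = -(kleinY_0_2 ζ h u v - kleinY_1_0 ζ h u v) * (kleinX_1_2 ζ h u v - kleinX_0_2 ζ h u v) := by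
  unfold kleinX_0_2 kleinY_0_2 kleinX_1_0 kleinY_1_0 kleinX_1_2 kleinY_1_2
  linear_combination (exp := 1) ((-7776*ζ)*u^21*v^4 + (7776 + 23328*ζ^2)*u^20*v^5 + (85536 + 38880*ζ + 38880*ζ^2)*u^19*v^6 + (77760
      + 23328*ζ - 23328*ζ^2)*u^18*v^7 + (-77760 - 38880*ζ^2)*u^17*v^8 + (116640 - 31104*ζ)*u^16*v^9
      + (303264 - 194400*ζ + 15552*ζ^2)*u^15*v^10 + (575424 - 349920*ζ + 38880*ζ^2)*u^14*v^11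
      + (272160 - 334368*ζ + 334368*ζ^2)*u^13*v^12 + (-855360 + 544320*ζ^2)*u^12*v^13 + (-272160
      + 606528*ζ)*u^11*v^14 + (-139968 + 388800*ζ - 147744*ζ^2)*u^10*v^15
      + (-23328 - 427680*ζ - 233280*ζ^2)*u^9*v^16 + (116640 + 85536*ζ - 85536*ζ^2)*u^8*v^17 + (77760
      + 38880*ζ^2)*u^7*v^18 + (77760 - 54432*ζ)*u^6*v^19 + (-23328 + 46656*ζ^2)*u^5*v^20 + (-23328)*u^4*v^21
      + (7776*ζ - 7776*ζ^2)*u^3*v^22) * hζ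

theorem klein_diff_c_0_2_e1 (ζ h u v : R) (hζ : ζ ^ 4 + ζ ^ 3 + ζ ^ 2 + ζ + 1 = 0) (h5 : 5 * h = 1) :
    (kleinX_0_2 ζ h u v - kleinX_1_0 ζ h u v) * ((-1 - ζ - ζ^2 - ζ^3)*u^13*v + (2 - ζ^3)*u^12*v^2 + (4 + 5*ζ + 5*ζ^2 + 5*ζ^3)*u^11*v^3
        + (-10 - 5*ζ - 5*ζ^2)*u^10*v^4 + (-10*ζ - 10*ζ^2 - 15*ζ^3)*u^9*v^5 + (14 + 14*ζ + 14*ζ^2
        + 4*ζ^3)*u^8*v^6 + (-3 + 14*ζ^3)*u^7*v^7 + (4 - 10*ζ - 10*ζ^2 - 10*ζ^3)*u^6*v^8 + (-5 + 10*ζ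
        + 10*ζ^2)*u^5*v^9 + (-5*ζ - 5*ζ^2 + 5*ζ^3)*u^4*v^10 + (1 + ζ + ζ^2 - 4*ζ^3)*u^3*v^11 + (-2
        + ζ^3)*u^2*v^12 + u*v^13)
      = 2 ^ 2 * 3 ^ 2 * 5 ^ 0 * kleinF u v ^ 2 := by
  unfold kleinX_0_2 kleinX_1_0 kleinF
  linear_combination (exp := 1) ((-36)*u^22*v^2 + (-36 + 72*ζ)*u^21*v^3 + (108 + 72*ζ - 108*ζ^2)*u^20*v^4
      + (-180 - 432*ζ - 288*ζ^2)*u^19*v^5 + (-180 + 360*ζ^2)*u^18*v^6 + (756 + 1440*ζ + 900*ζ^2)*u^17*v^7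
      + (-1044 - 612*ζ - 1620*ζ^2)*u^16*v^8 + (-1548 - 1692*ζ - 2232*ζ^2)*u^15*v^9 + (2520 + 1512*ζ
      + 2268*ζ^2)*u^14*v^10 + (720 + 1260*ζ^2)*u^13*v^11 + (-1692 - 360*ζ - 1800*ζ^2)*u^12*v^12 + (108
      + 684*ζ + 1080*ζ^2)*u^11*v^13 + (396 - 1296*ζ + 324*ζ^2)*u^10*v^14 + (180 + 936*ζ - 1116*ζ^2)*u^9*v^15
      + (-720 + 540*ζ^2)*u^8*v^16 + (648 - 540*ζ)*u^7*v^17 + (-252 + 504*ζ - 180*ζ^2)*u^6*v^18 + (36 - 216*ζ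
      + 144*ζ^2)*u^5*v^19 + (36*ζ - 36*ζ^2)*u^4*v^20) * hζ

theorem klein_chordX_c_0_3_e1 (ζ h u v : R) (hζ : ζ ^ 4 + ζ ^ 3 + ζ ^ 2 + ζ + 1 = 0) (h5 : 5 * h = 1) :
    (kleinX_0_2 ζ h u v + kleinX_1_0 ζ h u v + kleinX_1_3 ζ h u v) * (kleinX_0_2 ζ h u v - kleinX_1_0 ζ h u v) ^ 2 = (-(kleinY_0_2 ζ h u v) - kleinY_1_0 ζ h u v) ^ 2 := by
  unfold kleinX_0_2 kleinY_0_2 kleinX_1_0 kleinY_1_0 kleinX_1_3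
  linear_combination (exp := 1) (46656*ζ*u^27*v^3 + (93312*ζ - 186624*ζ^2)*u^26*v^4 + (-93312*ζ - 373248*ζ^2 + 466560*ζ^3)*u^25*v^5
      + (373248 + 93312*ζ + 1026432*ζ^2 + 1399680*ζ^3 - 559872*ζ^4)*u^24*v^6 + (1353024 + 513216*ζ
      + 1353024*ζ^2 - 1819584*ζ^3 - 2052864*ζ^4 + 419904*ζ^5)*u^23*v^7
      + (93312 - 3312576*ζ - 3965760*ζ^2 - 6438528*ζ^3 + 1213056*ζ^4 + 2239488*ζ^5)*u^22*v^8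
      + (-4339008 - 2939328*ζ + 559872*ζ^2 + 4059072*ζ^3 + 10730880*ζ^4 + 2706048*ζ^5)*u^21*v^9 + (-1726272
      + 13623552*ζ + 10730880*ζ^2 + 10031040*ζ^3 + 5132160*ζ^4 - 3965760*ζ^5)*u^20*v^10 + (8024832
      + 11570688*ζ - 13623552*ζ^2 - 9331200*ζ^3 - 12970368*ζ^4 - 10497600*ζ^5)*u^19*v^11
      + (9144576 - 11477376*ζ - 31446144*ζ^2 - 8678016*ζ^3 - 11010816*ζ^4 - 6951744*ζ^5)*u^18*v^12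
      + (10171008 - 13903488*ζ - 15396480*ζ^2 + 3872448*ζ^3 - 5412096*ζ^4 - 3405888*ζ^5)*u^17*v^13
      + (12737088 - 13296960*ζ - 16376256*ζ^2 - 793152*ζ^3 - 3265920*ζ^4 - 606528*ζ^5)*u^16*v^14
      + (5458752 - 10217664*ζ - 7838208*ζ^2 + 4432320*ζ^3 + 7464960*ζ^4 + 5365440*ζ^5)*u^15*v^15
      + (3079296 - 3079296*ζ + 2519424*ζ^2 + 4199040*ζ^3 + 4945536*ζ^4 + 3499200*ζ^5)*u^14*v^16 + (-326592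
      + 3592512*ζ + 2239488*ζ^2 - 1772928*ζ^3 + 1026432*ζ^4 + 606528*ζ^5)*u^13*v^17 + (-3312576 + 2892672*ζ
      + 3032640*ζ^2 - 2379456*ζ^3 + 93312*ζ^4 + 746496*ζ^5)*u^12*v^18 + (-2379456 + 2659392*ζ
      + 2939328*ζ^2 - 46656*ζ^3 - 1399680*ζ^4 - 886464*ζ^5)*u^11*v^19 + (-1119744 + 1679616*ζ
      + 2006208*ζ^2 - 233280*ζ^3 - 466560*ζ^4 - 699840*ζ^5)*u^10*v^20 + (-419904 - 46656*ζ + 419904*ζ^2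
      + 233280*ζ^3 - 186624*ζ^4)*u^9*v^21 + (-93312 - 373248*ζ - 326592*ζ^2 + 326592*ζ^3
      + 93312*ζ^4 - 93312*ζ^5)*u^8*v^22 + (186624 - 233280*ζ - 233280*ζ^2 - 46656*ζ^3 + 93312*ζ^4
      + 46656*ζ^5)*u^7*v^23 + (186624 - 93312*ζ - 186624*ζ^2 - 46656*ζ^3 + 46656*ζ^5)*u^6*v^24
      + (46656 - 46656*ζ^2)*u^5*v^25) * hζ

theorem klein_chordY_c_0_3_e1 (ζ h u v : R) (hζ : ζ ^ 4 + ζ ^ 3 + ζ ^ 2 + ζ + 1 = 0) (h5 : 5 * h = 1) :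
    (kleinY_1_3 ζ h u v + -(kleinY_0_2 ζ h u v)) * (kleinX_0_2 ζ h u v - kleinX_1_0 ζ h u v) = -(-(kleinY_0_2 ζ h u v) - kleinY_1_0 ζ h u v) * (kleinX_1_3 ζ h u v - kleinX_0_2 ζ h u v) := by
  unfold kleinX_0_2 kleinY_0_2 kleinX_1_0 kleinY_1_0 kleinX_1_3 kleinY_1_3
  linear_combination (exp := 1) ((7776 + 7776*ζ)*u^22*v^3 + (-23328*ζ^2)*u^21*v^4 + (-15552 - 15552*ζ - 62208*ζ^2)*u^20*v^5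
      + (-38880*ζ^2)*u^19*v^6 + (108864 + 108864*ζ)*u^17*v^8 + (-248832*ζ^2)*u^16*v^9
      + (-178848 - 178848*ζ - 676512*ζ^2)*u^15*v^10 + (-427680*ζ^2)*u^14*v^11 + (248832
      + 248832*ζ)*u^12*v^13 + 108864*ζ^2*u^11*v^14 + (-69984 - 69984*ζ + 147744*ζ^2)*u^10*v^15
      + 38880*ζ^2*u^9*v^16 + (-23328 - 23328*ζ)*u^7*v^18 + (-7776*ζ^2)*u^6*v^19 + (7776
      + 7776*ζ - 7776*ζ^2)*u^5*v^20) * hζ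

theorem klein_diff_c_0_3_e1 (ζ h u v : R) (hζ : ζ ^ 4 + ζ ^ 3 + ζ ^ 2 + ζ + 1 = 0) (h5 : 5 * h = 1) :
    (kleinX_0_2 ζ h u v - kleinX_1_0 ζ h u v) * ((-1 - ζ - ζ^2 - ζ^3)*u^13*v + (2 - ζ^3)*u^12*v^2 + (4 + 5*ζ + 5*ζ^2 + 5*ζ^3)*u^11*v^3
        + (-10 - 5*ζ - 5*ζ^2)*u^10*v^4 + (-10*ζ - 10*ζ^2 - 15*ζ^3)*u^9*v^5 + (14 + 14*ζ + 14*ζ^2
        + 4*ζ^3)*u^8*v^6 + (-3 + 14*ζ^3)*u^7*v^7 + (4 - 10*ζ - 10*ζ^2 - 10*ζ^3)*u^6*v^8 + (-5 + 10*ζ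
        + 10*ζ^2)*u^5*v^9 + (-5*ζ - 5*ζ^2 + 5*ζ^3)*u^4*v^10 + (1 + ζ + ζ^2 - 4*ζ^3)*u^3*v^11 + (-2
        + ζ^3)*u^2*v^12 + u*v^13)
      = 2 ^ 2 * 3 ^ 2 * 5 ^ 0 * kleinF u v ^ 2 := by
  unfold kleinX_0_2 kleinX_1_0 kleinF
  linear_combination (exp := 1) ((-36)*u^22*v^2 + (-36 + 72*ζ)*u^21*v^3 + (108 + 72*ζ - 108*ζ^2)*u^20*v^4
      + (-180 - 432*ζ - 288*ζ^2)*u^19*v^5 + (-180 + 360*ζ^2)*u^18*v^6 + (756 + 1440*ζ + 900*ζ^2)*u^17*v^7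
      + (-1044 - 612*ζ - 1620*ζ^2)*u^16*v^8 + (-1548 - 1692*ζ - 2232*ζ^2)*u^15*v^9 + (2520 + 1512*ζ
      + 2268*ζ^2)*u^14*v^10 + (720 + 1260*ζ^2)*u^13*v^11 + (-1692 - 360*ζ - 1800*ζ^2)*u^12*v^12 + (108
      + 684*ζ + 1080*ζ^2)*u^11*v^13 + (396 - 1296*ζ + 324*ζ^2)*u^10*v^14 + (180 + 936*ζ - 1116*ζ^2)*u^9*v^15
      + (-720 + 540*ζ^2)*u^8*v^16 + (648 - 540*ζ)*u^7*v^17 + (-252 + 504*ζ - 180*ζ^2)*u^6*v^18 + (36 - 216*ζ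
      + 144*ζ^2)*u^5*v^19 + (36*ζ - 36*ζ^2)*u^4*v^20) * hζ

theorem klein_chordX_c_0_4_e1 (ζ h u v : R) (hζ : ζ ^ 4 + ζ ^ 3 + ζ ^ 2 + ζ + 1 = 0) (h5 : 5 * h = 1) :
    (kleinX_0_1 ζ h u v + kleinX_1_0 ζ h u v + kleinX_1_4 ζ h u v) * (kleinX_0_1 ζ h u v - kleinX_1_0 ζ h u v) ^ 2 = (-(kleinY_0_1 ζ h u v) - kleinY_1_0 ζ h u v) ^ 2 := by
  unfold kleinX_0_1 kleinY_0_1 kleinX_1_0 kleinY_1_0 kleinX_1_4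
  linear_combination (exp := 1) ((-93312*h + 46656*ζ*h)*u^28*v^2 + (373248*h + 186624*ζ*h - 186624*ζ^2*h)*u^27*v^3
      + (-933120*h - 839808*ζ*h - 279936*ζ^2*h + 466560*ζ^3*h)*u^26*v^4 + (419904*h - 186624*ζ*h
      + 1119744*ζ^2*h + 466560*ζ^3*h - 559872*ζ^4*h)*u^25*v^5 + (2659392*h - 3825792*ζ*h
      + 5318784*ζ^2*h - 1353024*ζ^3*h - 933120*ζ^4*h + 419904*ζ^5*h)*u^24*v^6 + (-5318784*h - 3639168*ζ*h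
      + 13996800*ζ^2*h - 14696640*ζ^3*h + 1399680*ζ^4*h + 1399680*ζ^5*h)*u^23*v^7
      + (-7884864*h - 4758912*ζ*h - 8304768*ζ^2*h - 45256320*ζ^3*h + 14929920*ζ^4*h
      + 1166400*ζ^5*h)*u^22*v^8 + (-58320000*h - 27107136*ζ*h - 21788352*ζ^2*h - 12830400*ζ^3*h
      + 48288960*ζ^4*h - 6298560*ζ^5*h)*u^21*v^9 + (-42316992*h + 88739712*ζ*h + 46329408*ζ^2*h
      + 39191040*ζ^3*h + 28740096*ζ^4*h - 31492800*ζ^5*h)*u^20*v^10 + (29113344*h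
      + 82861056*ζ*h - 82207872*ζ^2*h - 67557888*ζ^3*h - 63218880*ζ^4*h - 48148992*ζ^5*h)*u^19*v^11
      + (-75489408*h - 102923136*ζ*h - 194788800*ζ^2*h - 76282560*ζ^3*h - 43390080*ζ^4*h - 14230080*ζ^5*h)*u^18*v^12
      + (-39797568*h + 18242496*ζ*h + 25147584*ζ^2*h + 62752320*ζ^3*h + 23561280*ζ^4*h
      + 12830400*ζ^5*h)*u^17*v^13 + (3732480*h + 31166208*ζ*h + 21974976*ζ^2*h + 29626560*ζ^3*h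
      + 699840*ζ^4*h + 6298560*ζ^5*h)*u^16*v^14 + (-26780544*h + 19082304*ζ*h + 5412096*ζ^2*h
      + 6765120*ζ^3*h + 17122752*ζ^4*h + 20995200*ζ^5*h)*u^15*v^15 + (-4059072*h - 9937728*ζ*h
      + 33172416*ζ^2*h + 16749504*ζ^3*h + 13296960*ζ^4*h + 14043456*ζ^5*h)*u^14*v^16 + (13017024*h
      + 16469568*ζ*h - 1166400*ζ^2*h - 8398080*ζ^3*h - 6531840*ζ^4*h - 6531840*ζ^5*h)*u^13*v^17
      + (-8911296*h - 4339008*ζ*h - 793152*ζ^2*h - 17029440*ζ^3*h - 5132160*ζ^4*h - 1166400*ζ^5*h)*u^12*v^18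
      + (14929920*h - 5785344*ζ*h + 1726272*ζ^2*h + 3032640*ζ^3*h - 4898880*ζ^4*h - 2099520*ζ^5*h)*u^11*v^19
      + (793152*h + 2006208*ζ*h - 1073088*ζ^2*h + 933120*ζ^3*h + 1119744*ζ^4*h - 3499200*ζ^5*h)*u^10*v^20
      + (1679616*h - 4012416*ζ*h + 1259712*ζ^2*h - 326592*ζ^3*h + 466560*ζ^4*h + 793152*ζ^5*h)*u^9*v^21
      + (-793152*h - 1119744*ζ*h - 1166400*ζ^2*h + 2099520*ζ^3*h + 466560*ζ^4*h + 466560*ζ^5*h)*u^8*v^22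
      + (839808*h - 46656*ζ*h - 419904*ζ^2*h - 699840*ζ^3*h + 699840*ζ^4*h)*u^7*v^23 + (-699840*h
      + 559872*ζ*h - 46656*ζ^2*h - 233280*ζ^3*h - 233280*ζ^4*h + 233280*ζ^5*h)*u^6*v^24 + (-46656*h
      + 46656*ζ*h + 186624*ζ^2*h - 93312*ζ^4*h)*u^5*v^25 + (-139968*h + 139968*ζ*h - 46656*ζ^2*h
      + 46656*ζ^3*h - 46656*ζ^5*h)*u^4*v^26) * hζ
    + ((3888 + 38880*ζ + 3888*ζ^2)*u^28*v^2 + (-15552 - 171072*ζ - 171072*ζ^2 - 15552*ζ^3)*u^27*v^3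
      + (38880 + 443232*ζ + 622080*ζ^2 + 443232*ζ^3 + 38880*ζ^4)*u^26*v^4
      + (388800 - 194400*ζ - 746496*ζ^2 - 746496*ζ^3 - 194400*ζ^4 + 233280*ζ^5)*u^25*v^5
      + (-1255824 - 62208*ζ - 77760*ζ^2 + 349920*ζ^3 - 77760*ζ^4 + 15552*ζ^5 - 1178064*ζ^6)*u^24*v^6
      + (2060640 + 2013984*ζ - 948672*ζ^2 + 583200*ζ^3 + 583200*ζ^4 - 69984*ζ^5 - 303264*ζ^6
      + 2939328*ζ^7)*u^23*v^7 + (-194400 + 1345248*ζ + 3215376*ζ^2 + 12597120*ζ^3 + 11955600*ζ^4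
      + 10272096*ζ^5 + 8868528*ζ^6 + 6998400*ζ^7 - 2519424*ζ^8)*u^22*v^8 + (12324960 + 16570656*ζ
      + 22083840*ζ^2 + 23942304*ζ^3 + 13631328*ζ^4 + 2566080*ζ^5 - 1026432*ζ^6 - 4898880*ζ^7 - 8398080*ζ^8
      + 1259712*ζ^9)*u^21*v^9
      + (6259680 - 8475840*ζ - 20894112*ζ^2 - 27892512*ζ^3 - 29237760*ζ^4 - 32387040*ζ^5 - 14463360*ζ^6 - 7698240*ζ^7 - 699840*ζ^8
      + 6298560*ζ^9)*u^20*v^10 + (-3514752 - 21516192*ζ - 1671840*ζ^2 + 13763520*ζ^3 + 19323360*ζ^4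
      + 30894048*ζ^5 + 48895488*ζ^6 + 31492800*ζ^7 + 20995200*ζ^8 + 10497600*ζ^9)*u^19*v^11 + (11434608
      + 34572096*ζ + 66309840*ζ^2 + 83008800*ζ^3 + 94672800*ζ^4 + 87627744*ζ^5 + 73397664*ζ^6 + 32752512*ζ^7
      + 17496000*ζ^8 + 5832000*ζ^9)*u^18*v^12 + (13436928 + 9097920*ζ + 16306272*ζ^2 + 15303168*ζ^3
      + 7581600*ζ^4 + 2286144*ζ^5 + 209952*ζ^6 - 6998400*ζ^7 + 419904*ζ^8)*u^17*v^13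
      + (-1574640 - 6057504*ζ - 12636000*ζ^2 - 15995232*ζ^3 - 17577648*ζ^4 - 17262720*ζ^5 - 11337408*ζ^6 - 8398080*ζ^7 - 1399680*ζ^8 - 1259712*ζ^9)*u^16*v^14
      + (8048160 + 272160*ζ + 4517856*ζ^2
      + 1018656*ζ^3 - 7659360*ζ^4 - 13569120*ζ^5 - 12130560*ζ^6 - 11197440*ζ^7 - 7698240*ζ^8 - 4199040*ζ^9)*u^15*v^15
      + (334368
      + 2830464*ζ - 2877120*ζ^2 - 4276800*ζ^3 - 9875520*ζ^4 - 12954816*ζ^5 - 15450912*ζ^6 - 10497600*ζ^7 - 6998400*ζ^8 - 3499200*ζ^9)*u^14*v^16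
      + (171072 - 5264352*ζ - 1065312*ζ^2 - 1749600*ζ^3 - 1749600*ζ^4 + 443232*ζ^5 + 676512*ζ^6
      + 1679616*ζ^7)*u^13*v^17 + (-567648 + 178848*ζ - 843696*ζ^2 + 793152*ζ^3 + 2624400*ζ^4 + 1920672*ζ^5
      + 2476656*ζ^6 + 3499200*ζ^7 + 559872*ζ^8)*u^12*v^18
      + (-2488320 - 2371680*ζ - 1477440*ζ^2 - 3258144*ζ^3 - 1975104*ζ^4 + 933120*ζ^5 + 513216*ζ^6
      + 1399680*ζ^7 + 1399680*ζ^8 + 419904*ζ^9)*u^11*v^19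
      + (-972000 - 77760*ζ - 645408*ζ^2 - 645408*ζ^3 - 311040*ζ^4 - 194400*ζ^5 + 466560*ζ^6 + 699840*ζ^7
      + 699840*ζ^8 + 699840*ζ^9)*u^10*v^20 + (-622080 + 225504*ζ + 427680*ζ^2 - 233280*ζ^3 + 427680*ζ^4
      + 381024*ζ^5 - 466560*ζ^6)*u^9*v^21 + (-419904 + 334368*ζ + 54432*ζ^2 + 194400*ζ^3 + 194400*ζ^4
      + 54432*ζ^5 + 54432*ζ^6 - 419904*ζ^7)*u^8*v^22 + (-264384 - 62208*ζ - 15552*ζ^2 - 31104*ζ^3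
      + 93312*ζ^5 + 46656*ζ^6 - 139968*ζ^8)*u^7*v^23 + (19440 + 124416*ζ + 38880*ζ^2 + 171072*ζ^3
      + 66096*ζ^4 + 46656*ζ^6 - 46656*ζ^9)*u^6*v^24 + (-38880 - 7776*ζ^2 - 7776*ζ^3 - 38880*ζ^5)*u^5*v^25
      + (3888 + 38880*ζ^3 + 3888*ζ^6)*u^4*v^26) * h5

theorem klein_chordY_c_0_4_e1 (ζ h u v : R) (hζ : ζ ^ 4 + ζ ^ 3 + ζ ^ 2 + ζ + 1 = 0) (h5 : 5 * h = 1) :
    (kleinY_1_4 ζ h u v + -(kleinY_0_1 ζ h u v)) * (kleinX_0_1 ζ h u v - kleinX_1_0 ζ h u v) = -(-(kleinY_0_1 ζ h u v) - kleinY_1_0 ζ h u v) * (kleinX_1_4 ζ h u v - kleinX_0_1 ζ h u v) := by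
  unfold kleinX_0_1 kleinY_0_1 kleinX_1_0 kleinY_1_0 kleinX_1_4 kleinY_1_4
  linear_combination (exp := 1) ((-15552*h + 7776*ζ*h)*u^23*v^2 + (46656*h + 23328*ζ*h - 23328*ζ^2*h)*u^22*v^3
      + (77760*h - 38880*ζ^2*h)*u^21*v^4 + 116640*h*u^19*v^6 + (-147744*h - 23328*ζ*h)*u^18*v^7 + (520992*h
      + 202176*ζ*h - 202176*ζ^2*h)*u^17*v^8 + (894240*h - 349920*ζ^2*h)*u^16*v^9 + 1244160*h*u^14*v^11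
      + (287712*h - 1213056*ζ*h)*u^13*v^12 + (31104*h - 606528*ζ*h + 606528*ζ^2*h)*u^12*v^13 + (349920*h
      + 894240*ζ^2*h)*u^11*v^14 + (-544320*h)*u^9*v^16 + (147744*h + 23328*ζ*h)*u^8*v^17 + (-93312*h
      + 225504*ζ*h - 225504*ζ^2*h)*u^7*v^18 + (-38880*h - 77760*ζ^2*h)*u^6*v^19 + 38880*h*u^4*v^21
      + (-15552*h + 7776*ζ*h)*u^3*v^22 + (7776*h - 15552*ζ*h + 15552*ζ^2*h)*u^2*v^23) * hζ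
    + ((-324 - 324*ζ)*u^24*v + (1296 + 7776*ζ + 1296*ζ^2)*u^23*v^2
      + (-2916 - 23328*ζ - 23328*ζ^2 - 2916*ζ^3)*u^22*v^3 + (41796*ζ + 57348*ζ^2 + 41796*ζ^3)*u^21*v^4
      + (61560 - 38880*ζ^2 - 38880*ζ^3)*u^20*v^5 + (-78084 - 78084*ζ + 15552*ζ^3)*u^19*v^6 + (109836
      + 108864*ζ + 109836*ζ^2)*u^18*v^7 + (-202176 - 248832*ζ - 248832*ζ^2 - 202176*ζ^3)*u^17*v^8
      + (197964*ζ + 337932*ζ^2 + 197964*ζ^3)*u^16*v^9 + (-213840 - 427680*ζ^2 - 427680*ζ^3)*u^15*v^10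
      + (-89100 - 89100*ζ + 178848*ζ^3)*u^14*v^11 + (-124740 + 248832*ζ - 124740*ζ^2)*u^13*v^12 + (35640
      + 108864*ζ + 108864*ζ^2 + 35640*ζ^3)*u^12*v^13 + (156492*ζ - 201204*ζ^2 + 156492*ζ^3)*u^11*v^14
      + (100440 + 38880*ζ^2 + 38880*ζ^3)*u^10*v^15 + (48276 + 48276*ζ + 69984*ζ^3)*u^9*v^16
      + (22356 - 23328*ζ + 22356*ζ^2)*u^8*v^17 + (11664 - 7776*ζ - 7776*ζ^2 + 11664*ζ^3)*u^7*v^18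
      + (-21708*ζ + 9396*ζ^2 - 21708*ζ^3)*u^6*v^19 + (-1296 - 1296*ζ - 7776*ζ^3)*u^4*v^21 + (324
      + 324*ζ^2)*u^3*v^22 + (-324 - 324*ζ^3)*u^2*v^23) * h5

theorem klein_diff_c_0_4_e1 (ζ h u v : R) (hζ : ζ ^ 4 + ζ ^ 3 + ζ ^ 2 + ζ + 1 = 0) (h5 : 5 * h = 1) :
    (kleinX_0_1 ζ h u v - kleinX_1_0 ζ h u v) * ((-4 - 3*ζ - 2*ζ^2 - ζ^3)*u^13*v + (-6 - 12*ζ - 8*ζ^2 - 4*ζ^3)*u^12*v^2
        + (2 - 16*ζ - 14*ζ^2 - 7*ζ^3)*u^11*v^3 + (7 - 6*ζ - 19*ζ^2 - 12*ζ^3)*u^10*v^4 + (20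
        + 15*ζ - 15*ζ^2 - 20*ζ^3)*u^9*v^5 + (-4 + 22*ζ - 2*ζ^2 - 26*ζ^3)*u^8*v^6 + (-11 - 22*ζ
        + 2*ζ^2 - 24*ζ^3)*u^7*v^7 + (57 - 31*ζ + 26*ζ^2 + 13*ζ^3)*u^6*v^8 + (22 + 24*ζ + 26*ζ^2
        + 48*ζ^3)*u^5*v^9 + (-15 + 20*ζ - 20*ζ^2 + 15*ζ^3)*u^4*v^10 + (-26 - 7*ζ - 13*ζ^2 - 19*ζ^3)*u^3*v^11
        + (-4 - 8*ζ + 3*ζ^2 - 11*ζ^3)*u^2*v^12 + (3 + ζ + 4*ζ^2 + 2*ζ^3)*u*v^13 + (3 + ζ - ζ^2 + 2*ζ^3)*v^14)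
      = 2 ^ 2 * 3 ^ 2 * 5 ^ 1 * kleinF u v ^ 2 := by
  unfold kleinX_0_1 kleinX_1_0 kleinF
  linear_combination (exp := 1) ((-36)*u^22*v^2 + (-72 + 72*ζ)*u^21*v^3 + (-72 + 180*ζ - 108*ζ^2)*u^20*v^4
      + (-900 - 288*ζ - 612*ζ^2)*u^19*v^5 + (-2592 - 1332*ζ - 1476*ζ^2)*u^18*v^6
      + (-2700 - 1836*ζ - 2556*ζ^2)*u^17*v^7 + (-108 - 972*ζ - 4320*ζ^2)*u^16*v^8 + (4572
      + 1800*ζ - 6372*ζ^2)*u^15*v^9 + (3420 + 1908*ζ - 7128*ζ^2)*u^14*v^10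
      + (-6228 - 1008*ζ - 2664*ζ^2)*u^13*v^11 + (-2736 + 2196*ζ + 7956*ζ^2)*u^12*v^12 + (7596 + 3024*ζ
      + 10980*ζ^2)*u^11*v^13 + (576 - 2160*ζ + 1584*ζ^2)*u^10*v^14 + (-5580 - 2376*ζ - 3744*ζ^2)*u^9*v^15
      + (216 - 1584*ζ - 2232*ζ^2)*u^8*v^16 + (3096 + 648*ζ - 1152*ζ^2)*u^7*v^17 + (-684
      + 1764*ζ - 180*ζ^2)*u^6*v^18 + (-864 + 180*ζ + 684*ζ^2)*u^5*v^19 + (180 - 576*ζ + 396*ζ^2)*u^4*v^20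
      + (216 - 144*ζ - 72*ζ^2)*u^3*v^21 + (-72 + 108*ζ - 72*ζ^2)*u^2*v^22) * hζ

end Fermat.Agent.S52
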