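import Fermat.Agent.S52.KleinBase

/-!
# S52 block F1 (helper27): Klein's icosahedral forms and the universal 5-torsion sections

GENERATED FILE (exact arithmetic in `ℚ(ζ₅)`, generator in `NOTES/items/46_F_gen_*.py.txt`).

* `kleinF`, `kleinH`, `kleinT`: Klein's forms of degree 12, 20, 30, `T² + H³ = 1728 f⁵`;
* universal curve `Y² = X³ + 27 H X + 54 T`;
* `kleinX_a_b ζ h u v`, `kleinY_a_b ζ h u v`: the universal point `a • P₁ + b • P₂` of order 5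
  (`ζ` a primitive 5-th root of unity, `h = 1/5`); only the 12 representatives of `±` are defined,
  the section of `-(a,b)` is `(X, -Y)`.
-/

set_option autoImplicit false

namespace Fermat.Agent.S52

section defs

variable {R : Type*} [CommRing R]

/-- Klein's form `f` of degree 12. -/
def kleinF (u v : R) : R := u * v * (u ^ 10 + 11 * u ^ 5 * v ^ 5 - v ^ 10)

/-- Klein's form `H` of degree 20. -/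
def kleinH (u v : R) : R :=
  -(u ^ 20 + v ^ 20) + 228 * (u ^ 15 * v ^ 5 - u ^ 5 * v ^ 15) - 494 * u ^ 10 * v ^ 10

/-- Klein's form `T` of degree 30. -/
def kleinT (u v : R) : R :=
  (u ^ 30 + v ^ 30) + 522 * (u ^ 25 * v ^ 5 - u ^ 5 * v ^ 25)
    - 10005 * (u ^ 20 * v ^ 10 + u ^ 10 * v ^ 20)

theorem klein_rel (u v : R) : kleinT u v ^ 2 + kleinH u v ^ 3 = 1728 * kleinF u v ^ 5 := by
  unfold kleinT kleinH kleinF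
  ring

/-- `X`-coordinate of the universal 5-torsion point with label `(0, 1)`. -/
def kleinX_0_1 (ζ h u v : R) : R :=
  3*u^10 + (-36)*u^9*v + 72*u^8*v^2 + (-108)*u^7*v^3 + 180*u^6*v^4 + (-90)*u^5*v^5 + 72*u^4*v^6
    + 36*u^3*v^7 + 36*u^2*v^8 + 3*v^10

/-- `Y`-coordinate of the universal 5-torsion point with label `(0, 1)`. -/
def kleinY_0_1 (ζ h u v : R) : R :=
  108*u^14*v + (-432)*u^13*v^2 + 972*u^12*v^3 + (-1620)*u^11*v^4 + 2700*u^10*v^5 + (-3132)*u^9*v^6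
    + 2268*u^8*v^7 + (-648)*u^7*v^8 + 540*u^6*v^9 + 432*u^4*v^11 + (-108)*u^3*v^12 + 108*u^2*v^13

/-- `X`-coordinate of the universal 5-torsion point with label `(0, 2)`. -/
def kleinX_0_2 (ζ h u v : R) : R :=
  3*u^10 + 36*u^8*v^2 + (-36)*u^7*v^3 + 72*u^6*v^4 + 90*u^5*v^5 + 180*u^4*v^6 + 108*u^3*v^7
    + 72*u^2*v^8 + 36*u*v^9 + 3*v^10

/-- `Y`-coordinate of the universal 5-torsion point with label `(0, 2)`. -/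
def kleinY_0_2 (ζ h u v : R) : R :=
  (-108)*u^13*v^2 + (-108)*u^12*v^3 + (-432)*u^11*v^4 + (-540)*u^9*v^6 + (-648)*u^8*v^7
    + (-2268)*u^7*v^8 + (-3132)*u^6*v^9 + (-2700)*u^5*v^10 + (-1620)*u^4*v^11 + (-972)*u^3*v^12
    + (-432)*u^2*v^13 + (-108)*u*v^14

/-- `X`-coordinate of the universal 5-torsion point with label `(1, 0)`. -/
def kleinX_1_0 (ζ h u v : R) : R :=
  3*u^10 + (-36*ζ)*u^9*v + 72*ζ^2*u^8*v^2 + (-108*ζ^3)*u^7*v^3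
    + (-180 - 180*ζ - 180*ζ^2 - 180*ζ^3)*u^6*v^4 + (-90)*u^5*v^5 + 72*ζ*u^4*v^6 + 36*ζ^2*u^3*v^7
    + 36*ζ^3*u^2*v^8 + 3*v^10

/-- `Y`-coordinate of the universal 5-torsion point with label `(1, 0)`. -/
def kleinY_1_0 (ζ h u v : R) : R :=
  108*ζ*u^14*v + (-432*ζ^2)*u^13*v^2 + 972*ζ^3*u^12*v^3 + (1620 + 1620*ζ + 1620*ζ^2
    + 1620*ζ^3)*u^11*v^4 + 2700*u^10*v^5 + (-3132*ζ)*u^9*v^6 + 2268*ζ^2*u^8*v^7 + (-648*ζ^3)*u^7*v^8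
    + (-540 - 540*ζ - 540*ζ^2 - 540*ζ^3)*u^6*v^9 + 432*ζ*u^4*v^11 + (-108*ζ^2)*u^3*v^12 + 108*ζ^3*u^2*v^13

/-- `X`-coordinate of the universal 5-torsion point with label `(1, 1)`. -/
def kleinX_1_1 (ζ h u v : R) : R :=
  3*u^10 + 36*ζ*u^8*v^2 + (36 + 36*ζ + 36*ζ^2 + 36*ζ^3)*u^7*v^3 + 72*ζ^2*u^6*v^4 + 90*u^5*v^5
    + 180*ζ^3*u^4*v^6 + 108*ζ*u^3*v^7 + (-72 - 72*ζ - 72*ζ^2 - 72*ζ^3)*u^2*v^8 + 36*ζ^2*u*v^9 + 3*v^10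

/-- `Y`-coordinate of the universal 5-torsion point with label `(1, 1)`. -/
def kleinY_1_1 (ζ h u v : R) : R :=
  (-108*ζ)*u^13*v^2 + (108 + 108*ζ + 108*ζ^2 + 108*ζ^3)*u^12*v^3 + (-432*ζ^2)*u^11*v^4
    + (-540*ζ^3)*u^9*v^6 + (-648*ζ)*u^8*v^7 + (2268 + 2268*ζ + 2268*ζ^2 + 2268*ζ^3)*u^7*v^8
    + (-3132*ζ^2)*u^6*v^9 + (-2700)*u^5*v^10 + (-1620*ζ^3)*u^4*v^11 + (-972*ζ)*u^3*v^12 + (432 + 432*ζ
    + 432*ζ^2 + 432*ζ^3)*u^2*v^13 + (-108*ζ^2)*u*v^14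

/-- `X`-coordinate of the universal 5-torsion point with label `(1, 2)`. -/
def kleinX_1_2 (ζ h u v : R) : R :=
  3*u^10 + (-36 - 36*ζ - 36*ζ^2 - 36*ζ^3)*u^8*v^2 + (-36*ζ)*u^7*v^3 + 72*ζ^3*u^6*v^4 + 90*u^5*v^5
    + 180*ζ^2*u^4*v^6 + (-108 - 108*ζ - 108*ζ^2 - 108*ζ^3)*u^3*v^7 + 72*ζ*u^2*v^8 + 36*ζ^3*u*v^9 + 3*v^10

/-- `Y`-coordinate of the universal 5-torsion point with label `(1, 2)`. -/
def kleinY_1_2 (ζ h u v : R) : R :=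
  (-108 - 108*ζ - 108*ζ^2 - 108*ζ^3)*u^13*v^2 + 108*ζ*u^12*v^3 + 432*ζ^3*u^11*v^4 + 540*ζ^2*u^9*v^6
    + (-648 - 648*ζ - 648*ζ^2 - 648*ζ^3)*u^8*v^7 + 2268*ζ*u^7*v^8 + 3132*ζ^3*u^6*v^9 + 2700*u^5*v^10
    + 1620*ζ^2*u^4*v^11 + (-972 - 972*ζ - 972*ζ^2 - 972*ζ^3)*u^3*v^12 + 432*ζ*u^2*v^13 + 108*ζ^3*u*v^14

/-- `X`-coordinate of the universal 5-torsion point with label `(1, 3)`. -/
def kleinX_1_3 (ζ h u v : R) : R :=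
  3*u^10 + (36 + 36*ζ + 36*ζ^2 + 36*ζ^3)*u^9*v + 72*ζ^3*u^8*v^2 + (-108*ζ^2)*u^7*v^3 + 180*ζ*u^6*v^4
    + (-90)*u^5*v^5 + (-72 - 72*ζ - 72*ζ^2 - 72*ζ^3)*u^4*v^6 + 36*ζ^3*u^3*v^7 + 36*ζ^2*u^2*v^8 + 3*v^10

/-- `Y`-coordinate of the universal 5-torsion point with label `(1, 3)`. -/
def kleinY_1_3 (ζ h u v : R) : R :=
  (108 + 108*ζ + 108*ζ^2 + 108*ζ^3)*u^14*v + 432*ζ^3*u^13*v^2 + (-972*ζ^2)*u^12*v^3 + 1620*ζ*u^11*v^4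
    + (-2700)*u^10*v^5 + (-3132 - 3132*ζ - 3132*ζ^2 - 3132*ζ^3)*u^9*v^6 + (-2268*ζ^3)*u^8*v^7
    + 648*ζ^2*u^7*v^8 + (-540*ζ)*u^6*v^9 + (432 + 432*ζ + 432*ζ^2 + 432*ζ^3)*u^4*v^11 + 108*ζ^3*u^3*v^12
    + (-108*ζ^2)*u^2*v^13

/-- `X`-coordinate of the universal 5-torsion point with label `(1, 4)`. -/
def kleinX_1_4 (ζ h u v : R) : R :=
  (-57*h + 36*ζ^2*h + 36*ζ^3*h)*u^10 + (198*h + 396*ζ^2*h + 396*ζ^3*h)*u^5*v^5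
    + (-93*h - 36*ζ^2*h - 36*ζ^3*h)*v^10

/-- `Y`-coordinate of the universal 5-torsion point with label `(1, 4)`. -/
def kleinY_1_4 (ζ h u v : R) : R :=
  (216*h + 432*ζ*h + 324*ζ^2*h + 108*ζ^3*h)*u^15 + (2484*h + 4968*ζ*h + 3456*ζ^2*h
    + 1512*ζ^3*h)*u^10*v^5 + (972*h + 1944*ζ*h - 1512*ζ^2*h + 3456*ζ^3*h)*u^5*v^10 + (-108*h - 216*ζ*h
    + 108*ζ^2*h - 324*ζ^3*h)*v^15

/-- `X`-coordinate of the universal 5-torsion point with label `(2, 0)`. -/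
def kleinX_2_0 (ζ h u v : R) : R :=
  3*u^10 + 36*ζ^2*u^8*v^2 + (-36*ζ^3)*u^7*v^3 + (-72 - 72*ζ - 72*ζ^2 - 72*ζ^3)*u^6*v^4 + 90*u^5*v^5
    + 180*ζ*u^4*v^6 + 108*ζ^2*u^3*v^7 + 72*ζ^3*u^2*v^8 + (-36 - 36*ζ - 36*ζ^2 - 36*ζ^3)*u*v^9 + 3*v^10

/-- `Y`-coordinate of the universal 5-torsion point with label `(2, 0)`. -/
def kleinY_2_0 (ζ h u v : R) : R :=
  (-108*ζ^2)*u^13*v^2 + (-108*ζ^3)*u^12*v^3 + (432 + 432*ζ + 432*ζ^2 + 432*ζ^3)*u^11*v^4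
    + (-540*ζ)*u^9*v^6 + (-648*ζ^2)*u^8*v^7 + (-2268*ζ^3)*u^7*v^8 + (3132 + 3132*ζ + 3132*ζ^2
    + 3132*ζ^3)*u^6*v^9 + (-2700)*u^5*v^10 + (-1620*ζ)*u^4*v^11 + (-972*ζ^2)*u^3*v^12
    + (-432*ζ^3)*u^2*v^13 + (108 + 108*ζ + 108*ζ^2 + 108*ζ^3)*u*v^14

/-- `X`-coordinate of the universal 5-torsion point with label `(2, 1)`. -/
def kleinX_2_1 (ζ h u v : R) : R :=
  3*u^10 + 36*ζ^3*u^8*v^2 + (-36*ζ^2)*u^7*v^3 + 72*ζ*u^6*v^4 + 90*u^5*v^5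
    + (-180 - 180*ζ - 180*ζ^2 - 180*ζ^3)*u^4*v^6 + 108*ζ^3*u^3*v^7 + 72*ζ^2*u^2*v^8 + 36*ζ*u*v^9 + 3*v^10

/-- `Y`-coordinate of the universal 5-torsion point with label `(2, 1)`. -/
def kleinY_2_1 (ζ h u v : R) : R :=
  108*ζ^3*u^13*v^2 + 108*ζ^2*u^12*v^3 + 432*ζ*u^11*v^4 + (-540 - 540*ζ - 540*ζ^2 - 540*ζ^3)*u^9*v^6
    + 648*ζ^3*u^8*v^7 + 2268*ζ^2*u^7*v^8 + 3132*ζ*u^6*v^9 + 2700*u^5*v^10
    + (-1620 - 1620*ζ - 1620*ζ^2 - 1620*ζ^3)*u^4*v^11 + 972*ζ^3*u^3*v^12 + 432*ζ^2*u^2*v^13 + 108*ζ*u*v^14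

/-- `X`-coordinate of the universal 5-torsion point with label `(2, 2)`. -/
def kleinX_2_2 (ζ h u v : R) : R :=
  3*u^10 + (-36*ζ^3)*u^9*v + 72*ζ*u^8*v^2 + (108 + 108*ζ + 108*ζ^2 + 108*ζ^3)*u^7*v^3
    + 180*ζ^2*u^6*v^4 + (-90)*u^5*v^5 + 72*ζ^3*u^4*v^6 + 36*ζ*u^3*v^7
    + (-36 - 36*ζ - 36*ζ^2 - 36*ζ^3)*u^2*v^8 + 3*v^10

/-- `Y`-coordinate of the universal 5-torsion point with label `(2, 2)`. -/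
def kleinY_2_2 (ζ h u v : R) : R :=
  (-108*ζ^3)*u^14*v + 432*ζ*u^13*v^2 + (972 + 972*ζ + 972*ζ^2 + 972*ζ^3)*u^12*v^3 + 1620*ζ^2*u^11*v^4
    + (-2700)*u^10*v^5 + 3132*ζ^3*u^9*v^6 + (-2268*ζ)*u^8*v^7 + (-648 - 648*ζ - 648*ζ^2 - 648*ζ^3)*u^7*v^8
    + (-540*ζ^2)*u^6*v^9 + (-432*ζ^3)*u^4*v^11 + 108*ζ*u^3*v^12 + (108 + 108*ζ + 108*ζ^2
    + 108*ζ^3)*u^2*v^13

/-- `X`-coordinate of the universal 5-torsion point with label `(2, 3)`. -/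
def kleinX_2_3 (ζ h u v : R) : R :=
  (-93*h - 36*ζ^2*h - 36*ζ^3*h)*u^10 + (-198*h - 396*ζ^2*h - 396*ζ^3*h)*u^5*v^5 + (-57*h + 36*ζ^2*h
    + 36*ζ^3*h)*v^10

/-- `Y`-coordinate of the universal 5-torsion point with label `(2, 3)`. -/
def kleinY_2_3 (ζ h u v : R) : R :=
  (-108*h - 216*ζ*h + 108*ζ^2*h - 324*ζ^3*h)*u^15 + (-972*h - 1944*ζ*h
    + 1512*ζ^2*h - 3456*ζ^3*h)*u^10*v^5 + (2484*h + 4968*ζ*h + 3456*ζ^2*h + 1512*ζ^3*h)*u^5*v^10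
    + (-216*h - 432*ζ*h - 324*ζ^2*h - 108*ζ^3*h)*v^15

/-- `X`-coordinate of the universal 5-torsion point with label `(2, 4)`. -/
def kleinX_2_4 (ζ h u v : R) : R :=
  3*u^10 + (-36*ζ^2)*u^9*v + (-72 - 72*ζ - 72*ζ^2 - 72*ζ^3)*u^8*v^2 + (-108*ζ)*u^7*v^3
    + 180*ζ^3*u^6*v^4 + (-90)*u^5*v^5 + 72*ζ^2*u^4*v^6 + (-36 - 36*ζ - 36*ζ^2 - 36*ζ^3)*u^3*v^7
    + 36*ζ*u^2*v^8 + 3*v^10

/-- `Y`-coordinate of the universal 5-torsion point with label `(2, 4)`. -/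
def kleinY_2_4 (ζ h u v : R) : R :=
  108*ζ^2*u^14*v + (432 + 432*ζ + 432*ζ^2 + 432*ζ^3)*u^13*v^2 + 972*ζ*u^12*v^3 + (-1620*ζ^3)*u^11*v^4
    + 2700*u^10*v^5 + (-3132*ζ^2)*u^9*v^6 + (-2268 - 2268*ζ - 2268*ζ^2 - 2268*ζ^3)*u^8*v^7
    + (-648*ζ)*u^7*v^8 + 540*ζ^3*u^6*v^9 + 432*ζ^2*u^4*v^11 + (108 + 108*ζ + 108*ζ^2 + 108*ζ^3)*u^3*v^12
    + 108*ζ*u^2*v^13

end defs

end Fermat.Agent.S52
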