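import Mathlib

/-!
# S52, block I, step (I3): the 3-division quartic of the family has no polynomial root

Let `A, B, D ∈ K[X]` with `4 A³ + 27 B² = κ D⁵`, `D` squarefree, `A` coprime to `D`,
`deg A ≤ 2e`, `deg B ≤ 3e`, `2e < 5 deg D`.  Then the quartic
`3 x⁴ + 6 A x² + 12 B x − A²` (the 3-division polynomial of `y² = x³ + A x + B`) has no root
`x = Q ∈ K[X]`.

The proof is the identity `Q² · (−16 (4A³ + 27B²)) = −(3Q² + A)³ (Q² + 3A)` (valid when `Q` is a
root) and a valuation count at the irreducible factors of `D`: `3 ∤ 5`.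
-/

open Polynomial

namespace Fermat.Agent.S52

variable {K : Type*} [Field K]

/-- The basic identity for a root `Q` of the 3-division quartic. -/
theorem S52_psi3_identity {R : Type*} [CommRing R] (A B Q : R)
    (hQ : 3 * Q ^ 4 + 6 * A * Q ^ 2 + 12 * B * Q - A ^ 2 = 0) :
    Q ^ 2 * (-16 * (4 * A ^ 3 + 27 * B ^ 2)) = -((3 * Q ^ 2 + A) ^ 3 * (Q ^ 2 + 3 * A)) := by
  linear_combination (-(3 : R) * (3 * Q ^ 4 + 6 * A * Q ^ 2 + 12 * B * Q - A ^ 2)
    + 6 * (3 * Q ^ 4 + 6 * A * Q ^ 2 - A ^ 2)) * hQ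

/-- Degree bound for a polynomial root of the 3-division quartic. -/
theorem S52_root_natDegree_le (h3 : (3 : K) ≠ 0) (e : ℕ) (A B Q : K[X])
    (hA : A.natDegree ≤ 2 * e) (hB : B.natDegree ≤ 3 * e)
    (hQ : 3 * Q ^ 4 + 6 * A * Q ^ 2 + 12 * B * Q - A ^ 2 = 0) :
    Q.natDegree ≤ e := by
  by_contra hlt
  push Not at hlt
  have hQ0 : Q ≠ 0 := by
    rintro rfl
    simp at hlt
  have h3C : (3 : K[X]) = C (3 : K) := (C_ofNat 3).symm
  have hdeg4 : (3 * Q ^ 4).natDegree = 4 * Q.natDegree := by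
    rw [h3C, natDegree_C_mul h3, natDegree_pow]
  have heq : 3 * Q ^ 4 = A ^ 2 - 6 * A * Q ^ 2 - 12 * B * Q := by
    linear_combination hQ
  have h1 : (A ^ 2).natDegree ≤ 4 * e := by
    calc (A ^ 2).natDegree ≤ 2 * A.natDegree := natDegree_pow_le
      _ ≤ 4 * e := by omega
  have h6 : ((6 : K[X])).natDegree = 0 := by
    have : (6 : K[X]) = C (6 : K) := (C_ofNat 6).symm
    rw [this, natDegree_C]
  have h12 : ((12 : K[X])).natDegree = 0 := by
    have : (12 : K[X]) = C (12 : K) := (C_ofNat 12).symm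
    rw [this, natDegree_C]
  have h2 : (6 * A * Q ^ 2).natDegree ≤ 2 * e + 2 * Q.natDegree := by
    calc (6 * A * Q ^ 2).natDegree ≤ (6 * A).natDegree + (Q ^ 2).natDegree := natDegree_mul_le
      _ ≤ ((6 : K[X]).natDegree + A.natDegree) + 2 * Q.natDegree :=
          Nat.add_le_add natDegree_mul_le natDegree_pow_le
      _ ≤ 2 * e + 2 * Q.natDegree := by omega
  have h3' : (12 * B * Q).natDegree ≤ 3 * e + Q.natDegree := by
    calc (12 * B * Q).natDegree ≤ (12 * B).natDegree + Q.natDegree := natDegree_mul_le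
      _ ≤ ((12 : K[X]).natDegree + B.natDegree) + Q.natDegree :=
          Nat.add_le_add_right natDegree_mul_le _
      _ ≤ 3 * e + Q.natDegree := by omega
  have hle : (A ^ 2 - 6 * A * Q ^ 2 - 12 * B * Q).natDegree
      ≤ max (max (4 * e) (2 * e + 2 * Q.natDegree)) (3 * e + Q.natDegree) := by
    refine (natDegree_sub_le _ _).trans (max_le_max ?_ h3')
    exact (natDegree_sub_le _ _).trans (max_le_max h1 h2)
  rw [← heq, hdeg4] at hle
  rcases le_max_iff.mp hle with h | h
  · rcases le_max_iff.mp h with h | h <;> omega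
  · omega

/-- **(I3)**: no polynomial root. -/
theorem S52_no_section (h2 : (2 : K) ≠ 0) (h3 : (3 : K) ≠ 0) (e : ℕ) (A B D Q : K[X]) (κ : K)
    (hκ : κ ≠ 0) (hΔ : 4 * A ^ 3 + 27 * B ^ 2 = C κ * D ^ 5)
    (hD : Squarefree D) (hdeg : 2 * e < 5 * D.natDegree) (hcop : IsCoprime A D)
    (hA : A.natDegree ≤ 2 * e) (hB : B.natDegree ≤ 3 * e)
    (hQ : 3 * Q ^ 4 + 6 * A * Q ^ 2 + 12 * B * Q - A ^ 2 = 0) : False := by
  have hQdeg : Q.natDegree ≤ e := S52_root_natDegree_le h3 e A B Q hA hB hQ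
  have hD0 : D ≠ 0 := hD.ne_zero
  have hDnu : ¬ IsUnit D := by
    intro hu
    have := natDegree_eq_zero_of_isUnit hu
    omega
  have hA0 : A ≠ 0 := by
    rintro rfl
    exact hDnu (isCoprime_zero_left.mp hcop)
  have key := S52_psi3_identity A B Q hQ
  rw [hΔ] at key
  set α : K[X] := 3 * Q ^ 2 + A with hα
  set β : K[X] := Q ^ 2 + 3 * A with hβ
  have h8 : IsUnit (8 : K[X]) := by
    have : (8 : K[X]) = C (8 : K) := (C_ofNat 8).symm
    rw [this]
    refine isUnit_C.mpr (IsUnit.mk0 _ ?_)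
    have : (8 : K) = 2 ^ 3 := by norm_num
    rw [this]
    exact pow_ne_zero _ h2
  have h16 : IsUnit (-16 * C κ : K[X]) := by
    have : (-16 * C κ : K[X]) = C (-16 * κ) := by rw [C_mul, C_neg, C_ofNat]
    rw [this]
    refine isUnit_C.mpr (IsUnit.mk0 _ ?_)
    have : (-16 * κ : K) = -(2 ^ 4 * κ) := by ring
    rw [this]
    exact neg_ne_zero.mpr (mul_ne_zero (pow_ne_zero _ h2) hκ)
  -- every prime factor of `D` is prime to `α`
  have hprime : ∀ π : K[X], Prime π → π ∣ α → ¬ π ∣ D := by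
    intro π hπ hπα hπD
    have hπA : ¬ π ∣ A := by
      intro h
      exact hπ.not_isUnit (hcop.isUnit_of_dvd' h hπD)
    have hπQ : ¬ π ∣ Q := by
      intro h
      apply hπA
      have : A = α - 3 * Q ^ 2 := by rw [hα]; ring
      rw [this]
      exact dvd_sub hπα (Dvd.dvd.mul_left (dvd_pow h two_ne_zero) _)
    have hπβ : ¬ π ∣ β := by
      intro h
      apply hπA
      have h8A : π ∣ 8 * A := by
        have : 8 * A = 3 * β - α := by rw [hα, hβ]; ring
        rw [this]
        exact dvd_sub (Dvd.dvd.mul_left h _) hπα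
      exact (hπ.dvd_or_dvd h8A).resolve_left (fun h => hπ.not_isUnit (isUnit_of_dvd_unit h h8))
    obtain ⟨D₁, hD₁⟩ := hπD
    have hπD₁ : ¬ π ∣ D₁ := by
      intro h
      obtain ⟨D₂, hD₂⟩ := h
      apply hπ.not_isUnit
      apply hD π
      rw [hD₁, hD₂]
      exact ⟨D₂, by ring⟩
    -- multiplicities
    have e1 : emultiplicity π (Q ^ 2 * (-16 * (C κ * D ^ 5))) = 5 := by
      have hrw : Q ^ 2 * (-16 * (C κ * D ^ 5)) = (Q ^ 2 * (-16 * C κ) * D₁ ^ 5) * π ^ 5 := by
        rw [hD₁]; ring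
      rw [hrw, emultiplicity_mul hπ, emultiplicity_pow hπ, emultiplicity_mul hπ,
        emultiplicity_mul hπ, emultiplicity_pow hπ, emultiplicity_pow hπ,
        emultiplicity_eq_zero.mpr hπQ, emultiplicity_eq_zero.mpr hπD₁,
        emultiplicity_eq_zero.mpr (fun h => hπ.not_isUnit (isUnit_of_dvd_unit h h16)),
        (FiniteMultiplicity.of_prime_left hπ hπ.ne_zero).emultiplicity_self]
      simp
    have e2 : emultiplicity π (-(α ^ 3 * β)) = 3 * emultiplicity π α := by
      rw [emultiplicity_neg, emultiplicity_mul hπ, emultiplicity_pow hπ,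
        emultiplicity_eq_zero.mpr hπβ]
      simp
    rw [key, e2] at e1
    generalize emultiplicity π α = x at e1
    induction x with
    | top => simp at e1
    | coe n =>
      have : ((3 * n : ℕ) : ℕ∞) = ((5 : ℕ) : ℕ∞) := by push_cast; simpa using e1
      have := ENat.natCast_inj.mp this
      omega
  have hαD : IsCoprime α D := by
    refine isCoprime_of_prime_dvd ?_ hprime
    rintro ⟨-, h⟩
    exact hD0 h
  -- `D⁵ ∣ β`
  have hdvd : D ^ 5 ∣ β := by
    have h1 : D ^ 5 ∣ α ^ 3 * β := by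
      have : α ^ 3 * β = (-(Q ^ 2 * (-16 * C κ))) * D ^ 5 := by
        linear_combination key
      rw [this]
      exact Dvd.intro_left _ rfl
    exact (hαD.symm.pow (m := 5) (n := 3)).dvd_of_dvd_mul_left h1
  by_cases hβ0 : β = 0
  · -- then `Q = 0` and `A = 0`
    rw [hβ0, mul_zero, neg_zero] at key
    have hQ0 : Q = 0 := by
      rcases mul_eq_zero.mp key with h | h
      · exact pow_eq_zero_iff (two_ne_zero) |>.mp h
      · exfalso
        have : (-16 * C κ : K[X]) * D ^ 5 = 0 := by linear_combination h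
        rcases mul_eq_zero.mp this with h' | h'
        · exact h16.ne_zero h'
        · exact hD0 (pow_eq_zero_iff (by norm_num) |>.mp h')
    have : (3 : K[X]) * A = 0 := by
      have := hβ0
      rw [hβ, hQ0] at this
      simpa using this
    rcases mul_eq_zero.mp this with h | h
    · have h3C : (3 : K[X]) = C (3 : K) := (C_ofNat 3).symm
      rw [h3C, C_eq_zero] at h
      exact h3 h
    · exact hA0 h
  · have h1 := natDegree_le_of_dvd hdvd hβ0
    rw [natDegree_pow] at h1
    have h2' : β.natDegree ≤ 2 * e := by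
      rw [hβ]
      refine (natDegree_add_le _ _).trans (max_le ?_ ?_)
      · exact natDegree_pow_le.trans (by omega)
      · have h3C : (3 : K[X]) = C (3 : K) := (C_ofNat 3).symm
        rw [h3C]
        exact (natDegree_C_mul_le _ _).trans hA
    omega

end Fermat.Agent.S52
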