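import Fermat.Agent.S52.Family
import Fermat.Agent.S52.KleinSec

/-!
# S52, block S over a field, via Klein's coordinates (fallback route, helper1)

`S52_klein_fH_no_common_zero`: Klein's forms `f` and `H` have no common zero `≠ (0,0)` over a
field with `5 ≠ 0`  (`h ≡ 3125 (11U − V) V³ mod U² + 11UV − V²`).

`S52_ssField_of`: if every `(c4, c6)` with `c4³ ≠ c6²` is of the form `(−H(z), −T(z))` (F3) and the
family identities (F2) hold, the family has no cuspidal fibre.
-/

set_option autoImplicit false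

namespace Fermat.Agent.S52

variable {K : Type*} [Field K]

/-- Klein's forms `f` and `H` have no common nontrivial zero in characteristic `≠ 5`. -/
theorem S52_klein_fH_no_common_zero (h5 : (5 : K) ≠ 0) (a b : K) (hab : a ≠ 0 ∨ b ≠ 0)
    (hf : kleinF a b = 0) (hH : kleinH a b = 0) : False := by
  unfold kleinF at hf
  unfold kleinH at hH
  by_cases ha : a = 0
  · subst ha
    have hb : b ≠ 0 := by
      rcases hab with h | h
      · exact absurd rfl h
      · exact h
    have : b ^ 20 = 0 := by linear_combination -hH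
    exact hb (pow_eq_zero_iff (by norm_num) |>.mp this)
  by_cases hb : b = 0
  · subst hb
    have : a ^ 20 = 0 := by linear_combination -hH
    exact ha (pow_eq_zero_iff (by norm_num) |>.mp this)
  have hF0 : a ^ 10 + 11 * a ^ 5 * b ^ 5 - b ^ 10 = 0 := by
    rcases mul_eq_zero.mp hf with h | h
    · rcases mul_eq_zero.mp h with h' | h'
      · exact absurd h' ha
      · exact absurd h' hb
    · exact h
  have key : 3125 * (11 * a ^ 5 - b ^ 5) * (b ^ 5) ^ 3 = 0 := by
    linear_combination hH - (-(a ^ 5) ^ 2 + 239 * a ^ 5 * b ^ 5 - 3124 * (b ^ 5) ^ 2) * hF0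
  have h3125 : (3125 : K) ≠ 0 := by
    have : (3125 : K) = 5 ^ 5 := by norm_num
    rw [this]
    exact pow_ne_zero _ h5
  have hb5 : (b ^ 5) ^ 3 ≠ 0 := pow_ne_zero _ (pow_ne_zero _ hb)
  have h11 : 11 * a ^ 5 - b ^ 5 = 0 := by
    rcases mul_eq_zero.mp key with h | h
    · rcases mul_eq_zero.mp h with h' | h'
      · exact absurd h' h3125
      · exact h'
    · exact absurd h hb5
  have hU : (a ^ 5) ^ 2 = 0 := by
    have hV : b ^ 5 = 11 * a ^ 5 := by linear_combination -h11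
    have : a ^ 10 + 11 * a ^ 5 * (11 * a ^ 5) - (11 * a ^ 5) ^ 2 = 0 := by
      have h := hF0
      have e : b ^ 10 = (b ^ 5) ^ 2 := by ring
      rw [e, hV] at h
      exact h
    linear_combination this
  exact ha (pow_eq_zero_iff (by norm_num) |>.mp (pow_eq_zero_iff (by norm_num) |>.mp hU))

/-- F3 over `K`: every `(c4, c6)` with `c4³ ≠ c6²` is `(−H(z), −T(z))`. -/
def S52_KleinExists (K : Type*) [Field K] : Prop :=
  ∀ c4 c6 : K, c4 ^ 3 - c6 ^ 2 ≠ 0 → ∃ u v : K, kleinH u v = -c4 ∧ kleinT u v = -c6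

/-- first component of `w(z) = (∂f/∂v, −∂f/∂u)`. -/
def S52_wu {R : Type*} [CommRing R] (u v : R) : R := u * (u ^ 10 + 66 * u ^ 5 * v ^ 5 - 11 * v ^ 10)

/-- second component of `w(z) = (∂f/∂v, −∂f/∂u)`. -/
def S52_wv {R : Type*} [CommRing R] (u v : R) : R :=
  -(v * (11 * u ^ 10 + 66 * u ^ 5 * v ^ 5 - v ^ 10))

theorem S52_det_zw {R : Type*} [CommRing R] (u v : R) :
    u * S52_wv u v - v * S52_wu u v = -12 * kleinF u v := by
  unfold S52_wu S52_wv kleinF
  ring

/-- **Block S over a field, from F2 + F3.** -/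
theorem S52_ss_of_klein (h2 : (2 : K) ≠ 0) (h3 : (3 : K) ≠ 0) (h5 : (5 : K) ≠ 0)
    (hex : S52_KleinExists K)
    (hfam4 : ∀ u v σ τ : K, -kleinH (σ * u + τ * S52_wu u v) (σ * v + τ * S52_wv u v)
      = S52_c4h (-kleinH u v) (-kleinT u v) σ τ)
    (hfamD : ∀ u v σ τ : K, kleinF (σ * u + τ * S52_wu u v) (σ * v + τ * S52_wv u v)
      = kleinF u v * S52_Dh (-kleinH u v) (-kleinT u v) σ τ)
    (c4 c6 σ τ : K) (hΔ : c4 ^ 3 - c6 ^ 2 ≠ 0) (hστ : σ ≠ 0 ∨ τ ≠ 0) :
    ¬ (S52_c4h c4 c6 σ τ = 0 ∧ S52_Dh c4 c6 σ τ = 0) := by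
  rintro ⟨h4, hD⟩
  obtain ⟨u, v, hH, hT⟩ := hex c4 c6 hΔ
  have hc4 : c4 = -kleinH u v := by rw [hH]; ring
  have hc6 : c6 = -kleinT u v := by rw [hT]; ring
  have hrel := klein_rel u v
  have hf : kleinF u v ≠ 0 := by
    intro h0
    apply hΔ
    rw [h0] at hrel
    rw [hc4, hc6]
    linear_combination -hrel
  have h12 : (12 : K) ≠ 0 := by
    have : (12 : K) = 2 ^ 2 * 3 := by norm_num
    rw [this]
    exact mul_ne_zero (pow_ne_zero _ h2) h3
  have hdet : u * S52_wv u v - v * S52_wu u v ≠ 0 := by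
    rw [S52_det_zw]
    exact mul_ne_zero (neg_ne_zero.mpr h12) hf
  rw [hc4, hc6] at h4 hD
  have hHZ : kleinH (σ * u + τ * S52_wu u v) (σ * v + τ * S52_wv u v) = 0 := by
    have := hfam4 u v σ τ
    rw [h4] at this
    exact neg_eq_zero.mp this
  have hfZ : kleinF (σ * u + τ * S52_wu u v) (σ * v + τ * S52_wv u v) = 0 := by
    rw [hfamD, hD, mul_zero]
  refine S52_klein_fH_no_common_zero h5 _ _ ?_ hfZ hHZ
  by_contra hcon
  push Not at hcon
  obtain ⟨e1, e2⟩ := hcon
  have hσ : σ * (u * S52_wv u v - v * S52_wu u v) = 0 := by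
    linear_combination S52_wv u v * e1 - S52_wu u v * e2
  have hτ : τ * (u * S52_wv u v - v * S52_wu u v) = 0 := by
    linear_combination u * e2 - v * e1
  rcases hστ with h | h
  · exact h ((mul_eq_zero.mp hσ).resolve_right hdet)
  · exact h ((mul_eq_zero.mp hτ).resolve_right hdet)

end Fermat.Agent.S52
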