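import Mathlib
import Fermat.Agent.S52.FamBezout
import Fermat.Agent.S52.Glue

/-!
# S52, block S: the hypothesis `S52_SSHyp` of the glue (`Glue.lean`)

From the two Bezout certificates of `FamBezout.lean`.
-/

set_option autoImplicit false

namespace Fermat.Agent.S52

/-- **Block S**: the family has no cuspidal fibre in characteristic `ℓ ≥ 7`. -/
theorem S52_ssHyp : S52_SSHyp := by
  intro ℓ hℓ h7 c4 c6 σ τ hΔ hστ
  have hp : ℓ.Prime := hℓ.out
  have hne : ∀ n : ℕ, 0 < n → n < 7 → ((n : ℕ) : ZMod ℓ) ≠ 0 := by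
    intro n hn0 hn7 h0
    have hdvd : ℓ ∣ n := (ZMod.natCast_eq_zero_iff n ℓ).mp h0
    have := Nat.le_of_dvd hn0 hdvd
    omega
  have h2 : (2 : ZMod ℓ) ≠ 0 := by simpa using hne 2 (by norm_num) (by norm_num)
  have h3 : (3 : ZMod ℓ) ≠ 0 := by simpa using hne 3 (by norm_num) (by norm_num)
  have h5 : (5 : ZMod ℓ) ≠ 0 := by simpa using hne 5 (by norm_num) (by norm_num)
  exact S52_fam_no_common_zero h2 h3 h5 c4 c6 σ τ hΔ hστ

end Fermat.Agent.S52
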